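import Mathlib
import Fermat.Agent.M59.C.Core
import Fermat.Agent.TW.Def.CoreClosed

/-!
# Project M59 (S59), block [C-gen], cell C/Core, closed forms (prefix `m59c_`)

`m59c_core_closed` : `m59c_core` with every seam of S56 instantiated by its closed proof on main.
`m59c_core_flat`   : the case `p ∈ Smin` with the FLAT condition at `p`.
`m59c_core_frp`    : the case `p ∈ Th` (the prime `p` is one of the framed primes; no condition).
-/

set_option autoImplicit false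

open Polynomial IsLocalRing CategoryTheory Module groupCohomology ExtCitation
open Fermat.Agent.S53 Fermat.Agent.S56 Fermat.Agent.TW

namespace Fermat.Agent.M59

noncomputable section

local notation "GQ" => (AlgebraicClosure ℚ ≃ₐ[ℚ] AlgebraicClosure ℚ)

/-- the conclusion of the count (shared by the closed forms). -/
def m59c_CoreConcl (p : ℕ) [Fact p.Prime] {k : Type} [Field k] [Finite k] [Algebra (ZMod p) k]
    (rb : FramedResidual k) (Pp : FramedRep (DualNumber k) → Prop) (S Smin : Finset ℕ)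
    (Th : Finset Nat.Primes) (d : Nat.Primes → ℕ) : Prop :=
  ∃ r : ℕ, ∀ n : ℕ, ∃ qv : Fin r → ℕ, Function.Injective qv ∧
    (∀ i, (qv i).Prime ∧ qv i ∉ S ∧ p ^ (n + 1) ∣ qv i - 1) ∧
    (∀ i, ∀ P : ValuationSubring (AlgebraicClosure ℚ), P.LiesOverPrime (qv i) →
      ∀ φ : GQ, P.IsFrobeniusAt φ (qv i) → ∃ α β : k, α ≠ β ∧
        LinearMap.charpoly (rb.toResidualGaloisRep.ρ φ) = (X - C α) * (X - C β)) ∧
    ∑ ℓ ∈ Th, d ℓ ≤ r ∧
    ∃ W : Submodule (ZMod p) (H1 (s56a_ad p rb)), Finite W ∧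
      Nat.card W * Nat.card k ^ (∑ ℓ ∈ Th, d ℓ) ≤ Nat.card k ^ r ∧
      ∀ (r' : FramedRep (DualNumber k)) (hc : s56t_IsCoc rb.toMonoidHom (s56t_coc r')),
        (∀ σ, s56t_bar r' σ = rb σ) → r'.toGaloisRepAdic.DetIsCyclotomic p →
        (p ∈ Smin → Pp r') →
        (∀ q : ℕ, q.Prime →
          q ∉ Smin ∪ Th.image (fun ℓ : Nat.Primes => (ℓ : ℕ)) ∪ Finset.univ.image qv →
          r'.toGaloisRepAdic.IsUnramifiedAt q) →
        (∀ q ∈ Smin, q.Prime → q ≠ p → r'.toGaloisRepAdic.IsUnipotentOnInertiaAt q) →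
        (∀ ℓ ∈ Th, s56t_coc r' ∈
          s56a_cobOn rb ((primeLocalPlace ℓ).decompositionSubgroup ℚ)) →
        s56t_cls p (s56t_coc r') hc ∈ W

/-- **C-gen/Core, closed.** -/
theorem m59c_core_closed (p : ℕ) [Fact p.Prime] {k : Type} [Field k] [Finite k]
    [Algebra (ZMod p) k]
    (hp2 : p ≠ 2) (rb : FramedResidual k) (hyp : s56a_Hyp p rb.toResidualGaloisRep)
    (Pp : FramedRep (DualNumber k) → Prop)
    (S Smin : Finset ℕ) (hSmin : Smin ⊆ S)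
    (hPp : p ∈ Smin → s56a_LocShape rb ((padicPlace p).decompositionSubgroup ℚ)
      (fun r => r.toGaloisRepAdic.DetIsCyclotomic p ∧ Pp r) 1)
    (hmin : ∀ q : ℕ, q.Prime → q ≠ p →
      (q ∈ Smin ↔ ¬ rb.toResidualGaloisRep.IsUnramifiedAt q))
    (Th : Finset Nat.Primes) (hThS : ∀ ℓ ∈ Th, (ℓ : ℕ) ∈ S) (hThmin : ∀ ℓ ∈ Th, (ℓ : ℕ) ∉ Smin)
    (hpS : p ∈ Smin ∨ pPrime p ∈ Th)
    (d : Nat.Primes → ℕ)
    (hd : ∀ ℓ ∈ Th, d ℓ ≤ finrank k (s56a_inv rb ((primeLocalPlace ℓ).decompositionSubgroup ℚ)) +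
      (if ℓ = pPrime p then 1 else 0)) :
    m59c_CoreConcl p rb Pp S Smin Th d :=
  m59c_core p twc_gw_closed s56ac_main s56q_main s56w_locTW s56ce_cheb_closed s56am_main hp2 rb hyp
    Pp S Smin hSmin hPp hmin Th hThS hThmin hpS d hd

/-- **C-gen/Core, closed, flat at `p`** (`p ∈ Smin`). -/
theorem m59c_core_flat (p : ℕ) [Fact p.Prime] {k : Type} [Field k] [Finite k]
    [Algebra (ZMod p) k]
    (hp2 : p ≠ 2) (rb : FramedResidual k) (hyp : s56a_Hyp p rb.toResidualGaloisRep)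
    (S Smin : Finset ℕ) (hpSmin : p ∈ Smin) (hSmin : Smin ⊆ S)
    (hmin : ∀ q : ℕ, q.Prime → q ≠ p →
      (q ∈ Smin ↔ ¬ rb.toResidualGaloisRep.IsUnramifiedAt q))
    (Th : Finset Nat.Primes) (hThS : ∀ ℓ ∈ Th, (ℓ : ℕ) ∈ S) (hThmin : ∀ ℓ ∈ Th, (ℓ : ℕ) ∉ Smin)
    (d : Nat.Primes → ℕ)
    (hd : ∀ ℓ ∈ Th, d ℓ ≤
      finrank k (s56a_inv rb ((primeLocalPlace ℓ).decompositionSubgroup ℚ))) :
    m59c_CoreConcl p rb (fun r => r.toGaloisRepAdic.IsFlatAt p) S Smin Th d :=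
  m59c_core_closed p hp2 rb hyp _ S Smin hSmin
    (fun _ => s56f_closed p hp2 k rb hyp.hsplit) hmin Th hThS hThmin (Or.inl hpSmin) d
    (fun ℓ hℓ => (hd ℓ hℓ).trans (Nat.le_add_right _ _))

/-- **C-gen/Core, closed, `p` framed** (`p ∈ Th`, weight `≤ h⁰(D_p, ad⁰) + 1`). -/
theorem m59c_core_frp (p : ℕ) [Fact p.Prime] {k : Type} [Field k] [Finite k]
    [Algebra (ZMod p) k]
    (hp2 : p ≠ 2) (rb : FramedResidual k) (hyp : s56a_Hyp p rb.toResidualGaloisRep)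
    (S Smin : Finset ℕ) (hSmin : Smin ⊆ S)
    (hmin : ∀ q : ℕ, q.Prime → q ≠ p →
      (q ∈ Smin ↔ ¬ rb.toResidualGaloisRep.IsUnramifiedAt q))
    (Th : Finset Nat.Primes) (hThS : ∀ ℓ ∈ Th, (ℓ : ℕ) ∈ S) (hThmin : ∀ ℓ ∈ Th, (ℓ : ℕ) ∉ Smin)
    (hpTh : pPrime p ∈ Th)
    (d : Nat.Primes → ℕ)
    (hd : ∀ ℓ ∈ Th, d ℓ ≤ finrank k (s56a_inv rb ((primeLocalPlace ℓ).decompositionSubgroup ℚ)) +
      (if ℓ = pPrime p then 1 else 0)) :
    m59c_CoreConcl p rb (fun _ => True) S Smin Th d :=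
  m59c_core_closed p hp2 rb hyp _ S Smin hSmin
    (fun h => absurd h (hThmin _ hpTh)) hmin Th hThS hThmin (Or.inr hpTh) d hd

end

end Fermat.Agent.M59
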