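import Mathlib
import Fermat.Agent.M59.C.CoreClosed
import Fermat.Agent.TW.Def.Present

/-!
# Project M59 (S59), block [C-gen], cell C/Present (prefix `m59c_`)

The Galois-cohomology deliverable of block [C-gen] in COORDINATE-FREE form, twin of
`twc_count_gen`, `twc_finrank_le`, `twc_present_gen` (TW/Def/Present.lean) over the generalised
core `m59c_core_closed`:

* `m59c_IsType p Pp Smin Th Q H` : the type of a Hecke pair: cyclotomic determinant, the condition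
  `Pp` at `p` (a predicate on the frames over `k[ε]`, imposed on the SURJECTIVE specialisations,
  only if `p ∈ Smin`), unramified outside `Smin ∪ Th ∪ Q`, unipotent inertia at `Smin ∖ {p}`;
* `m59c_LocCob Th H φ` : the cocycle of the specialisation `φ : T → k[ε]` is a COBOUNDARY on the
  decomposition groups at the framed primes `ℓ ∈ Th` (which may be non-scalar, and may contain `p`);
* `m59c_count_gen` : `#{φ : LocCob} ≤ |k| ^ (r - ∑ d)`;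
* `m59c_finrank_le`, `m59c_present_gen` : for EVERY finite family `z : ι → 𝔪_T` of local coordinates
  (any family such that the maps `T → k[ε]` killing it satisfy `m59c_LocCob`) a surjection
  `𝒪⟦ι ⊕ Fin (r - ∑ d)⟧ ↠ T`, `X (inl i) ↦ z i`.

The weights: `d ℓ ≤ h⁰(D_ℓ, ad⁰ ρ̄) + [ℓ = p]` (`3` at a scalar prime, `1` at a non-scalar prime
where `ρ̄` is unramified).
-/

set_option autoImplicit false
set_option linter.unusedSectionVars false
set_option linter.style.haveILetI false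

open Polynomial IsLocalRing ExtCitation Module
open Fermat.Agent.S53 Fermat.Agent.S56 Fermat.Agent.TW

namespace Fermat.Agent.M59

noncomputable section

local notation "GQ" => (AlgebraicClosure ℚ ≃ₐ[ℚ] AlgebraicClosure ℚ)
local notation "Qbar" => AlgebraicClosure ℚ

attribute [local instance] S53.dualNumberAlgebra

section Defs

variable {𝒪 : Type} [CommRing 𝒪] [IsLocalRing 𝒪] {rb : FramedResidual (ResidueField 𝒪)}

/-- the type of a Hecke pair. -/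
def m59c_IsType (p : ℕ) (Pp : FramedRep (DualNumber (ResidueField 𝒪)) → Prop)
    (Smin : Finset ℕ) (Th : Finset Nat.Primes) (Q : Finset ℕ) (H : twc_HPair 𝒪 rb) : Prop :=
  H.r.toGaloisRepAdic.DetIsCyclotomic p ∧
  (p ∈ Smin → ∀ φ : H.T →ₐ[𝒪] DualNumber (ResidueField 𝒪), Function.Surjective φ →
    Pp (twc_frame H.r φ)) ∧
  (∀ q : ℕ, q.Prime → q ∉ Smin ∪ Th.image (fun ℓ : Nat.Primes => (ℓ : ℕ)) ∪ Q →
    H.r.toGaloisRepAdic.IsUnramifiedAt q) ∧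
  (∀ q ∈ Smin, q.Prime → q ≠ p → H.r.toGaloisRepAdic.IsUnipotentOnInertiaAt q)

/-- the flat type of the landed machine is a type in the new sense. -/
theorem m59c_isType_of_flat {p : ℕ} {Smin : Finset ℕ} {Th : Finset Nat.Primes} {Q : Finset ℕ}
    {H : twc_HPair 𝒪 rb} (h : twc_IsType p Smin Th Q H.r.toGaloisRepAdic) :
    m59c_IsType p (fun r => r.toGaloisRepAdic.IsFlatAt p) Smin Th Q H :=
  ⟨h.1, fun _ φ hφ => twc_frame_flat H.r φ hφ h.2.1, h.2.2.1, h.2.2.2⟩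

/-- the cocycle of the specialisation along `φ` is a coboundary on `D_ℓ`, `ℓ ∈ Th`. -/
def m59c_LocCob (Th : Finset Nat.Primes) (H : twc_HPair 𝒪 rb)
    (φ : H.T →ₐ[𝒪] DualNumber (ResidueField 𝒪)) : Prop :=
  ∀ ℓ ∈ Th, s56t_coc (twc_frame H.r φ) ∈
    s56a_cobOn rb ((primeLocalPlace ℓ).decompositionSubgroup ℚ)

end Defs

section Main

variable (𝒪 : Type) [CommRing 𝒪] [IsDomain 𝒪] [IsDiscreteValuationRing 𝒪]
  [IsAdicComplete (maximalIdeal 𝒪) 𝒪] [Finite (ResidueField 𝒪)]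

/-- **C-gen/Count, general form.** -/
theorem m59c_count_gen (p : ℕ) [Fact p.Prime] (hp2 : p ≠ 2) (hp𝒪 : (p : 𝒪) ∈ maximalIdeal 𝒪)
    (rb : FramedResidual (ResidueField 𝒪)) (hyp : s56a_Hyp p rb.toResidualGaloisRep)
    (Pp : FramedRep (DualNumber (ResidueField 𝒪)) → Prop)
    (S Smin : Finset ℕ) (hSmin : Smin ⊆ S)
    (hPp : p ∈ Smin → s56a_LocShape rb ((padicPlace p).decompositionSubgroup ℚ)
      (fun r => r.toGaloisRepAdic.DetIsCyclotomic p ∧ Pp r) 1)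
    (hmin : ∀ q : ℕ, q.Prime → q ≠ p →
      (q ∈ Smin ↔ ¬ rb.toResidualGaloisRep.IsUnramifiedAt q))
    (Th : Finset Nat.Primes) (hThS : ∀ ℓ ∈ Th, (ℓ : ℕ) ∈ S) (hThmin : ∀ ℓ ∈ Th, (ℓ : ℕ) ∉ Smin)
    (hpS : p ∈ Smin ∨ pPrime p ∈ Th)
    (d : Nat.Primes → ℕ)
    (hd : ∀ ℓ ∈ Th, d ℓ ≤
      finrank (ResidueField 𝒪) (s56a_inv rb ((primeLocalPlace ℓ).decompositionSubgroup ℚ)) +
      (if ℓ = pPrime p then 1 else 0)) :
    ∃ r : ℕ, ∑ ℓ ∈ Th, d ℓ ≤ r ∧ ∀ n : ℕ, ∃ qv : Fin r → ℕ, Function.Injective qv ∧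
      (∀ i, (qv i).Prime ∧ qv i ∉ S ∧ p ^ (n + 1) ∣ qv i - 1) ∧
      (∀ i, ∀ P : ValuationSubring Qbar, P.LiesOverPrime (qv i) →
        ∀ φ : GQ, P.IsFrobeniusAt φ (qv i) → ∃ α β : ResidueField 𝒪, α ≠ β ∧
          LinearMap.charpoly (rb.toResidualGaloisRep.ρ φ) = (X - C α) * (X - C β)) ∧
      ∀ (H : twc_HPair 𝒪 rb), m59c_IsType p Pp Smin Th (Finset.univ.image qv) H →
        ∀ F : Finset (H.T →ₐ[𝒪] DualNumber (ResidueField 𝒪)),
          (∀ φ ∈ F, m59c_LocCob Th H φ) →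
          F.card ≤ Nat.card (ResidueField 𝒪) ^ (r - ∑ ℓ ∈ Th, d ℓ) := by
  classical
  haveI : CharP (ResidueField 𝒪) p := s56a_charP p hp𝒪
  letI : Algebra (ZMod p) (ResidueField 𝒪) := ZMod.algebra _ p
  haveI : NeZero p := ⟨(Fact.out : p.Prime).ne_zero⟩
  obtain ⟨r, h⟩ := m59c_core_closed p hp2 rb hyp Pp S Smin hSmin hPp hmin Th hThS hThmin hpS d hd
  have hr : ∑ ℓ ∈ Th, d ℓ ≤ r := by
    obtain ⟨qv, -, -, -, h4, -⟩ := h 0
    exact h4
  refine ⟨r, hr, fun n => ?_⟩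
  obtain ⟨qv, h1, h2, h3, -, W, hWfin, hWcard, hWmem⟩ := h n
  refine ⟨qv, h1, h2, h3, fun H hType F hF => ?_⟩
  haveI := hWfin
  obtain ⟨hdet, hPpH, hunr, hunip⟩ := hType
  have hbar : ∀ (φ : H.T →ₐ[𝒪] DualNumber (ResidueField 𝒪)) (σ : GQ),
      s56t_bar (twc_frame H.r φ) σ = rb.toMonoidHom σ :=
    fun φ σ => twc_frame_bar H.r H.lift φ σ
  have htr : ∀ (φ : H.T →ₐ[𝒪] DualNumber (ResidueField 𝒪)) (σ : GQ),
      Matrix.trace (s56t_coc (twc_frame H.r φ) σ) = 0 :=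
    fun φ σ => s56t_cyc_trace _ (twc_frame_det H.r φ hdet) σ
  have hcoc : ∀ φ : H.T →ₐ[𝒪] DualNumber (ResidueField 𝒪),
      s56t_IsCoc rb.toMonoidHom (s56t_coc (twc_frame H.r φ)) :=
    fun φ => s56t_isCoc_of_framed _ (hbar φ) (htr φ)
  have hfW : ∀ φ ∈ F, s56t_cls p (s56t_coc (twc_frame H.r φ)) (hcoc φ) ∈ W := by
    intro φ hφF
    by_cases hs : Function.Surjective φ
    · exact hWmem _ (hcoc φ) (hbar φ) (twc_frame_det H.r φ hdet) (fun hpS' => hPpH hpS' φ hs)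
        (fun q hq hqn => twc_frame_unram H.r φ (hunr q hq hqn))
        (fun q hq hqp hne => twc_frame_unip H.r φ (hunip q hq hqp hne))
        (fun ℓ hℓ => hF φ hφF ℓ hℓ)
    · have h0 : s56t_cls p (s56t_coc (twc_frame H.r φ)) (hcoc φ) = 0 := by
        rw [s56t_cls_eq_zero_iff]
        refine ⟨0, Matrix.trace_zero _ _, fun σ => ?_⟩
        rw [twc_frame_coc_of_not_surjective H.residue_surjective H.r φ hs, Matrix.mul_zero,
          Matrix.zero_mul, sub_zero]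
      rw [h0]
      exact W.zero_mem
  let f : {φ // φ ∈ F} → W := fun φ => ⟨_, hfW φ.1 φ.2⟩
  have hinj : Function.Injective f := by
    intro φ φ' h
    have h1 := congrArg Subtype.val h
    obtain ⟨m, -, hm⟩ := (s56t_cls_eq_iff p (hcoc φ.1) (hcoc φ'.1)).mp h1
    exact Subtype.ext (H.gen φ.1 φ'.1 (twc_frame_trace_eq H.r H.lift φ.1 φ'.1 m hm))
  have hcard : F.card ≤ Nat.card W := by
    calc F.card = Nat.card {φ // φ ∈ F} := by
          rw [Nat.card_eq_fintype_card, Fintype.card_coe]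
      _ ≤ Nat.card W := Nat.card_le_card_of_injective f hinj
  have h5 : F.card * Nat.card (ResidueField 𝒪) ^ (∑ ℓ ∈ Th, d ℓ) ≤
      Nat.card (ResidueField 𝒪) ^ (r - ∑ ℓ ∈ Th, d ℓ) *
        Nat.card (ResidueField 𝒪) ^ (∑ ℓ ∈ Th, d ℓ) := by
    rw [← pow_add, Nat.sub_add_cancel hr]
    exact le_trans (Nat.mul_le_mul_right _ hcard) hWcard
  exact Nat.le_of_mul_le_mul_right h5 (pow_pos Nat.card_pos _)

/-- **C-gen/Present, cotangent form.** -/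
theorem m59c_finrank_le (p : ℕ) [Fact p.Prime] (hp2 : p ≠ 2) (hp𝒪 : (p : 𝒪) ∈ maximalIdeal 𝒪)
    (rb : FramedResidual (ResidueField 𝒪)) (hyp : s56a_Hyp p rb.toResidualGaloisRep)
    (Pp : FramedRep (DualNumber (ResidueField 𝒪)) → Prop)
    (S Smin : Finset ℕ) (hSmin : Smin ⊆ S)
    (hPp : p ∈ Smin → s56a_LocShape rb ((padicPlace p).decompositionSubgroup ℚ)
      (fun r => r.toGaloisRepAdic.DetIsCyclotomic p ∧ Pp r) 1)
    (hmin : ∀ q : ℕ, q.Prime → q ≠ p →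
      (q ∈ Smin ↔ ¬ rb.toResidualGaloisRep.IsUnramifiedAt q))
    (Th : Finset Nat.Primes) (hThS : ∀ ℓ ∈ Th, (ℓ : ℕ) ∈ S) (hThmin : ∀ ℓ ∈ Th, (ℓ : ℕ) ∉ Smin)
    (hpS : p ∈ Smin ∨ pPrime p ∈ Th)
    (d : Nat.Primes → ℕ)
    (hd : ∀ ℓ ∈ Th, d ℓ ≤
      finrank (ResidueField 𝒪) (s56a_inv rb ((primeLocalPlace ℓ).decompositionSubgroup ℚ)) +
      (if ℓ = pPrime p then 1 else 0)) :
    ∃ r : ℕ, ∑ ℓ ∈ Th, d ℓ ≤ r ∧ ∀ n : ℕ, ∃ qv : Fin r → ℕ, Function.Injective qv ∧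
      (∀ i, (qv i).Prime ∧ qv i ∉ S ∧ p ^ (n + 1) ∣ qv i - 1) ∧
      (∀ i, ∀ P : ValuationSubring Qbar, P.LiesOverPrime (qv i) →
        ∀ φ : GQ, P.IsFrobeniusAt φ (qv i) → ∃ α β : ResidueField 𝒪, α ≠ β ∧
          LinearMap.charpoly (rb.toResidualGaloisRep.ρ φ) = (X - C α) * (X - C β)) ∧
      ∀ (H : twc_HPair 𝒪 rb), m59c_IsType p Pp Smin Th (Finset.univ.image qv) H →
        ∀ (ι : Type) (z : ι → maximalIdeal H.T),
          (∀ φ : H.T →ₐ[𝒪] DualNumber (ResidueField 𝒪), (∀ i, φ (z i : H.T) = 0) →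
            m59c_LocCob Th H φ) →
          Module.finrank (ResidueField H.T) (CotangentSpace H.T ⧸ twc_relW 𝒪 z) ≤
            r - ∑ ℓ ∈ Th, d ℓ := by
  obtain ⟨r, hr, h⟩ := m59c_count_gen 𝒪 p hp2 hp𝒪 rb hyp Pp S Smin hSmin hPp hmin Th hThS hThmin
    hpS d hd
  refine ⟨r, hr, fun n => ?_⟩
  obtain ⟨qv, h1, h2, h3, h4⟩ := h n
  refine ⟨qv, h1, h2, h3, fun H hType ι z hz => ?_⟩
  have h5 := twc_rel_pow_finrank_le (𝒪 := 𝒪) (A := H.T) H.residue_surjective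
    (fun o => by
      show algebraMap (ResidueField 𝒪) (DualNumber (ResidueField 𝒪)) (residue 𝒪 o) = _
      rfl) z _
    (fun F hF => h4 H hType F (fun φ hφ => hz φ (hF φ hφ)))
  exact (Nat.pow_le_pow_iff_right Finite.one_lt_card).mp h5

/-- **C-gen/Present, general form**: for EVERY finite family of local coordinates `z` a surjection
`𝒪⟦ι ⊕ Fin (r - ∑ d)⟧ ↠ T` with `X (inl i) ↦ z i`. -/
theorem m59c_present_gen (p : ℕ) [Fact p.Prime] (hp2 : p ≠ 2) (hp𝒪 : (p : 𝒪) ∈ maximalIdeal 𝒪)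
    (rb : FramedResidual (ResidueField 𝒪)) (hyp : s56a_Hyp p rb.toResidualGaloisRep)
    (Pp : FramedRep (DualNumber (ResidueField 𝒪)) → Prop)
    (S Smin : Finset ℕ) (hSmin : Smin ⊆ S)
    (hPp : p ∈ Smin → s56a_LocShape rb ((padicPlace p).decompositionSubgroup ℚ)
      (fun r => r.toGaloisRepAdic.DetIsCyclotomic p ∧ Pp r) 1)
    (hmin : ∀ q : ℕ, q.Prime → q ≠ p →
      (q ∈ Smin ↔ ¬ rb.toResidualGaloisRep.IsUnramifiedAt q))
    (Th : Finset Nat.Primes) (hThS : ∀ ℓ ∈ Th, (ℓ : ℕ) ∈ S) (hThmin : ∀ ℓ ∈ Th, (ℓ : ℕ) ∉ Smin)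
    (hpS : p ∈ Smin ∨ pPrime p ∈ Th)
    (d : Nat.Primes → ℕ)
    (hd : ∀ ℓ ∈ Th, d ℓ ≤
      finrank (ResidueField 𝒪) (s56a_inv rb ((primeLocalPlace ℓ).decompositionSubgroup ℚ)) +
      (if ℓ = pPrime p then 1 else 0)) :
    ∃ r : ℕ, ∑ ℓ ∈ Th, d ℓ ≤ r ∧ ∀ n : ℕ, ∃ qv : Fin r → ℕ, Function.Injective qv ∧
      (∀ i, (qv i).Prime ∧ qv i ∉ S ∧ p ^ (n + 1) ∣ qv i - 1) ∧
      (∀ i, ∀ P : ValuationSubring Qbar, P.LiesOverPrime (qv i) →
        ∀ φ : GQ, P.IsFrobeniusAt φ (qv i) → ∃ α β : ResidueField 𝒪, α ≠ β ∧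
          LinearMap.charpoly (rb.toResidualGaloisRep.ρ φ) = (X - C α) * (X - C β)) ∧
      ∀ (H : twc_HPair 𝒪 rb), m59c_IsType p Pp Smin Th (Finset.univ.image qv) H →
        ∀ (ι : Type) [Finite ι] (z : ι → maximalIdeal H.T),
          (∀ φ : H.T →ₐ[𝒪] DualNumber (ResidueField 𝒪), (∀ i, φ (z i : H.T) = 0) →
            m59c_LocCob Th H φ) →
          ∃ γ : MvPowerSeries (ι ⊕ Fin (r - ∑ ℓ ∈ Th, d ℓ)) 𝒪 →ₐ[𝒪] H.T,
            Function.Surjective γ ∧ ∀ i, γ (MvPowerSeries.X (Sum.inl i)) = (z i : H.T) := by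
  obtain ⟨r, hr, h⟩ := m59c_finrank_le 𝒪 p hp2 hp𝒪 rb hyp Pp S Smin hSmin hPp hmin Th hThS hThmin
    hpS d hd
  refine ⟨r, hr, fun n => ?_⟩
  obtain ⟨qv, h1, h2, h3, h4⟩ := h n
  refine ⟨qv, h1, h2, h3, fun H hType ι _ z hz => ?_⟩
  exact twc_rel_surj (𝒪 := 𝒪) H.residue_surjective z _ (h4 H hType ι z hz)

end Main

end

end Fermat.Agent.M59
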