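import Mathlib
import Fermat.Agent.TW.Def.TameGen

/-!
# Project M59 (S59), block [C-gen], cell C/TameRam (prefix `m59c_`)

`ℚ(μ_p, ℓ^{1/p})/ℚ` is ramified at `ℓ`: for a prime `ℓ`, a valuation subring `A` of `ℚ̄` over `ℓ`,
a prime `p` and `α ∈ ℚ̄` with `α ^ p = ℓ`, some element of the inertia group of `A` moves `α`.
-/

set_option autoImplicit false
set_option linter.unusedSectionVars false
set_option linter.style.haveILetI false

noncomputable section

namespace Fermat.Agent.M59

open NumberField Fermat.Agent.S55 Fermat.Agent.S56 Fermat.Agent.DS Fermat.Agent.TW Polynomial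
open scoped Pointwise

local notation "Qbar" => AlgebraicClosure ℚ
local notation "GQ" => (AlgebraicClosure ℚ ≃ₐ[ℚ] AlgebraicClosure ℚ)

local instance m59c_qbarIsAlgebraic : Algebra.IsAlgebraic ℚ (AlgebraicClosure ℚ) :=
  AlgebraicClosure.isAlgebraic ℚ

local instance m59c_qbarIsAlgClosure : IsAlgClosure ℚ (AlgebraicClosure ℚ) :=
  ⟨inferInstance, inferInstance⟩

local instance m59c_qbarNormal : Normal ℚ (AlgebraicClosure ℚ) :=
  IsAlgClosure.normal ℚ (AlgebraicClosure ℚ)

/-- in a Dedekind domain, a prime `Q` containing `a` with `a ^ p` generating the extension of a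
prime below has ramification index divisible by `p`; in particular it is not `1`. -/
theorem m59c_ramIdx_ne_one {S : Type*} [CommRing S] [IsDedekindDomain S] [Algebra ℤ S]
    (P : Ideal ℤ) (Q : Ideal S) [Q.IsPrime] [Q.LiesOver P] {p : ℕ} (hp : 2 ≤ p) (a : S)
    (ha0 : a ≠ 0) (hmap : P.map (algebraMap ℤ S) = Ideal.span {a ^ p}) :
    Q.ramificationIdx ℤ ≠ 1 := by
  classical
  have hp0 : P.map (algebraMap ℤ S) ≠ ⊥ := by
    rw [hmap, Ne, Ideal.span_singleton_eq_bot]
    exact pow_ne_zero _ ha0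
  rw [Ideal.IsDedekindDomain.ramificationIdx_eq_normalizedFactors_count P Q hp0, hmap,
    ← Ideal.span_singleton_pow, UniqueFactorizationMonoid.normalizedFactors_pow,
    Multiset.count_nsmul]
  intro h
  have : p ∣ 1 := ⟨_, h.symm⟩
  have := Nat.le_of_dvd one_pos this
  omega

/-- an element of `G_ℚ` fixing a set pointwise fixes the field it generates. -/
theorem m59c_fix_adjoin (σ : GQ) (S : Set Qbar) (hS : ∀ x ∈ S, σ x = x) :
    ∀ x ∈ IntermediateField.adjoin ℚ S, σ x = x := by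
  have hle : IntermediateField.adjoin ℚ S ≤ IntermediateField.fixedField (Subgroup.zpowers σ) := by
    rw [IntermediateField.adjoin_le_iff]
    intro β hβ
    rw [SetLike.mem_coe, IntermediateField.mem_fixedField_iff]
    intro g hg
    have hstab : Subgroup.zpowers σ ≤ MulAction.stabilizer GQ β :=
      Subgroup.zpowers_le.mpr (by rw [MulAction.mem_stabilizer_iff]; exact hS β hβ)
    exact (MulAction.mem_stabilizer_iff.mp (hstab hg))
  intro x hx
  exact (IntermediateField.mem_fixedField_iff _ _).mp (hle hx) σ (Subgroup.mem_zpowers σ)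

/-- **`ℚ(μ_p, ℓ^{1/p})` is ramified at `ℓ`**: some inertia element at `A | ℓ` moves `α`,
`α ^ p = ℓ`. -/
theorem m59c_exists_moving (ℓ : ℕ) [hℓ : Fact ℓ.Prime] (A : ValuationSubring Qbar)
    (hA : A.LiesOverPrime ℓ) {p : ℕ} (hp : p.Prime) (hpne : p ≠ ℓ) {α : Qbar}
    (hα : α ^ p = (ℓ : Qbar)) : ∃ σ ∈ A.inertiaSubgroupIn ℚ, σ α ≠ α := by
  classical
  by_contra hcon
  push_neg at hcon
  haveI : NeZero p := ⟨hp.ne_zero⟩
  have hℓ0 : (ℓ : Qbar) ≠ 0 := Nat.cast_ne_zero.2 hℓ.out.ne_zero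
  have hα0 : α ≠ 0 := by
    rintro rfl
    rw [zero_pow hp.ne_zero] at hα
    exact hℓ0 hα.symm
  have hpl : ¬ ℓ ∣ p := fun h => hpne ((Nat.prime_dvd_prime_iff_eq hℓ.out hp).1 h).symm
  -- the splitting field of `X ^ p - ℓ`
  set f : ℚ[X] := X ^ p - C (ℓ : ℚ) with hf
  have hf0 : f ≠ 0 := X_pow_sub_C_ne_zero hp.pos _
  set K : IntermediateField ℚ Qbar := IntermediateField.adjoin ℚ (f.rootSet Qbar) with hK
  haveI : FiniteDimensional ℚ K :=
    IntermediateField.finiteDimensional_adjoin (fun x _ => Algebra.IsIntegral.isIntegral (R := ℚ) x)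
  haveI : f.IsSplittingField ℚ K :=
    IntermediateField.adjoin_rootSet_isSplittingField (IsAlgClosed.splits _)
  haveI : Normal ℚ K := Normal.of_isSplittingField f
  haveI : IsGalois ℚ K := ⟨⟩
  haveI : NumberField K := { to_charZero := inferInstance, to_finiteDimensional := inferInstance }
  have hroot : ∀ β : Qbar, β ∈ f.rootSet Qbar ↔ β ^ p = (ℓ : Qbar) := by
    intro β
    rw [mem_rootSet]
    constructor
    · rintro ⟨-, h⟩
      simpa [hf, sub_eq_zero] using h
    · intro h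
      exact ⟨hf0, by simp [hf, h]⟩
  have hαK : α ∈ K := IntermediateField.subset_adjoin _ _ ((hroot α).2 hα)
  -- every inertia element fixes `K` pointwise
  have hfix : ∀ σ ∈ A.inertiaSubgroupIn ℚ, ∀ x ∈ K, σ x = x := by
    intro σ hσ
    refine m59c_fix_adjoin σ _ fun β hβ => ?_
    have hβp := (hroot β).1 hβ
    have hζ : (β / α) ^ p = 1 := by rw [div_pow, hβp, hα, div_self hℓ0]
    have h1 : σ (β / α) = β / α := dspk_cyc_inertia_root p hℓ.out hpl A hA hσ hζ
    have h2 : β = (β / α) * α := by field_simp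
    rw [h2, map_mul, h1, hcon σ hσ]
  -- the inertia group of the prime of `K` below `A` is trivial
  set Q : Ideal (𝓞 K) := pl_ideal K A with hQ
  have hbot : Q.toAddSubgroup.inertia (K ≃ₐ[ℚ] K) = ⊥ := by
    rw [hQ, ← pl_map_inertia K A hℓ.out hA, eq_bot_iff]
    rintro g ⟨σ, hσ, rfl⟩
    rw [Subgroup.mem_bot]
    apply AlgEquiv.ext
    intro x
    apply Subtype.ext
    have h1 := AlgEquiv.restrictNormal_commutes σ K x
    have h2 : (AlgEquiv.restrictNormalHom K σ) x = σ.restrictNormal K x := rfl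
    rw [h2]
    show algebraMap K Qbar (σ.restrictNormal K x) = _
    rw [h1]
    exact hfix σ hσ _ x.2
  -- the ramification index
  set P : Ideal ℤ := Ideal.span {(ℓ : ℤ)} with hP
  haveI hPmax : P.IsMaximal := Int.ideal_span_isMaximal_of_prime ℓ
  have hunder : Q.under ℤ = P := by
    symm
    apply hPmax.eq_of_le
    · exact (Ideal.IsPrime.under ℤ Q).ne_top
    · rw [Ideal.span_singleton_le_iff_mem, Ideal.under_def, Ideal.mem_comap]
      have := pl_natCast_mem_ideal K A hA
      simpa using this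
  haveI : Q.LiesOver P := ⟨hunder.symm⟩
  have hcard : Nat.card (ℤ ⧸ P) = ℓ := Int.card_ideal_quot ℓ
  haveI : Finite (ℤ ⧸ P) := Nat.finite_of_card_ne_zero (by rw [hcard]; exact hℓ.out.ne_zero)
  haveI : Finite P.ResidueField := inferInstance
  have h1 : Nat.card (Q.inertia Gal(K/ℚ)) = P.ramificationIdxIn (𝓞 K) :=
    Ideal.card_inertia_eq_ramificationIdxIn (G := Gal(K/ℚ)) P Q
  have h2 : P.ramificationIdxIn (𝓞 K) = Q.ramificationIdx ℤ :=
    Ideal.ramificationIdxIn_eq_ramificationIdx P Q Gal(K/ℚ)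
  have h3 : Nat.card (Q.inertia Gal(K/ℚ)) = 1 := by
    have : Q.inertia Gal(K/ℚ) = ⊥ := hbot
    rw [this]
    exact Subgroup.card_bot
  -- the element `α` of `𝓞 K`
  have hαint : IsIntegral ℤ (⟨α, hαK⟩ : K) := by
    refine ⟨X ^ p - C (ℓ : ℤ), monic_X_pow_sub_C _ hp.ne_zero, ?_⟩
    apply Subtype.ext
    simp [hα]
  set a : 𝓞 K := ⟨⟨α, hαK⟩, hαint⟩ with ha
  have hap : a ^ p = ((ℓ : ℕ) : 𝓞 K) := by
    apply RingOfIntegers.coe_injective
    rw [map_pow, map_natCast]
    apply Subtype.ext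
    have h4 : ((a : K) : Qbar) = α := rfl
    rw [SubmonoidClass.coe_pow, h4, hα]
    simp
  have ha0 : a ≠ 0 := by
    intro h
    rw [h, zero_pow hp.ne_zero] at hap
    exact (Nat.cast_ne_zero.2 hℓ.out.ne_zero : ((ℓ : ℕ) : 𝓞 K) ≠ 0) hap.symm
  have hmap : P.map (algebraMap ℤ (𝓞 K)) = Ideal.span {a ^ p} := by
    rw [hP, Ideal.map_span, Set.image_singleton, hap]
    simp
  exact m59c_ramIdx_ne_one P Q hp.two_le a ha0 hmap (by rw [← h2, ← h1, h3])

end Fermat.Agent.M59
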