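import Mathlib
import Fermat.Agent.M59.C.TameRam
import Fermat.Agent.TW.Def.TameGenMain

/-!
# Project M59 (S59), block [C-gen], cell C/Tame (prefix `m59c_`)

Tame generators at an ARBITRARY prime `ℓ ≠ p` (the landed `twc_TameData` needs `p ∣ ℓ - 1`):

* `m59c_tg_inertia_gen_of` : if `σ ∈ I_A` moves `α`, `α ^ p = ℓ`, then for every finite-level
  `f : G_ℚ →* M` with `f(I_A)` a `p`-group, `f(I_A)` is generated by `f σ`;
* `m59c_TameData p Th`, `m59c_tameGen` : the tame generators `φ_ℓ`, `σ_ℓ` at a finite set of primes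
  `ℓ ≠ p`, with the tame relation and the generation of the image of `D_ℓ`.
-/

set_option autoImplicit false
set_option linter.unusedSectionVars false
set_option linter.style.haveILetI false

noncomputable section

namespace Fermat.Agent.M59

open NumberField ExtCitation Fermat.Agent.S55 Fermat.Agent.S56 Fermat.Agent.DS Fermat.Agent.TW
  Fermat.Agent.MZ Fermat.Agent.JT3
open scoped Pointwise

local notation "Qbar" => AlgebraicClosure ℚ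
local notation "GQ" => (AlgebraicClosure ℚ ≃ₐ[ℚ] AlgebraicClosure ℚ)

local instance m59c_qbarIsAlgebraic' : Algebra.IsAlgebraic ℚ (AlgebraicClosure ℚ) :=
  AlgebraicClosure.isAlgebraic ℚ

local instance m59c_qbarIsAlgClosure' : IsAlgClosure ℚ (AlgebraicClosure ℚ) :=
  ⟨inferInstance, inferInstance⟩

local instance m59c_qbarNormal' : Normal ℚ (AlgebraicClosure ℚ) :=
  IsAlgClosure.normal ℚ (AlgebraicClosure ℚ)

section main

variable (ℓ : ℕ) [hℓ : Fact ℓ.Prime] (A : ValuationSubring Qbar) (hA : A.LiesOverPrime ℓ)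

include hA in
/-- an inertia element which is wild on a field containing `α`, `α ^ p = ℓ`, `p ≠ ℓ`,
fixes `α`. -/
theorem m59c_fix_of_wild {p : ℕ} (hp : p.Prime) (hpne : p ≠ ℓ) {α : Qbar}
    (hα : α ^ p = (ℓ : Qbar)) {κ : GQ}
    (hκ : A.valuation (κ α - α) < A.valuation α) : κ α = α := by
  have hℓ0 : (ℓ : Qbar) ≠ 0 := Nat.cast_ne_zero.2 hℓ.out.ne_zero
  have hα0 : α ≠ 0 := by
    rintro rfl
    rw [zero_pow hp.ne_zero] at hα
    exact hℓ0 hα.symm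
  have hvα : A.valuation α ≠ 0 := (Valuation.ne_zero_iff _).2 hα0
  have hω : (κ α * α⁻¹) ^ p = 1 := by
    rw [mul_pow, ← map_pow, hα, map_natCast, inv_pow, hα, mul_inv_cancel₀ hℓ0]
  have hlt : A.valuation (κ α * α⁻¹ - 1) < 1 := by
    have : κ α * α⁻¹ - 1 = (κ α - α) * α⁻¹ := by
      rw [sub_mul, mul_inv_cancel₀ hα0]
    rw [this, map_mul, map_inv₀]
    calc A.valuation (κ α - α) * (A.valuation α)⁻¹ < A.valuation α * (A.valuation α)⁻¹ := by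
          exact mul_lt_mul_of_pos_right hκ (by
            rw [pos_iff_ne_zero]; exact inv_ne_zero hvα)
      _ = 1 := mul_inv_cancel₀ hvα
  have hpl : ¬ ℓ ∣ p := fun h => hpne ((Nat.prime_dvd_prime_iff_eq hℓ.out hp).1 h).symm
  have hnA : ¬ A.valuation ((p : ℕ) : Qbar) < 1 := dspk_cyc_not_lt A hℓ.out hA hpl
  have h1 := dspk_cyc_eq_one_of_valuation_lt A hp.ne_zero hnA hω hlt
  have := congrArg (· * α) h1
  simpa [hα0] using this

include hA in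
/-- **the key lemma at a general prime `ℓ ≠ p`**: for a finite-level `f` with `f(I_A)` a `p`-group
and `σ ∈ I_A` moving `α`, `α ^ p = ℓ`: `f(I_A)` is generated by `f σ`. -/
theorem m59c_tg_inertia_gen_of {p : ℕ} (hp : p.Prime) (hpne : p ≠ ℓ) {α : Qbar}
    (hα : α ^ p = (ℓ : Qbar)) {σ : GQ} (hσ : σ ∈ A.inertiaSubgroupIn ℚ) (hσα : σ α ≠ α)
    {M : Type*} [Monoid M] (f : GQ →* M) (L₀ : IntermediateField ℚ Qbar) [FiniteDimensional ℚ L₀]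
    (hL₀ : ∀ τ ∈ L₀.fixingSubgroup, f τ = 1)
    (hpgrp : ∀ τ ∈ A.inertiaSubgroupIn ℚ, ∃ k : ℕ, f τ ^ (p ^ k) = 1)
    {τ : GQ} (hτ : τ ∈ A.inertiaSubgroupIn ℚ) : ∃ m : ℕ, f τ = f σ ^ m := by
  classical
  have hq : ℓ.Prime := hℓ.out
  haveI : NeZero p := ⟨hp.ne_zero⟩
  have hℓ0 : (ℓ : Qbar) ≠ 0 := Nat.cast_ne_zero.2 hq.ne_zero
  have hα0 : α ≠ 0 := by
    rintro rfl
    rw [zero_pow hp.ne_zero] at hα
    exact hℓ0 hα.symm
  have hpl : ¬ ℓ ∣ p := fun h => hpne ((Nat.prime_dvd_prime_iff_eq hq hp).1 h).symm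
  -- the field `L`
  set Kc : IntermediateField ℚ Qbar := IntermediateField.adjoin ℚ {α} with hKc
  haveI : FiniteDimensional ℚ Kc :=
    IntermediateField.adjoin.finiteDimensional (Algebra.IsIntegral.isIntegral (R := ℚ) α)
  set L1 : IntermediateField ℚ Qbar := L₀ ⊔ Kc with hL1
  haveI : FiniteDimensional ℚ L1 := IntermediateField.finiteDimensional_sup L₀ Kc
  set L := IntermediateField.normalClosure ℚ L1 Qbar with hLdef
  haveI hLn : Normal ℚ L := normalClosure.normal ℚ L1 Qbar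
  haveI : FiniteDimensional ℚ L := normalClosure.is_finiteDimensional ℚ L1 Qbar
  have hle1 : L1 ≤ L := IntermediateField.le_normalClosure L1
  have hle0 : L₀ ≤ L := le_sup_left.trans hle1
  have hαL : α ∈ L := hle1 (le_sup_right (a := L₀) (IntermediateField.mem_adjoin_simple_self ℚ α))
  have hLf : ∀ τ ∈ L.fixingSubgroup, f τ = 1 := fun τ hτ =>
    hL₀ τ (IntermediateField.fixingSubgroup_antitone hle0 hτ)
  have hordf : ∀ τ ∈ A.inertiaSubgroupIn ℚ, ∃ m : ℕ, 0 < m ∧ ¬ ℓ ∣ m ∧ f τ ^ m = 1 := by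
    intro τ hτ
    obtain ⟨k, hk⟩ := hpgrp τ hτ
    refine ⟨p ^ k, pow_pos hp.pos k, fun hdvd => ?_, hk⟩
    exact hpne.symm ((Nat.prime_dvd_prime_iff_eq hq hp).1 (hq.dvd_of_dvd_pow hdvd))
  obtain ⟨π, -, hπ, hunif⟩ := s56q_exists_unif A hq hA L
  have hkillf := s56q_kill A hq hA f L hLf hordf hπ hunif
  obtain ⟨τ₀, hτ₀⟩ := s56q_theta_cyclic A hπ
  obtain ⟨s, hs⟩ := hτ₀ ⟨σ, hσ⟩
  obtain ⟨t, ht⟩ := hτ₀ ⟨τ, hτ⟩
  have hfσ : f σ = f (τ₀ : GQ) ^ s := twc_tg_eq_pow_of_theta A hπ f hkillf ⟨σ, hσ⟩ τ₀ s hs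
  have hfτ : f τ = f (τ₀ : GQ) ^ t := twc_tg_eq_pow_of_theta A hπ f hkillf ⟨τ, hτ⟩ τ₀ t ht
  -- `p ∤ s`
  have hps : ¬ p ∣ s := by
    rintro ⟨s₁, rfl⟩
    apply hσα
    -- `κ = σ τ₀^{-s}` has trivial tame character, hence fixes `α`
    set κ : ↥(A.inertiaSubgroupIn ℚ) := ⟨σ, hσ⟩ * (τ₀ ^ (p * s₁))⁻¹ with hκ
    have hκθ : s56q_theta A hπ κ = 1 := by
      rw [hκ, map_mul, map_inv, map_pow, hs, mul_inv_cancel]
    have hκα : (κ : GQ) α = α :=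
      m59c_fix_of_wild ℓ A hA hp hpne hα (s56q_wild_of_theta A hπ hunif κ hκθ α hαL hα0)
    -- `τ₀` multiplies `α` by a `p`-th root of unity which it fixes
    set ζ : Qbar := (τ₀ : GQ) α / α with hζ
    have hζp : ζ ^ p = 1 := by
      rw [hζ, div_pow, ← map_pow, hα, map_natCast, div_self hℓ0]
    have hτ₀α : (τ₀ : GQ) α = ζ * α := by rw [hζ]; field_simp
    have hτ₀ζ : (τ₀ : GQ) ζ = ζ := dspk_cyc_inertia_root p hq hpl A hA τ₀.2 hζp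
    have hpow : ∀ j : ℕ, ((τ₀ : GQ) ^ j) α = ζ ^ j * α := by
      intro j
      induction j with
      | zero => simp
      | succ j ih =>
        rw [pow_succ', AlgEquiv.mul_apply, ih, map_mul, map_pow, hτ₀ζ, hτ₀α, pow_succ]
        ring
    have h1 : ((τ₀ : GQ) ^ (p * s₁)) α = α := by
      rw [hpow, pow_mul, hζp, one_pow, one_mul]
    have h2 : σ = (κ : GQ) * (τ₀ : GQ) ^ (p * s₁) := by
      rw [hκ, Subgroup.coe_mul, Subgroup.coe_inv, SubgroupClass.coe_pow, inv_mul_cancel_right]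
    rw [h2, AlgEquiv.mul_apply, h1, hκα]
  -- the exponent
  obtain ⟨j, hj⟩ := hpgrp (τ₀ : GQ) τ₀.2
  set x : M := f (τ₀ : GQ) with hx
  rcases Nat.eq_zero_or_pos j with hj0 | hj0
  · refine ⟨0, ?_⟩
    rw [hj0, pow_zero, pow_one] at hj
    rw [hfτ, hj, one_pow, pow_zero]
  · have hcop : Nat.Coprime s (p ^ j) :=
      Nat.Coprime.pow_right j ((Nat.Prime.coprime_iff_not_dvd hp).2 hps).symm
    have h1lt : 1 < p ^ j := Nat.one_lt_pow hj0.ne' hp.one_lt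
    obtain ⟨s', -, hs'⟩ := Nat.exists_mul_mod_eq_one_of_coprime hcop h1lt
    refine ⟨s' * t, ?_⟩
    have h1 : x ^ (s * s') = x := by
      rw [pow_eq_pow_mod (s * s') hj, hs', pow_one]
    rw [hfτ, hfσ, ← pow_mul, ← mul_assoc, pow_mul, h1]

include hA in
/-- `f(D_A)` is generated by `f φ` and `f σ`, at a general prime `ℓ ≠ p`. -/
theorem m59c_tg_decomp_gen_of {p : ℕ} (hp : p.Prime) (hpne : p ≠ ℓ) {α : Qbar}
    (hα : α ^ p = (ℓ : Qbar)) {φ σ : GQ} (hφ : A.IsFrobeniusAt φ ℓ)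
    (hσ : σ ∈ A.inertiaSubgroupIn ℚ) (hσα : σ α ≠ α)
    {M : Type*} [Monoid M] (f : GQ →* M) (L₀ : IntermediateField ℚ Qbar) [FiniteDimensional ℚ L₀]
    (hL₀ : ∀ τ ∈ L₀.fixingSubgroup, f τ = 1)
    (hpgrp : ∀ τ ∈ A.inertiaSubgroupIn ℚ, ∃ k : ℕ, f τ ^ (p ^ k) = 1)
    {τ : GQ} (hτ : τ ∈ A.decompositionSubgroup ℚ) :
    ∃ (n : ℤ) (m : ℕ), f τ = f (φ ^ n * σ ^ m) := by
  have hq : ℓ.Prime := hℓ.out
  set K : IntermediateField ℚ Qbar := IntermediateField.normalClosure ℚ ↥L₀ Qbar with hK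
  haveI : Normal ℚ ↥K := normalClosure.normal ℚ ↥L₀ Qbar
  haveI : FiniteDimensional ℚ ↥K := normalClosure.is_finiteDimensional ℚ ↥L₀ Qbar
  haveI : IsGalois ℚ ↥K := ⟨⟩
  haveI : NumberField ↥K := { to_charZero := inferInstance, to_finiteDimensional := inferInstance }
  obtain ⟨n, τ', hτ', h⟩ := s56w_frobGen_galois A hq hA K hφ hτ
  have h0 : (φ ^ n * τ')⁻¹ * τ ∈ L₀.fixingSubgroup :=
    IntermediateField.fixingSubgroup_antitone (IntermediateField.le_normalClosure L₀) h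
  have h1 : f ((φ ^ n * τ')⁻¹ * τ) = 1 := hL₀ _ h0
  have h2 : f τ = f (φ ^ n * τ') := by
    calc f τ = f ((φ ^ n * τ') * ((φ ^ n * τ')⁻¹ * τ)) := by rw [mul_inv_cancel_left]
      _ = f (φ ^ n * τ') := by rw [map_mul, h1, mul_one]
  obtain ⟨m, hm⟩ := m59c_tg_inertia_gen_of ℓ A hA hp hpne hα hσ hσα f L₀ hL₀ hpgrp hτ'
  refine ⟨n, m, ?_⟩
  rw [h2, map_mul, hm, map_mul, map_pow]

end main

/-! ### the tame datum -/

/-- The tame generators at a finite set of primes (no congruence condition). -/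
structure m59c_TameData (p : ℕ) (Th : Finset Nat.Primes) where
  /-- a Frobenius element at `ℓ` -/
  gφ : Nat.Primes → GQ
  /-- a generator of the pro-`p` tame inertia at `ℓ` -/
  gσ : Nat.Primes → GQ
  φ_mem : ∀ ℓ ∈ Th, gφ ℓ ∈ (primeLocalPlace ℓ).decompositionSubgroup ℚ
  φ_frob : ∀ ℓ ∈ Th, (primeLocalPlace ℓ).IsFrobeniusAt (gφ ℓ) (ℓ : ℕ)
  σ_mem : ∀ ℓ ∈ Th, gσ ℓ ∈ (primeLocalPlace ℓ).inertiaSubgroupIn ℚ
  /-- the tame relation, for finite-level homomorphisms which are `p`-groups on inertia -/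
  rel : ∀ ℓ ∈ Th, ∀ (M : Type) [Monoid M] (f : GQ →* M),
    (∃ L : IntermediateField ℚ Qbar, FiniteDimensional ℚ L ∧
      ∀ s : GQ, (∀ x ∈ L, s x = x) → f s = 1) →
    (∀ τ ∈ (primeLocalPlace ℓ).inertiaSubgroupIn ℚ, ∃ n : ℕ, f τ ^ p ^ n = 1) →
    f (gφ ℓ) * f (gσ ℓ) = f (gσ ℓ) ^ (ℓ : ℕ) * f (gφ ℓ)
  /-- generation of the image of the decomposition group -/
  gen : ∀ ℓ ∈ Th, ∀ (M : Type) [Monoid M] (f : GQ →* M),
    (∃ L : IntermediateField ℚ Qbar, FiniteDimensional ℚ L ∧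
      ∀ s : GQ, (∀ x ∈ L, s x = x) → f s = 1) →
    (∀ τ ∈ (primeLocalPlace ℓ).inertiaSubgroupIn ℚ, ∃ n : ℕ, f τ ^ p ^ n = 1) →
    ∀ τ ∈ (primeLocalPlace ℓ).decompositionSubgroup ℚ,
      f τ ∈ Submonoid.closure ({f (gφ ℓ), f (gφ ℓ)⁻¹, f (gσ ℓ)} : Set M)

/-- the landed datum at the primes `ℓ ≡ 1 mod p` is a datum in the new sense. -/
def m59c_TameData.ofTwc {p : ℕ} {Th : Finset Nat.Primes} (td : twc_TameData p Th) :
    m59c_TameData p Th where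
  gφ := td.gφ
  gσ := td.gσ
  φ_mem := td.φ_mem
  φ_frob := td.φ_frob
  σ_mem := td.σ_mem
  rel := td.rel
  gen := td.gen

/-- the choice of the generators at one prime. -/
theorem m59c_tg_exists (ℓ : ℕ) [hℓ : Fact ℓ.Prime] (A : ValuationSubring Qbar)
    (hA : A.LiesOverPrime ℓ) {p : ℕ} (hp : p.Prime) (hpne : p ≠ ℓ) :
    ∃ (φ σ : GQ) (α : Qbar), A.IsFrobeniusAt φ ℓ ∧ σ ∈ A.inertiaSubgroupIn ℚ ∧
      α ^ p = (ℓ : Qbar) ∧ σ α ≠ α := by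
  obtain ⟨φ, hφ⟩ := fex_exists_isFrobeniusAt hℓ.out A hA
  obtain ⟨α, hα⟩ := IsAlgClosed.exists_pow_nat_eq (ℓ : Qbar) hp.pos
  obtain ⟨σ, hσ, hσα⟩ := m59c_exists_moving ℓ A hA hp hpne hα
  exact ⟨φ, σ, α, hφ, hσ, hα, hσα⟩

/-- **C-gen/Tame**: tame generators exist at every finite set of primes `ℓ ≠ p`. -/
theorem m59c_tameGen (p : ℕ) [hp : Fact p.Prime] (Th : Finset Nat.Primes)
    (hTh : ∀ ℓ ∈ Th, (ℓ : ℕ) ≠ p) : Nonempty (m59c_TameData p Th) := by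
  classical
  have hex : ∀ ℓ : Nat.Primes, ∃ (φ σ : GQ), ℓ ∈ Th →
      ∃ α : Qbar, (primeLocalPlace ℓ).IsFrobeniusAt φ (ℓ : ℕ) ∧
        σ ∈ (primeLocalPlace ℓ).inertiaSubgroupIn ℚ ∧ α ^ p = ((ℓ : ℕ) : Qbar) ∧ σ α ≠ α := by
    intro ℓ
    by_cases hℓ : ℓ ∈ Th
    · haveI : Fact (ℓ : ℕ).Prime := ⟨ℓ.2⟩
      obtain ⟨φ, σ, α, h⟩ := m59c_tg_exists (ℓ : ℕ) (primeLocalPlace ℓ) (s56ld_liesOver ℓ) hp.out
        (hTh ℓ hℓ).symm
      exact ⟨φ, σ, fun _ => ⟨α, h⟩⟩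
    · exact ⟨1, 1, fun h => absurd h hℓ⟩
  choose gφ gσ hsp using hex
  refine ⟨{
    gφ := gφ
    gσ := gσ
    φ_mem := fun ℓ hℓ => ?_
    φ_frob := fun ℓ hℓ => ?_
    σ_mem := fun ℓ hℓ => ?_
    rel := fun ℓ hℓ M _ f hfin hpg => ?_
    gen := fun ℓ hℓ M _ f hfin hpg τ hτ => ?_ }⟩
  · obtain ⟨α, h1, -⟩ := hsp ℓ hℓ
    exact h1.mem_decompositionSubgroup
  · obtain ⟨α, h1, -⟩ := hsp ℓ hℓ
    exact h1
  · obtain ⟨α, -, h2, -⟩ := hsp ℓ hℓ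
    exact h2
  · haveI : Fact (ℓ : ℕ).Prime := ⟨ℓ.2⟩
    obtain ⟨α, h1, h2, -⟩ := hsp ℓ hℓ
    obtain ⟨L, hL, hLf⟩ := twc_tg_finiteLevel_conv f hfin
    haveI := hL
    exact twc_tg_conj_of (ℓ : ℕ) (primeLocalPlace ℓ) (s56ld_liesOver ℓ) hp.out (hTh ℓ hℓ).symm
      h1 h2 f L hLf hpg
  · haveI : Fact (ℓ : ℕ).Prime := ⟨ℓ.2⟩
    obtain ⟨α, h1, h2, h3, h4⟩ := hsp ℓ hℓ
    obtain ⟨L, hL, hLf⟩ := twc_tg_finiteLevel_conv f hfin
    haveI := hL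
    obtain ⟨n, m, h⟩ := m59c_tg_decomp_gen_of (ℓ : ℕ) (primeLocalPlace ℓ) (s56ld_liesOver ℓ) hp.out
      (hTh ℓ hℓ).symm h3 h1 h2 h4 f L hLf hpg hτ
    rw [h, map_mul, map_pow]
    refine mul_mem (twc_tg_zpow_mem f _ _ ?_ ?_ n) (pow_mem ?_ m)
    · exact Submonoid.subset_closure (by simp)
    · exact Submonoid.subset_closure (by simp)
    · exact Submonoid.subset_closure (by simp)

end Fermat.Agent.M59
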