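import Mathlib
import Fermat.Agent.M59.C.Present
import Fermat.Agent.M59.C.Tame

/-!
# Project M59 (S59), block [C-gen], cell C/Norm (prefix `m59c_`)

The CYCLIC-VECTOR (companion) normalisation at a framed prime `ℓ ≠ p` where `ρ̄` is unramified and
`ρ̄(φ_ℓ)` is NOT scalar (distinct eigenvalues or non-semisimple): finding #5231 / ruling #5232.

* `m59c_cyc B e = (e | B e)`, `m59c_comp t δ = (0, -δ; 1, t)`, `m59c_mul_cyc : B P = P C(tr B, det B)`
  (Cayley–Hamilton for `2 × 2` matrices);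
* `m59c_intertwine` : if `B`, `B'` have the same trace and determinant and `P = (e | B e)` is
  invertible then `U = (e | B' e) P⁻¹` satisfies `B' U = U B`;
* `m59c_locCob_nonscalar` : if `φ : T → k[ε]` sends `r(σ_ℓ)` to `1` and `tr r(φ_ℓ)` to an element
  without `ε`-part, then the cocycle of the specialisation is a COBOUNDARY on `D_ℓ`
  (the hypothesis `m59c_LocCob` of `m59c_present_gen` at `ℓ`).
-/

set_option autoImplicit false
set_option linter.unusedSectionVars false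
set_option linter.style.haveILetI false

open Polynomial IsLocalRing ExtCitation Module
open Fermat.Agent.S53 Fermat.Agent.S56 Fermat.Agent.TW

namespace Fermat.Agent.M59

noncomputable section

local notation "GQ" => (AlgebraicClosure ℚ ≃ₐ[ℚ] AlgebraicClosure ℚ)
local notation "Qbar" => AlgebraicClosure ℚ

/-! ### the companion form -/

section algebra

variable {R : Type*} [CommRing R]

/-- the matrix `(e | B e)`. -/
def m59c_cyc (B : Matrix (Fin 2) (Fin 2) R) (e : Fin 2 → R) : Matrix (Fin 2) (Fin 2) R :=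
  !![e 0, B 0 0 * e 0 + B 0 1 * e 1; e 1, B 1 0 * e 0 + B 1 1 * e 1]

/-- the companion matrix of `X² - t X + δ`. -/
def m59c_comp (t δ : R) : Matrix (Fin 2) (Fin 2) R := !![0, -δ; 1, t]

/-- **Cayley–Hamilton**: `B (e | B e) = (e | B e) C(tr B, det B)`. -/
theorem m59c_mul_cyc (B : Matrix (Fin 2) (Fin 2) R) (e : Fin 2 → R) :
    B * m59c_cyc B e = m59c_cyc B e * m59c_comp B.trace B.det := by
  ext i j
  fin_cases i <;> fin_cases j <;>
    simp [m59c_cyc, m59c_comp, Matrix.mul_apply, Fin.sum_univ_two, Matrix.det_fin_two,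
      Matrix.trace_fin_two] <;> ring

/-- two matrices with the same characteristic polynomial are intertwined by
`U = (e | B' e) (e | B e)⁻¹`. -/
theorem m59c_intertwine {B B' : Matrix (Fin 2) (Fin 2) R} (e : Fin 2 → R)
    (ht : B'.trace = B.trace) (hd : B'.det = B.det) (Pi : Matrix (Fin 2) (Fin 2) R)
    (h1 : Pi * m59c_cyc B e = 1) :
    B' * (m59c_cyc B' e * Pi) = (m59c_cyc B' e * Pi) * B := by
  have hB := m59c_mul_cyc B e
  have hB' := m59c_mul_cyc B' e
  rw [ht, hd] at hB'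
  calc B' * (m59c_cyc B' e * Pi) = (B' * m59c_cyc B' e) * Pi := by rw [Matrix.mul_assoc]
    _ = m59c_cyc B' e * m59c_comp B.trace B.det * Pi := by rw [hB']
    _ = m59c_cyc B' e * (Pi * m59c_cyc B e) * m59c_comp B.trace B.det * Pi := by
        rw [h1, Matrix.mul_one]
    _ = m59c_cyc B' e * Pi * (m59c_cyc B e * m59c_comp B.trace B.det) * Pi := by
        simp only [Matrix.mul_assoc]
    _ = m59c_cyc B' e * Pi * (B * m59c_cyc B e) * Pi := by rw [hB]
    _ = m59c_cyc B' e * Pi * B * (m59c_cyc B e * Pi) := by simp only [Matrix.mul_assoc]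
    _ = m59c_cyc B' e * Pi * B := by
        have h2 : m59c_cyc B e * Pi = 1 := mul_eq_one_comm.mp h1
        rw [h2, Matrix.mul_one]

/-- a non-scalar `2 × 2` matrix over a field has a cyclic vector among `e₁`, `e₂`, `e₁ + e₂`. -/
theorem m59c_exists_cyc {k : Type*} [Field k] (B : Matrix (Fin 2) (Fin 2) k)
    (hB : ∀ c : k, B ≠ Matrix.scalar (Fin 2) c) : ∃ e : Fin 2 → k, (m59c_cyc B e).det ≠ 0 := by
  by_cases h10 : B 1 0 = 0
  · by_cases h01 : B 0 1 = 0
    · -- diagonal with distinct entries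
      have hne : B 0 0 ≠ B 1 1 := by
        intro h
        apply hB (B 0 0)
        ext i j
        fin_cases i <;> fin_cases j <;> simp [h10, h01, h]
      refine ⟨![1, 1], ?_⟩
      simp only [m59c_cyc, Matrix.det_fin_two_of, Matrix.cons_val_zero, Matrix.cons_val_one, h10,
        h01]
      intro h
      apply hne
      linear_combination -h
    · refine ⟨![0, 1], ?_⟩
      simp only [m59c_cyc, Matrix.det_fin_two_of, Matrix.cons_val_zero, Matrix.cons_val_one]
      intro h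
      apply h01
      linear_combination -h
  · refine ⟨![1, 0], ?_⟩
    simp only [m59c_cyc, Matrix.det_fin_two_of, Matrix.cons_val_zero, Matrix.cons_val_one]
    intro h
    apply h10
    linear_combination h

end algebra

/-! ### matrices over the dual numbers -/

section dual

variable {k : Type} [Field k]

theorem m59c_mk_zero_mul (M N : Matrix (Fin 2) (Fin 2) k) :
    s56t_mk M 0 * s56t_mk N 0 = s56t_mk (M * N) 0 := by
  rw [s56t_mk_mul, Matrix.mul_zero, Matrix.zero_mul, add_zero]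

theorem m59c_fst_trace (M : Matrix (Fin 2) (Fin 2) (DualNumber k)) :
    (Matrix.trace M).fst = Matrix.trace (s56t_fst M) := by
  simp [Matrix.trace_fin_two]

theorem m59c_det_mk_zero (M : Matrix (Fin 2) (Fin 2) k) :
    (s56t_mk M 0).det = TrivSqZeroExt.inl M.det := by
  ext
  · rw [s56t_fst_det, s56t_fst_mk, TrivSqZeroExt.fst_inl]
  · rw [s56t_snd_det, s56t_snd_mk, Matrix.mul_zero, Matrix.trace_zero, TrivSqZeroExt.snd_inl]

theorem m59c_trace_mk_zero (M : Matrix (Fin 2) (Fin 2) k) :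
    Matrix.trace (s56t_mk M 0) = TrivSqZeroExt.inl (Matrix.trace M) := by
  ext <;> simp [Matrix.trace_fin_two, s56t_mk]

/-- the cyclic matrix of a matrix over `k[ε]` at a constant vector: reduction. -/
theorem m59c_fst_cyc (M : Matrix (Fin 2) (Fin 2) (DualNumber k)) (e₀ : Fin 2 → k) :
    s56t_fst (m59c_cyc M fun i => TrivSqZeroExt.inl (e₀ i)) = m59c_cyc (s56t_fst M) e₀ := by
  ext i j
  fin_cases i <;> fin_cases j <;> simp [m59c_cyc]

theorem m59c_cyc_mk_zero (M : Matrix (Fin 2) (Fin 2) k) (e₀ : Fin 2 → k) :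
    m59c_cyc (s56t_mk M 0) (fun i => TrivSqZeroExt.inl (e₀ i)) = s56t_mk (m59c_cyc M e₀) 0 := by
  refine s56t_ext ?_ ?_
  · rw [m59c_fst_cyc, s56t_fst_mk, s56t_fst_mk]
  · ext i j
    fin_cases i <;> fin_cases j <;> simp [m59c_cyc, s56t_mk]

end dual

/-! ### the cocycle is a coboundary on `D_ℓ` -/

section loc

variable {𝒪 : Type} [CommRing 𝒪] [IsLocalRing 𝒪] {rb : FramedResidual (ResidueField 𝒪)}

attribute [local instance] S53.dualNumberAlgebra

/-- the matrices `M` over `k[ε]` with `M U = U (M mod ε)`. -/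
def m59c_conjSub {k : Type} [Field k] (U : Matrix (Fin 2) (Fin 2) (DualNumber k)) :
    Submonoid (Matrix (Fin 2) (Fin 2) (DualNumber k)) where
  carrier := {M | M * U = U * s56t_mk (s56t_fst M) 0}
  one_mem' := by
    show 1 * U = U * s56t_mk (s56t_fst 1) 0
    rw [s56t_fst_one, s56t_mk_one_zero, Matrix.one_mul, Matrix.mul_one]
  mul_mem' := by
    intro M N hM hN
    show M * N * U = U * s56t_mk (s56t_fst (M * N)) 0
    rw [Matrix.mul_assoc, show N * U = U * s56t_mk (s56t_fst N) 0 from hN, ← Matrix.mul_assoc,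
      show M * U = U * s56t_mk (s56t_fst M) 0 from hM, Matrix.mul_assoc, m59c_mk_zero_mul,
      s56t_fst_mul]

/-- **the local lemma at a non-scalar prime.** -/
theorem m59c_locCob_nonscalar {p : ℕ} [NeZero p] [CharP (ResidueField 𝒪) p]
    {Th : Finset Nat.Primes} (td : m59c_TameData p Th) (H : twc_HPair 𝒪 rb)
    (hdet : H.r.toGaloisRepAdic.DetIsCyclotomic p)
    (φ : H.T →ₐ[𝒪] DualNumber (ResidueField 𝒪)) (ℓ : Nat.Primes) (hℓ : ℓ ∈ Th)
    (hunr : ∀ τ ∈ (primeLocalPlace ℓ).inertiaSubgroupIn ℚ, rb τ = 1)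
    (e₀ : Fin 2 → ResidueField 𝒪) (hcyc : (m59c_cyc (rb (td.gφ ℓ)) e₀).det ≠ 0)
    (h2 : (2 : ResidueField 𝒪) ≠ 0)
    (hσ : (H.r (td.gσ ℓ)).map φ = 1)
    (htr : (φ (Matrix.trace (H.r (td.gφ ℓ)))).snd = 0) :
    s56t_coc (twc_frame H.r φ) ∈
      s56a_cobOn rb ((primeLocalPlace ℓ).decompositionSubgroup ℚ) := by
  classical
  set f : FramedRep (DualNumber (ResidueField 𝒪)) := twc_frame H.r φ with hf
  set fM : GQ →* Matrix (Fin 2) (Fin 2) (DualNumber (ResidueField 𝒪)) := f.toMonoidHom with hfM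
  have hfa : ∀ σ, fM σ = f σ := fun _ => rfl
  have hbar : ∀ σ : GQ, s56t_fst (f σ) = rb σ := fun σ => by
    rw [← s56t_bar_apply]; exact twc_frame_bar H.r H.lift φ σ
  -- the Frobenius matrices
  set B' : Matrix (Fin 2) (Fin 2) (DualNumber (ResidueField 𝒪)) := f (td.gφ ℓ) with hB'
  set Bb : Matrix (Fin 2) (Fin 2) (ResidueField 𝒪) := rb (td.gφ ℓ) with hBb
  set B : Matrix (Fin 2) (Fin 2) (DualNumber (ResidueField 𝒪)) := s56t_mk Bb 0 with hB
  have hfstB' : s56t_fst B' = Bb := hbar _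
  have htrace : B'.trace = B.trace := by
    rw [hB, m59c_trace_mk_zero]
    ext
    · rw [m59c_fst_trace, hfstB', TrivSqZeroExt.fst_inl]
    · rw [TrivSqZeroExt.snd_inl, hB', hf, twc_frame_trace]
      exact htr
  have hdetB : B'.det = B.det := by
    rw [hB, m59c_det_mk_zero]
    ext
    · rw [s56t_fst_det, hfstB', TrivSqZeroExt.fst_inl]
    · rw [TrivSqZeroExt.snd_inl]
      exact s56t_cyc_det_snd f (twc_frame_det H.r φ hdet) _
  -- the cyclic matrices
  set e : Fin 2 → DualNumber (ResidueField 𝒪) := fun i => TrivSqZeroExt.inl (e₀ i) with he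
  set Pb : Matrix (Fin 2) (Fin 2) (ResidueField 𝒪) := m59c_cyc Bb e₀ with hPb
  have hPbu : IsUnit Pb.det := isUnit_iff_ne_zero.mpr hcyc
  set Pi : Matrix (Fin 2) (Fin 2) (DualNumber (ResidueField 𝒪)) := s56t_mk Pb⁻¹ 0 with hPi
  have hPiP : Pi * m59c_cyc B e = 1 := by
    rw [hB, he, m59c_cyc_mk_zero, hPi, m59c_mk_zero_mul, Matrix.nonsing_inv_mul _ hPbu,
      s56t_mk_one_zero]
  set U : Matrix (Fin 2) (Fin 2) (DualNumber (ResidueField 𝒪)) := m59c_cyc B' e * Pi with hU
  have hkey : B' * U = U * B := m59c_intertwine e htrace hdetB Pi hPiP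
  have hfstU : s56t_fst U = 1 := by
    rw [hU, s56t_fst_mul, he, m59c_fst_cyc, hfstB', hPi, s56t_fst_mk,
      Matrix.mul_nonsing_inv _ hPbu]
  clear_value U
  set X : Matrix (Fin 2) (Fin 2) (ResidueField 𝒪) := s56t_snd U with hX
  -- the image of `D_ℓ` lies in the submonoid
  obtain ⟨L, hL, hlev⟩ := s56t_exists_level f
  have hpg : ∀ τ ∈ (primeLocalPlace ℓ).inertiaSubgroupIn ℚ, ∃ n : ℕ, fM τ ^ p ^ n = 1 := by
    intro τ hτ
    refine ⟨1, ?_⟩
    rw [pow_one]
    refine twc_pow_char_eq_one p _ ?_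
    rw [hfa, hbar, hunr τ hτ]
  have hle : Submonoid.closure ({fM (td.gφ ℓ), fM (td.gφ ℓ)⁻¹, fM (td.gσ ℓ)} :
      Set (Matrix (Fin 2) (Fin 2) (DualNumber (ResidueField 𝒪)))) ≤ m59c_conjSub U := by
    rw [Submonoid.closure_le]
    have h1 : B' * U = U * s56t_mk (s56t_fst B') 0 := by rw [hfstB']; exact hkey
    intro x hx
    rcases hx with rfl | rfl | rfl
    · exact h1
    · show fM (td.gφ ℓ)⁻¹ * U = U * s56t_mk (s56t_fst (fM (td.gφ ℓ)⁻¹)) 0
      have h3 : fM (td.gφ ℓ)⁻¹ * B' = 1 := by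
        rw [hB', ← hfa, ← map_mul, inv_mul_cancel, map_one]
      have h4 : Bb * s56t_fst (fM (td.gφ ℓ)⁻¹) = 1 := by
        rw [hfa, hbar, hBb, ← map_mul, mul_inv_cancel, map_one]
      calc fM (td.gφ ℓ)⁻¹ * U
          = fM (td.gφ ℓ)⁻¹ * U * (B * s56t_mk (s56t_fst (fM (td.gφ ℓ)⁻¹)) 0) := by
            rw [hB, m59c_mk_zero_mul, h4, s56t_mk_one_zero, Matrix.mul_one]
        _ = fM (td.gφ ℓ)⁻¹ * (U * B) * s56t_mk (s56t_fst (fM (td.gφ ℓ)⁻¹)) 0 := by
            simp only [Matrix.mul_assoc]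
        _ = (fM (td.gφ ℓ)⁻¹ * B') * U * s56t_mk (s56t_fst (fM (td.gφ ℓ)⁻¹)) 0 := by
            rw [← hkey]; simp only [Matrix.mul_assoc]
        _ = U * s56t_mk (s56t_fst (fM (td.gφ ℓ)⁻¹)) 0 := by rw [h3, Matrix.one_mul]
    · show fM (td.gσ ℓ) * U = U * s56t_mk (s56t_fst (fM (td.gσ ℓ))) 0
      have h5 : fM (td.gσ ℓ) = 1 := by rw [hfa, hf, twc_frame_apply]; exact hσ
      rw [h5, s56t_fst_one, s56t_mk_one_zero, Matrix.one_mul, Matrix.mul_one]
  -- the coboundary
  set c : ResidueField 𝒪 := Matrix.trace X / 2 with hc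
  refine ⟨-X + c • (1 : Matrix (Fin 2) (Fin 2) (ResidueField 𝒪)), ?_, fun τ hτ => ?_⟩
  · rw [Matrix.trace_add, Matrix.trace_neg, Matrix.trace_smul, Matrix.trace_one, hc]
    simp only [Fintype.card_fin, smul_eq_mul]
    field_simp
    ring
  · have hmem : f τ * U = U * s56t_mk (s56t_fst (f τ)) 0 :=
      hle (td.gen ℓ hℓ _ fM ⟨L, hL, hlev⟩ hpg τ hτ)
    have hsL : s56t_snd (f τ * U) = rb τ * X + s56t_snd (f τ) := by
      rw [s56t_snd_mul, hbar, hfstU, Matrix.mul_one]
    have hsR : s56t_snd (U * s56t_mk (s56t_fst (f τ)) 0) = X * rb τ := by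
      rw [s56t_snd_mul, s56t_snd_mk, s56t_fst_mk, Matrix.mul_zero, zero_add, hbar]
    have hsnd : rb τ * X + s56t_snd (f τ) = X * rb τ := by
      rw [← hsL, ← hsR, hmem]
    have h6 : s56t_snd (f τ) = X * rb τ - rb τ * X := by
      rw [← hsnd]; abel
    have h7 : rb τ * rb τ⁻¹ = 1 := by rw [← map_mul, mul_inv_cancel, map_one]
    have h8 : s56t_bar f τ⁻¹ = rb τ⁻¹ := by rw [s56t_bar_apply, hbar]
    rw [s56t_coc, h6, h8, Matrix.sub_mul, Matrix.mul_assoc, h7, Matrix.mul_one]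
    simp only [Matrix.mul_add, Matrix.add_mul, Matrix.mul_neg, Matrix.neg_mul, Matrix.mul_smul,
      Matrix.smul_mul, Matrix.mul_one, h7]
    abel

end loc

end

end Fermat.Agent.M59
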