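import Mathlib

/-!
# Project M59 (S59), block [C-gen], cell C/Rnorm (prefix `m59c_`): the normalised local ring

At a framed prime `ℓ ≠ p` where `ρ̄` is unramified with NON-SCALAR `ρ̄(φ_ℓ)` the lifts with unipotent
inertia and determinant `ℓ` at `φ_ℓ` are, in the cyclic-vector frame `P = (e | Φ e)`,

  `P⁻¹ Φ P = (0, -ℓ; 1, t)`,  `P⁻¹ (Σ - 1) P = N = (n₁, n₂; -n₂, -n₁)`,

with the three relations (finding #5231, referee ruling #5232)

  `(1 + ℓ) n₁ = t n₂`,  `(1 - ℓ) ((1 + ℓ) n₂ - t n₁) = 0`,  `n₁² = n₂²`,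

which are EQUIVALENT (for `ℓ` a non-zero-divisor) to `C N = ℓ N C`, `N² = 0`.

* `m59c_normSet ℓ t n₁ n₂` : the three relations as a set of elements of a ring;
* `m59c_normSet_iff` : a ring hom kills them iff the relations hold for the images;
* `m59c_normN`, `m59c_normC`, `m59c_norm_mat` : the matrix form;
* `m59c_Jnorm`, `m59c_Rnorm` : the ideal in `𝒪⟦σ⟧` for a family of non-scalar primes whose three
  coordinates `(t', n₁, n₂)` sit at the variables `v (ℓ, 0)`, `v (ℓ, 1)`, `v (ℓ, 2)`, and the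
  one-prime ring `𝒪⟦t', n₁, n₂⟧ / (…)`.
-/

set_option autoImplicit false

namespace Fermat.Agent.M59

open MvPowerSeries Matrix

noncomputable section

section Rel

variable {R : Type*} [CommRing R] {R' : Type*} [CommRing R']

/-- the three relations of the normalised local ring. -/
def m59c_normSet (ℓ : ℕ) (t n₁ n₂ : R) : Set R :=
  {(1 + (ℓ : R)) * n₁ - t * n₂, (1 - (ℓ : R)) * ((1 + (ℓ : R)) * n₂ - t * n₁), n₁ ^ 2 - n₂ ^ 2}

theorem m59c_normSet_iff (f : R →+* R') (ℓ : ℕ) (t n₁ n₂ : R) :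
    (∀ x ∈ m59c_normSet ℓ t n₁ n₂, f x = 0) ↔
      ((1 + (ℓ : R')) * f n₁ = f t * f n₂ ∧
        (1 - (ℓ : R')) * ((1 + (ℓ : R')) * f n₂ - f t * f n₁) = 0 ∧ f n₁ ^ 2 = f n₂ ^ 2) := by
  unfold m59c_normSet
  simp only [Set.mem_insert_iff, Set.mem_singleton_iff, forall_eq_or_imp, forall_eq, map_sub,
    map_mul, map_add, map_one, map_natCast, map_pow, sub_eq_zero]

/-- the normalised nilpotent `N = (n₁, n₂; -n₂, -n₁)`. -/
def m59c_normN (n₁ n₂ : R) : Matrix (Fin 2) (Fin 2) R := !![n₁, n₂; -n₂, -n₁]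

/-- the normalised Frobenius `C = (0, -ℓ; 1, t)`. -/
def m59c_normC (ℓ : ℕ) (t : R) : Matrix (Fin 2) (Fin 2) R := !![0, -(ℓ : R); 1, t]

/-- the three relations imply the matrix identities `C N = ℓ N C`, `N² = 0`. -/
theorem m59c_norm_mat {ℓ : ℕ} {t n₁ n₂ : R} (h1 : (1 + (ℓ : R)) * n₁ = t * n₂)
    (h2 : (1 - (ℓ : R)) * ((1 + (ℓ : R)) * n₂ - t * n₁) = 0) (h3 : n₁ ^ 2 = n₂ ^ 2) :
    m59c_normC ℓ t * m59c_normN n₁ n₂ = (ℓ : R) • (m59c_normN n₁ n₂ * m59c_normC ℓ t) ∧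
      m59c_normN n₁ n₂ * m59c_normN n₁ n₂ = 0 := by
  constructor
  · ext i j
    fin_cases i <;> fin_cases j <;>
      simp [m59c_normC, m59c_normN, Matrix.mul_apply, Fin.sum_univ_two]
    · linear_combination (ℓ : R) * h1
    · linear_combination h1
    · linear_combination h2
  · ext i j
    fin_cases i <;> fin_cases j <;>
      simp [m59c_normN, Matrix.mul_apply, Fin.sum_univ_two]
    · linear_combination h3
    · ring
    · ring
    · linear_combination h3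

/-- conversely, the matrix identities imply the three relations when `ℓ` is not a zero divisor. -/
theorem m59c_norm_of_mat {ℓ : ℕ} {t n₁ n₂ : R} (hℓ : ∀ x : R, (ℓ : R) * x = 0 → x = 0)
    (hC : m59c_normC ℓ t * m59c_normN n₁ n₂ = (ℓ : R) • (m59c_normN n₁ n₂ * m59c_normC ℓ t))
    (hN : m59c_normN n₁ n₂ * m59c_normN n₁ n₂ = 0) :
    (1 + (ℓ : R)) * n₁ = t * n₂ ∧
      (1 - (ℓ : R)) * ((1 + (ℓ : R)) * n₂ - t * n₁) = 0 ∧ n₁ ^ 2 = n₂ ^ 2 := by
  have h01 := congrFun (congrFun hC 0) 1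
  have h11 := congrFun (congrFun hC 1) 1
  have hN00 := congrFun (congrFun hN 0) 0
  simp [m59c_normC, m59c_normN, Matrix.mul_apply, Fin.sum_univ_two] at h01 h11 hN00
  refine ⟨?_, ?_, ?_⟩
  · rw [← sub_eq_zero]
    apply hℓ
    linear_combination h01
  · linear_combination h11
  · linear_combination hN00

end Rel

section Global

variable (O : Type*) [CommRing O] {T : Type*} {σ : Type*}

/-- the relations of the normalised local rings at a family `T` of non-scalar primes; the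
coordinates `(t', n₁, n₂)` of `ℓ : T` are the variables `v (ℓ, 0)`, `v (ℓ, 1)`, `v (ℓ, 2)`;
`t = t₀ ℓ + t'`. -/
def m59c_Jnorm (n : T → ℕ) (t₀ : T → O) (v : T × Fin 3 → σ) : Ideal (MvPowerSeries σ O) :=
  Ideal.span (⋃ ℓ : T, m59c_normSet (n ℓ) (C (t₀ ℓ) + X (v (ℓ, 0)) : MvPowerSeries σ O)
    (X (v (ℓ, 1))) (X (v (ℓ, 2))))

/-- the normalised local ring at one prime: `𝒪⟦t', n₁, n₂⟧ / (three relations)`. -/
abbrev m59c_Rnorm (ℓ : ℕ) (t₀ : O) : Type _ :=
  MvPowerSeries (Fin 3) O ⧸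
    m59c_Jnorm O (T := Unit) (fun _ => ℓ) (fun _ => t₀) (fun x : Unit × Fin 3 => x.2)

/-- an algebra map kills `m59c_Jnorm` iff the relations hold for the images of the coordinates. -/
theorem m59c_Jnorm_le_ker {A : Type*} [CommRing A] (f : MvPowerSeries σ O →+* A) (n : T → ℕ)
    (t₀ : T → O) (v : T × Fin 3 → σ) :
    m59c_Jnorm O n t₀ v ≤ RingHom.ker f ↔
      ∀ ℓ : T, (1 + (n ℓ : A)) * f (X (v (ℓ, 1))) =
          f (C (t₀ ℓ) + X (v (ℓ, 0))) * f (X (v (ℓ, 2))) ∧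
        (1 - (n ℓ : A)) * ((1 + (n ℓ : A)) * f (X (v (ℓ, 2))) -
          f (C (t₀ ℓ) + X (v (ℓ, 0))) * f (X (v (ℓ, 1)))) = 0 ∧
        f (X (v (ℓ, 1))) ^ 2 = f (X (v (ℓ, 2))) ^ 2 := by
  unfold m59c_Jnorm
  rw [Ideal.span_le]
  simp only [Set.iUnion_subset_iff]
  refine forall_congr' fun ℓ => ?_
  rw [← m59c_normSet_iff]
  exact ⟨fun h x hx => h hx, fun h x hx => h x hx⟩

end Global

end

end Fermat.Agent.M59
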