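import Mathlib
import Fermat.Agent.M59.C.Norm
import Fermat.Agent.M59.C.Rnorm
import Fermat.Agent.TW.Def.LocRel

/-!
# Project M59 (S59), block [C-gen], cell C/LocRelNorm (prefix `m59c_`)

The local relations at a framed prime `ℓ ≠ p` for the tame generators of a `m59c_TameData` (twins of
`twc_lr_rel`, `twc_lr_det_phi`, which need `p ∣ ℓ - 1` only through `twc_TameData`), and the
relations of the NORMALISED coordinates in a framed representation `r` over a noetherian local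
ring `A` with unipotent inertia at `ℓ`:

* `m59c_lr_rel` : `Φ Σ = Σ ^ ℓ Φ`;  `m59c_lr_det_phi` : `det Φ = ℓ`;
* `m59c_lr_unip` : `tr M = 0`, `M * M = 0`, `Φ M = ℓ M Φ` for `M = Σ - 1`;
* `m59c_lr_norm` : for `P = (e | Φ e)` invertible and `N = P⁻¹ M P`:
  `P⁻¹ Φ P = C(ℓ, tr Φ)`, `N = (n₁, n₂; -n₂, -n₁)` and the three relations of `m59c_normSet`.
-/

set_option autoImplicit false
set_option linter.unusedSectionVars false
set_option linter.style.haveILetI false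

open Polynomial IsLocalRing ExtCitation
open Fermat.Agent.S53 Fermat.Agent.S56 Fermat.Agent.TW

namespace Fermat.Agent.M59

noncomputable section

local notation "GQ" => (AlgebraicClosure ℚ ≃ₐ[ℚ] AlgebraicClosure ℚ)
local notation "Qbar" => AlgebraicClosure ℚ

section rel

variable {A : Type} [CommRing A] [IsLocalRing A] [IsNoetherianRing A]

/-- **(R1) the tame relation** `Φ Σ = Σ^ℓ Φ` (twin of `twc_lr_rel`). -/
theorem m59c_lr_rel {p : ℕ} {Th : Finset Nat.Primes} (td : m59c_TameData p Th)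
    (hp : (p : A) ∈ maximalIdeal A) (r : FramedRep A) (ℓ : Nat.Primes) (hℓ : ℓ ∈ Th)
    (hres : ∀ τ ∈ (primeLocalPlace ℓ).inertiaSubgroupIn ℚ,
      twc_lr_In (maximalIdeal A) (r τ - 1)) :
    r (td.gφ ℓ) * r (td.gσ ℓ) = r (td.gσ ℓ) ^ (ℓ : ℕ) * r (td.gφ ℓ) := by
  rw [← sub_eq_zero]
  refine twc_lr_matrix_eq_zero fun n => ?_
  rw [← twc_lr_mk_eq_zero_iff]
  have hfin : ∃ L : IntermediateField ℚ Qbar, FiniteDimensional ℚ L ∧
      ∀ s : GQ, (∀ x ∈ L, s x = x) → twc_lr_red r n s = 1 := by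
    obtain ⟨L, hL, h⟩ := r.cont n
    refine ⟨L, hL, fun s hs => ?_⟩
    rw [twc_lr_red_apply, ← sub_eq_zero, ← map_one (twc_lr_mk A n), ← map_sub,
      twc_lr_mk_eq_zero_iff]
    exact h s hs
  have hpg : ∀ τ ∈ (primeLocalPlace ℓ).inertiaSubgroupIn ℚ,
      ∃ m : ℕ, twc_lr_red r n τ ^ p ^ m = 1 := by
    intro τ hτ
    refine ⟨n, ?_⟩
    rw [twc_lr_red_apply, ← map_pow, ← sub_eq_zero, ← map_one (twc_lr_mk A n), ← map_sub,
      twc_lr_mk_eq_zero_iff]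
    exact (twc_lr_pow_p hp (hres τ hτ) n).mono (Ideal.pow_le_pow_right (Nat.le_succ n))
  have h := td.rel ℓ hℓ _ (twc_lr_red r n) hfin hpg
  simp only [twc_lr_red_apply] at h
  rw [map_sub, map_mul, map_mul, map_pow, h, sub_self]

/-- **(R3) `det Φ = ℓ`** from the cyclotomic determinant (twin of `twc_lr_det_phi`). -/
theorem m59c_lr_det_phi {p : ℕ} [Fact p.Prime] {Th : Finset Nat.Primes} (td : m59c_TameData p Th)
    (r : FramedRep A) (ℓ : Nat.Primes) (hℓ : ℓ ∈ Th) (hℓp : (ℓ : ℕ) ≠ p)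
    (hdet : r.toGaloisRepAdic.DetIsCyclotomic p) :
    (r (td.gφ ℓ)).det = ((ℓ : ℕ) : A) := by
  have hpp : p.Prime := Fact.out
  obtain ⟨hpA, hcyc⟩ := hdet
  rw [← sub_eq_zero]
  refine twc_lr_eq_zero_of_forall_mem fun n => ?_
  haveI : NeZero (p ^ n) := ⟨pow_ne_zero _ hpp.ne_zero⟩
  have hℓn : ¬ (ℓ : ℕ) ∣ p ^ n := fun h =>
    hℓp ((Nat.prime_dvd_prime_iff_eq ℓ.2 hpp).1 (ℓ.2.dvd_of_dvd_pow h))
  have h1 := hcyc n (td.gφ ℓ) (ℓ : ℕ) fun μ hμ =>
    Fermat.Agent.DS.dspk_cyc_frob_root (p ^ n) ℓ.2 hℓn (primeLocalPlace ℓ) (s56ld_liesOver ℓ)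
      (td.gφ ℓ) (td.φ_frob ℓ hℓ) hμ
  have h2 : LinearMap.det (r.toGaloisRepAdic.ρ (td.gφ ℓ)) = (r (td.gφ ℓ)).det :=
    LinearMap.det_toLin' (r (td.gφ ℓ))
  rw [h2] at h1
  have h3 : Ideal.span {((p ^ n : ℕ) : A)} ≤ maximalIdeal A ^ n := by
    rw [Ideal.span_singleton_le_iff_mem]
    push_cast
    exact Ideal.pow_mem_pow hpA n
  exact h3 h1

/-- `(1 + M)^n = 1 + n M` when `M * M = 0`. -/
theorem m59c_one_add_pow {B : Type*} [CommRing B] (M : Matrix (Fin 2) (Fin 2) B)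
    (hM : M * M = 0) (n : ℕ) : (1 + M) ^ n = 1 + (n : B) • M := by
  induction n with
  | zero => simp
  | succ n ih =>
    rw [pow_succ, ih, Matrix.add_mul, Matrix.mul_add, Matrix.mul_add, Matrix.one_mul,
      Matrix.mul_one, Matrix.one_mul, Matrix.smul_mul, hM, smul_zero, add_zero, Nat.cast_succ,
      add_smul, one_smul]
    abel

/-- **the unipotent relations** for `M = Σ - 1`: `tr M = 0`, `M * M = 0`, `Φ M = ℓ M Φ`. -/
theorem m59c_lr_unip {p : ℕ} {Th : Finset Nat.Primes} (td : m59c_TameData p Th)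
    (hp : (p : A) ∈ maximalIdeal A) (r : FramedRep A) (ℓ : Nat.Primes) (hℓ : ℓ ∈ Th)
    (hres : ∀ τ ∈ (primeLocalPlace ℓ).inertiaSubgroupIn ℚ,
      twc_lr_In (maximalIdeal A) (r τ - 1))
    (hun : r.toGaloisRepAdic.IsUnipotentOnInertiaAt (ℓ : ℕ)) :
    Matrix.trace (r (td.gσ ℓ) - 1) = 0 ∧ (r (td.gσ ℓ) - 1) * (r (td.gσ ℓ) - 1) = 0 ∧
      r (td.gφ ℓ) * (r (td.gσ ℓ) - 1) =
        ((ℓ : ℕ) : A) • ((r (td.gσ ℓ) - 1) * r (td.gφ ℓ)) := by
  have hcp : (r (td.gσ ℓ)).charpoly = (X - 1) ^ 2 := by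
    rw [← Matrix.charpoly_toLin']
    exact hun (primeLocalPlace ℓ) (s56ld_liesOver ℓ) (td.gσ ℓ) (td.σ_mem ℓ hℓ)
  have hsq : (r (td.gσ ℓ) - 1) * (r (td.gσ ℓ) - 1) = 0 := by
    have h := Matrix.aeval_self_charpoly (r (td.gσ ℓ))
    rw [hcp] at h
    simpa [pow_two] using h
  have htr : Matrix.trace (r (td.gσ ℓ)) = 2 := by
    rw [Matrix.trace_eq_neg_charpoly_coeff, hcp]
    have e1 : ((X - 1 : A[X]) ^ 2) = X ^ 2 - C 2 * X + C 1 := by
      simp only [map_ofNat, map_one]; ring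
    rw [e1]
    simp only [Fintype.card_fin, coeff_add, coeff_sub, coeff_X_pow, coeff_C_mul, coeff_C]
    simp
  refine ⟨?_, hsq, ?_⟩
  · rw [Matrix.trace_sub, htr, Matrix.trace_one]
    simp only [Fintype.card_fin]
    norm_num
  · have hrel := m59c_lr_rel td hp r ℓ hℓ hres
    set M := r (td.gσ ℓ) - 1 with hM
    have hSg : r (td.gσ ℓ) = 1 + M := by rw [hM]; abel
    rw [hSg, m59c_one_add_pow M hsq, Matrix.mul_add, Matrix.mul_one, Matrix.add_mul,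
      Matrix.one_mul, Matrix.smul_mul] at hrel
    exact add_left_cancel hrel

/-- **the relations of the normalised coordinates.** -/
theorem m59c_lr_norm {p : ℕ} [Fact p.Prime] {Th : Finset Nat.Primes} (td : m59c_TameData p Th)
    (r : FramedRep A) (ℓ : Nat.Primes) (hℓ : ℓ ∈ Th) (hℓp : (ℓ : ℕ) ≠ p)
    (hres : ∀ τ ∈ (primeLocalPlace ℓ).inertiaSubgroupIn ℚ,
      twc_lr_In (maximalIdeal A) (r τ - 1))
    (hdet : r.toGaloisRepAdic.DetIsCyclotomic p)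
    (hun : r.toGaloisRepAdic.IsUnipotentOnInertiaAt (ℓ : ℕ))
    (e : Fin 2 → A) (Pi : Matrix (Fin 2) (Fin 2) A)
    (hPi : Pi * m59c_cyc (r (td.gφ ℓ)) e = 1) :
    let N := Pi * (r (td.gσ ℓ) - 1) * m59c_cyc (r (td.gφ ℓ)) e
    let t := Matrix.trace (r (td.gφ ℓ))
    Pi * r (td.gφ ℓ) * m59c_cyc (r (td.gφ ℓ)) e = m59c_normC (ℓ : ℕ) t ∧
      N = m59c_normN (N 0 0) (N 0 1) ∧
      (1 + (((ℓ : ℕ) : ℕ) : A)) * N 0 0 = t * N 0 1 ∧
      (1 - (((ℓ : ℕ) : ℕ) : A)) * ((1 + (((ℓ : ℕ) : ℕ) : A)) * N 0 1 - t * N 0 0) = 0 ∧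
      N 0 0 ^ 2 = N 0 1 ^ 2 := by
  intro N t
  have hpp : p.Prime := Fact.out
  set Φ := r (td.gφ ℓ) with hΦ
  set M := r (td.gσ ℓ) - 1 with hM
  set P := m59c_cyc Φ e with hP
  have hPPi : P * Pi = 1 := mul_eq_one_comm.mp hPi
  obtain ⟨htrM, hsqM, hrelM⟩ := m59c_lr_unip td hdet.1 r ℓ hℓ hres hun
  have hdetΦ : Φ.det = ((ℓ : ℕ) : A) := m59c_lr_det_phi td r ℓ hℓ hℓp hdet
  -- the companion form
  have hC : Pi * Φ * P = m59c_normC (ℓ : ℕ) t := by
    have h1 := m59c_mul_cyc Φ e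
    rw [Matrix.mul_assoc, h1, ← Matrix.mul_assoc, hPi, Matrix.one_mul, hdetΦ]
    rfl
  -- `ℓ` is a unit
  have hℓu : IsUnit (((ℓ : ℕ) : ℕ) : A) := by
    by_contra h
    have h1 : (((ℓ : ℕ) : ℕ) : A) ∈ maximalIdeal A := (mem_maximalIdeal _).2 h
    have hcop : Nat.Coprime (ℓ : ℕ) p := (Nat.coprime_primes ℓ.2 hpp).2 hℓp
    have h2 : ((1 : ℕ) : A) ∈ maximalIdeal A := by
      have hb := Nat.gcd_eq_gcd_ab (ℓ : ℕ) p
      rw [hcop.gcd_eq_one] at hb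
      have h3 : ((1 : ℕ) : A) = ((ℓ : ℕ) : A) * ((Nat.gcdA (ℓ : ℕ) p : ℤ) : A) +
          (p : A) * ((Nat.gcdB (ℓ : ℕ) p : ℤ) : A) := by
        have := congrArg (fun z : ℤ => (z : A)) hb
        push_cast at this
        simpa using this
      rw [h3]
      exact Ideal.add_mem _ (Ideal.mul_mem_right _ _ h1) (Ideal.mul_mem_right _ _ hdet.1)
    rw [Nat.cast_one] at h2
    exact (Ideal.ne_top_iff_one _).1 (Ideal.IsPrime.ne_top inferInstance) h2
  have hℓz : ∀ x : A, (((ℓ : ℕ) : ℕ) : A) * x = 0 → x = 0 := fun x hx =>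
    (hℓu.mul_right_eq_zero).1 hx
  -- the properties of `N`
  have hNN : N * N = 0 := by
    show Pi * M * P * (Pi * M * P) = 0
    calc Pi * M * P * (Pi * M * P) = Pi * M * (P * Pi) * M * P := by
          simp only [Matrix.mul_assoc]
      _ = 0 := by rw [hPPi, Matrix.mul_one, Matrix.mul_assoc Pi M M, hsqM, Matrix.mul_zero,
          Matrix.zero_mul]
  have htrN : Matrix.trace N = 0 := by
    show Matrix.trace (Pi * M * P) = 0
    rw [Matrix.trace_mul_comm, ← Matrix.mul_assoc, hPPi, Matrix.one_mul, htrM]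
  have hCN : m59c_normC (ℓ : ℕ) t * N = (((ℓ : ℕ) : ℕ) : A) • (N * m59c_normC (ℓ : ℕ) t) := by
    rw [← hC]
    show Pi * Φ * P * (Pi * M * P) = (((ℓ : ℕ) : ℕ) : A) • (Pi * M * P * (Pi * Φ * P))
    calc Pi * Φ * P * (Pi * M * P) = Pi * (Φ * (P * Pi) * M) * P := by
          simp only [Matrix.mul_assoc]
      _ = Pi * (Φ * M) * P := by rw [hPPi, Matrix.mul_one]
      _ = Pi * ((((ℓ : ℕ) : ℕ) : A) • (M * Φ)) * P := by rw [hrelM]
      _ = (((ℓ : ℕ) : ℕ) : A) • (Pi * (M * (P * Pi) * Φ) * P) := by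
          rw [hPPi, Matrix.mul_one, Matrix.mul_smul, Matrix.smul_mul]
      _ = (((ℓ : ℕ) : ℕ) : A) • (Pi * M * P * (Pi * Φ * P)) := by
          simp only [Matrix.mul_assoc]
  -- the shape of `N`
  have h11 : N 1 1 = -N 0 0 := by
    rw [Matrix.trace_fin_two] at htrN
    linear_combination htrN
  have h10 : N 1 0 = -N 0 1 := by
    have h := congrFun (congrFun hCN 0) 0
    simp [m59c_normC, Matrix.mul_apply, Fin.sum_univ_two] at h
    have h2 : (((ℓ : ℕ) : ℕ) : A) * (N 1 0 + N 0 1) = 0 := by linear_combination -h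
    have h3 := hℓz _ h2
    linear_combination h3
  have hshape : N = m59c_normN (N 0 0) (N 0 1) := by
    ext i j
    fin_cases i <;> fin_cases j <;> simp [m59c_normN, h10, h11]
  refine ⟨hC, hshape, ?_⟩
  rw [hshape] at hCN hNN
  exact m59c_norm_of_mat hℓz hCN hNN

end rel

end

end Fermat.Agent.M59
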