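import Mathlib
import Fermat.Agent.M59.C.LocRelNorm
import Fermat.Agent.TW.Def.LocRel8

/-!
# Project M59 (S59), block [C-gen], cell C/Coord (prefix `m59c_`): the coordinate families

The two families of local coordinates of a Hecke pair `H` that feed `m59c_present_gen`, with their
three properties: they lie in `𝔪_T`; the maps `T → k[ε]` killing them satisfy `m59c_LocCob`; the
local relations hold in `T`.

* HARD primes `ℓ ∈ Th` (`ρ̄|D_ℓ` scalar): `m59c_coordH` = the `8` entries of `r(σ_ℓ) - 1`,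
  `r(φ_ℓ) - a ℓ` (as on main, but for a `m59c_TameData`); `m59c_locCob_hard`.
* NON-SCALAR primes `ℓ ∈ Th` (`ρ̄` unramified at `ℓ`, `(e₀ ℓ | ρ̄(φ_ℓ) e₀ ℓ)` invertible):
  `m59c_coordN` = `(tr r(φ_ℓ) - t₀ ℓ, N 0 0, N 0 1)`, `N = P⁻¹ (r(σ_ℓ) - 1) P`, `P = (e | r(φ_ℓ) e)`;
  `m59c_locCob_coordN`; `m59c_coordN_rel` (the three relations of `m59c_normSet`).
* `m59c_TameData.union` : glueing tame data on two sets of primes.
-/

set_option autoImplicit false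
set_option linter.unusedSectionVars false
set_option linter.style.haveILetI false

open Polynomial IsLocalRing ExtCitation
open Fermat.Agent.S53 Fermat.Agent.S56 Fermat.Agent.TW

namespace Fermat.Agent.M59

noncomputable section

local notation "GQ" => (AlgebraicClosure ℚ ≃ₐ[ℚ] AlgebraicClosure ℚ)
local notation "Qbar" => AlgebraicClosure ℚ

/-! ### glueing tame data -/

/-- tame data on `Th₁` and on `Th₂` give tame data on `Th₁ ∪ Th₂` (the first has priority). -/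
def m59c_TameData.union {p : ℕ} {Th₁ Th₂ : Finset Nat.Primes} (td₁ : m59c_TameData p Th₁)
    (td₂ : m59c_TameData p Th₂) : m59c_TameData p (Th₁ ∪ Th₂) := by
  classical
  exact
  { gφ := fun ℓ => if ℓ ∈ Th₁ then td₁.gφ ℓ else td₂.gφ ℓ
    gσ := fun ℓ => if ℓ ∈ Th₁ then td₁.gσ ℓ else td₂.gσ ℓ
    φ_mem := fun ℓ hℓ => by
      by_cases h : ℓ ∈ Th₁
      · simp only [if_pos h]; exact td₁.φ_mem ℓ h
      · simp only [if_neg h]
        exact td₂.φ_mem ℓ ((Finset.mem_union.mp hℓ).resolve_left h)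
    φ_frob := fun ℓ hℓ => by
      by_cases h : ℓ ∈ Th₁
      · simp only [if_pos h]; exact td₁.φ_frob ℓ h
      · simp only [if_neg h]
        exact td₂.φ_frob ℓ ((Finset.mem_union.mp hℓ).resolve_left h)
    σ_mem := fun ℓ hℓ => by
      by_cases h : ℓ ∈ Th₁
      · simp only [if_pos h]; exact td₁.σ_mem ℓ h
      · simp only [if_neg h]
        exact td₂.σ_mem ℓ ((Finset.mem_union.mp hℓ).resolve_left h)
    rel := fun ℓ hℓ M _ f hfin hpg => by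
      by_cases h : ℓ ∈ Th₁
      · simp only [if_pos h]; exact td₁.rel ℓ h M f hfin hpg
      · simp only [if_neg h]
        exact td₂.rel ℓ ((Finset.mem_union.mp hℓ).resolve_left h) M f hfin hpg
    gen := fun ℓ hℓ M _ f hfin hpg τ hτ => by
      by_cases h : ℓ ∈ Th₁
      · simp only [if_pos h]; exact td₁.gen ℓ h M f hfin hpg τ hτ
      · simp only [if_neg h]
        exact td₂.gen ℓ ((Finset.mem_union.mp hℓ).resolve_left h) M f hfin hpg τ hτ }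

theorem m59c_TameData.union_gφ_left {p : ℕ} {Th₁ Th₂ : Finset Nat.Primes}
    (td₁ : m59c_TameData p Th₁) (td₂ : m59c_TameData p Th₂) {ℓ : Nat.Primes} (h : ℓ ∈ Th₁) :
    (td₁.union td₂).gφ ℓ = td₁.gφ ℓ := by
  classical
  show (if ℓ ∈ Th₁ then td₁.gφ ℓ else td₂.gφ ℓ) = _
  rw [if_pos h]

theorem m59c_TameData.union_gσ_left {p : ℕ} {Th₁ Th₂ : Finset Nat.Primes}
    (td₁ : m59c_TameData p Th₁) (td₂ : m59c_TameData p Th₂) {ℓ : Nat.Primes} (h : ℓ ∈ Th₁) :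
    (td₁.union td₂).gσ ℓ = td₁.gσ ℓ := by
  classical
  show (if ℓ ∈ Th₁ then td₁.gσ ℓ else td₂.gσ ℓ) = _
  rw [if_pos h]

theorem m59c_TameData.union_gφ_right {p : ℕ} {Th₁ Th₂ : Finset Nat.Primes}
    (td₁ : m59c_TameData p Th₁) (td₂ : m59c_TameData p Th₂) {ℓ : Nat.Primes} (h : ℓ ∉ Th₁) :
    (td₁.union td₂).gφ ℓ = td₂.gφ ℓ := by
  classical
  show (if ℓ ∈ Th₁ then td₁.gφ ℓ else td₂.gφ ℓ) = _
  rw [if_neg h]

theorem m59c_TameData.union_gσ_right {p : ℕ} {Th₁ Th₂ : Finset Nat.Primes}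
    (td₁ : m59c_TameData p Th₁) (td₂ : m59c_TameData p Th₂) {ℓ : Nat.Primes} (h : ℓ ∉ Th₁) :
    (td₁.union td₂).gσ ℓ = td₂.gσ ℓ := by
  classical
  show (if ℓ ∈ Th₁ then td₁.gσ ℓ else td₂.gσ ℓ) = _
  rw [if_neg h]

/-- restriction of tame data to a subset. -/
def m59c_TameData.mono {p : ℕ} {Th Th' : Finset Nat.Primes} (td : m59c_TameData p Th)
    (h : Th' ⊆ Th) : m59c_TameData p Th' where
  gφ := td.gφ
  gσ := td.gσ
  φ_mem := fun ℓ hℓ => td.φ_mem ℓ (h hℓ)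
  φ_frob := fun ℓ hℓ => td.φ_frob ℓ (h hℓ)
  σ_mem := fun ℓ hℓ => td.σ_mem ℓ (h hℓ)
  rel := fun ℓ hℓ => td.rel ℓ (h hℓ)
  gen := fun ℓ hℓ => td.gen ℓ (h hℓ)

/-! ### general lemmas -/

section gen

variable {R : Type*} [CommRing R] {R' : Type*} [CommRing R']

theorem m59c_cyc_map (f : R →+* R') (B : Matrix (Fin 2) (Fin 2) R) (e : Fin 2 → R) :
    (m59c_cyc B e).map f = m59c_cyc (B.map f) (fun i => f (e i)) := by
  ext i j
  fin_cases i <;> fin_cases j <;> simp [m59c_cyc]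

theorem m59c_In_mul_right {I : Ideal R} {Y : Matrix (Fin 2) (Fin 2) R} (hY : twc_lr_In I Y)
    (Z : Matrix (Fin 2) (Fin 2) R) : twc_lr_In I (Y * Z) := fun i j => by
  rw [Matrix.mul_apply]
  exact Ideal.sum_mem _ fun k _ => I.mul_mem_right _ (hY i k)

end gen

section coord

variable {𝒪 : Type} [CommRing 𝒪] [IsLocalRing 𝒪] {rb : FramedResidual (ResidueField 𝒪)}

attribute [local instance] S53.dualNumberAlgebra

/-! ### primes where the images of the tame generators have no `ε`-part (hard primes) -/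

/-- **LocCob at a prime where `φ` kills the `ε`-parts of `r(σ_ℓ)`, `r(φ_ℓ)`**: the cocycle
vanishes on `D_ℓ`. -/
theorem m59c_locCob_noEps {p : ℕ} [CharP (ResidueField 𝒪) p] {Th : Finset Nat.Primes}
    (td : m59c_TameData p Th) (H : twc_HPair 𝒪 rb)
    (φ : H.T →ₐ[𝒪] DualNumber (ResidueField 𝒪)) (ℓ : Nat.Primes) (hℓ : ℓ ∈ Th)
    (hunr : ∀ τ ∈ (primeLocalPlace ℓ).inertiaSubgroupIn ℚ, rb τ = 1)
    (hσ : s56t_snd ((H.r (td.gσ ℓ)).map φ) = 0) (hφ : s56t_snd ((H.r (td.gφ ℓ)).map φ) = 0) :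
    s56t_coc (twc_frame H.r φ) ∈
      s56a_cobOn rb ((primeLocalPlace ℓ).decompositionSubgroup ℚ) := by
  refine ⟨0, Matrix.trace_zero _ _, fun τ hτ => ?_⟩
  rw [Matrix.mul_zero, Matrix.zero_mul, sub_zero]
  set f : GQ →* Matrix (Fin 2) (Fin 2) (DualNumber (ResidueField 𝒪)) :=
    (twc_frame H.r φ).toMonoidHom with hf
  have hfa : ∀ σ, f σ = twc_frame H.r φ σ := fun _ => rfl
  obtain ⟨L, hL, hlev⟩ := s56t_exists_level (twc_frame H.r φ)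
  have hpg : ∀ τ ∈ (primeLocalPlace ℓ).inertiaSubgroupIn ℚ, ∃ n : ℕ, f τ ^ p ^ n = 1 := by
    intro τ hτ
    refine ⟨1, ?_⟩
    rw [pow_one]
    refine twc_pow_char_eq_one p _ ?_
    rw [hfa, ← s56t_bar_apply, twc_frame_bar H.r H.lift, hunr τ hτ]
  have hmem := td.gen ℓ hℓ _ f ⟨L, hL, hlev⟩ hpg τ hτ
  have hle : Submonoid.closure ({f (td.gφ ℓ), f (td.gφ ℓ)⁻¹, f (td.gσ ℓ)} :
      Set (Matrix (Fin 2) (Fin 2) (DualNumber (ResidueField 𝒪)))) ≤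
      twc_noEps (k := ResidueField 𝒪) := by
    rw [Submonoid.closure_le]
    have h1 : s56t_snd (f (td.gφ ℓ)) = 0 := by
      rw [hfa, twc_frame_apply]
      exact hφ
    intro x hx
    rcases hx with rfl | rfl | rfl
    · exact h1
    · refine twc_noEps_of_mul_eq_one h1 ?_ ?_
      · rw [← map_mul, inv_mul_cancel, map_one]
      · rw [← map_mul, mul_inv_cancel, map_one]
    · show s56t_snd (f (td.gσ ℓ)) = 0
      rw [hfa, twc_frame_apply]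
      exact hσ
  have h2 : s56t_snd (twc_frame H.r φ τ) = 0 := hle hmem
  rw [s56t_coc, h2, Matrix.zero_mul]

/-- the `8` coordinates at the hard primes (for arbitrary generators `gσ`, `gφ`). -/
def m59c_coordH {Th : Finset Nat.Primes} (gσ gφ : Nat.Primes → GQ) (a : Nat.Primes → 𝒪)
    (H : twc_HPair 𝒪 rb) (x : ↥Th × Fin 2 × Fin 2 × Fin 2) : H.T :=
  (![H.r (gσ x.1) - 1,
    H.r (gφ x.1) - Matrix.scalar (Fin 2) (algebraMap 𝒪 H.T (a x.1))] x.2.1) x.2.2.1 x.2.2.2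

theorem m59c_coordH_mem {Th : Finset Nat.Primes} (gσ gφ : Nat.Primes → GQ)
    (a : Nat.Primes → 𝒪) (H : twc_HPair 𝒪 rb)
    (hσ : ∀ ℓ ∈ Th, rb (gσ ℓ) = 1)
    (hφ : ∀ ℓ ∈ Th, rb (gφ ℓ) = Matrix.scalar (Fin 2) (residue 𝒪 (a ℓ)))
    (x : ↥Th × Fin 2 × Fin 2 × Fin 2) : m59c_coordH gσ gφ a H x ∈ maximalIdeal H.T := by
  obtain ⟨ℓ, c, i, j⟩ := x
  fin_cases c
  · have h := twc_sub_mem_maximalIdeal H (gσ ℓ) 1
      (by rw [hσ ℓ ℓ.2, Matrix.map_one _ (map_zero _) (map_one _)]) i j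
    rw [Matrix.map_one _ (map_zero _) (map_one _)] at h
    exact h
  · have h := twc_sub_mem_maximalIdeal H (gφ ℓ) (Matrix.scalar (Fin 2) (a ℓ))
      (by
        rw [hφ ℓ ℓ.2]
        ext i j
        by_cases hij : i = j
        · subst hij; simp
        · simp [Matrix.scalar_apply, Matrix.diagonal_apply_ne _ hij]) i j
    have h2 : (Matrix.scalar (Fin 2) (a ℓ)).map (algebraMap 𝒪 H.T) =
        Matrix.scalar (Fin 2) (algebraMap 𝒪 H.T (a ℓ)) := by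
      ext i j
      by_cases hij : i = j
      · subst hij; simp
      · simp [Matrix.scalar_apply, Matrix.diagonal_apply_ne _ hij]
    rw [h2] at h
    exact h

/-- a map killing the `8` coordinates at `ℓ` kills the `ε`-parts of `r(σ_ℓ)`, `r(φ_ℓ)`. -/
theorem m59c_noEps_of_coordH {Th : Finset Nat.Primes} (gσ gφ : Nat.Primes → GQ)
    (a : Nat.Primes → 𝒪) (H : twc_HPair 𝒪 rb) (φ : H.T →ₐ[𝒪] DualNumber (ResidueField 𝒪))
    (h : ∀ x : ↥Th × Fin 2 × Fin 2 × Fin 2, φ (m59c_coordH gσ gφ a H x) = 0)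
    (ℓ : Nat.Primes) (hℓ : ℓ ∈ Th) :
    s56t_snd ((H.r (gσ ℓ)).map φ) = 0 ∧ s56t_snd ((H.r (gφ ℓ)).map φ) = 0 := by
  constructor
  · have e : (H.r (gσ ℓ)).map φ = 1 := by
      refine Matrix.ext fun i j => ?_
      have h1 := h (⟨ℓ, hℓ⟩, 0, i, j)
      have h2 : m59c_coordH gσ gφ a H (⟨ℓ, hℓ⟩, 0, i, j) = (H.r (gσ ℓ) - 1) i j := rfl
      rw [h2, Matrix.sub_apply, map_sub, sub_eq_zero] at h1
      rw [Matrix.map_apply, h1]
      by_cases hij : i = j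
      · subst hij; simp
      · simp [Matrix.one_apply_ne hij]
    rw [e, s56t_snd_one]
  · have e : (H.r (gφ ℓ)).map φ =
        Matrix.scalar (Fin 2) (algebraMap 𝒪 (DualNumber (ResidueField 𝒪)) (a ℓ)) := by
      refine Matrix.ext fun i j => ?_
      have h1 := h (⟨ℓ, hℓ⟩, 1, i, j)
      have h2 : m59c_coordH gσ gφ a H (⟨ℓ, hℓ⟩, 1, i, j) =
          (H.r (gφ ℓ) - Matrix.scalar (Fin 2) (algebraMap 𝒪 H.T (a ℓ))) i j := rfl
      rw [h2, Matrix.sub_apply, map_sub, sub_eq_zero] at h1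
      rw [Matrix.map_apply, h1]
      by_cases hij : i = j
      · subst hij; simp
      · simp [Matrix.scalar_apply, Matrix.diagonal_apply_ne _ hij]
    rw [e, S53.algebraMap_dualNumber_apply]
    exact twc_snd_scalar _

/-! ### the non-scalar primes -/

/-- the cyclic matrix `P_ℓ = (e | r(φ_ℓ) e)` of a Hecke pair. -/
def m59c_P (gφ : Nat.Primes → GQ) (e : Nat.Primes → Fin 2 → 𝒪) (H : twc_HPair 𝒪 rb)
    (ℓ : Nat.Primes) : Matrix (Fin 2) (Fin 2) H.T :=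
  m59c_cyc (H.r (gφ ℓ)) (fun i => algebraMap 𝒪 H.T (e ℓ i))

/-- the normalised nilpotent `N_ℓ = P_ℓ⁻¹ (r(σ_ℓ) - 1) P_ℓ`. -/
def m59c_N (gσ gφ : Nat.Primes → GQ) (e : Nat.Primes → Fin 2 → 𝒪) (H : twc_HPair 𝒪 rb)
    (ℓ : Nat.Primes) : Matrix (Fin 2) (Fin 2) H.T :=
  (m59c_P gφ e H ℓ)⁻¹ * (H.r (gσ ℓ) - 1) * m59c_P gφ e H ℓ

/-- the `3` coordinates `(tr r(φ_ℓ) - t₀ ℓ, N 0 0, N 0 1)` at the non-scalar primes. -/
def m59c_coordN {Th : Finset Nat.Primes} (gσ gφ : Nat.Primes → GQ) (t₀ : Nat.Primes → 𝒪)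
    (e : Nat.Primes → Fin 2 → 𝒪) (H : twc_HPair 𝒪 rb) (x : ↥Th × Fin 3) : H.T :=
  ![Matrix.trace (H.r (gφ x.1)) - algebraMap 𝒪 H.T (t₀ x.1),
    m59c_N gσ gφ e H x.1 0 0, m59c_N gσ gφ e H x.1 0 1] x.2

/-- `det P_ℓ` is a unit as soon as the residual cyclic matrix is invertible. -/
theorem m59c_P_det_isUnit (gφ : Nat.Primes → GQ) (e : Nat.Primes → Fin 2 → 𝒪)
    (H : twc_HPair 𝒪 rb) (ℓ : Nat.Primes)
    (hcyc : (m59c_cyc (rb (gφ ℓ)) (fun i => residue 𝒪 (e ℓ i))).det ≠ 0) :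
    IsUnit (m59c_P gφ e H ℓ).det := by
  by_contra hnu
  have h1 : (m59c_P gφ e H ℓ).det ∈ maximalIdeal H.T := (mem_maximalIdeal _).2 hnu
  rw [← residue_eq_zero_iff, RingHom.map_det, RingHom.mapMatrix_apply, m59c_P, m59c_cyc_map,
    H.lift (gφ ℓ)] at h1
  have h2 : (fun i => residue H.T (algebraMap 𝒪 H.T (e ℓ i))) =
      fun i => ResidueField.map (algebraMap 𝒪 H.T) (residue 𝒪 (e ℓ i)) := by
    funext i
    rw [ResidueField.map_residue]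
  rw [h2, ← m59c_cyc_map, ← RingHom.mapMatrix_apply, ← RingHom.map_det] at h1
  exact hcyc ((map_eq_zero _).1 h1)

theorem m59c_coordN_mem {Th : Finset Nat.Primes} (gσ gφ : Nat.Primes → GQ)
    (t₀ : Nat.Primes → 𝒪) (e : Nat.Primes → Fin 2 → 𝒪) (H : twc_HPair 𝒪 rb)
    (hσ : ∀ ℓ ∈ Th, rb (gσ ℓ) = 1)
    (ht : ∀ ℓ ∈ Th, residue 𝒪 (t₀ ℓ) = Matrix.trace (rb (gφ ℓ)))
    (x : ↥Th × Fin 3) : m59c_coordN gσ gφ t₀ e H x ∈ maximalIdeal H.T := by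
  obtain ⟨ℓ, c⟩ := x
  have hM : twc_lr_In (maximalIdeal H.T) (H.r (gσ ℓ) - 1) := by
    intro i j
    have h := twc_sub_mem_maximalIdeal H (gσ ℓ) 1
      (by rw [hσ ℓ ℓ.2, Matrix.map_one _ (map_zero _) (map_one _)]) i j
    rw [Matrix.map_one _ (map_zero _) (map_one _)] at h
    exact h
  have hN : twc_lr_In (maximalIdeal H.T) (m59c_N gσ gφ e H ℓ) :=
    m59c_In_mul_right (twc_lr_In.mul_left _ hM) _
  fin_cases c
  · show Matrix.trace (H.r (gφ ℓ)) - algebraMap 𝒪 H.T (t₀ ℓ) ∈ maximalIdeal H.T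
    rw [← residue_eq_zero_iff, map_sub, sub_eq_zero, ← ResidueField.map_residue, ht ℓ ℓ.2]
    have h1 := H.lift (gφ ℓ)
    have h2 := congrArg Matrix.trace h1
    rw [Matrix.trace_fin_two, Matrix.trace_fin_two] at h2
    simp only [Matrix.map_apply] at h2
    rw [Matrix.trace_fin_two, Matrix.trace_fin_two, map_add, map_add]
    exact h2
  · exact hN 0 0
  · exact hN 0 1

/-- **the relations of the normalised coordinates in `T`** at a non-scalar prime with unipotent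
inertia. -/
theorem m59c_coordN_rel {p : ℕ} [Fact p.Prime] {Th : Finset Nat.Primes}
    (td : m59c_TameData p Th) (t₀ : Nat.Primes → 𝒪) (e : Nat.Primes → Fin 2 → 𝒪)
    (H : twc_HPair 𝒪 rb) (ℓ : Nat.Primes) (hℓ : ℓ ∈ Th) (hℓp : (ℓ : ℕ) ≠ p)
    (hur : rb.toResidualGaloisRep.IsUnramifiedAt (ℓ : ℕ))
    (hcyc : (m59c_cyc (rb (td.gφ ℓ)) (fun i => residue 𝒪 (e ℓ i))).det ≠ 0)
    (hdet : H.r.toGaloisRepAdic.DetIsCyclotomic p)
    (hun : H.r.toGaloisRepAdic.IsUnipotentOnInertiaAt (ℓ : ℕ)) :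
    let t := algebraMap 𝒪 H.T (t₀ ℓ) + m59c_coordN td.gσ td.gφ t₀ e H (⟨ℓ, hℓ⟩, 0)
    let n₁ := m59c_coordN td.gσ td.gφ t₀ e H (⟨ℓ, hℓ⟩, 1)
    let n₂ := m59c_coordN td.gσ td.gφ t₀ e H (⟨ℓ, hℓ⟩, 2)
    m59c_N td.gσ td.gφ e H ℓ = m59c_normN n₁ n₂ ∧
      (m59c_P td.gφ e H ℓ)⁻¹ * H.r (td.gφ ℓ) * m59c_P td.gφ e H ℓ = m59c_normC (ℓ : ℕ) t ∧
      (1 + (((ℓ : ℕ) : ℕ) : H.T)) * n₁ = t * n₂ ∧
      (1 - (((ℓ : ℕ) : ℕ) : H.T)) * ((1 + (((ℓ : ℕ) : ℕ) : H.T)) * n₂ - t * n₁) = 0 ∧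
      n₁ ^ 2 = n₂ ^ 2 := by
  intro t n₁ n₂
  have hres := twc_l8_hres H.r rb _ H.lift ℓ hur
  have hu := m59c_P_det_isUnit td.gφ e H ℓ hcyc
  have hPi : (m59c_P td.gφ e H ℓ)⁻¹ * m59c_cyc (H.r (td.gφ ℓ))
      (fun i => algebraMap 𝒪 H.T (e ℓ i)) = 1 := Matrix.nonsing_inv_mul _ hu
  have h := m59c_lr_norm td H.r ℓ hℓ hℓp hres hdet hun
    (fun i => algebraMap 𝒪 H.T (e ℓ i)) (m59c_P td.gφ e H ℓ)⁻¹ hPi
  have ht : t = Matrix.trace (H.r (td.gφ ℓ)) := by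
    show algebraMap 𝒪 H.T (t₀ ℓ) +
      (Matrix.trace (H.r (td.gφ ℓ)) - algebraMap 𝒪 H.T (t₀ ℓ)) = _
    ring
  rw [ht]
  exact ⟨h.2.1, h.1, h.2.2⟩

/-- **LocCob for the normalised coordinates**: a map `T → k[ε]` killing the three coordinates at
`ℓ` has a cocycle which is a coboundary on `D_ℓ`. -/
theorem m59c_locCob_coordN {p : ℕ} [Fact p.Prime] [CharP (ResidueField 𝒪) p]
    {Th : Finset Nat.Primes}
    (td : m59c_TameData p Th) (t₀ : Nat.Primes → 𝒪) (e : Nat.Primes → Fin 2 → 𝒪)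
    (H : twc_HPair 𝒪 rb) (ℓ : Nat.Primes) (hℓ : ℓ ∈ Th) (hℓp : (ℓ : ℕ) ≠ p)
    (hur : rb.toResidualGaloisRep.IsUnramifiedAt (ℓ : ℕ))
    (hcyc : (m59c_cyc (rb (td.gφ ℓ)) (fun i => residue 𝒪 (e ℓ i))).det ≠ 0)
    (h2 : (2 : ResidueField 𝒪) ≠ 0)
    (hdet : H.r.toGaloisRepAdic.DetIsCyclotomic p)
    (hun : H.r.toGaloisRepAdic.IsUnipotentOnInertiaAt (ℓ : ℕ))
    (φ : H.T →ₐ[𝒪] DualNumber (ResidueField 𝒪))
    (hφ : ∀ c : Fin 3, φ (m59c_coordN td.gσ td.gφ t₀ e H (⟨ℓ, hℓ⟩, c)) = 0) :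
    s56t_coc (twc_frame H.r φ) ∈
      s56a_cobOn rb ((primeLocalPlace ℓ).decompositionSubgroup ℚ) := by
  haveI : NeZero p := ⟨(Fact.out : p.Prime).ne_zero⟩
  obtain ⟨hN, -, -⟩ := m59c_coordN_rel td t₀ e H ℓ hℓ hℓp hur hcyc hdet hun
  have hunr : ∀ τ ∈ (primeLocalPlace ℓ).inertiaSubgroupIn ℚ, rb τ = 1 := by
    intro τ hτ
    have h1 := hur (primeLocalPlace ℓ) (s56ld_liesOver ℓ) τ hτ
    have h3 : Matrix.toLin' (rb τ) =
        Matrix.toLin' (1 : Matrix (Fin 2) (Fin 2) (ResidueField 𝒪)) := by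
      rw [Matrix.toLin'_one]; exact h1
    exact Matrix.toLin'.injective h3
  have hu := m59c_P_det_isUnit td.gφ e H ℓ hcyc
  set P := m59c_P td.gφ e H ℓ with hP
  have hPiP : P⁻¹ * P = 1 := Matrix.nonsing_inv_mul _ hu
  have hPPi : P * P⁻¹ = 1 := Matrix.mul_nonsing_inv _ hu
  set Fm : Matrix (Fin 2) (Fin 2) H.T →+* Matrix (Fin 2) (Fin 2) (DualNumber (ResidueField 𝒪)) :=
    (φ : H.T →+* DualNumber (ResidueField 𝒪)).mapMatrix with hFm
  have hFa : ∀ X : Matrix (Fin 2) (Fin 2) H.T, Fm X = X.map φ := fun _ => rfl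
  -- `φ` kills `N`
  have hN0 : Fm (m59c_N td.gσ td.gφ e H ℓ) = 0 := by
    rw [hN, hFa]
    refine Matrix.ext fun i j => ?_
    fin_cases i <;> fin_cases j <;>
      simp [m59c_normN, hφ 1, hφ 2]
  -- hence `φ` kills `Σ - 1`
  have hM : H.r (td.gσ ℓ) - 1 = P * m59c_N td.gσ td.gφ e H ℓ * P⁻¹ := by
    show _ = P * (P⁻¹ * (H.r (td.gσ ℓ) - 1) * P) * P⁻¹
    calc H.r (td.gσ ℓ) - 1 = (P * P⁻¹) * (H.r (td.gσ ℓ) - 1) * (P * P⁻¹) := by
          rw [hPPi, Matrix.one_mul, Matrix.mul_one]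
      _ = P * (P⁻¹ * (H.r (td.gσ ℓ) - 1) * P) * P⁻¹ := by simp only [Matrix.mul_assoc]
  have hσ1 : (H.r (td.gσ ℓ)).map φ = 1 := by
    have h3 : Fm (H.r (td.gσ ℓ) - 1) = 0 := by
      rw [hM, map_mul, map_mul, hN0, mul_zero, zero_mul]
    rw [map_sub, map_one, sub_eq_zero] at h3
    exact h3
  have htr : (φ (Matrix.trace (H.r (td.gφ ℓ)))).snd = 0 := by
    have h3 := hφ 0
    have h4 : m59c_coordN td.gσ td.gφ t₀ e H (⟨ℓ, hℓ⟩, 0) =
        Matrix.trace (H.r (td.gφ ℓ)) - algebraMap 𝒪 H.T (t₀ ℓ) := rfl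
    rw [h4, map_sub, sub_eq_zero, AlgHom.commutes] at h3
    rw [h3, S53.algebraMap_dualNumber_apply]
    simp [TrivSqZeroExt.algebraMap_eq_inl]
  exact m59c_locCob_nonscalar td H hdet φ ℓ hℓ hunr _ hcyc h2 hσ1 htr

end coord

end

end Fermat.Agent.M59
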