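import Mathlib
import Fermat.Agent.M59.C.Coord
import Fermat.Agent.M59.Loc.Ring

/-!
# Project M59 (S59), block [C-gen], cell C/KillJ (prefix `m59c_`): the presentation kills `J`

Glue between block [C-gen] (the coordinate families `m59c_coordH`, `m59c_coordN` of
`M59/C/Coord.lean`) and block [B] (the concrete patched ring `m59b_R = m59b_P ⧸ m59b_J` of
`M59/Loc/Ring.lean`): an `𝒪`-algebra map `γ : m59b_P 𝒪 T8 Tn κ → A` which sends the variables to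
the coordinates kills `m59b_J`.  Twin of `twc_l8_Junip_le_ker` (TW/Def/LocRel8.lean).

* `m59c_rel8_iff`, `m59c_reln_iff` : a ring hom kills the generators at one prime iff the matrix
  identities resp. the three normalised relations hold in the target.
* `m59c_det_eq_zero_of_sq` : `tr M = 0`, `M * M = 0` give `det M = 0` (`2 × 2`).
* `m59c_J_le_ker_abs` : the abstract statement, for ARBITRARY matrices `Sg t`, `Ph t` over `A`
  (so conjugated coordinates `g⁻¹ (r(σ) - 1) g`, `g⁻¹ (r(φ) - a) g` are covered) and arbitrary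
  elements `tn l`, `n1 l`, `n2 l`.
* `m59c_unip_conj` : the matrix identities are invariant under conjugation.
* `m59c_coordHg` : the `8` coordinates at the hard primes in a frame `g ℓ` (constant matrices over
  `𝒪` with `gi ℓ * g ℓ = 1`); `m59c_coordHg_mem`, `m59c_noEps_of_coordHg` (twins of
  `m59c_coordH_mem`, `m59c_noEps_of_coordH`).
* `m59c_J_le_ker` : the concrete statement for a Hecke pair `H` with tame data `td`.
-/

set_option autoImplicit false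
set_option linter.unusedSectionVars false
set_option linter.style.haveILetI false

open IsLocalRing ExtCitation
open Fermat.Agent.S53 Fermat.Agent.S56 Fermat.Agent.TW

namespace Fermat.Agent.M59

noncomputable section

local notation "GQ" => (AlgebraicClosure ℚ ≃ₐ[ℚ] AlgebraicClosure ℚ)

/-! ### pure algebra -/

section alg

variable {B : Type*} [CommRing B]

/-- `tr M = 0` and `M * M = 0` give `det M = 0` for a `2 × 2` matrix. -/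
theorem m59c_det_eq_zero_of_sq (M : Matrix (Fin 2) (Fin 2) B) (htr : Matrix.trace M = 0)
    (hsq : M * M = 0) : M.det = 0 := by
  rw [Matrix.trace_fin_two] at htr
  have h00 := congrFun (congrFun hsq 0) 0
  rw [Matrix.mul_apply, Fin.sum_univ_two, Matrix.zero_apply] at h00
  rw [Matrix.det_fin_two]
  have h11 : M 1 1 = -M 0 0 := by linear_combination htr
  rw [h11]
  linear_combination -h00

/-- the matrix identities of the unipotent system are invariant under conjugation. -/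
theorem m59c_unip_conj (g gi M Ph : Matrix (Fin 2) (Fin 2) B) (hgi : gi * g = 1) (l : B)
    (h : Matrix.trace M = 0 ∧ M * M = 0 ∧ Ph * M = l • (M * Ph) ∧ Ph.det = l) :
    Matrix.trace (gi * M * g) = 0 ∧ (gi * M * g) * (gi * M * g) = 0 ∧
      (gi * Ph * g) * (gi * M * g) = l • ((gi * M * g) * (gi * Ph * g)) ∧
      (gi * Ph * g).det = l := by
  obtain ⟨h1, h2, h3, h4⟩ := h
  have hg : g * gi = 1 := mul_eq_one_comm.mp hgi
  have hmid : ∀ X Y : Matrix (Fin 2) (Fin 2) B, (gi * X * g) * (gi * Y * g) = gi * (X * Y) * g := by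
    intro X Y
    calc (gi * X * g) * (gi * Y * g) = gi * X * (g * gi) * Y * g := by
          simp only [Matrix.mul_assoc]
      _ = gi * (X * Y) * g := by rw [hg, Matrix.mul_one]; simp only [Matrix.mul_assoc]
  refine ⟨?_, ?_, ?_, ?_⟩
  · rw [Matrix.trace_mul_cycle, hg, Matrix.one_mul, h1]
  · rw [hmid, h2, Matrix.mul_zero, Matrix.zero_mul]
  · rw [hmid, hmid, h3, Matrix.mul_smul, Matrix.smul_mul]
  · have hd : gi.det * g.det = 1 := by rw [← Matrix.det_mul, hgi, Matrix.det_one]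
    rw [Matrix.det_mul, Matrix.det_mul, h4]
    linear_combination l * hd

end alg

/-! ### killing the generators at one prime -/

section iff

variable {O : Type} [CommRing O] {T8 Tn κ : Type} {A : Type*} [CommRing A]

/-- a ring hom kills the relations at the scalar-hard prime `t` iff the matrix identities hold. -/
theorem m59c_rel8_iff (f : m59b_P O T8 Tn κ →+* A) (a : T8 → O) (l8 : T8 → ℕ) (t : T8) :
    (∀ x ∈ m59b_rel8 O κ a l8 t, f x = 0) ↔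
      (Matrix.trace (f.mapMatrix (m59b_N8 O κ t)) = 0 ∧ (f.mapMatrix (m59b_N8 O κ t)).det = 0 ∧
        f.mapMatrix (m59b_Phi8 O κ a t) * f.mapMatrix (m59b_N8 O κ t) =
          ((l8 t : ℕ) : A) • (f.mapMatrix (m59b_N8 O κ t) * f.mapMatrix (m59b_Phi8 O κ a t)) ∧
        (f.mapMatrix (m59b_Phi8 O κ a t)).det = ((l8 t : ℕ) : A)) := by
  have hsm : f.mapMatrix (((l8 t : ℕ) : m59b_P O T8 Tn κ) •
      (m59b_N8 O κ t * m59b_Phi8 O κ a t)) =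
      ((l8 t : ℕ) : A) • (f.mapMatrix (m59b_N8 O κ t) * f.mapMatrix (m59b_Phi8 O κ a t)) := by
    have h1 : ∀ (c : m59b_P O T8 Tn κ) (X : Matrix (Fin 2) (Fin 2) (m59b_P O T8 Tn κ)),
        f.mapMatrix (c • X) = f c • f.mapMatrix X := by
      intro c X
      ext i j
      simp only [RingHom.mapMatrix_apply, Matrix.map_apply, Matrix.smul_apply, smul_eq_mul,
        map_mul]
    rw [h1, map_mul, map_natCast]
  have htr : f (Matrix.trace (m59b_N8 O κ t)) = Matrix.trace (f.mapMatrix (m59b_N8 O κ t)) := by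
    rw [Matrix.trace_fin_two, Matrix.trace_fin_two, map_add]
    rfl
  unfold m59b_rel8
  simp only [Set.mem_union, Set.mem_insert_iff, Set.mem_singleton_iff, or_imp, forall_and,
    forall_eq, twb_r8_entries_iff, map_sub, map_mul, hsm, htr, RingHom.map_det, sub_eq_zero,
    map_natCast]
  tauto

/-- a ring hom kills the relations at the non-scalar prime `l` iff the three normalised relations
hold. -/
theorem m59c_reln_iff (f : m59b_P O T8 Tn κ →+* A) (t0 : Tn → O) (ln : Tn → ℕ) (l : Tn) :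
    (∀ x ∈ m59b_reln O T8 κ t0 ln l, f x = 0) ↔
      ((1 + ((ln l : ℕ) : A)) * f (m59b_n1 O T8 κ l) =
          f (m59b_tn O T8 κ t0 l) * f (m59b_n2 O T8 κ l) ∧
        (1 - ((ln l : ℕ) : A)) * ((1 + ((ln l : ℕ) : A)) * f (m59b_n2 O T8 κ l) -
          f (m59b_tn O T8 κ t0 l) * f (m59b_n1 O T8 κ l)) = 0 ∧
        f (m59b_n1 O T8 κ l) ^ 2 = f (m59b_n2 O T8 κ l) ^ 2) := by
  unfold m59b_reln
  simp only [Set.mem_insert_iff, Set.mem_singleton_iff, or_imp, forall_and, forall_eq, map_sub,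
    map_mul, map_add, map_one, map_natCast, map_pow, sub_eq_zero]

end iff

/-! ### the abstract statement -/

section abs

variable {𝒪 : Type} [CommRing 𝒪] {T8 Tn κ : Type} {A : Type} [CommRing A] [Algebra 𝒪 A]

/-- `γ` maps the universal `N_t` to `Sg t - 1`. -/
theorem m59c_mapN8 (γ : m59b_P 𝒪 T8 Tn κ →ₐ[𝒪] A) (Sg : T8 → Matrix (Fin 2) (Fin 2) A)
    (hσ : ∀ (t : T8) (i j : Fin 2),
      γ (MvPowerSeries.X (Sum.inl (t, 0, i, j))) = (Sg t - 1) i j) (t : T8) :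
    γ.toRingHom.mapMatrix (m59b_N8 𝒪 κ t) = Sg t - 1 := by
  ext i j
  rw [RingHom.mapMatrix_apply, Matrix.map_apply, m59b_N8, Matrix.of_apply]
  exact hσ t i j

/-- `γ` maps the universal `Φ_t` to `Ph t` (`twc_l8_mapPhi` without the locality of `A`). -/
theorem m59c_mapPhi8 (γ : m59b_P 𝒪 T8 Tn κ →ₐ[𝒪] A) (a : T8 → 𝒪)
    (Ph : T8 → Matrix (Fin 2) (Fin 2) A)
    (hφ : ∀ (t : T8) (i j : Fin 2),
      γ (MvPowerSeries.X (Sum.inl (t, 1, i, j))) =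
        (Ph t - Matrix.scalar (Fin 2) (algebraMap 𝒪 A (a t))) i j) (t : T8) :
    γ.toRingHom.mapMatrix (m59b_Phi8 𝒪 κ a t) = Ph t := by
  ext i j
  rw [RingHom.mapMatrix_apply, Matrix.map_apply, m59b_Phi8, twb_r8_Phi, Matrix.add_apply, map_add,
    Matrix.of_apply]
  have h := hφ t i j
  rw [Matrix.sub_apply] at h
  have hC : γ (MvPowerSeries.C (a t)) = algebraMap 𝒪 A (a t) := by
    have : (MvPowerSeries.C (a t) : m59b_P 𝒪 T8 Tn κ) =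
        algebraMap 𝒪 (m59b_P 𝒪 T8 Tn κ) (a t) := rfl
    rw [this, AlgHom.commutes]
  have h1 : γ.toRingHom ((Matrix.scalar (Fin 2) (MvPowerSeries.C (a t)) :
      Matrix (Fin 2) (Fin 2) (m59b_P 𝒪 T8 Tn κ)) i j)
      = (Matrix.scalar (Fin 2) (algebraMap 𝒪 A (a t)) : Matrix (Fin 2) (Fin 2) A) i j := by
    by_cases hij : i = j
    · subst hij
      simp only [Matrix.scalar_apply, Matrix.diagonal_apply_eq]
      exact hC
    · simp only [Matrix.scalar_apply, Matrix.diagonal_apply_ne _ hij]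
      exact map_zero _
  rw [h1]
  show _ + γ _ = _
  rw [h]; ring

/-- **`J ≤ ker γ`, abstract form.** -/
theorem m59c_J_le_ker_abs (γ : m59b_P 𝒪 T8 Tn κ →ₐ[𝒪] A)
    (a : T8 → 𝒪) (l8 : T8 → ℕ) (t0 : Tn → 𝒪) (ln : Tn → ℕ)
    (Sg Ph : T8 → Matrix (Fin 2) (Fin 2) A)
    (hσ : ∀ (t : T8) (i j : Fin 2),
      γ (MvPowerSeries.X (Sum.inl (t, 0, i, j))) = (Sg t - 1) i j)
    (hφ : ∀ (t : T8) (i j : Fin 2),
      γ (MvPowerSeries.X (Sum.inl (t, 1, i, j))) =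
        (Ph t - Matrix.scalar (Fin 2) (algebraMap 𝒪 A (a t))) i j)
    (h8 : ∀ t : T8, Matrix.trace (Sg t - 1) = 0 ∧ (Sg t - 1) * (Sg t - 1) = 0 ∧
      Ph t * (Sg t - 1) = ((l8 t : ℕ) : A) • ((Sg t - 1) * Ph t) ∧
      (Ph t).det = ((l8 t : ℕ) : A))
    (tn n1 n2 : Tn → A)
    (h0 : ∀ l : Tn, γ (MvPowerSeries.X (Sum.inr (Sum.inl (l, 0)))) =
      tn l - algebraMap 𝒪 A (t0 l))
    (h1 : ∀ l : Tn, γ (MvPowerSeries.X (Sum.inr (Sum.inl (l, 1)))) = n1 l)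
    (h2 : ∀ l : Tn, γ (MvPowerSeries.X (Sum.inr (Sum.inl (l, 2)))) = n2 l)
    (hn : ∀ l : Tn, (1 + ((ln l : ℕ) : A)) * n1 l = tn l * n2 l ∧
      (1 - ((ln l : ℕ) : A)) * ((1 + ((ln l : ℕ) : A)) * n2 l - tn l * n1 l) = 0 ∧
      n1 l ^ 2 = n2 l ^ 2) :
    m59b_J 𝒪 κ a l8 t0 ln ≤ RingHom.ker γ.toRingHom := by
  rw [m59b_J, Ideal.span_le]
  intro x hx
  rw [SetLike.mem_coe, RingHom.mem_ker]
  rcases hx with hx | hx
  · obtain ⟨t, hxt⟩ := Set.mem_iUnion.mp hx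
    have hN := m59c_mapN8 γ Sg hσ t
    have hP : γ.toRingHom.mapMatrix (m59b_Phi8 𝒪 κ a t) = Ph t :=
      m59c_mapPhi8 γ a Ph hφ t
    refine (m59c_rel8_iff γ.toRingHom a l8 t).2 ?_ x hxt
    rw [hN, hP]
    obtain ⟨e1, e2, e3, e4⟩ := h8 t
    exact ⟨e1, m59c_det_eq_zero_of_sq _ e1 e2, e3, e4⟩
  · obtain ⟨l, hxl⟩ := Set.mem_iUnion.mp hx
    refine (m59c_reln_iff γ.toRingHom t0 ln l).2 ?_ x hxl
    have ht : γ.toRingHom (m59b_tn 𝒪 T8 κ t0 l) = tn l := by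
      show γ (MvPowerSeries.C (t0 l) + MvPowerSeries.X (Sum.inr (Sum.inl (l, 0)))) = tn l
      have hC : γ (MvPowerSeries.C (t0 l)) = algebraMap 𝒪 A (t0 l) := by
        have : (MvPowerSeries.C (t0 l) : m59b_P 𝒪 T8 Tn κ) =
            algebraMap 𝒪 (m59b_P 𝒪 T8 Tn κ) (t0 l) := rfl
        rw [this, AlgHom.commutes]
      rw [map_add, hC, h0 l]
      ring
    have e1 : γ.toRingHom (m59b_n1 𝒪 T8 κ l) = n1 l := h1 l
    have e2 : γ.toRingHom (m59b_n2 𝒪 T8 κ l) = n2 l := h2 l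
    rw [ht, e1, e2]
    exact hn l

end abs

/-! ### the conjugated hard coordinates -/

section coord

variable {𝒪 : Type} [CommRing 𝒪] [IsLocalRing 𝒪] {rb : FramedResidual (ResidueField 𝒪)}

attribute [local instance] S53.dualNumberAlgebra

/-- the `8` coordinates at the hard primes in the frames `g ℓ` (constant matrices over `𝒪`;
`gi ℓ` is the inverse of `g ℓ`): the entries of `gi (r(σ_ℓ) - 1) g` and `gi (r(φ_ℓ) - a ℓ) g`. -/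
def m59c_coordHg {Th : Finset Nat.Primes} (gσ gφ : Nat.Primes → GQ) (a : Nat.Primes → 𝒪)
    (g gi : Nat.Primes → Matrix (Fin 2) (Fin 2) 𝒪)
    (H : twc_HPair 𝒪 rb) (x : ↥Th × Fin 2 × Fin 2 × Fin 2) : H.T :=
  (![(gi x.1).map (algebraMap 𝒪 H.T) * (H.r (gσ x.1) - 1) * (g x.1).map (algebraMap 𝒪 H.T),
    (gi x.1).map (algebraMap 𝒪 H.T) *
      (H.r (gφ x.1) - Matrix.scalar (Fin 2) (algebraMap 𝒪 H.T (a x.1))) *
      (g x.1).map (algebraMap 𝒪 H.T)] x.2.1) x.2.2.1 x.2.2.2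

theorem m59c_coordHg_mem {Th : Finset Nat.Primes} (gσ gφ : Nat.Primes → GQ)
    (a : Nat.Primes → 𝒪) (g gi : Nat.Primes → Matrix (Fin 2) (Fin 2) 𝒪) (H : twc_HPair 𝒪 rb)
    (hσ : ∀ ℓ ∈ Th, rb (gσ ℓ) = 1)
    (hφ : ∀ ℓ ∈ Th, rb (gφ ℓ) = Matrix.scalar (Fin 2) (residue 𝒪 (a ℓ)))
    (x : ↥Th × Fin 2 × Fin 2 × Fin 2) :
    m59c_coordHg gσ gφ a g gi H x ∈ maximalIdeal H.T := by
  obtain ⟨ℓ, c, i, j⟩ := x
  have h0 : twc_lr_In (maximalIdeal H.T) (H.r (gσ ℓ) - 1) := fun i j =>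
    m59c_coordH_mem gσ gφ a H hσ hφ (ℓ, 0, i, j)
  have h1 : twc_lr_In (maximalIdeal H.T)
      (H.r (gφ ℓ) - Matrix.scalar (Fin 2) (algebraMap 𝒪 H.T (a ℓ))) := fun i j =>
    m59c_coordH_mem gσ gφ a H hσ hφ (ℓ, 1, i, j)
  fin_cases c
  · exact m59c_In_mul_right (twc_lr_In.mul_left _ h0) _ i j
  · exact m59c_In_mul_right (twc_lr_In.mul_left _ h1) _ i j

/-- a map killing the `8` conjugated coordinates at `ℓ` kills the `ε`-parts of `r(σ_ℓ)`,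
`r(φ_ℓ)`. -/
theorem m59c_noEps_of_coordHg {Th : Finset Nat.Primes} (gσ gφ : Nat.Primes → GQ)
    (a : Nat.Primes → 𝒪) (g gi : Nat.Primes → Matrix (Fin 2) (Fin 2) 𝒪)
    (hgi : ∀ ℓ ∈ Th, gi ℓ * g ℓ = 1)
    (H : twc_HPair 𝒪 rb) (φ : H.T →ₐ[𝒪] DualNumber (ResidueField 𝒪))
    (h : ∀ x : ↥Th × Fin 2 × Fin 2 × Fin 2, φ (m59c_coordHg gσ gφ a g gi H x) = 0)
    (ℓ : Nat.Primes) (hℓ : ℓ ∈ Th) :
    s56t_snd ((H.r (gσ ℓ)).map φ) = 0 ∧ s56t_snd ((H.r (gφ ℓ)).map φ) = 0 := by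
  refine m59c_noEps_of_coordH (Th := Th) gσ gφ a H φ ?_ ℓ hℓ
  rintro ⟨⟨ℓ', hℓ'⟩, c, i, j⟩
  set G : Matrix (Fin 2) (Fin 2) H.T := (g ℓ').map (algebraMap 𝒪 H.T) with hG
  set Gi : Matrix (Fin 2) (Fin 2) H.T := (gi ℓ').map (algebraMap 𝒪 H.T) with hGi
  have hGiG : Gi * G = 1 := by
    rw [hGi, hG, ← RingHom.mapMatrix_apply, ← RingHom.mapMatrix_apply, ← map_mul, hgi ℓ' hℓ',
      map_one]
  have hGGi : G * Gi = 1 := mul_eq_one_comm.mp hGiG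
  set Fm : Matrix (Fin 2) (Fin 2) H.T →+* Matrix (Fin 2) (Fin 2) (DualNumber (ResidueField 𝒪)) :=
    (φ : H.T →+* DualNumber (ResidueField 𝒪)).mapMatrix with hFm
  have hback : ∀ X : Matrix (Fin 2) (Fin 2) H.T, Fm (Gi * X * G) = 0 → Fm X = 0 := by
    intro X hX
    have e : X = G * (Gi * X * G) * Gi := by
      calc X = (G * Gi) * X * (G * Gi) := by rw [hGGi, Matrix.one_mul, Matrix.mul_one]
        _ = G * (Gi * X * G) * Gi := by simp only [Matrix.mul_assoc]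
    rw [e, map_mul, map_mul, hX, mul_zero, zero_mul]
  fin_cases c
  · have k0 : Fm (H.r (gσ ℓ') - 1) = 0 := by
      refine hback _ (Matrix.ext fun i j => ?_)
      exact h (⟨ℓ', hℓ'⟩, 0, i, j)
    exact congrFun (congrFun k0 i) j
  · have k1 : Fm (H.r (gφ ℓ') - Matrix.scalar (Fin 2) (algebraMap 𝒪 H.T (a ℓ'))) = 0 := by
      refine hback _ (Matrix.ext fun i j => ?_)
      exact h (⟨ℓ', hℓ'⟩, 1, i, j)
    exact congrFun (congrFun k1 i) j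

end coord

/-! ### the concrete statements -/

section rep

variable {𝒪 : Type} [CommRing 𝒪] {A : Type} [CommRing A] [IsLocalRing A] [IsNoetherianRing A]
  [Algebra 𝒪 A] {κ : Type}

/-- **`J ≤ ker γ` for a framed representation** `r` over a noetherian local `𝒪`-algebra `A` with
cyclotomic determinant and unipotent inertia at the primes of `T8 ∪ Tn`: `γ` sends the `8`
variables at `ℓ ∈ T8` to the entries of `Gi (r(σ_ℓ) - 1) G`, `Gi (r(φ_ℓ) - a ℓ) G` (any frame `G ℓ`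
over `A`) and the `3` variables at `ℓ ∈ Tn` to `tr r(φ_ℓ) - t₀ ℓ`, `N 0 0`, `N 0 1`,
`N = Pi (r(σ_ℓ) - 1) P`, `P = (e | r(φ_ℓ) e)`, `Pi P = 1`. -/
theorem m59c_J_le_ker_rep {p : ℕ} [Fact p.Prime] {Th : Finset Nat.Primes}
    (td : m59c_TameData p Th) {T8 Tn : Finset Nat.Primes} (h8 : T8 ⊆ Th) (hn : Tn ⊆ Th)
    (r : FramedRep A)
    (hℓp : ∀ ℓ ∈ Th, (ℓ : ℕ) ≠ p)
    (hres : ∀ ℓ ∈ Th, ∀ τ ∈ (primeLocalPlace ℓ).inertiaSubgroupIn ℚ,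
      twc_lr_In (maximalIdeal A) (r τ - 1))
    (hdet : r.toGaloisRepAdic.DetIsCyclotomic p)
    (hun : ∀ ℓ ∈ Th, r.toGaloisRepAdic.IsUnipotentOnInertiaAt (ℓ : ℕ))
    (a : Nat.Primes → 𝒪) (G Gi : Nat.Primes → Matrix (Fin 2) (Fin 2) A)
    (hG : ∀ ℓ ∈ T8, Gi ℓ * G ℓ = 1)
    (t₀ : Nat.Primes → 𝒪) (e : Nat.Primes → Fin 2 → A)
    (Pi : Nat.Primes → Matrix (Fin 2) (Fin 2) A)
    (hPi : ∀ ℓ ∈ Tn, Pi ℓ * m59c_cyc (r (td.gφ ℓ)) (e ℓ) = 1)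
    (γ : m59b_P 𝒪 (↥T8) (↥Tn) κ →ₐ[𝒪] A)
    (hσ : ∀ (ℓ : ↥T8) (i j : Fin 2), γ (MvPowerSeries.X (Sum.inl (ℓ, 0, i, j))) =
      (Gi ℓ * (r (td.gσ ℓ) - 1) * G ℓ) i j)
    (hφ : ∀ (ℓ : ↥T8) (i j : Fin 2), γ (MvPowerSeries.X (Sum.inl (ℓ, 1, i, j))) =
      (Gi ℓ * (r (td.gφ ℓ) - Matrix.scalar (Fin 2) (algebraMap 𝒪 A (a ℓ))) * G ℓ) i j)
    (h0 : ∀ ℓ : ↥Tn, γ (MvPowerSeries.X (Sum.inr (Sum.inl (ℓ, 0)))) =
      Matrix.trace (r (td.gφ ℓ)) - algebraMap 𝒪 A (t₀ ℓ))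
    (h1 : ∀ ℓ : ↥Tn, γ (MvPowerSeries.X (Sum.inr (Sum.inl (ℓ, 1)))) =
      (Pi ℓ * (r (td.gσ ℓ) - 1) * m59c_cyc (r (td.gφ ℓ)) (e ℓ)) 0 0)
    (h2 : ∀ ℓ : ↥Tn, γ (MvPowerSeries.X (Sum.inr (Sum.inl (ℓ, 2)))) =
      (Pi ℓ * (r (td.gσ ℓ) - 1) * m59c_cyc (r (td.gφ ℓ)) (e ℓ)) 0 1) :
    m59b_J 𝒪 κ (fun ℓ : ↥T8 => a ℓ) (fun ℓ : ↥T8 => ((ℓ : Nat.Primes) : ℕ))
      (fun ℓ : ↥Tn => t₀ ℓ) (fun ℓ : ↥Tn => ((ℓ : Nat.Primes) : ℕ)) ≤
      RingHom.ker γ.toRingHom := by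
  have hsc : ∀ (ℓ : ↥T8) (X : Matrix (Fin 2) (Fin 2) A) (c : A),
      Gi ℓ * (X - Matrix.scalar (Fin 2) c) * G ℓ =
        Gi ℓ * X * G ℓ - Matrix.scalar (Fin 2) c := by
    intro ℓ X c
    have hc : Gi ℓ * Matrix.scalar (Fin 2) c * G ℓ = Matrix.scalar (Fin 2) c := by
      rw [← (Matrix.scalar_commute c (fun x => Commute.all c x) (Gi (ℓ : Nat.Primes))).eq,
        Matrix.mul_assoc, hG ℓ ℓ.2, Matrix.mul_one]
    rw [Matrix.mul_sub, Matrix.sub_mul, hc]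
  refine m59c_J_le_ker_abs γ _ _ _ _
    (fun ℓ : ↥T8 => Gi ℓ * r (td.gσ ℓ) * G ℓ) (fun ℓ : ↥T8 => Gi ℓ * r (td.gφ ℓ) * G ℓ)
    ?_ ?_ ?_
    (fun ℓ : ↥Tn => Matrix.trace (r (td.gφ ℓ)))
    (fun ℓ : ↥Tn => (Pi ℓ * (r (td.gσ ℓ) - 1) * m59c_cyc (r (td.gφ ℓ)) (e ℓ)) 0 0)
    (fun ℓ : ↥Tn => (Pi ℓ * (r (td.gσ ℓ) - 1) * m59c_cyc (r (td.gφ ℓ)) (e ℓ)) 0 1)
    h0 h1 h2 ?_
  · intro ℓ i j
    rw [hσ ℓ i j]
    have h := hsc ℓ (r (td.gσ ℓ)) 1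
    rw [map_one] at h
    rw [h]
  · intro ℓ i j
    rw [hφ ℓ i j, hsc]
  · intro ℓ
    have h := hsc ℓ (r (td.gσ ℓ)) 1
    rw [map_one] at h
    rw [← h]
    have hu := m59c_lr_unip td hdet.1 r ℓ (h8 ℓ.2) (hres ℓ (h8 ℓ.2)) (hun ℓ (h8 ℓ.2))
    exact m59c_unip_conj (G ℓ) (Gi ℓ) (r (td.gσ ℓ) - 1) (r (td.gφ ℓ)) (hG ℓ ℓ.2) _
      ⟨hu.1, hu.2.1, hu.2.2, m59c_lr_det_phi td r ℓ (h8 ℓ.2) (hℓp ℓ (h8 ℓ.2)) hdet⟩
  · intro ℓ
    have h := m59c_lr_norm td r ℓ (hn ℓ.2) (hℓp ℓ (hn ℓ.2)) (hres ℓ (hn ℓ.2)) hdet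
      (hun ℓ (hn ℓ.2)) (e ℓ) (Pi ℓ) (hPi ℓ ℓ.2)
    exact h.2.2

end rep

section pair

variable {𝒪 : Type} [CommRing 𝒪] [IsLocalRing 𝒪] {rb : FramedResidual (ResidueField 𝒪)}
  {κ : Type}

/-- **`J ≤ ker γ` for a Hecke pair**: `γ` sends the variables of `m59b_P` to the coordinates
`m59c_coordHg` (hard primes `T8`, frames `g ℓ` over `𝒪`) and `m59c_coordN` (non-scalar primes
`Tn`). -/
theorem m59c_J_le_ker {p : ℕ} [Fact p.Prime] {Th : Finset Nat.Primes}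
    (td : m59c_TameData p Th) {T8 Tn : Finset Nat.Primes} (h8 : T8 ⊆ Th) (hn : Tn ⊆ Th)
    (H : twc_HPair 𝒪 rb)
    (hℓp : ∀ ℓ ∈ Th, (ℓ : ℕ) ≠ p)
    (hur : ∀ ℓ ∈ Th, rb.toResidualGaloisRep.IsUnramifiedAt ((ℓ : Nat.Primes) : ℕ))
    (hdet : H.r.toGaloisRepAdic.DetIsCyclotomic p)
    (hun : ∀ ℓ ∈ Th, H.r.toGaloisRepAdic.IsUnipotentOnInertiaAt ((ℓ : Nat.Primes) : ℕ))
    (a : Nat.Primes → 𝒪) (g gi : Nat.Primes → Matrix (Fin 2) (Fin 2) 𝒪)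
    (hgi : ∀ ℓ ∈ T8, gi ℓ * g ℓ = 1)
    (t₀ : Nat.Primes → 𝒪) (e : Nat.Primes → Fin 2 → 𝒪)
    (hcyc : ∀ ℓ ∈ Tn, (m59c_cyc (rb (td.gφ ℓ)) (fun i => residue 𝒪 (e ℓ i))).det ≠ 0)
    (γ : m59b_P 𝒪 (↥T8) (↥Tn) κ →ₐ[𝒪] H.T)
    (hγ8 : ∀ x : ↥T8 × Fin 2 × Fin 2 × Fin 2,
      γ (MvPowerSeries.X (Sum.inl x)) = m59c_coordHg td.gσ td.gφ a g gi H x)
    (hγn : ∀ x : ↥Tn × Fin 3,
      γ (MvPowerSeries.X (Sum.inr (Sum.inl x))) = m59c_coordN td.gσ td.gφ t₀ e H x) :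
    m59b_J 𝒪 κ (fun ℓ : ↥T8 => a ℓ) (fun ℓ : ↥T8 => ((ℓ : Nat.Primes) : ℕ))
      (fun ℓ : ↥Tn => t₀ ℓ) (fun ℓ : ↥Tn => ((ℓ : Nat.Primes) : ℕ)) ≤
      RingHom.ker γ.toRingHom := by
  refine m59c_J_le_ker_rep td h8 hn H.r hℓp
    (fun ℓ hℓ => twc_l8_hres H.r rb _ H.lift ℓ (hur ℓ hℓ)) hdet hun a
    (fun ℓ => (g ℓ).map (algebraMap 𝒪 H.T)) (fun ℓ => (gi ℓ).map (algebraMap 𝒪 H.T)) ?_ t₀
    (fun ℓ i => algebraMap 𝒪 H.T (e ℓ i)) (fun ℓ => (m59c_P td.gφ e H ℓ)⁻¹) ?_ γ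
    (fun ℓ i j => hγ8 (ℓ, 0, i, j)) (fun ℓ i j => hγ8 (ℓ, 1, i, j))
    (fun ℓ => hγn (ℓ, 0)) (fun ℓ => hγn (ℓ, 1)) (fun ℓ => hγn (ℓ, 2))
  · intro ℓ hℓ
    rw [← RingHom.mapMatrix_apply, ← RingHom.mapMatrix_apply, ← map_mul, hgi ℓ hℓ, map_one]
  · intro ℓ hℓ
    exact Matrix.nonsing_inv_mul _ (m59c_P_det_isUnit td.gφ e H ℓ (hcyc ℓ hℓ))

end pair

end

end Fermat.Agent.M59
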