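import Mathlib
import Fermat.Agent.TW.Aut.LocAlg

/-!
# Project M59 (S59), block [C-top], cell [PAIR], part 1: commutative algebra (prefix `m59cp_`)

* `m59cp_inv_mem` : an element of a subalgebra `S ⊆ B` which is invertible in `B` with an inverse
  integral over the base ring is invertible in `S`.
* `m59cp_pow_le` : for a local ring `B`, finite over a local ring `𝒪` through a local homomorphism,
  a power of `𝔪_B` lies in `𝔪_𝒪 B`.
* `m59cp_complete` : such a `B` is `𝔪_B`-adically complete when `𝒪` is noetherian and complete.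
-/

set_option autoImplicit false
set_option linter.unusedSectionVars false
set_option linter.style.haveILetI false

open IsLocalRing Polynomial

namespace Fermat.Agent.M59

open Fermat.Agent.TW

/-- if `a ∈ S` has an inverse `b` in the ambient ring which is integral over the base ring, then
`b ∈ S`. -/
theorem m59cp_inv_mem {R B : Type*} [CommRing R] [CommRing B] [Algebra R B] (S : Subalgebra R B)
    {a b : B} (ha : a ∈ S) (hab : a * b = 1) (hb : IsIntegral R b) : b ∈ S := by
  classical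
  obtain ⟨P, hP, hPb⟩ := hb
  set n := P.natDegree with hn
  have h1 : ∑ i ∈ Finset.range (n + 1), algebraMap R B (P.coeff i) * b ^ i = 0 := by
    rw [← hPb, Polynomial.eval₂_eq_sum_range]
  -- multiply by `a ^ n`
  have h2 : ∑ i ∈ Finset.range (n + 1), algebraMap R B (P.coeff i) * a ^ (n - i) = 0 := by
    have h3 : a ^ n * ∑ i ∈ Finset.range (n + 1), algebraMap R B (P.coeff i) * b ^ i = 0 := by
      rw [h1, mul_zero]
    rw [Finset.mul_sum] at h3
    rw [← h3]
    refine Finset.sum_congr rfl fun i hi => ?_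
    have hi' : i ≤ n := Nat.lt_succ_iff.mp (Finset.mem_range.mp hi)
    have h4 : a ^ n = a ^ (n - i) * a ^ i := by rw [← pow_add, Nat.sub_add_cancel hi']
    rw [h4]
    have h5 : a ^ i * b ^ i = 1 := by rw [← mul_pow, hab, one_pow]
    calc algebraMap R B (P.coeff i) * a ^ (n - i)
        = algebraMap R B (P.coeff i) * a ^ (n - i) * (a ^ i * b ^ i) := by rw [h5, mul_one]
      _ = a ^ (n - i) * a ^ i * (algebraMap R B (P.coeff i) * b ^ i) := by ring
  rw [Finset.sum_range_succ, Nat.sub_self, pow_zero, mul_one] at h2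
  have hlead : P.coeff n = 1 := hP.coeff_natDegree
  rw [hlead, map_one] at h2
  -- `w := -∑_{i<n} c_i a^(n-1-i)` is an inverse of `a` in `S`
  set w : B := -∑ i ∈ Finset.range n, algebraMap R B (P.coeff i) * a ^ (n - 1 - i) with hw
  have hwS : w ∈ S := by
    rw [hw]
    refine S.neg_mem (S.sum_mem fun i _ => S.mul_mem (S.algebraMap_mem _) (S.pow_mem ha _))
  have haw : a * w = 1 := by
    rw [hw, mul_neg, Finset.mul_sum]
    have h6 : ∑ i ∈ Finset.range n, a * (algebraMap R B (P.coeff i) * a ^ (n - 1 - i)) =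
        ∑ i ∈ Finset.range n, algebraMap R B (P.coeff i) * a ^ (n - i) := by
      refine Finset.sum_congr rfl fun i hi => ?_
      have hi' : i < n := Finset.mem_range.mp hi
      have h7 : n - i = (n - 1 - i) + 1 := by omega
      rw [h7, pow_succ]
      ring
    rw [h6]
    linear_combination -h2
  have hbw : b = w := by
    calc b = b * (a * w) := by rw [haw, mul_one]
      _ = (a * b) * w := by ring
      _ = w := by rw [hab, one_mul]
  rw [hbw]
  exact hwS

section local_finite

variable {𝒪 : Type} [CommRing 𝒪] [IsLocalRing 𝒪]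
  {B : Type} [CommRing B] [IsLocalRing B] [Algebra 𝒪 B] [IsLocalHom (algebraMap 𝒪 B)]

/-- `𝔪_𝒪 B ≤ 𝔪_B`. -/
theorem m59cp_J_le : twe_la_J 𝒪 B ≤ maximalIdeal B := by
  rw [twe_la_J, Ideal.map_le_iff_le_comap]
  intro a ha
  exact map_nonunit (algebraMap 𝒪 B) a ha

/-- every element of `𝔪_B` has a power in `𝔪_𝒪 B` when `B ⧸ 𝔪_𝒪 B` is finite. -/
theorem m59cp_le_radical [Finite (B ⧸ twe_la_J 𝒪 B)] :
    maximalIdeal B ≤ (twe_la_J 𝒪 B).radical := by
  intro t ht
  obtain ⟨a, b, hab, heq⟩ := Finite.exists_ne_map_eq_of_infinite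
    (fun n : ℕ => (Ideal.Quotient.mk (twe_la_J 𝒪 B) t) ^ n)
  wlog hlt : a < b generalizing a b
  · exact this b a hab.symm heq.symm (lt_of_le_of_ne (not_lt.mp hlt) hab.symm)
  refine ⟨a, ?_⟩
  have h1 : t ^ a - t ^ b ∈ twe_la_J 𝒪 B := by
    rw [← Ideal.Quotient.eq_zero_iff_mem, map_sub, map_pow, map_pow]
    exact sub_eq_zero.mpr heq
  have h2 : t ^ a - t ^ b = t ^ a * (1 - t ^ (b - a)) := by
    rw [mul_sub, mul_one, ← pow_add, Nat.add_sub_cancel' hlt.le]
  have h3 : IsUnit (1 - t ^ (b - a)) := by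
    by_contra hnu
    have h4 : 1 - t ^ (b - a) ∈ maximalIdeal B := (mem_maximalIdeal _).mpr hnu
    have h5 : t ^ (b - a) ∈ maximalIdeal B :=
      Ideal.pow_mem_of_mem _ ht _ (Nat.sub_pos_of_lt hlt)
    have h6 : (1 : B) ∈ maximalIdeal B := by
      have := Ideal.add_mem _ h4 h5
      rwa [sub_add_cancel] at this
    exact (Ideal.ne_top_iff_one _).mp (maximalIdeal.isMaximal B).ne_top h6
  rw [h2] at h1
  obtain ⟨u, hu⟩ := h3
  have h7 : t ^ a = t ^ a * (1 - t ^ (b - a)) * (↑u⁻¹ : B) := by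
    rw [mul_assoc, ← hu, Units.mul_inv, mul_one]
  rw [h7]
  exact Ideal.mul_mem_right _ _ h1

/-- a power of `𝔪_B` lies in `𝔪_𝒪 B`. -/
theorem m59cp_pow_le [IsNoetherianRing B] [Finite (B ⧸ twe_la_J 𝒪 B)] :
    ∃ N : ℕ, maximalIdeal B ^ N ≤ twe_la_J 𝒪 B :=
  Ideal.exists_pow_le_of_le_radical_of_fg m59cp_le_radical
    ((isNoetherianRing_iff_ideal_fg _).mp inferInstance _)

end local_finite

/-- a local ring which is a finite algebra over a complete noetherian local ring with finite residue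
field (through a local homomorphism) is complete for its maximal ideal. -/
theorem m59cp_complete {𝒪 : Type} [CommRing 𝒪] [IsLocalRing 𝒪] [IsNoetherianRing 𝒪]
    [IsAdicComplete (maximalIdeal 𝒪) 𝒪] [Finite (ResidueField 𝒪)]
    {B : Type} [CommRing B] [IsLocalRing B] [Algebra 𝒪 B] [IsLocalHom (algebraMap 𝒪 B)]
    [Module.Finite 𝒪 B] : IsAdicComplete (maximalIdeal B) B := by
  haveI : IsNoetherianRing B := IsNoetherianRing.of_finite 𝒪 B
  haveI := twe_la_isAdicComplete_J (𝒪 := 𝒪) (B := B)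
  haveI : Finite (B ⧸ twe_la_J 𝒪 B) := by
    letI : Field (𝒪 ⧸ maximalIdeal 𝒪) := Ideal.Quotient.field (maximalIdeal 𝒪)
    haveI : Finite (𝒪 ⧸ maximalIdeal 𝒪) := ‹Finite (ResidueField 𝒪)›
    exact Module.finite_of_finite (𝒪 ⧸ maximalIdeal 𝒪)
  obtain ⟨N, hN⟩ := m59cp_pow_le (𝒪 := 𝒪) (B := B)
  exact twe_la_isAdicComplete_of_pow_le _ _ _ N m59cp_J_le hN

end Fermat.Agent.M59
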