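import Mathlib
import Fermat.Agent.M59.C.PairAlg
import Fermat.Agent.M59.Top.Chain.Adj
import Fermat.Agent.S53.FramedResidual

/-!
# Project M59 (S59), block [C-top], cell [PAIR], part 2: the pair ring (prefix `m59cp_`)

`𝒪` a complete noetherian local ring with finite residue field `k`, `A` a local `𝒪`-algebra, finite
as an `𝒪`-module (local structure map), `r₁ : FramedRep A`, `r₂ : FramedRep 𝒪` two framed
representations lifting the same `rb : FramedResidual k`.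

`m59cp_T r₁ r₂ := m59ci_adj (tr r₁) (tr r₂)` : the `𝒪`-subalgebra of `A × 𝒪` generated by the pairs
of traces (helper9's `m59ci_adj`).  It is a LOCAL ring (`m59cp_isLocalRing`), noetherian, complete,
with residue field `k` (`m59cp_residue_surjective`), and the structure map is local.
-/

set_option autoImplicit false
set_option linter.unusedSectionVars false
set_option linter.style.haveILetI false

open IsLocalRing Polynomial

namespace Fermat.Agent.M59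

open Fermat.Agent.TW Fermat.Agent.S53

noncomputable section

local notation "GQ" => (AlgebraicClosure ℚ ≃ₐ[ℚ] AlgebraicClosure ℚ)

section ring

variable {𝒪 : Type} [CommRing 𝒪] [IsLocalRing 𝒪]
  {A : Type} [CommRing A] [IsLocalRing A] [Algebra 𝒪 A] [IsLocalHom (algebraMap 𝒪 A)]
  (r₁ : FramedRep A) (r₂ : FramedRep 𝒪)

/-- the pair ring: the `𝒪`-subalgebra of `A × 𝒪` generated by the pairs of traces. -/
abbrev m59cp_T : Subalgebra 𝒪 (A × 𝒪) :=
  m59ci_adj (fun σ : GQ => (r₁ σ).trace) (fun σ : GQ => (r₂ σ).trace)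

/-- the pair of traces at `σ`. -/
abbrev m59cp_t (σ : GQ) : m59cp_T r₁ r₂ :=
  m59ci_adj_gen (fun σ : GQ => (r₁ σ).trace) (fun σ : GQ => (r₂ σ).trace) σ

/-- the first projection. -/
abbrev m59cp_fst : m59cp_T r₁ r₂ →ₐ[𝒪] A :=
  m59ci_adj_fst (fun σ : GQ => (r₁ σ).trace) (fun σ : GQ => (r₂ σ).trace)

/-- the second projection. -/
abbrev m59cp_snd : m59cp_T r₁ r₂ →ₐ[𝒪] 𝒪 :=
  m59ci_adj_snd (fun σ : GQ => (r₁ σ).trace) (fun σ : GQ => (r₂ σ).trace)

theorem m59cp_ext {t t' : m59cp_T r₁ r₂} (h1 : m59cp_fst r₁ r₂ t = m59cp_fst r₁ r₂ t')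
    (h2 : m59cp_snd r₁ r₂ t = m59cp_snd r₁ r₂ t') : t = t' :=
  m59ci_adj_ext _ _ h1 h2

/-- the residue character of the pair ring. -/
def m59cp_psi : m59cp_T r₁ r₂ →+* ResidueField 𝒪 :=
  (residue 𝒪).comp (m59cp_snd r₁ r₂ : m59cp_T r₁ r₂ →+* 𝒪)

theorem m59cp_psi_apply (t : m59cp_T r₁ r₂) :
    m59cp_psi r₁ r₂ t = residue 𝒪 (m59cp_snd r₁ r₂ t) := rfl

theorem m59cp_psi_algebraMap (c : 𝒪) :
    m59cp_psi r₁ r₂ (algebraMap 𝒪 (m59cp_T r₁ r₂) c) = residue 𝒪 c := by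
  rw [m59cp_psi_apply, AlgHom.commutes]
  rfl

variable {r₁ r₂} {rb : FramedResidual (ResidueField 𝒪)}

/-- the two residue maps agree on the pair ring. -/
theorem m59cp_residue_fst (h₁ : r₁.IsLiftOf rb (ResidueField.map (algebraMap 𝒪 A)))
    (h₂ : ∀ σ, (r₂ σ).map (residue 𝒪) = rb σ) (t : m59cp_T r₁ r₂) :
    residue A (m59cp_fst r₁ r₂ t) =
      ResidueField.map (algebraMap 𝒪 A) (m59cp_psi r₁ r₂ t) := by
  obtain ⟨x, hx⟩ := t
  -- the equaliser of the two maps `A × 𝒪 → k_A`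
  let f1 : A × 𝒪 →ₐ[𝒪] ResidueField A :=
    (IsScalarTower.toAlgHom 𝒪 A (ResidueField A)).comp (AlgHom.fst 𝒪 A 𝒪)
  let f2 : A × 𝒪 →ₐ[𝒪] ResidueField A :=
    (IsScalarTower.toAlgHom 𝒪 𝒪 (ResidueField A)).comp (AlgHom.snd 𝒪 A 𝒪)
  have hf1 : ∀ y : A × 𝒪, f1 y = residue A y.1 := fun y => rfl
  have hf2 : ∀ y : A × 𝒪, f2 y = ResidueField.map (algebraMap 𝒪 A) (residue 𝒪 y.2) := by
    intro y
    show algebraMap 𝒪 (ResidueField A) y.2 = _
    rw [ResidueField.map_residue]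
    rfl
  have hle : m59cp_T r₁ r₂ ≤ AlgHom.equalizer f1 f2 := by
    apply Algebra.adjoin_le
    rintro _ ⟨σ, rfl⟩
    show f1 _ = f2 _
    rw [hf1, hf2]
    show residue A (r₁ σ).trace = ResidueField.map (algebraMap 𝒪 A) (residue 𝒪 (r₂ σ).trace)
    have e1 : residue A (r₁ σ).trace = ((r₁ σ).map (residue A)).trace := by
      simp [Matrix.trace, Matrix.map_apply, map_sum]
    have e2 : residue 𝒪 (r₂ σ).trace = ((r₂ σ).map (residue 𝒪)).trace := by
      simp [Matrix.trace, Matrix.map_apply, map_sum]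
    rw [e1, e2, h₁ σ, h₂ σ]
    simp [Matrix.trace, Matrix.map_apply, map_sum]
  have := hle hx
  have h3 : f1 x = f2 x := this
  rw [hf1, hf2] at h3
  exact h3

/-- an element of the pair ring with non-zero residue is a unit. -/
theorem m59cp_isUnit_of_psi [Module.Finite 𝒪 A]
    (h₁ : r₁.IsLiftOf rb (ResidueField.map (algebraMap 𝒪 A)))
    (h₂ : ∀ σ, (r₂ σ).map (residue 𝒪) = rb σ) {t : m59cp_T r₁ r₂}
    (ht : m59cp_psi r₁ r₂ t ≠ 0) : IsUnit t := by
  have hy : IsUnit (m59cp_snd r₁ r₂ t) := by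
    by_contra hnu
    exact ht ((residue_eq_zero_iff _).mpr ((mem_maximalIdeal _).mpr hnu))
  have hx : IsUnit (m59cp_fst r₁ r₂ t) := by
    by_contra hnu
    have h3 : residue A (m59cp_fst r₁ r₂ t) = 0 :=
      (residue_eq_zero_iff _).mpr ((mem_maximalIdeal _).mpr hnu)
    rw [m59cp_residue_fst h₁ h₂ t] at h3
    exact ht ((map_eq_zero _).mp h3)
  obtain ⟨u, hu⟩ := hx
  obtain ⟨v, hv⟩ := hy
  have hval : (t : A × 𝒪) = ((u : A), (v : 𝒪)) := Prod.ext hu.symm hv.symm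
  have hab : (t : A × 𝒪) * (((u⁻¹ : Aˣ) : A), ((v⁻¹ : 𝒪ˣ) : 𝒪)) = 1 := by
    rw [hval]
    exact Prod.ext (by simp) (by simp)
  have hint : IsIntegral 𝒪 ((((u⁻¹ : Aˣ) : A), ((v⁻¹ : 𝒪ˣ) : 𝒪)) : A × 𝒪) :=
    Algebra.IsIntegral.isIntegral _
  have hmem := m59cp_inv_mem (m59cp_T r₁ r₂) t.2 hab hint
  refine ⟨⟨t, ⟨_, hmem⟩, ?_, ?_⟩, rfl⟩
  · exact Subtype.ext hab
  · rw [mul_comm]
    exact Subtype.ext hab

/-- **the pair ring is local.** -/
theorem m59cp_isLocalRing [Module.Finite 𝒪 A]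
    (h₁ : r₁.IsLiftOf rb (ResidueField.map (algebraMap 𝒪 A)))
    (h₂ : ∀ σ, (r₂ σ).map (residue 𝒪) = rb σ) : IsLocalRing (m59cp_T r₁ r₂) := by
  haveI : Nontrivial (m59cp_T r₁ r₂) := by
    refine ⟨⟨0, 1, fun h => ?_⟩⟩
    have := congrArg (m59cp_psi r₁ r₂) h
    rw [map_zero, map_one] at this
    exact zero_ne_one this
  refine IsLocalRing.of_nonunits_add fun a b ha hb => ?_
  have ha' : m59cp_psi r₁ r₂ a = 0 := by
    by_contra h
    exact ha (m59cp_isUnit_of_psi h₁ h₂ h)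
  have hb' : m59cp_psi r₁ r₂ b = 0 := by
    by_contra h
    exact hb (m59cp_isUnit_of_psi h₁ h₂ h)
  intro hab
  have h3 : IsUnit (m59cp_psi r₁ r₂ (a + b)) := hab.map _
  rw [map_add, ha', hb', add_zero] at h3
  exact not_isUnit_zero h3

end ring

end

end Fermat.Agent.M59
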