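import Mathlib
import Fermat.Agent.M59.C.PairRing

/-!
# Project M59 (S59), block [C-top], cell [PAIR], part 5: functoriality of the pair ring
(prefix `m59cp_`)

* `m59cp_adjMap g g₀ a π hπ : m59ci_adj g a →ₐ[𝒪] m59ci_adj g₀ a` : the map induced by an algebra
  map `π : C →ₐ[𝒪] C₀` with `π (g i) = g₀ i` (restriction of `π × id`); it is SURJECTIVE
  (`m59cp_adjMap_surjective`), compatible with the projections (`m59cp_adjMap_fst`,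
  `m59cp_adjMap_snd`) and with the generators (`m59cp_adjMap_gen`).
* `m59cp_map r₁ r₀ r₂ π hπ : m59cp_T r₁ r₂ →ₐ[𝒪] m59cp_T r₀ r₂` : the case of the pair rings
  (`π (tr r₁ σ) = tr r₀ σ`), with `m59cp_map_surjective`, `m59cp_map_t`, `m59cp_map_fst`,
  `m59cp_map_snd`.
-/

set_option autoImplicit false
set_option linter.unusedSectionVars false
set_option linter.style.haveILetI false

open IsLocalRing

namespace Fermat.Agent.M59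

open Fermat.Agent.TW Fermat.Agent.S53

noncomputable section

local notation "GQ" => (AlgebraicClosure ℚ ≃ₐ[ℚ] AlgebraicClosure ℚ)

section adj

variable {𝒪 : Type} [CommRing 𝒪] {C C₀ : Type} [CommRing C] [CommRing C₀] [Algebra 𝒪 C]
  [Algebra 𝒪 C₀] {I : Type*}

theorem m59cp_adjMap_aux (g : I → C) (g₀ : I → C₀) (a : I → 𝒪) (π : C →ₐ[𝒪] C₀)
    (hπ : ∀ i, π (g i) = g₀ i) :
    (m59ci_adj g a).map (AlgHom.prodMap π (AlgHom.id 𝒪 𝒪)) = m59ci_adj g₀ a := by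
  unfold m59ci_adj
  rw [AlgHom.map_adjoin]
  congr 1
  ext x
  constructor
  · rintro ⟨_, ⟨i, rfl⟩, rfl⟩
    exact ⟨i, Prod.ext (hπ i).symm rfl⟩
  · rintro ⟨i, rfl⟩
    exact ⟨(g i, a i), ⟨i, rfl⟩, Prod.ext (hπ i) rfl⟩

/-- the map `m59ci_adj g a → m59ci_adj g₀ a` induced by `π` with `π (g i) = g₀ i`. -/
def m59cp_adjMap (g : I → C) (g₀ : I → C₀) (a : I → 𝒪) (π : C →ₐ[𝒪] C₀)
    (hπ : ∀ i, π (g i) = g₀ i) : m59ci_adj g a →ₐ[𝒪] m59ci_adj g₀ a :=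
  ((AlgHom.prodMap π (AlgHom.id 𝒪 𝒪)).comp (m59ci_adj g a).val).codRestrict (m59ci_adj g₀ a)
    (fun x => by
      rw [← m59cp_adjMap_aux g g₀ a π hπ]
      exact ⟨x.1, x.2, rfl⟩)

theorem m59cp_adjMap_fst (g : I → C) (g₀ : I → C₀) (a : I → 𝒪) (π : C →ₐ[𝒪] C₀)
    (hπ : ∀ i, π (g i) = g₀ i) (x : m59ci_adj g a) :
    m59ci_adj_fst g₀ a (m59cp_adjMap g g₀ a π hπ x) = π (m59ci_adj_fst g a x) := rfl

theorem m59cp_adjMap_snd (g : I → C) (g₀ : I → C₀) (a : I → 𝒪) (π : C →ₐ[𝒪] C₀)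
    (hπ : ∀ i, π (g i) = g₀ i) (x : m59ci_adj g a) :
    m59ci_adj_snd g₀ a (m59cp_adjMap g g₀ a π hπ x) = m59ci_adj_snd g a x := rfl

theorem m59cp_adjMap_gen (g : I → C) (g₀ : I → C₀) (a : I → 𝒪) (π : C →ₐ[𝒪] C₀)
    (hπ : ∀ i, π (g i) = g₀ i) (i : I) :
    m59cp_adjMap g g₀ a π hπ (m59ci_adj_gen g a i) = m59ci_adj_gen g₀ a i :=
  m59ci_adj_ext g₀ a (by rw [m59cp_adjMap_fst]; exact hπ i) (by rw [m59cp_adjMap_snd]; rfl)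

theorem m59cp_adjMap_surjective (g : I → C) (g₀ : I → C₀) (a : I → 𝒪) (π : C →ₐ[𝒪] C₀)
    (hπ : ∀ i, π (g i) = g₀ i) : Function.Surjective (m59cp_adjMap g g₀ a π hπ) := by
  rintro ⟨y, hy⟩
  have hy' := hy
  rw [← m59cp_adjMap_aux g g₀ a π hπ] at hy'
  obtain ⟨x, hx, hxy⟩ := hy'
  exact ⟨⟨x, hx⟩, Subtype.ext hxy⟩

end adj

section pair

variable {𝒪 : Type} [CommRing 𝒪] [IsLocalRing 𝒪]
  {A A₀ : Type} [CommRing A] [IsLocalRing A] [Algebra 𝒪 A] [CommRing A₀] [IsLocalRing A₀]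
  [Algebra 𝒪 A₀]
  (r₁ : FramedRep A) (r₀ : FramedRep A₀) (r₂ : FramedRep 𝒪)

/-- the map of pair rings induced by a trace-compatible algebra map. -/
def m59cp_map (π : A →ₐ[𝒪] A₀) (hπ : ∀ σ, π (r₁ σ).trace = (r₀ σ).trace) :
    m59cp_T r₁ r₂ →ₐ[𝒪] m59cp_T r₀ r₂ :=
  m59cp_adjMap (fun σ : GQ => (r₁ σ).trace) (fun σ : GQ => (r₀ σ).trace)
    (fun σ : GQ => (r₂ σ).trace) π hπ

theorem m59cp_map_surjective (π : A →ₐ[𝒪] A₀) (hπ : ∀ σ, π (r₁ σ).trace = (r₀ σ).trace) :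
    Function.Surjective (m59cp_map r₁ r₀ r₂ π hπ) :=
  m59cp_adjMap_surjective _ _ _ π hπ

theorem m59cp_map_t (π : A →ₐ[𝒪] A₀) (hπ : ∀ σ, π (r₁ σ).trace = (r₀ σ).trace) (σ : GQ) :
    m59cp_map r₁ r₀ r₂ π hπ (m59cp_t r₁ r₂ σ) = m59cp_t r₀ r₂ σ :=
  m59cp_adjMap_gen _ _ _ π hπ σ

theorem m59cp_map_fst (π : A →ₐ[𝒪] A₀) (hπ : ∀ σ, π (r₁ σ).trace = (r₀ σ).trace)
    (x : m59cp_T r₁ r₂) :
    m59cp_fst r₀ r₂ (m59cp_map r₁ r₀ r₂ π hπ x) = π (m59cp_fst r₁ r₂ x) := rfl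

theorem m59cp_map_snd (π : A →ₐ[𝒪] A₀) (hπ : ∀ σ, π (r₁ σ).trace = (r₀ σ).trace)
    (x : m59cp_T r₁ r₂) :
    m59cp_snd r₀ r₂ (m59cp_map r₁ r₀ r₂ π hπ x) = m59cp_snd r₁ r₂ x := rfl

end pair

end

end Fermat.Agent.M59
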