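import Mathlib
import Fermat.Agent.M59.C.PairRing
import Fermat.Agent.TW.Aut.CarLocal
import Fermat.Agent.JT3.Algebra.CycloAdic
import Fermat.Agent.S53.Slice
import Fermat.Agent.S53.ArtinToComplete
import Fermat.Agent.S53.SpanTransport

/-!
# Project M59 (S59), block [C-top], cell [PAIR], part 3: the representation over the pair ring
(prefix `m59cp_`)

Carayol's lemma (`twe_cl_main`) over the local ring `T'' = m59cp_T r₁ r₂` for the module
`X = A² × 𝒪²` with the action of `(r₁, r₂)`: a framed representation over `T''` with traces the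
pairs of traces, lifting `rb`.
-/

set_option autoImplicit false
set_option linter.unusedSectionVars false
set_option linter.style.haveILetI false

open IsLocalRing Polynomial

namespace Fermat.Agent.M59

open Fermat.Agent.TW Fermat.Agent.S53 Fermat.Agent.JT3 Fermat.Agent.FF

noncomputable section

local notation "GQ" => (AlgebraicClosure ℚ ≃ₐ[ℚ] AlgebraicClosure ℚ)

/-- `2 det M = (tr M)² - tr (M²)` for `2 × 2` matrices. -/
theorem m59cp_two_det {R : Type*} [CommRing R] (M : Matrix (Fin 2) (Fin 2) R) :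
    2 * M.det = M.trace ^ 2 - (M * M).trace := by
  simp [Matrix.det_fin_two, Matrix.trace_fin_two, Matrix.mul_apply, Fin.sum_univ_two]
  ring

/-- `2` is a unit in a local ring of odd residue characteristic. -/
theorem m59cp_isUnit_two {R : Type*} [CommRing R] [IsLocalRing R] {p : ℕ} (hp : p.Prime)
    (hp2 : p ≠ 2) (hpR : (p : R) ∈ maximalIdeal R) : IsUnit (2 : R) := by
  by_contra hnu
  have h2 : (2 : R) ∈ maximalIdeal R := (mem_maximalIdeal _).mpr hnu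
  obtain ⟨k, hk⟩ := hp.eq_two_or_odd'.resolve_left hp2
  have h3 : (1 : R) = (p : R) - 2 * (k : R) := by
    rw [hk]; push_cast; ring
  have h4 : (1 : R) ∈ maximalIdeal R := by
    rw [h3]
    exact Ideal.sub_mem _ hpR (Ideal.mul_mem_right _ _ h2)
  exact (Ideal.ne_top_iff_one _).mp (maximalIdeal.isMaximal R).ne_top h4

section module

variable {𝒪 : Type} [CommRing 𝒪] [IsLocalRing 𝒪]
  {A : Type} [CommRing A] [IsLocalRing A] [Algebra 𝒪 A] [IsLocalHom (algebraMap 𝒪 A)]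
  (r₁ : FramedRep A) (r₂ : FramedRep 𝒪)

/-- the module `A² × 𝒪²`. -/
def m59cp_X (A 𝒪 : Type) : Type := (Fin 2 → A) × (Fin 2 → 𝒪)

instance m59cp_instACG : AddCommGroup (m59cp_X A 𝒪) :=
  inferInstanceAs (AddCommGroup ((Fin 2 → A) × (Fin 2 → 𝒪)))

instance m59cp_instModO : Module 𝒪 (m59cp_X A 𝒪) :=
  inferInstanceAs (Module 𝒪 ((Fin 2 → A) × (Fin 2 → 𝒪)))

instance m59cp_instFinO [Module.Finite 𝒪 A] : Module.Finite 𝒪 (m59cp_X A 𝒪) :=
  inferInstanceAs (Module.Finite 𝒪 ((Fin 2 → A) × (Fin 2 → 𝒪)))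

instance m59cp_instModule : Module (m59cp_T r₁ r₂) (m59cp_X A 𝒪) where
  smul t x := (m59cp_fst r₁ r₂ t • x.1, m59cp_snd r₁ r₂ t • x.2)
  one_smul x := by
    show ((m59cp_fst r₁ r₂ 1 • x.1, m59cp_snd r₁ r₂ 1 • x.2) : (Fin 2 → A) × (Fin 2 → 𝒪)) = x
    rw [map_one, map_one, one_smul, one_smul]
    rfl
  mul_smul s t x := by
    show ((m59cp_fst r₁ r₂ (s * t) • x.1, m59cp_snd r₁ r₂ (s * t) • x.2) :
      (Fin 2 → A) × (Fin 2 → 𝒪)) =
      (m59cp_fst r₁ r₂ s • (m59cp_fst r₁ r₂ t • x.1), m59cp_snd r₁ r₂ s • (m59cp_snd r₁ r₂ t • x.2))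
    rw [map_mul, map_mul, mul_smul, mul_smul]
  smul_zero t := by
    show ((m59cp_fst r₁ r₂ t • (0 : Fin 2 → A), m59cp_snd r₁ r₂ t • (0 : Fin 2 → 𝒪)) :
      (Fin 2 → A) × (Fin 2 → 𝒪)) = 0
    rw [smul_zero, smul_zero]
    rfl
  smul_add t x y := by
    show ((m59cp_fst r₁ r₂ t • (x.1 + y.1), m59cp_snd r₁ r₂ t • (x.2 + y.2)) :
      (Fin 2 → A) × (Fin 2 → 𝒪)) =
      (m59cp_fst r₁ r₂ t • x.1, m59cp_snd r₁ r₂ t • x.2) +
        (m59cp_fst r₁ r₂ t • y.1, m59cp_snd r₁ r₂ t • y.2)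
    rw [smul_add, smul_add]
    rfl
  add_smul s t x := by
    show ((m59cp_fst r₁ r₂ (s + t) • x.1, m59cp_snd r₁ r₂ (s + t) • x.2) :
      (Fin 2 → A) × (Fin 2 → 𝒪)) =
      (m59cp_fst r₁ r₂ s • x.1, m59cp_snd r₁ r₂ s • x.2) +
        (m59cp_fst r₁ r₂ t • x.1, m59cp_snd r₁ r₂ t • x.2)
    rw [map_add, map_add, add_smul, add_smul]
    rfl
  zero_smul x := by
    show ((m59cp_fst r₁ r₂ 0 • x.1, m59cp_snd r₁ r₂ 0 • x.2) : (Fin 2 → A) × (Fin 2 → 𝒪)) = 0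
    rw [map_zero, map_zero, zero_smul, zero_smul]
    rfl

theorem m59cp_smul_def (t : m59cp_T r₁ r₂) (x : m59cp_X A 𝒪) :
    t • x = ((m59cp_fst r₁ r₂ t • x.1, m59cp_snd r₁ r₂ t • x.2) : (Fin 2 → A) × (Fin 2 → 𝒪)) :=
  rfl

instance m59cp_instTower : IsScalarTower 𝒪 (m59cp_T r₁ r₂) (m59cp_X A 𝒪) where
  smul_assoc c t x := by
    rw [m59cp_smul_def, m59cp_smul_def]
    show _ = ((c • (m59cp_fst r₁ r₂ t • x.1), c • (m59cp_snd r₁ r₂ t • x.2)) :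
      (Fin 2 → A) × (Fin 2 → 𝒪))
    rw [map_smul, map_smul, smul_assoc, smul_assoc]

instance m59cp_instFinite [IsNoetherianRing 𝒪] [Module.Finite 𝒪 A] :
    Module.Finite (m59cp_T r₁ r₂) (m59cp_X A 𝒪) :=
  Module.Finite.of_restrictScalars_finite 𝒪 (m59cp_T r₁ r₂) (m59cp_X A 𝒪)

/-- the action of `(r₁, r₂)` on `A² × 𝒪²`. -/
def m59cp_alpha : GQ →* Module.End (m59cp_T r₁ r₂) (m59cp_X A 𝒪) where
  toFun σ :=
    { toFun := fun x => (((r₁ σ).mulVec x.1, (r₂ σ).mulVec x.2) : (Fin 2 → A) × (Fin 2 → 𝒪))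
      map_add' := fun x y => by
        show (((r₁ σ).mulVec (x.1 + y.1), (r₂ σ).mulVec (x.2 + y.2)) :
          (Fin 2 → A) × (Fin 2 → 𝒪)) = _
        rw [Matrix.mulVec_add, Matrix.mulVec_add]
        rfl
      map_smul' := fun t x => by
        show (((r₁ σ).mulVec (m59cp_fst r₁ r₂ t • x.1), (r₂ σ).mulVec (m59cp_snd r₁ r₂ t • x.2)) :
          (Fin 2 → A) × (Fin 2 → 𝒪)) = _
        rw [Matrix.mulVec_smul, Matrix.mulVec_smul]
        rfl }
  map_one' := by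
    apply LinearMap.ext
    intro x
    show (((r₁ 1).mulVec x.1, (r₂ 1).mulVec x.2) : (Fin 2 → A) × (Fin 2 → 𝒪)) = x
    rw [r₁.map_one, r₂.map_one, Matrix.one_mulVec, Matrix.one_mulVec]
    rfl
  map_mul' σ τ := by
    apply LinearMap.ext
    intro x
    show (((r₁ (σ * τ)).mulVec x.1, (r₂ (σ * τ)).mulVec x.2) : (Fin 2 → A) × (Fin 2 → 𝒪)) =
      ((r₁ σ).mulVec ((r₁ τ).mulVec x.1), (r₂ σ).mulVec ((r₂ τ).mulVec x.2))
    rw [r₁.map_mul, r₂.map_mul, Matrix.mulVec_mulVec, Matrix.mulVec_mulVec]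

theorem m59cp_alpha_apply (σ : GQ) (x : m59cp_X A 𝒪) :
    m59cp_alpha r₁ r₂ σ x =
      (((r₁ σ).mulVec x.1, (r₂ σ).mulVec x.2) : (Fin 2 → A) × (Fin 2 → 𝒪)) := rfl

/-- faithfulness. -/
theorem m59cp_faithful (t : m59cp_T r₁ r₂) (h : ∀ x : m59cp_X A 𝒪, t • x = 0) : t = 0 := by
  have h1 := h (((fun _ => 1), (fun _ => 1)) : (Fin 2 → A) × (Fin 2 → 𝒪))
  rw [m59cp_smul_def] at h1
  have h2 := congrArg Prod.fst h1
  have h3 := congrArg Prod.snd h1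
  have h4 : m59cp_fst r₁ r₂ t = 0 := by
    have := congrFun h2 0
    have h0 : ((0 : m59cp_X A 𝒪).1 : Fin 2 → A) 0 = 0 := rfl
    rw [h0] at this
    simpa using this
  have h5 : m59cp_snd r₁ r₂ t = 0 := by
    have := congrFun h3 0
    have h0 : ((0 : m59cp_X A 𝒪).2 : Fin 2 → 𝒪) 0 = 0 := rfl
    rw [h0] at this
    simpa using this
  exact m59cp_ext r₁ r₂ (by rw [h4, map_zero]) (by rw [h5, map_zero])

end module


section resid

variable {𝒪 : Type} [CommRing 𝒪] [IsLocalRing 𝒪]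
  {A : Type} [CommRing A] [IsLocalRing A] [Algebra 𝒪 A] [IsLocalHom (algebraMap 𝒪 A)]
  [Module.Finite 𝒪 A]
  {r₁ : FramedRep A} {r₂ : FramedRep 𝒪} {rb : FramedResidual (ResidueField 𝒪)}

/-- the structure map of the pair ring is local. -/
theorem m59cp_isLocalHom (h₁ : r₁.IsLiftOf rb (ResidueField.map (algebraMap 𝒪 A)))
    (h₂ : ∀ σ, (r₂ σ).map (residue 𝒪) = rb σ) :
    haveI := m59cp_isLocalRing h₁ h₂
    IsLocalHom (algebraMap 𝒪 (m59cp_T r₁ r₂)) := by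
  haveI := m59cp_isLocalRing h₁ h₂
  refine ⟨fun a ha => ?_⟩
  have h3 : IsUnit (m59cp_psi r₁ r₂ (algebraMap 𝒪 (m59cp_T r₁ r₂) a)) := ha.map _
  rw [m59cp_psi_algebraMap] at h3
  by_contra hnu
  have h4 : residue 𝒪 a = 0 := (residue_eq_zero_iff _).mpr ((mem_maximalIdeal _).mpr hnu)
  rw [h4] at h3
  exact not_isUnit_zero h3

/-- the maximal ideal of the pair ring is the kernel of `ψ`. -/
theorem m59cp_mem_maximalIdeal (h₁ : r₁.IsLiftOf rb (ResidueField.map (algebraMap 𝒪 A)))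
    (h₂ : ∀ σ, (r₂ σ).map (residue 𝒪) = rb σ) (t : m59cp_T r₁ r₂) :
    haveI := m59cp_isLocalRing h₁ h₂
    t ∈ maximalIdeal (m59cp_T r₁ r₂) ↔ m59cp_psi r₁ r₂ t = 0 := by
  haveI := m59cp_isLocalRing h₁ h₂
  rw [mem_maximalIdeal, mem_nonunits_iff]
  constructor
  · intro h
    by_contra h3
    exact h (m59cp_isUnit_of_psi h₁ h₂ h3)
  · intro h hu
    have h3 : IsUnit (m59cp_psi r₁ r₂ t) := hu.map _
    rw [h] at h3
    exact not_isUnit_zero h3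

/-- **(RES)** the residue map of the pair ring. -/
theorem m59cp_residue_eq (h₁ : r₁.IsLiftOf rb (ResidueField.map (algebraMap 𝒪 A)))
    (h₂ : ∀ σ, (r₂ σ).map (residue 𝒪) = rb σ) (t : m59cp_T r₁ r₂) :
    haveI := m59cp_isLocalRing h₁ h₂
    haveI := m59cp_isLocalHom h₁ h₂
    residue (m59cp_T r₁ r₂) t =
      ResidueField.map (algebraMap 𝒪 (m59cp_T r₁ r₂)) (m59cp_psi r₁ r₂ t) := by
  haveI := m59cp_isLocalRing h₁ h₂
  haveI := m59cp_isLocalHom h₁ h₂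
  rw [m59cp_psi_apply, ResidueField.map_residue, ← sub_eq_zero, ← map_sub, residue_eq_zero_iff,
    m59cp_mem_maximalIdeal h₁ h₂, map_sub, m59cp_psi_algebraMap, m59cp_psi_apply, sub_self]

/-- the residue field of the pair ring is `k`. -/
theorem m59cp_residue_surjective (h₁ : r₁.IsLiftOf rb (ResidueField.map (algebraMap 𝒪 A)))
    (h₂ : ∀ σ, (r₂ σ).map (residue 𝒪) = rb σ) :
    haveI := m59cp_isLocalRing h₁ h₂
    Function.Surjective (residue (m59cp_T r₁ r₂) ∘ algebraMap 𝒪 (m59cp_T r₁ r₂)) := by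
  haveI := m59cp_isLocalRing h₁ h₂
  haveI := m59cp_isLocalHom h₁ h₂
  intro y
  obtain ⟨t, rfl⟩ := residue_surjective y
  refine ⟨m59cp_snd r₁ r₂ t, ?_⟩
  rw [Function.comp_apply, m59cp_residue_eq h₁ h₂ t, m59cp_psi_apply, ResidueField.map_residue]

end resid


section conj

variable {R : Type} [CommRing R] [IsLocalRing R] [IsAdicComplete (maximalIdeal R) R]

/-- the determinant of a framed representation with cyclotomic determinant at complex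
conjugation is `-1`. -/
theorem m59cp_det_conj (p : ℕ) [Fact p.Prime] (r : FramedRep R)
    (hd : r.toGaloisRepAdic.DetIsCyclotomic p) : (r complexConjugation).det = -1 := by
  have h1 := cya_det_eq_eps p r.toGaloisRepAdic hd complexConjugation
  rw [cya_eps_complexConjugation] at h1
  rw [← h1]
  exact (LinearMap.det_toLin' (r.toMonoidHom complexConjugation)).symm

/-- the trace of a framed representation with cyclotomic determinant at complex conjugation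
vanishes. -/
theorem m59cp_trace_conj (p : ℕ) [Fact p.Prime] (r : FramedRep R)
    (hd : r.toGaloisRepAdic.DetIsCyclotomic p) : (r complexConjugation).trace = 0 := by
  set M := r complexConjugation with hM
  have hMM : M * M = 1 := by
    rw [hM, ← r.map_mul, complexConjugation_mul_self, r.map_one]
  have hdet : M.det = -1 := m59cp_det_conj p r hd
  have hc := ffc_cayley M
  rw [hMM, hdet] at hc
  have h1 : M.trace • M = 0 := by
    have : (1 : Matrix (Fin 2) (Fin 2) R) - M.trace • M + (-1 : R) • 1 = 0 := hc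
    rw [neg_smul, one_smul] at this
    have h2 : M.trace • M = (1 : Matrix (Fin 2) (Fin 2) R) - (1 - M.trace • M + -1) - 1 := by
      abel
    rw [h2, this]
    simp
  have h3 : M.trace • (M * M) = 0 := by rw [← Matrix.smul_mul, h1, zero_mul]
  rw [hMM] at h3
  have h4 := congrFun (congrFun h3 0) 0
  simpa using h4

end conj

section det

variable {𝒪 : Type} [CommRing 𝒪] [IsLocalRing 𝒪]
  {A : Type} [CommRing A] [IsLocalRing A] [Algebra 𝒪 A] [IsLocalHom (algebraMap 𝒪 A)]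
  (r₁ : FramedRep A) (r₂ : FramedRep 𝒪)

/-- the pair of determinants as an element of the pair ring (`c2` an inverse of `2`). -/
def m59cp_D (c2 : 𝒪) (σ : GQ) : m59cp_T r₁ r₂ :=
  algebraMap 𝒪 (m59cp_T r₁ r₂) c2 * (m59cp_t r₁ r₂ σ ^ 2 - m59cp_t r₁ r₂ (σ * σ))

theorem m59cp_D_fst {c2 : 𝒪} (hc2 : 2 * c2 = 1) (σ : GQ) :
    m59cp_fst r₁ r₂ (m59cp_D r₁ r₂ c2 σ) = (r₁ σ).det := by
  have h1 : m59cp_fst r₁ r₂ (m59cp_D r₁ r₂ c2 σ) =
      algebraMap 𝒪 A c2 * ((r₁ σ).trace ^ 2 - (r₁ (σ * σ)).trace) := by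
    rw [m59cp_D, map_mul, AlgHom.commutes, map_sub, map_pow]
    rfl
  rw [h1, r₁.map_mul, ← m59cp_two_det, ← mul_assoc]
  have h2 : algebraMap 𝒪 A c2 * 2 = 1 := by
    have := congrArg (algebraMap 𝒪 A) hc2
    rw [map_mul, map_one, map_ofNat] at this
    rw [mul_comm]; exact this
  rw [h2, one_mul]

theorem m59cp_D_snd {c2 : 𝒪} (hc2 : 2 * c2 = 1) (σ : GQ) :
    m59cp_snd r₁ r₂ (m59cp_D r₁ r₂ c2 σ) = (r₂ σ).det := by
  have h1 : m59cp_snd r₁ r₂ (m59cp_D r₁ r₂ c2 σ) =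
      c2 * ((r₂ σ).trace ^ 2 - (r₂ (σ * σ)).trace) := by
    rw [m59cp_D, map_mul, AlgHom.commutes, map_sub, map_pow]
    rfl
  rw [h1, r₂.map_mul, ← m59cp_two_det, ← mul_assoc, mul_comm c2 2, hc2, one_mul]

/-- the determinant character with values in the pair ring. -/
def m59cp_Dhom {c2 : 𝒪} (hc2 : 2 * c2 = 1) : GQ →* m59cp_T r₁ r₂ where
  toFun := m59cp_D r₁ r₂ c2
  map_one' := by
    apply m59cp_ext
    · rw [m59cp_D_fst r₁ r₂ hc2, r₁.map_one, Matrix.det_one, map_one]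
    · rw [m59cp_D_snd r₁ r₂ hc2, r₂.map_one, Matrix.det_one, map_one]
  map_mul' σ τ := by
    apply m59cp_ext
    · rw [map_mul, m59cp_D_fst r₁ r₂ hc2, m59cp_D_fst r₁ r₂ hc2, m59cp_D_fst r₁ r₂ hc2,
        r₁.map_mul, Matrix.det_mul]
    · rw [map_mul, m59cp_D_snd r₁ r₂ hc2, m59cp_D_snd r₁ r₂ hc2, m59cp_D_snd r₁ r₂ hc2,
        r₂.map_mul, Matrix.det_mul]

/-- Cayley–Hamilton on `A² × 𝒪²`. -/
theorem m59cp_CH {c2 : 𝒪} (hc2 : 2 * c2 = 1) (σ : GQ) :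
    m59cp_alpha r₁ r₂ σ * m59cp_alpha r₁ r₂ σ - m59cp_t r₁ r₂ σ • m59cp_alpha r₁ r₂ σ +
      (m59cp_D r₁ r₂ c2 σ) • (1 : Module.End (m59cp_T r₁ r₂) (m59cp_X A 𝒪)) = 0 := by
  apply LinearMap.ext
  intro x
  have e1 : ∀ (M : Matrix (Fin 2) (Fin 2) A) (v : Fin 2 → A),
      M.mulVec (M.mulVec v) - M.trace • M.mulVec v + M.det • v = 0 := by
    intro M v
    have h := congrArg (fun N : Matrix (Fin 2) (Fin 2) A => N.mulVec v) (ffc_cayley M)
    simp only [Matrix.add_mulVec, Matrix.sub_mulVec, Matrix.smul_mulVec, Matrix.one_mulVec,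
      Matrix.zero_mulVec, ← Matrix.mulVec_mulVec] at h
    exact h
  have e2 : ∀ (M : Matrix (Fin 2) (Fin 2) 𝒪) (v : Fin 2 → 𝒪),
      M.mulVec (M.mulVec v) - M.trace • M.mulVec v + M.det • v = 0 := by
    intro M v
    have h := congrArg (fun N : Matrix (Fin 2) (Fin 2) 𝒪 => N.mulVec v) (ffc_cayley M)
    simp only [Matrix.add_mulVec, Matrix.sub_mulVec, Matrix.smul_mulVec, Matrix.one_mulVec,
      Matrix.zero_mulVec, ← Matrix.mulVec_mulVec] at h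
    exact h
  show (((r₁ σ).mulVec ((r₁ σ).mulVec x.1) - m59cp_fst r₁ r₂ (m59cp_t r₁ r₂ σ) • (r₁ σ).mulVec x.1
      + m59cp_fst r₁ r₂ (m59cp_D r₁ r₂ c2 σ) • x.1,
    (r₂ σ).mulVec ((r₂ σ).mulVec x.2) - m59cp_snd r₁ r₂ (m59cp_t r₁ r₂ σ) • (r₂ σ).mulVec x.2
      + m59cp_snd r₁ r₂ (m59cp_D r₁ r₂ c2 σ) • x.2) : (Fin 2 → A) × (Fin 2 → 𝒪)) = 0
  rw [m59cp_D_fst r₁ r₂ hc2, m59cp_D_snd r₁ r₂ hc2]
  exact Prod.ext (e1 (r₁ σ) x.1) (e2 (r₂ σ) x.2)

end det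


section main

variable {𝒪 : Type} [CommRing 𝒪] [IsLocalRing 𝒪] [IsNoetherianRing 𝒪]
  [IsAdicComplete (maximalIdeal 𝒪) 𝒪] [Finite (ResidueField 𝒪)]
  {A : Type} [CommRing A] [IsLocalRing A] [IsAdicComplete (maximalIdeal A) A] [Algebra 𝒪 A]
  [IsLocalHom (algebraMap 𝒪 A)] [Module.Finite 𝒪 A]
  {r₁ : FramedRep A} {r₂ : FramedRep 𝒪} {rb : FramedResidual (ResidueField 𝒪)}

/-- Burnside over the residue field of the pair ring. -/
theorem m59cp_span (h₁ : r₁.IsLiftOf rb (ResidueField.map (algebraMap 𝒪 A)))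
    (h₂ : ∀ σ, (r₂ σ).map (residue 𝒪) = rb σ)
    (habs : rb.toResidualGaloisRep.IsAbsolutelyIrreducible) :
    haveI := m59cp_isLocalRing h₁ h₂
    haveI := m59cp_isLocalHom h₁ h₂
    Submodule.span (ResidueField (m59cp_T r₁ r₂)) (Set.range
      (rb.map (ResidueField.map (algebraMap 𝒪 (m59cp_T r₁ r₂)))).toMonoidHom) = ⊤ := by
  haveI := m59cp_isLocalRing h₁ h₂
  haveI := m59cp_isLocalHom h₁ h₂
  set ι := ResidueField.map (algebraMap 𝒪 (m59cp_T r₁ r₂)) with hι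
  have hspan : Submodule.span (ResidueField 𝒪) (Set.range rb.toMonoidHom) = ⊤ :=
    span_range_eq_top_of_isEquiv ⟨ResidualGaloisRep.Equiv.refl _⟩
      (residual_span_range_eq_top _ habs)
  have hsurj : Function.Surjective ι := by
    intro y
    obtain ⟨t, rfl⟩ := residue_surjective y
    exact ⟨m59cp_psi r₁ r₂ t, (m59cp_residue_eq h₁ h₂ t).symm⟩
  have key : ∀ X ∈ Submodule.span (ResidueField 𝒪) (Set.range rb.toMonoidHom),
      X.map ι ∈ Submodule.span (ResidueField (m59cp_T r₁ r₂)) (Set.range (rb.map ι).toMonoidHom) := by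
    intro X hX
    induction hX using Submodule.span_induction with
    | mem X hX =>
      obtain ⟨σ, rfl⟩ := hX
      exact Submodule.subset_span ⟨σ, rfl⟩
    | zero =>
      have : (0 : Matrix (Fin 2) (Fin 2) (ResidueField 𝒪)).map ι = 0 := by
        ext i j; simp
      rw [this]
      exact Submodule.zero_mem _
    | add X Y _ _ hX hY =>
      have : (X + Y).map ι = X.map ι + Y.map ι := by
        ext i j; simp
      rw [this]
      exact Submodule.add_mem _ hX hY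
    | smul c X _ hX =>
      have : (c • X).map ι = ι c • X.map ι := by
        ext i j; simp
      rw [this]
      exact Submodule.smul_mem _ _ hX
  rw [eq_top_iff]
  rintro M -
  choose f hf using hsurj
  have hM : M = (Matrix.of fun i j => f (M i j)).map ι := by
    ext i j
    simp [hf]
  rw [hM]
  apply key
  rw [hspan]
  exact Submodule.mem_top

/-- continuity of the action on `A² × 𝒪²` for the adic topology of the pair ring. -/
theorem m59cp_cont_aux (h₁ : r₁.IsLiftOf rb (ResidueField.map (algebraMap 𝒪 A)))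
    (h₂ : ∀ σ, (r₂ σ).map (residue 𝒪) = rb σ) (n : ℕ) :
    haveI := m59cp_isLocalRing h₁ h₂
    ∃ L : IntermediateField ℚ (AlgebraicClosure ℚ), FiniteDimensional ℚ L ∧
      ∀ σ : GQ, (∀ x ∈ L, σ x = x) → ∀ x : m59cp_X A 𝒪,
        m59cp_alpha r₁ r₂ σ x - x ∈
          (maximalIdeal (m59cp_T r₁ r₂) ^ n) • (⊤ : Submodule (m59cp_T r₁ r₂) (m59cp_X A 𝒪)) := by
  haveI := m59cp_isLocalRing h₁ h₂
  haveI := m59cp_isLocalHom h₁ h₂
  haveI : IsNoetherianRing A := IsNoetherianRing.of_finite 𝒪 A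
  haveI : Finite (A ⧸ twe_la_J 𝒪 A) := by
    letI : Field (𝒪 ⧸ maximalIdeal 𝒪) := Ideal.Quotient.field (maximalIdeal 𝒪)
    haveI : Finite (𝒪 ⧸ maximalIdeal 𝒪) := ‹Finite (ResidueField 𝒪)›
    exact Module.finite_of_finite (𝒪 ⧸ maximalIdeal 𝒪)
  obtain ⟨N, hN⟩ := m59cp_pow_le (𝒪 := 𝒪) (B := A)
  obtain ⟨L₁, hL₁, hc1⟩ := r₁.cont (N * n)
  obtain ⟨L₂, hL₂, hc2⟩ := r₂.cont n
  haveI := hL₁
  haveI := hL₂
  refine ⟨L₁ ⊔ L₂, IntermediateField.finiteDimensional_sup L₁ L₂, fun σ hσ x => ?_⟩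
  set I := maximalIdeal 𝒪 ^ n with hI
  -- Step A: `I • X ≤ 𝔪''^n • X`
  have hA : ∀ y ∈ I • (⊤ : Submodule 𝒪 (m59cp_X A 𝒪)),
      y ∈ (maximalIdeal (m59cp_T r₁ r₂) ^ n) •
        (⊤ : Submodule (m59cp_T r₁ r₂) (m59cp_X A 𝒪)) := by
    intro y hy
    refine Submodule.smul_induction_on hy (fun c hc z _ => ?_) (fun y z hy hz => ?_)
    · have h3 : c • z = algebraMap 𝒪 (m59cp_T r₁ r₂) c • z := by
        rw [algebraMap_smul]
      rw [h3]
      exact Submodule.smul_mem_smul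
        (map_mem_maximalIdeal_pow (algebraMap 𝒪 (m59cp_T r₁ r₂)) inferInstance hc)
        Submodule.mem_top
    · exact Submodule.add_mem _ hy hz
  apply hA
  -- entries
  have he1 : ∀ i j, (r₁ σ - 1) i j ∈ I • (⊤ : Submodule 𝒪 A) := by
    intro i j
    have h3 := hc1 σ (fun y hy => hσ y ((le_sup_left : L₁ ≤ L₁ ⊔ L₂) hy)) i j
    rw [pow_mul] at h3
    have h4 : (maximalIdeal A ^ N) ^ n ≤ (twe_la_J 𝒪 A) ^ n := Ideal.pow_right_mono hN n
    have h5 := h4 h3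
    rw [twe_la_J, ← Ideal.map_pow] at h5
    rw [Ideal.smul_top_eq_map]
    exact h5
  have he2 : ∀ i j, (r₂ σ - 1) i j ∈ I :=
    fun i j => hc2 σ (fun y hy => hσ y ((le_sup_right : L₂ ≤ L₁ ⊔ L₂) hy)) i j
  have hv1 : (r₁ σ - 1).mulVec x.1 ∈ I • (⊤ : Submodule 𝒪 (Fin 2 → A)) := by
    apply twe_cl_pi_mem
    intro i
    simp only [Matrix.mulVec, dotProduct]
    refine Submodule.sum_mem _ fun j _ => ?_
    have h6 := he1 i j
    rw [Ideal.smul_top_eq_map] at h6 ⊢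
    exact Ideal.mul_mem_right _ _ h6
  have hv2 : (r₂ σ - 1).mulVec x.2 ∈ I • (⊤ : Submodule 𝒪 (Fin 2 → 𝒪)) := by
    apply twe_cl_pi_mem
    intro i
    simp only [Matrix.mulVec, dotProduct]
    refine Submodule.sum_mem _ fun j _ => ?_
    exact Submodule.smul_mem_smul (he2 i j) Submodule.mem_top
  have hx : m59cp_alpha r₁ r₂ σ x - x =
      ((((r₁ σ - 1).mulVec x.1, (r₂ σ - 1).mulVec x.2) : (Fin 2 → A) × (Fin 2 → 𝒪)) :
        m59cp_X A 𝒪) := by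
    rw [m59cp_alpha_apply, Matrix.sub_mulVec, Matrix.sub_mulVec, Matrix.one_mulVec,
      Matrix.one_mulVec]
    rfl
  rw [hx]
  let i1 : (Fin 2 → A) →ₗ[𝒪] m59cp_X A 𝒪 := LinearMap.inl 𝒪 (Fin 2 → A) (Fin 2 → 𝒪)
  let i2 : (Fin 2 → 𝒪) →ₗ[𝒪] m59cp_X A 𝒪 := LinearMap.inr 𝒪 (Fin 2 → A) (Fin 2 → 𝒪)
  have hsplit : ((((r₁ σ - 1).mulVec x.1, (r₂ σ - 1).mulVec x.2) :
      (Fin 2 → A) × (Fin 2 → 𝒪)) : m59cp_X A 𝒪) =
      i1 ((r₁ σ - 1).mulVec x.1) + i2 ((r₂ σ - 1).mulVec x.2) := by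
    show _ = (((r₁ σ - 1).mulVec x.1, 0) : (Fin 2 → A) × (Fin 2 → 𝒪)) +
      ((0, (r₂ σ - 1).mulVec x.2) : (Fin 2 → A) × (Fin 2 → 𝒪))
    rw [Prod.mk_add_mk, add_zero, zero_add]
  rw [hsplit]
  refine Submodule.add_mem _ ?_ ?_
  · have h7 : i1 ((r₁ σ - 1).mulVec x.1) ∈
        Submodule.map i1 (I • (⊤ : Submodule 𝒪 (Fin 2 → A))) := Submodule.mem_map_of_mem hv1
    rw [Submodule.map_smul''] at h7
    exact Submodule.smul_mono le_rfl le_top h7
  · have h7 : i2 ((r₂ σ - 1).mulVec x.2) ∈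
        Submodule.map i2 (I • (⊤ : Submodule 𝒪 (Fin 2 → 𝒪))) := Submodule.mem_map_of_mem hv2
    rw [Submodule.map_smul''] at h7
    exact Submodule.smul_mono le_rfl le_top h7


/-- **[PAIR], the representation**: a framed representation over the pair ring with traces the
pairs of traces, lifting `rb`. -/
theorem m59cp_exists_rep (p : ℕ) [Fact p.Prime] (hp2 : p ≠ 2)
    (h₁ : r₁.IsLiftOf rb (ResidueField.map (algebraMap 𝒪 A)))
    (h₂ : ∀ σ, (r₂ σ).map (residue 𝒪) = rb σ)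
    (habs : rb.toResidualGaloisRep.IsAbsolutelyIrreducible)
    (hd₁ : r₁.toGaloisRepAdic.DetIsCyclotomic p) (hd₂ : r₂.toGaloisRepAdic.DetIsCyclotomic p) :
    haveI := m59cp_isLocalRing h₁ h₂
    haveI := m59cp_isLocalHom h₁ h₂
    ∃ r : FramedRep (m59cp_T r₁ r₂), (∀ σ, (r σ).trace = m59cp_t r₁ r₂ σ) ∧
      (∀ σ, m59cp_fst r₁ r₂ (r σ).det = (r₁ σ).det) ∧
      (∀ σ, m59cp_snd r₁ r₂ (r σ).det = (r₂ σ).det) ∧
      r.IsLiftOf rb (ResidueField.map (algebraMap 𝒪 (m59cp_T r₁ r₂))) := by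
  classical
  haveI := m59cp_isLocalRing h₁ h₂
  haveI := m59cp_isLocalHom h₁ h₂
  haveI : Module.Finite 𝒪 (m59cp_T r₁ r₂) := m59ci_adj_finite _ _
  haveI : IsNoetherianRing (m59cp_T r₁ r₂) := IsNoetherianRing.of_finite 𝒪 (m59cp_T r₁ r₂)
  set ι := ResidueField.map (algebraMap 𝒪 (m59cp_T r₁ r₂)) with hι
  -- an inverse of `2`
  have hu2 : IsUnit (2 : 𝒪) := m59cp_isUnit_two (Fact.out : p.Prime) hp2 hd₂.1
  obtain ⟨u, hu⟩ := hu2
  obtain ⟨c2, hc2⟩ : ∃ c2 : 𝒪, 2 * c2 = 1 := ⟨((u⁻¹ : 𝒪ˣ) : 𝒪), by rw [← hu, Units.mul_inv]⟩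
  let d : GQ →* (m59cp_T r₁ r₂)ˣ := (m59cp_Dhom r₁ r₂ hc2).toHomUnits
  have hd : ∀ σ, ((d σ : (m59cp_T r₁ r₂)ˣ) : m59cp_T r₁ r₂) = m59cp_D r₁ r₂ c2 σ := fun σ => rfl
  have hCH : ∀ σ, m59cp_alpha r₁ r₂ σ * m59cp_alpha r₁ r₂ σ -
      m59cp_t r₁ r₂ σ • m59cp_alpha r₁ r₂ σ +
      ((d σ : (m59cp_T r₁ r₂)ˣ) : m59cp_T r₁ r₂) • (1 : Module.End (m59cp_T r₁ r₂) (m59cp_X A 𝒪))
        = 0 := fun σ => by
    rw [hd]
    exact m59cp_CH r₁ r₂ hc2 σ
  have hres_tr : ∀ (R : Type) [CommRing R] [IsLocalRing R] (M : Matrix (Fin 2) (Fin 2) R),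
      residue R M.trace = (M.map (residue R)).trace := by
    intro R _ _ M
    simp [Matrix.trace, Matrix.map_apply, map_sum]
  have hres_det : ∀ (R : Type) [CommRing R] [IsLocalRing R] (M : Matrix (Fin 2) (Fin 2) R),
      residue R M.det = (M.map (residue R)).det := by
    intro R _ _ M
    simp [Matrix.det_fin_two, Matrix.map_apply]
  have htr : ∀ σ, residue (m59cp_T r₁ r₂) (m59cp_t r₁ r₂ σ) =
      ((rb.map ι).toMonoidHom σ).trace := by
    intro σ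
    rw [m59cp_residue_eq h₁ h₂, m59cp_psi_apply]
    have e1 : m59cp_snd r₁ r₂ (m59cp_t r₁ r₂ σ) = (r₂ σ).trace := rfl
    rw [e1, hres_tr, h₂ σ]
    show ι (rb σ).trace = ((rb σ).map ι).trace
    simp [Matrix.trace, Matrix.map_apply, map_sum]
  have hdet : ∀ σ, residue (m59cp_T r₁ r₂) ((d σ : (m59cp_T r₁ r₂)ˣ) : m59cp_T r₁ r₂) =
      ((rb.map ι).toMonoidHom σ).det := by
    intro σ
    rw [hd, m59cp_residue_eq h₁ h₂, m59cp_psi_apply, m59cp_D_snd r₁ r₂ hc2, hres_det, h₂ σ]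
    show ι (rb σ).det = ((rb σ).map ι).det
    simp [Matrix.det_fin_two, Matrix.map_apply]
  have ha : IsUnit ((1 : m59cp_T r₁ r₂) - (-1)) := by
    have h3 : (1 : m59cp_T r₁ r₂) - (-1) = algebraMap 𝒪 (m59cp_T r₁ r₂) 2 := by
      rw [map_ofNat]; ring
    rw [h3, ← hu]
    exact (Units.isUnit u).map _
  have ht₀ : m59cp_t r₁ r₂ complexConjugation = 1 + (-1) := by
    rw [add_neg_cancel]
    apply m59cp_ext
    · rw [map_zero]
      exact m59cp_trace_conj p r₁ hd₁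
    · rw [map_zero]
      exact m59cp_trace_conj p r₂ hd₂
  have hd₀ : ((d complexConjugation : (m59cp_T r₁ r₂)ˣ) : m59cp_T r₁ r₂) = 1 * (-1) := by
    rw [hd, one_mul]
    apply m59cp_ext
    · rw [m59cp_D_fst r₁ r₂ hc2, map_neg, map_one]
      exact m59cp_det_conj p r₁ hd₁
    · rw [m59cp_D_snd r₁ r₂ hc2, map_neg, map_one]
      exact m59cp_det_conj p r₂ hd₂
  obtain ⟨ρ, hρtr, hρdet, ⟨Q, hQdet, hQ⟩, s, j, hj, hjα⟩ :=
    twe_cl_main (T := m59cp_T r₁ r₂) (X := m59cp_X A 𝒪) (m59cp_faithful r₁ r₂)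
      (m59cp_alpha r₁ r₂) (m59cp_t r₁ r₂) d hCH (rb.map ι).toMonoidHom
      (m59cp_span h₁ h₂ habs) htr hdet complexConjugation 1 (-1) ha ht₀ hd₀
  -- continuity
  have hcont : ∀ n : ℕ, ∃ L : IntermediateField ℚ (AlgebraicClosure ℚ), FiniteDimensional ℚ L ∧
      ∀ σ : GQ, (∀ x ∈ L, σ x = x) → ∀ i i' : Fin 2,
        (ρ σ - 1) i i' ∈ maximalIdeal (m59cp_T r₁ r₂) ^ n := by
    intro n
    obtain ⟨m, hm⟩ := twe_cl_cont (maximalIdeal (m59cp_T r₁ r₂)) j hj n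
    obtain ⟨L, hL, hLα⟩ := m59cp_cont_aux h₁ h₂ m
    exact ⟨L, hL, fun σ hσ i i' =>
      (hm (ρ σ) (m59cp_alpha r₁ r₂ σ) (fun v i => hjα σ v i) (hLα σ hσ)).2 i i'⟩
  let r0 : FramedRep (m59cp_T r₁ r₂) := ⟨ρ, hcont⟩
  -- adjust the frame
  obtain ⟨Qu, hQu⟩ := (Matrix.isUnit_iff_isUnit_det Q).mpr hQdet
  obtain ⟨δ, hδ⟩ := exists_units_map_eq (residue (m59cp_T r₁ r₂)) inferInstance
    residue_surjective Qu⁻¹
  have hinv : δ.inv.map (residue (m59cp_T r₁ r₂)) = Q := by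
    have h3 : δ.inv.map (residue (m59cp_T r₁ r₂)) * (Qu⁻¹ : (Matrix (Fin 2) (Fin 2) _)ˣ).val = 1 := by
      rw [← hδ, ← Matrix.map_mul, δ.inv_val]
      simp
    calc δ.inv.map (residue (m59cp_T r₁ r₂))
        = δ.inv.map (residue (m59cp_T r₁ r₂)) *
            ((Qu⁻¹ : (Matrix (Fin 2) (Fin 2) _)ˣ).val * Qu.val) := by
          rw [Units.inv_mul, mul_one]
      _ = Q := by rw [← mul_assoc, h3, one_mul, hQu]
  have hdetconj : ∀ σ, (r0.conj δ σ).det = m59cp_D r₁ r₂ c2 σ := by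
    intro σ
    rw [FramedRep.conj_apply]
    have h3 : δ.inv = ((δ⁻¹ : (Matrix (Fin 2) (Fin 2) (m59cp_T r₁ r₂))ˣ) :
        Matrix (Fin 2) (Fin 2) (m59cp_T r₁ r₂)) := rfl
    rw [h3, Matrix.det_units_conj]
    exact (hρdet σ).trans (hd σ)
  refine ⟨r0.conj δ, fun σ => ?_, fun σ => ?_, fun σ => ?_, fun σ => ?_⟩
  · rw [FramedRep.conj_apply]
    have h3 : δ.inv = ((δ⁻¹ : (Matrix (Fin 2) (Fin 2) (m59cp_T r₁ r₂))ˣ) :
        Matrix (Fin 2) (Fin 2) (m59cp_T r₁ r₂)) := rfl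
    rw [h3, Matrix.trace_units_conj]
    exact hρtr σ
  · rw [hdetconj, m59cp_D_fst r₁ r₂ hc2]
  · rw [hdetconj, m59cp_D_snd r₁ r₂ hc2]
  · rw [FramedRep.conj_apply, Matrix.map_mul, Matrix.map_mul, hδ, hinv]
    have h3 : (r0 σ).map (residue (m59cp_T r₁ r₂)) * Q = Q * (rb.map ι).toMonoidHom σ := hQ σ
    rw [mul_assoc, h3, ← mul_assoc]
    have h4 : (Qu⁻¹ : (Matrix (Fin 2) (Fin 2) _)ˣ).val * Q = 1 := by
      rw [← hQu, Units.inv_mul]
    rw [h4, one_mul]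
    rfl

end main

end

end Fermat.Agent.M59
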