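import Mathlib
import Fermat.Agent.M59.C.PairRep
import Fermat.Agent.TW.Def.Seams
import Fermat.Agent.FF.Car.Rigid

/-!
# Project M59 (S59), block [C-top], cell [PAIR], part 4: the pair ring as a Hecke pair
(prefix `m59cp_`)

`m59cp_pair` : for a Hecke pair `H : twc_HPair 𝒪 rb` whose ring is a finite `𝒪`-module and a framed
representation `rW : FramedRep 𝒪` lifting `rb` (both with cyclotomic determinant, `rb` absolutely
irreducible, `p` odd) there is a Hecke pair `H''` with ring the pair ring `T'' ⊆ H.T × 𝒪`: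

* `pr₁ : H''.T →ₐ[𝒪] H.T`, `pr₂ : H''.T →ₐ[𝒪] 𝒪` jointly injective, `H''.T` a finite `𝒪`-module;
* `pr₁ (tr H''.r σ) = tr H.r σ`, `pr₂ (tr H''.r σ) = tr rW σ`, and the traces of `H''.r` generate
  `H''.T` as an `𝒪`-algebra;
* `(H''.r σ).map pr₁ = g₁ (H.r σ) g₁⁻¹`, `(H''.r σ).map pr₂ = g₂ (rW σ) g₂⁻¹` for CONSTANT invertible
  matrices `g₁`, `g₂`.
-/

set_option autoImplicit false
set_option linter.unusedSectionVars false
set_option linter.style.haveILetI false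

open IsLocalRing Polynomial

namespace Fermat.Agent.M59

open Fermat.Agent.TW Fermat.Agent.S53 Fermat.Agent.JT3 Fermat.Agent.FF

noncomputable section

local notation "GQ" => (AlgebraicClosure ℚ ≃ₐ[ℚ] AlgebraicClosure ℚ)

/-- a framed representation lifting an absolutely irreducible `rb` spans the matrix algebra. -/
theorem m59cp_framed_span {𝒪 : Type} [CommRing 𝒪] [IsLocalRing 𝒪] {A : Type} [CommRing A]
    [IsLocalRing A] [Algebra 𝒪 A] [IsLocalHom (algebraMap 𝒪 A)]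
    {rb : FramedResidual (ResidueField 𝒪)}
    (habs : rb.toResidualGaloisRep.IsAbsolutelyIrreducible) (r : FramedRep A)
    (hr : r.IsLiftOf rb (ResidueField.map (algebraMap 𝒪 A))) :
    Submodule.span A (Set.range r.toMonoidHom) = ⊤ := by
  have h1 := adic_span_range_eq_top_of_residual_isEquiv rb.toResidualGaloisRep habs
    r.toGaloisRepAdic (hr.residual_isEquiv ⟨ResidualGaloisRep.Equiv.refl _⟩)
  exact framed_span_eq_top r.toGaloisRepAdic h1 r (GaloisRepAdic.Equiv.refl _)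

/-- conjugacy of two framed families over a local ring with the same traces and determinants. -/
theorem m59cp_conj_of_trace_det {A : Type} [CommRing A] [IsLocalRing A]
    (ρ₁ ρ₂ : GQ →* Matrix (Fin 2) (Fin 2) A)
    (hspan : Submodule.span A (Set.range ρ₁) = ⊤)
    (htr : ∀ g, (ρ₂ g).trace = (ρ₁ g).trace) (hdet : ∀ g, (ρ₂ g).det = (ρ₁ g).det) :
    ∃ g : (Matrix (Fin 2) (Fin 2) A)ˣ, ∀ σ, ρ₂ σ = g.val * ρ₁ σ * g.inv := by
  obtain ⟨Q, hQ, hQρ⟩ := ffc_rigid_of_trace_det ρ₁ ρ₂ hspan htr hdet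
  obtain ⟨g, hg⟩ := (Matrix.isUnit_iff_isUnit_det Q).mpr hQ
  refine ⟨g, fun σ => ?_⟩
  have h1 : ρ₂ σ * g.val = g.val * ρ₁ σ := by rw [hg]; exact hQρ σ
  calc ρ₂ σ = ρ₂ σ * (g.val * g.inv) := by rw [g.val_inv, mul_one]
    _ = g.val * ρ₁ σ * g.inv := by rw [← mul_assoc, h1]

section pair

variable {𝒪 : Type} [CommRing 𝒪] [IsLocalRing 𝒪] [IsNoetherianRing 𝒪]
  [IsAdicComplete (maximalIdeal 𝒪) 𝒪] [Finite (ResidueField 𝒪)]
  {rb : FramedResidual (ResidueField 𝒪)}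

/-- **[PAIR]**: the pair ring of a Hecke pair and a framed representation over `𝒪` is a Hecke
pair. -/
theorem m59cp_pair (p : ℕ) [Fact p.Prime] (hp2 : p ≠ 2)
    (habs : rb.toResidualGaloisRep.IsAbsolutelyIrreducible)
    (H : twc_HPair 𝒪 rb) [Module.Finite 𝒪 H.T] (rW : FramedRep 𝒪)
    (hW : ∀ σ, (rW σ).map (residue 𝒪) = rb σ)
    (hdH : H.r.toGaloisRepAdic.DetIsCyclotomic p) (hdW : rW.toGaloisRepAdic.DetIsCyclotomic p) :
    ∃ (H'' : twc_HPair 𝒪 rb) (pr₁ : H''.T →ₐ[𝒪] H.T) (pr₂ : H''.T →ₐ[𝒪] 𝒪),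
      Module.Finite 𝒪 H''.T ∧
      (∀ t t' : H''.T, pr₁ t = pr₁ t' → pr₂ t = pr₂ t' → t = t') ∧
      (∀ σ, pr₁ (H''.r σ).trace = (H.r σ).trace) ∧
      (∀ σ, pr₂ (H''.r σ).trace = (rW σ).trace) ∧
      Algebra.adjoin 𝒪 (Set.range fun σ : GQ => (H''.r σ).trace) = ⊤ ∧
      (∃ g₁ : (Matrix (Fin 2) (Fin 2) H.T)ˣ,
        ∀ σ, (H''.r σ).map pr₁ = g₁.val * H.r σ * g₁.inv) ∧
      (∃ g₂ : (Matrix (Fin 2) (Fin 2) 𝒪)ˣ,
        ∀ σ, (H''.r σ).map pr₂ = g₂.val * rW σ * g₂.inv) := by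
  classical
  have h₁ := H.lift
  haveI := m59cp_isLocalRing h₁ hW
  haveI := m59cp_isLocalHom h₁ hW
  haveI hfin : Module.Finite 𝒪 (m59cp_T H.r rW) := m59ci_adj_finite _ _
  haveI : IsNoetherianRing (m59cp_T H.r rW) := IsNoetherianRing.of_finite 𝒪 (m59cp_T H.r rW)
  haveI : IsAdicComplete (maximalIdeal (m59cp_T H.r rW)) (m59cp_T H.r rW) :=
    m59cp_complete (𝒪 := 𝒪)
  obtain ⟨r, hrtr, hrd1, hrd2, hrl⟩ := m59cp_exists_rep p hp2 h₁ hW habs hdH hdW
  -- generation by the traces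
  have hgen : Algebra.adjoin 𝒪 (Set.range fun σ : GQ => (r σ).trace) = ⊤ := by
    have h3 := Algebra.adjoin_adjoin_coe_preimage (R := 𝒪)
      (s := Set.range fun σ : GQ => ((H.r σ).trace, (rW σ).trace))
    have h4 : (((↑) : m59cp_T H.r rW → H.T × 𝒪) ⁻¹'
        (Set.range fun σ : GQ => ((H.r σ).trace, (rW σ).trace))) =
        Set.range fun σ : GQ => (r σ).trace := by
      ext t
      constructor
      · rintro ⟨σ, hσ⟩
        exact ⟨σ, (hrtr σ).trans (Subtype.ext hσ)⟩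
      · rintro ⟨σ, rfl⟩
        exact ⟨σ, (congrArg Subtype.val (hrtr σ)).symm⟩
    rw [← h4]
    exact h3
  let H'' : twc_HPair 𝒪 rb :=
    { T := m59cp_T H.r rW
      residue_surjective := m59cp_residue_surjective h₁ hW
      r := r
      lift := hrl
      gen := by
        letI := S53.dualNumberAlgebra 𝒪
        intro φ φ' h
        refine AlgHom.ext_of_adjoin_eq_top hgen ?_
        rintro _ ⟨σ, rfl⟩
        exact h σ }
  refine ⟨H'', m59cp_fst H.r rW, m59cp_snd H.r rW, hfin,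
    fun t t' h1 h2 => m59cp_ext H.r rW h1 h2, fun σ => ?_, fun σ => ?_, hgen, ?_, ?_⟩
  · show m59cp_fst H.r rW (r σ).trace = _
    rw [hrtr σ]
    rfl
  · show m59cp_snd H.r rW (r σ).trace = _
    rw [hrtr σ]
    rfl
  · -- conjugacy with `H.r`
    let ρ₂ : GQ →* Matrix (Fin 2) (Fin 2) H.T :=
      ((m59cp_fst H.r rW : m59cp_T H.r rW →+* H.T).mapMatrix :
        Matrix (Fin 2) (Fin 2) (m59cp_T H.r rW) →+* Matrix (Fin 2) (Fin 2) H.T).toMonoidHom.comp
        r.toMonoidHom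
    have hρ₂ : ∀ σ, ρ₂ σ = (r σ).map (m59cp_fst H.r rW) := fun σ => rfl
    obtain ⟨g, hg⟩ := m59cp_conj_of_trace_det H.r.toMonoidHom ρ₂
      (m59cp_framed_span habs H.r H.lift)
      (fun σ => by
        rw [hρ₂]
        have e1 : ((r σ).map (m59cp_fst H.r rW)).trace = m59cp_fst H.r rW (r σ).trace := by
          simp [Matrix.trace, Matrix.map_apply, map_sum]
        rw [e1, hrtr σ]
        rfl)
      (fun σ => by
        rw [hρ₂]
        have e1 : ((r σ).map (m59cp_fst H.r rW)).det = m59cp_fst H.r rW (r σ).det := by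
          simp [Matrix.det_fin_two, Matrix.map_apply]
        rw [e1, hrd1 σ])
    exact ⟨g, fun σ => hg σ⟩
  · -- conjugacy with `rW`
    have hWl : rW.IsLiftOf rb (ResidueField.map (algebraMap 𝒪 𝒪)) := by
      intro σ
      rw [hW σ]
      ext i j
      simp only [Matrix.map_apply]
      obtain ⟨x, hx⟩ := residue_surjective (rb σ i j)
      rw [← hx, ResidueField.map_residue]
      rfl
    let ρ₂ : GQ →* Matrix (Fin 2) (Fin 2) 𝒪 :=
      ((m59cp_snd H.r rW : m59cp_T H.r rW →+* 𝒪).mapMatrix :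
        Matrix (Fin 2) (Fin 2) (m59cp_T H.r rW) →+* Matrix (Fin 2) (Fin 2) 𝒪).toMonoidHom.comp
        r.toMonoidHom
    have hρ₂ : ∀ σ, ρ₂ σ = (r σ).map (m59cp_snd H.r rW) := fun σ => rfl
    obtain ⟨g, hg⟩ := m59cp_conj_of_trace_det rW.toMonoidHom ρ₂
      (m59cp_framed_span (𝒪 := 𝒪) habs rW hWl)
      (fun σ => by
        rw [hρ₂]
        have e1 : ((r σ).map (m59cp_snd H.r rW)).trace = m59cp_snd H.r rW (r σ).trace := by
          simp [Matrix.trace, Matrix.map_apply, map_sum]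
        rw [e1, hrtr σ]
        rfl)
      (fun σ => by
        rw [hρ₂]
        have e1 : ((r σ).map (m59cp_snd H.r rW)).det = m59cp_snd H.r rW (r σ).det := by
          simp [Matrix.det_fin_two, Matrix.map_apply]
        rw [e1, hrd2 σ])
    exact ⟨g, fun σ => hg σ⟩

end pair

end

end Fermat.Agent.M59
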