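import Mathlib
import Fermat.Agent.S53.FramedResidual
import Fermat.Agent.JT3.Algebra.CycloAdic
import Fermat.Agent.FF.Car.Padic

/-!
# Project M59 (S59), block [C-top], cell [PAIR], part 6: transfer of the type to a ring embedded
in a product (prefix `m59cp_`)

`T` a local ring, `π₁ : T →+* A₁`, `π₂ : T →+* A₂` JOINTLY INJECTIVE ring homomorphisms to local
rings, `r : FramedRep T`, `rᵢ : FramedRep Aᵢ` with `(r σ).map πᵢ = gᵢ (rᵢ σ) gᵢ⁻¹` for constant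
invertible matrices `gᵢ` (the situation of the pair ring, `m59cp_pair`).  Then the following
properties pass from `r₁`, `r₂` to `r`:

* `m59cp_unram_of_pair`  : unramified at `q`;
* `m59cp_unip_of_pair`   : unipotent inertia at `q`;
* `m59cp_eq_one_of_pair`, `m59cp_trace_of_pair`, `m59cp_det_of_pair` : the elementary forms;
* `m59cp_detCyc_of_pair` : cyclotomic determinant (the rings complete, the maps local).
-/

set_option autoImplicit false
set_option linter.unusedSectionVars false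
set_option linter.style.haveILetI false

open IsLocalRing Polynomial

namespace Fermat.Agent.M59

open Fermat.Agent.S53 Fermat.Agent.JT3 Fermat.Agent.FF

noncomputable section

local notation "GQ" => (AlgebraicClosure ℚ ≃ₐ[ℚ] AlgebraicClosure ℚ)

section alg

variable {T A : Type} [CommRing T] [CommRing A]

theorem m59cp_map_trace (π : T →+* A) (M : Matrix (Fin 2) (Fin 2) T) :
    (M.map π).trace = π M.trace := by
  simp [Matrix.trace, Matrix.map_apply, map_sum]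

theorem m59cp_map_det (π : T →+* A) (M : Matrix (Fin 2) (Fin 2) T) :
    (M.map π).det = π M.det := by
  simp [Matrix.det_fin_two, Matrix.map_apply]

theorem m59cp_conj_trace (g : (Matrix (Fin 2) (Fin 2) A)ˣ) (M : Matrix (Fin 2) (Fin 2) A) :
    (g.val * M * g.inv).trace = M.trace := by
  rw [Matrix.trace_mul_comm, ← mul_assoc, g.inv_val, one_mul]

theorem m59cp_conj_det (g : (Matrix (Fin 2) (Fin 2) A)ˣ) (M : Matrix (Fin 2) (Fin 2) A) :
    (g.val * M * g.inv).det = M.det := by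
  rw [Matrix.det_mul, Matrix.det_mul, mul_right_comm, ← Matrix.det_mul, g.val_inv, Matrix.det_one,
    one_mul]

theorem m59cp_charpoly_two [Nontrivial A] (M : Matrix (Fin 2) (Fin 2) A) :
    M.charpoly = X ^ 2 - C M.trace * X + C M.det :=
  Matrix.charpoly_fin_two M

end alg

section pair

variable {T A₁ A₂ : Type} [CommRing T] [IsLocalRing T] [CommRing A₁] [IsLocalRing A₁]
  [CommRing A₂] [IsLocalRing A₂]
  (π₁ : T →+* A₁) (π₂ : T →+* A₂)
  (r : FramedRep T) (r₁ : FramedRep A₁) (r₂ : FramedRep A₂)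
  (g₁ : (Matrix (Fin 2) (Fin 2) A₁)ˣ) (g₂ : (Matrix (Fin 2) (Fin 2) A₂)ˣ)

/-- `r σ = 1` as soon as `r₁ σ = 1`, `r₂ σ = 1`. -/
theorem m59cp_eq_one_of_pair (hinj : ∀ x : T, π₁ x = 0 → π₂ x = 0 → x = 0)
    (h₁ : ∀ σ, (r σ).map π₁ = g₁.val * r₁ σ * g₁.inv)
    (h₂ : ∀ σ, (r σ).map π₂ = g₂.val * r₂ σ * g₂.inv) (σ : GQ)
    (e₁ : r₁ σ = 1) (e₂ : r₂ σ = 1) : r σ = 1 := by
  have k₁ : (r σ).map π₁ = 1 := by rw [h₁ σ, e₁, mul_one, g₁.val_inv]
  have k₂ : (r σ).map π₂ = 1 := by rw [h₂ σ, e₂, mul_one, g₂.val_inv]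
  ext i j
  rw [← sub_eq_zero]
  refine hinj _ ?_ ?_
  · have := congrFun (congrFun k₁ i) j
    rw [Matrix.map_apply] at this
    rw [map_sub, this]
    by_cases hij : i = j
    · subst hij; simp
    · simp [Matrix.one_apply_ne hij]
  · have := congrFun (congrFun k₂ i) j
    rw [Matrix.map_apply] at this
    rw [map_sub, this]
    by_cases hij : i = j
    · subst hij; simp
    · simp [Matrix.one_apply_ne hij]

/-- the trace of `r σ` from the traces of `r₁ σ`, `r₂ σ`. -/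
theorem m59cp_trace_of_pair (hinj : ∀ x : T, π₁ x = 0 → π₂ x = 0 → x = 0)
    (h₁ : ∀ σ, (r σ).map π₁ = g₁.val * r₁ σ * g₁.inv)
    (h₂ : ∀ σ, (r σ).map π₂ = g₂.val * r₂ σ * g₂.inv) (σ : GQ) (c : T)
    (e₁ : (r₁ σ).trace = π₁ c) (e₂ : (r₂ σ).trace = π₂ c) : (r σ).trace = c := by
  rw [← sub_eq_zero]
  refine hinj _ ?_ ?_
  · rw [map_sub, ← m59cp_map_trace, h₁ σ, m59cp_conj_trace, e₁, sub_self]
  · rw [map_sub, ← m59cp_map_trace, h₂ σ, m59cp_conj_trace, e₂, sub_self]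

/-- the determinant of `r σ` from the determinants of `r₁ σ`, `r₂ σ`. -/
theorem m59cp_det_of_pair (hinj : ∀ x : T, π₁ x = 0 → π₂ x = 0 → x = 0)
    (h₁ : ∀ σ, (r σ).map π₁ = g₁.val * r₁ σ * g₁.inv)
    (h₂ : ∀ σ, (r σ).map π₂ = g₂.val * r₂ σ * g₂.inv) (σ : GQ) (c : T)
    (e₁ : (r₁ σ).det = π₁ c) (e₂ : (r₂ σ).det = π₂ c) : (r σ).det = c := by
  rw [← sub_eq_zero]
  refine hinj _ ?_ ?_
  · rw [map_sub, ← m59cp_map_det, h₁ σ, m59cp_conj_det, e₁, sub_self]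
  · rw [map_sub, ← m59cp_map_det, h₂ σ, m59cp_conj_det, e₂, sub_self]

/-- **unramified at `q`.** -/
theorem m59cp_unram_of_pair (hinj : ∀ x : T, π₁ x = 0 → π₂ x = 0 → x = 0)
    (h₁ : ∀ σ, (r σ).map π₁ = g₁.val * r₁ σ * g₁.inv)
    (h₂ : ∀ σ, (r σ).map π₂ = g₂.val * r₂ σ * g₂.inv) {q : ℕ}
    (hu₁ : r₁.toGaloisRepAdic.IsUnramifiedAt q) (hu₂ : r₂.toGaloisRepAdic.IsUnramifiedAt q) :
    r.toGaloisRepAdic.IsUnramifiedAt q := by
  intro P hP σ hσ
  have e₁ : r₁ σ = 1 := by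
    have := hu₁ P hP σ hσ
    exact Matrix.toLin'.injective (this.trans Matrix.toLin'_one.symm)
  have e₂ : r₂ σ = 1 := by
    have := hu₂ P hP σ hσ
    exact Matrix.toLin'.injective (this.trans Matrix.toLin'_one.symm)
  have e := m59cp_eq_one_of_pair π₁ π₂ r r₁ r₂ g₁ g₂ hinj h₁ h₂ σ e₁ e₂
  show Matrix.toLin' (r σ) = 1
  rw [e, Matrix.toLin'_one]
  rfl

/-- **unipotent inertia at `q`.** -/
theorem m59cp_unip_of_pair (hinj : ∀ x : T, π₁ x = 0 → π₂ x = 0 → x = 0)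
    (h₁ : ∀ σ, (r σ).map π₁ = g₁.val * r₁ σ * g₁.inv)
    (h₂ : ∀ σ, (r σ).map π₂ = g₂.val * r₂ σ * g₂.inv) {q : ℕ}
    (hu₁ : r₁.toGaloisRepAdic.IsUnipotentOnInertiaAt q)
    (hu₂ : r₂.toGaloisRepAdic.IsUnipotentOnInertiaAt q) :
    r.toGaloisRepAdic.IsUnipotentOnInertiaAt q := by
  intro P hP σ hσ
  have key : ∀ {A : Type} [CommRing A] [IsLocalRing A] (s : FramedRep A),
      LinearMap.charpoly (s.toGaloisRepAdic.ρ σ) = (X - 1) ^ 2 →
      (s σ).trace = 2 ∧ (s σ).det = 1 := by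
    intro A _ _ s hs
    have h1 : (s σ).charpoly = (X - 1) ^ 2 := by
      rw [← hs]
      exact (Matrix.charpoly_toLin' (s σ)).symm
    rw [m59cp_charpoly_two] at h1
    have c0 := congrArg (fun f : A[X] => f.coeff 0) h1
    have c1 := congrArg (fun f : A[X] => f.coeff 1) h1
    have e2 : ((X : A[X]) - 1) ^ 2 = X ^ 2 - C 2 * X + C 1 := by
      rw [map_ofNat, map_one]; ring
    simp only [e2] at c0 c1
    simp only [coeff_add, coeff_sub, coeff_X_pow, coeff_C_mul, coeff_X_zero, coeff_X_one,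
      coeff_C_zero, coeff_C_succ, mul_zero, mul_one, OfNat.zero_ne_ofNat, if_false,
      OfNat.one_ne_ofNat, sub_zero, zero_add, zero_sub, add_zero, neg_inj] at c0 c1
    exact ⟨c1, c0⟩
  obtain ⟨t₁, d₁⟩ := key r₁ (hu₁ P hP σ hσ)
  obtain ⟨t₂, d₂⟩ := key r₂ (hu₂ P hP σ hσ)
  have ht := m59cp_trace_of_pair π₁ π₂ r r₁ r₂ g₁ g₂ hinj h₁ h₂ σ 2
    (by rw [t₁, map_ofNat]) (by rw [t₂, map_ofNat])
  have hd := m59cp_det_of_pair π₁ π₂ r r₁ r₂ g₁ g₂ hinj h₁ h₂ σ 1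
    (by rw [d₁, map_one]) (by rw [d₂, map_one])
  have h1 : LinearMap.charpoly (r.toGaloisRepAdic.ρ σ) = (r σ).charpoly :=
    Matrix.charpoly_toLin' (r σ)
  rw [h1, m59cp_charpoly_two, ht, hd, map_ofNat, map_one]
  ring

/-- **cyclotomic determinant.** -/
theorem m59cp_detCyc_of_pair (p : ℕ) [Fact p.Prime]
    [IsAdicComplete (maximalIdeal T) T] [IsAdicComplete (maximalIdeal A₁) A₁]
    [IsAdicComplete (maximalIdeal A₂) A₂] (hl₁ : IsLocalHom π₁) (hl₂ : IsLocalHom π₂)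
    (hinj : ∀ x : T, π₁ x = 0 → π₂ x = 0 → x = 0)
    (h₁ : ∀ σ, (r σ).map π₁ = g₁.val * r₁ σ * g₁.inv)
    (h₂ : ∀ σ, (r σ).map π₂ = g₂.val * r₂ σ * g₂.inv)
    (hd₁ : r₁.toGaloisRepAdic.DetIsCyclotomic p) (hd₂ : r₂.toGaloisRepAdic.DetIsCyclotomic p) :
    r.toGaloisRepAdic.DetIsCyclotomic p := by
  have hpT : (p : T) ∈ maximalIdeal T := by
    rw [mem_maximalIdeal, mem_nonunits_iff]
    intro hu
    have h1 : IsUnit (π₁ (p : T)) := hu.map π₁
    rw [map_natCast] at h1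
    exact hd₁.1 h1
  refine cya_detIsCyclotomic p r.toGaloisRepAdic hpT fun σ => ?_
  have hdet : ∀ {A : Type} [CommRing A] [IsLocalRing A] (s : FramedRep A),
      LinearMap.det (s.toGaloisRepAdic.ρ σ) = (s σ).det := fun s => LinearMap.det_toLin' (s σ)
  rw [hdet]
  have hc : ∀ {A : Type} [CommRing A] [IsLocalRing A] [IsAdicComplete (maximalIdeal A) A]
      (π : T →+* A) (hpA : (p : A) ∈ maximalIdeal A),
      π (cya_eps p T hpT σ) = cya_eps p A hpA σ := by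
    intro A _ _ _ π hpA
    rw [cya_eps_apply, cya_eps_apply]
    exact RingHom.congr_fun (ffc_pa_ringHom_ext hpA (π.comp (cya_padicHom p T hpT))
      (cya_padicHom p A hpA)) _
  refine m59cp_det_of_pair π₁ π₂ r r₁ r₂ g₁ g₂ hinj h₁ h₂ σ _ ?_ ?_
  · rw [hc π₁ hd₁.1, ← cya_det_eq_eps p r₁.toGaloisRepAdic hd₁ σ, hdet]
  · rw [hc π₂ hd₂.1, ← cya_det_eq_eps p r₂.toGaloisRepAdic hd₂ σ, hdet]

end pair

end

end Fermat.Agent.M59
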