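import Mathlib
import Fermat.Agent.M59.C.PairHPair
import Fermat.Agent.M59.C.PairType

/-!
# Project M59 (S59), block [C-top], cell [PAIR], part 7: normalisation of the frame along a
surjection (prefix `m59cp_`)

`π : A →ₐ[𝒪] A₀` a SURJECTIVE map of local `𝒪`-algebras, `r : FramedRep A`, `r₀ : FramedRep A₀` with
`π (tr r σ) = tr r₀ σ`, `π (det r σ) = det r₀ σ`, `r₀` a lift of the absolutely irreducible `rb`.
Then some conjugate of `r` is pushed to `r₀` EXACTLY:

* `m59cp_norm` : `∃ δ ∈ GL₂(A)`, `((r.conj δ) σ).map π = r₀ σ` for all `σ`, and `r.conj δ` is again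
  a lift of `rb`.
* `m59cp_normH` : the same for a Hecke pair: a Hecke pair `H'` with THE SAME ring, `H'.r = H.r.conj δ`.

This makes the images `β` of the coordinates of the patching levels in the base ring `T₀'`
level-independent (field `π0_ν` of `m59ci_LvSys`).
-/

set_option autoImplicit false
set_option linter.unusedSectionVars false
set_option linter.style.haveILetI false

open IsLocalRing Polynomial

namespace Fermat.Agent.M59

open Fermat.Agent.TW Fermat.Agent.S53 Fermat.Agent.JT3 Fermat.Agent.FF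

noncomputable section

local notation "GQ" => (AlgebraicClosure ℚ ≃ₐ[ℚ] AlgebraicClosure ℚ)

section norm

variable {𝒪 : Type} [CommRing 𝒪] [IsLocalRing 𝒪] {rb : FramedResidual (ResidueField 𝒪)}
  {A A₀ : Type} [CommRing A] [IsLocalRing A] [Algebra 𝒪 A] [IsLocalHom (algebraMap 𝒪 A)]
  [CommRing A₀] [IsLocalRing A₀] [Algebra 𝒪 A₀] [IsLocalHom (algebraMap 𝒪 A₀)]

/-- a lift of `rb` over `A₀` pulls back: a framed representation over `A` whose push-forward along
a local homomorphism `π : A → A₀` is a lift of `rb` is a lift of `rb`. -/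
theorem m59cp_isLiftOf_of_map (π : A →ₐ[𝒪] A₀) [IsLocalHom (π : A →+* A₀)]
    (s : FramedRep A) (r₀ : FramedRep A₀)
    (hr₀ : r₀.IsLiftOf rb (ResidueField.map (algebraMap 𝒪 A₀)))
    (hs : ∀ σ, (s σ).map π = r₀ σ) : s.IsLiftOf rb (ResidueField.map (algebraMap 𝒪 A)) := by
  intro σ
  ext i j
  apply (ResidueField.map (π : A →+* A₀)).injective
  have h1 := congrFun (congrFun (hr₀ σ) i) j
  rw [← hs σ] at h1
  simp only [Matrix.map_apply] at h1 ⊢
  rw [ResidueField.map_residue]
  refine h1.trans ?_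
  obtain ⟨x, hx⟩ := residue_surjective (rb σ i j)
  rw [← hx, ResidueField.map_residue, ResidueField.map_residue, ResidueField.map_residue]
  congr 1
  exact (π.commutes x).symm

/-- **normalisation of the frame along a surjection.** -/
theorem m59cp_norm (habs : rb.toResidualGaloisRep.IsAbsolutelyIrreducible)
    (π : A →ₐ[𝒪] A₀) (hπ : Function.Surjective π)
    (r : FramedRep A) (r₀ : FramedRep A₀)
    (hr₀ : r₀.IsLiftOf rb (ResidueField.map (algebraMap 𝒪 A₀)))
    (htr : ∀ σ, π (r σ).trace = (r₀ σ).trace) (hdet : ∀ σ, π (r σ).det = (r₀ σ).det) :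
    ∃ δ : (Matrix (Fin 2) (Fin 2) A)ˣ, (∀ σ, ((r.conj δ) σ).map π = r₀ σ) ∧
      (r.conj δ).IsLiftOf rb (ResidueField.map (algebraMap 𝒪 A)) := by
  haveI hloc : IsLocalHom (π : A →+* A₀) := IsLocalHom.of_surjective _ hπ
  let ρ₂ : GQ →* Matrix (Fin 2) (Fin 2) A₀ :=
    ((π : A →+* A₀).mapMatrix :
      Matrix (Fin 2) (Fin 2) A →+* Matrix (Fin 2) (Fin 2) A₀).toMonoidHom.comp r.toMonoidHom
  have hρ₂ : ∀ σ, ρ₂ σ = (r σ).map π := fun σ => rfl
  obtain ⟨g, hg⟩ := m59cp_conj_of_trace_det r₀.toMonoidHom ρ₂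
    (m59cp_framed_span habs r₀ hr₀)
    (fun σ => by
      rw [hρ₂]
      exact (m59cp_map_trace (π : A →+* A₀) (r σ)).trans (htr σ))
    (fun σ => by
      rw [hρ₂]
      exact (m59cp_map_det (π : A →+* A₀) (r σ)).trans (hdet σ))
  obtain ⟨δ, hδ0⟩ := exists_units_map_eq (π : A →+* A₀) hloc hπ g⁻¹
  have hδ : δ.val.map π = g⁻¹.val := hδ0
  have hδi : δ.inv.map π = g.val := by
    have h1 : g⁻¹.val * δ.inv.map π = 1 := by
      rw [← hδ]
      have := congrArg (fun M : Matrix (Fin 2) (Fin 2) A => M.map π) δ.val_inv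
      simp only [Matrix.map_mul] at this
      rw [this]
      exact Matrix.map_one _ (map_zero π) (map_one π)
    calc δ.inv.map π = (g.val * g⁻¹.val) * δ.inv.map π := by
          rw [Units.mul_inv, one_mul]
      _ = g.val := by rw [mul_assoc, h1, mul_one]
  have key : ∀ σ, ((r.conj δ) σ).map π = r₀ σ := by
    intro σ
    rw [FramedRep.conj_apply, Matrix.map_mul, Matrix.map_mul, hδ, hδi, ← hρ₂, hg σ]
    have e1 : g.inv = g⁻¹.val := rfl
    rw [e1]
    calc g⁻¹.val * (g.val * r₀.toMonoidHom σ * g⁻¹.val) * g.val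
        = (g⁻¹.val * g.val) * r₀.toMonoidHom σ * (g⁻¹.val * g.val) := by
          simp only [mul_assoc]
      _ = r₀ σ := by rw [Units.inv_mul, one_mul, mul_one]
  exact ⟨δ, key, m59cp_isLiftOf_of_map π (r.conj δ) r₀ hr₀ key⟩

end norm

section hpair

variable {𝒪 : Type} [CommRing 𝒪] [IsLocalRing 𝒪] {rb : FramedResidual (ResidueField 𝒪)}

/-- the conjugate of a Hecke pair by a matrix, provided the conjugate is still a lift of `rb`:
same ring, `r` replaced by `r.conj δ`. -/
def m59cp_conjH (H : twc_HPair 𝒪 rb) (δ : (Matrix (Fin 2) (Fin 2) H.T)ˣ)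
    (hl : (H.r.conj δ).IsLiftOf rb (ResidueField.map (algebraMap 𝒪 H.T))) : twc_HPair 𝒪 rb :=
  { T := H.T
    residue_surjective := H.residue_surjective
    r := H.r.conj δ
    lift := hl
    gen := by
      letI := S53.dualNumberAlgebra 𝒪
      intro φ φ' h
      refine H.gen φ φ' fun σ => ?_
      have e : ((H.r.conj δ) σ).trace = (H.r σ).trace := by
        rw [FramedRep.conj_apply]
        exact m59cp_conj_trace δ (H.r σ)
      have := h σ
      rwa [e] at this }

end hpair

end

end Fermat.Agent.M59
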