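import Mathlib
import Fermat.Agent.M59.C.PairNorm
import Fermat.Agent.M59.C.PairMap

/-!
# Project M59 (S59), block [C-top], cell [CI-PAIR], auxiliary algebra (prefix `m59cp_`)

* `m59cp_isLocalHom_of_finite` : an `𝒪`-algebra map `A → B` of local `𝒪`-algebras, `A` a finite
  `𝒪`-module, the structure map of `B` local, is a local homomorphism.
* `m59cp_pairHom` : the map between two ABSTRACT pair rings (rings with jointly injective
  projections, generated by families `x`, `x₀`) induced by a map of the first factors.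
* `m59cp_norm2` : `m59cp_norm` with the determinant condition derived from the traces (`2` a unit).
-/

set_option autoImplicit false
set_option linter.unusedSectionVars false
set_option linter.style.haveILetI false

open IsLocalRing

namespace Fermat.Agent.M59

open Fermat.Agent.TW Fermat.Agent.S53

noncomputable section

local notation "GQ" => (AlgebraicClosure ℚ ≃ₐ[ℚ] AlgebraicClosure ℚ)

section localhom

variable {𝒪 : Type} [CommRing 𝒪] [IsLocalRing 𝒪]
  {A B : Type} [CommRing A] [IsLocalRing A] [Algebra 𝒪 A] [Module.Finite 𝒪 A]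
  [CommRing B] [IsLocalRing B] [Algebra 𝒪 B] [IsLocalHom (algebraMap 𝒪 B)]

/-- an algebra map out of a local finite `𝒪`-algebra is local. -/
theorem m59cp_isLocalHom_of_finite (f : A →ₐ[𝒪] B) : IsLocalHom (f : A →+* B) := by
  haveI : Algebra.IsIntegral 𝒪 A := Algebra.IsIntegral.of_finite 𝒪 A
  set P : Ideal A := (maximalIdeal B).comap (f : A →+* B) with hP
  haveI : P.IsPrime := Ideal.IsPrime.comap (f : A →+* B)
  have h1 : P.comap (algebraMap 𝒪 A) = maximalIdeal 𝒪 := by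
    have h2 : P.comap (algebraMap 𝒪 A) = (maximalIdeal B).comap (algebraMap 𝒪 B) := by
      rw [hP, Ideal.comap_comap]
      congr 1
      exact f.comp_algebraMap
    rw [h2]
    exact ((local_hom_TFAE (algebraMap 𝒪 B)).out 0 4).1
      (inferInstance : IsLocalHom (algebraMap 𝒪 B))
  have hmax : P.IsMaximal :=
    Ideal.isMaximal_of_isIntegral_of_isMaximal_comap (R := 𝒪) P
      (by rw [h1]; exact maximalIdeal.isMaximal 𝒪)
  have hPm : P = maximalIdeal A := eq_maximalIdeal hmax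
  exact ((local_hom_TFAE (f : A →+* B)).out 0 4).2 hPm

end localhom

section pairhom

variable {𝒪 : Type} [CommRing 𝒪] {X X₀ C C₀ : Type} [CommRing X] [CommRing X₀] [CommRing C]
  [CommRing C₀] [Algebra 𝒪 X] [Algebra 𝒪 X₀] [Algebra 𝒪 C] [Algebra 𝒪 C₀] {I : Type*}

/-- **the map between two abstract pair rings.** -/
theorem m59cp_pairHom (q1 : X →ₐ[𝒪] C) (q2 : X →ₐ[𝒪] 𝒪) (p1 : X₀ →ₐ[𝒪] C₀) (p2 : X₀ →ₐ[𝒪] 𝒪)
    (hp : ∀ t t' : X₀, p1 t = p1 t' → p2 t = p2 t' → t = t')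
    (x : I → X) (x₀ : I → X₀) (hx : Algebra.adjoin 𝒪 (Set.range x) = ⊤)
    (hx₀ : Algebra.adjoin 𝒪 (Set.range x₀) = ⊤)
    (π : C →ₐ[𝒪] C₀) (h1 : ∀ i, π (q1 (x i)) = p1 (x₀ i)) (h2 : ∀ i, q2 (x i) = p2 (x₀ i)) :
    ∃ π0 : X →ₐ[𝒪] X₀, Function.Surjective π0 ∧ (∀ t, p1 (π0 t) = π (q1 t)) ∧
      (∀ t, p2 (π0 t) = q2 t) ∧ ∀ i, π0 (x i) = x₀ i := by
  classical
  set φ₀ : X₀ →ₐ[𝒪] C₀ × 𝒪 := AlgHom.prod p1 p2 with hφ₀
  have hφ₀inj : Function.Injective φ₀ := by
    intro t t' h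
    have e1 : p1 t = p1 t' := congrArg Prod.fst h
    have e2 : p2 t = p2 t' := congrArg Prod.snd h
    exact hp t t' e1 e2
  set ψ : X →ₐ[𝒪] C₀ × 𝒪 := AlgHom.prod (π.comp q1) q2 with hψ
  have hrange : ∀ t : X, ψ t ∈ φ₀.range := by
    intro t
    have ht : t ∈ Algebra.adjoin 𝒪 (Set.range x) := by rw [hx]; trivial
    induction ht using Algebra.adjoin_induction with
    | mem y hy =>
      obtain ⟨i, rfl⟩ := hy
      exact ⟨x₀ i, Prod.ext (h1 i).symm (h2 i).symm⟩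
    | algebraMap c => rw [AlgHom.commutes]; exact Subalgebra.algebraMap_mem _ c
    | add y z _ _ hy hz => rw [map_add]; exact Subalgebra.add_mem _ hy hz
    | mul y z _ _ hy hz => rw [map_mul]; exact Subalgebra.mul_mem _ hy hz
  let e₀ : X₀ ≃ₐ[𝒪] φ₀.range := AlgEquiv.ofInjective φ₀ hφ₀inj
  let π0 : X →ₐ[𝒪] X₀ := (e₀.symm : φ₀.range →ₐ[𝒪] X₀).comp (ψ.codRestrict φ₀.range hrange)
  have hkey : ∀ t, φ₀ (π0 t) = ψ t := by
    intro t
    have h3 : e₀ (π0 t) = ψ.codRestrict φ₀.range hrange t := by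
      show e₀ (e₀.symm _) = _
      rw [AlgEquiv.apply_symm_apply]
      rfl
    have h4 : ((e₀ (π0 t) : φ₀.range) : C₀ × 𝒪) =
        ((ψ.codRestrict φ₀.range hrange t : φ₀.range) : C₀ × 𝒪) := congrArg Subtype.val h3
    exact h4
  have hp1 : ∀ t, p1 (π0 t) = π (q1 t) := fun t => congrArg Prod.fst (hkey t)
  have hp2 : ∀ t, p2 (π0 t) = q2 t := fun t => congrArg Prod.snd (hkey t)
  have hgen : ∀ i, π0 (x i) = x₀ i := by
    intro i
    refine hp _ _ ?_ ?_
    · rw [hp1, h1]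
    · rw [hp2, h2]
  refine ⟨π0, ?_, hp1, hp2, hgen⟩
  intro y
  have hy : y ∈ Algebra.adjoin 𝒪 (Set.range x₀) := by rw [hx₀]; trivial
  have hle : Algebra.adjoin 𝒪 (Set.range x₀) ≤ π0.range := by
    rw [Algebra.adjoin_le_iff]
    rintro _ ⟨i, rfl⟩
    exact ⟨x i, hgen i⟩
  exact hle hy

end pairhom

section norm2

variable {𝒪 : Type} [CommRing 𝒪] [IsLocalRing 𝒪] {rb : FramedResidual (ResidueField 𝒪)}
  {A A₀ : Type} [CommRing A] [IsLocalRing A] [Algebra 𝒪 A] [IsLocalHom (algebraMap 𝒪 A)]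
  [CommRing A₀] [IsLocalRing A₀] [Algebra 𝒪 A₀] [IsLocalHom (algebraMap 𝒪 A₀)]

/-- **normalisation of the frame along a surjection**, trace form (`2` a unit). -/
theorem m59cp_norm2 (habs : rb.toResidualGaloisRep.IsAbsolutelyIrreducible)
    (π : A →ₐ[𝒪] A₀) (hπ : Function.Surjective π)
    (r : FramedRep A) (r₀ : FramedRep A₀)
    (hr₀ : r₀.IsLiftOf rb (ResidueField.map (algebraMap 𝒪 A₀)))
    (h2 : IsUnit (2 : A₀))
    (htr : ∀ σ, π (r σ).trace = (r₀ σ).trace) :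
    ∃ δ : (Matrix (Fin 2) (Fin 2) A)ˣ, (∀ σ, ((r.conj δ) σ).map π = r₀ σ) ∧
      (r.conj δ).IsLiftOf rb (ResidueField.map (algebraMap 𝒪 A)) := by
  refine m59cp_norm habs π hπ r r₀ hr₀ htr fun σ => ?_
  have e1 := m59cp_two_det (r σ)
  have e2 := m59cp_two_det (r₀ σ)
  have e3 : (2 : A₀) * π (r σ).det = 2 * (r₀ σ).det := by
    have : π (2 * (r σ).det) = 2 * π (r σ).det := by rw [map_mul, map_ofNat]
    rw [← this, e1, e2, map_sub, map_pow, htr σ]
    congr 1
    rw [← r.map_mul, ← r₀.map_mul, htr]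
  exact h2.mul_left_cancel e3

end norm2

end

end Fermat.Agent.M59
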