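import Mathlib
import Fermat.Agent.M59.C.KillJ
import Fermat.Agent.M59.Top.Chain.LvSys

/-!
# Project M59 (S59), block [C-top], cell [PAIR], part 9: the coordinates of a family of matrices,
naturality, the ideal of ramification (prefix `m59cp_`)

* `m59cp_zH`, `m59cp_zN` : the coordinate formulas of `m59c_coordHg`, `m59c_coordN` for an arbitrary
  family `R : G_ℚ → M₂(B)` over an `𝒪`-algebra `B` (`m59cp_coordHg_eq`, `m59cp_coordN_eq` : `rfl`);
  `m59cp_zz := Sum.elim zH zN` on the index type `m59ci_Iz ↥T8 ↥Tn`;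
* `m59cp_zH_map`, `m59cp_zN_map`, `m59cp_zz_map` : naturality along `𝒪`-algebra maps;
* `m59cp_nu` : the plain form of `m59ci_nuT` (no local ring needed), `m59cp_nuT_map`;
* `m59cp_trT_eq` : the trace coordinate `m59ci_trT` is the trace of `R (gφ ℓ)`;
* `m59cp_entries_mem` : the entries of `X (ρ τ - 1) Y` lie in every ideal containing the
  `tr ρ(σ τ) - tr ρ(σ)` (the trace form of `M₂` is perfect), for `ρ` spanning `M₂`.
-/

set_option autoImplicit false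
set_option linter.unusedSectionVars false
set_option linter.style.haveILetI false

open IsLocalRing

namespace Fermat.Agent.M59

open Fermat.Agent.TW Fermat.Agent.S53

noncomputable section

local notation "GQ" => (AlgebraicClosure ℚ ≃ₐ[ℚ] AlgebraicClosure ℚ)

/-! ### the trace form -/

section traceform

variable {A : Type*} [CommRing A]

/-- the entries of `ρ τ - 1` lie in every ideal containing the `tr ρ(σ τ) - tr ρ(σ)`. -/
theorem m59cp_entry_mem {G : Type*} [Monoid G] (ρ : G →* Matrix (Fin 2) (Fin 2) A)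
    (hspan : Submodule.span A (Set.range ρ) = ⊤) (τ : G) (I : Ideal A)
    (hI : ∀ σ : G, (ρ (σ * τ)).trace - (ρ σ).trace ∈ I) (i j : Fin 2) :
    (ρ τ - 1) i j ∈ I := by
  have key : ∀ M : Matrix (Fin 2) (Fin 2) A, (M * (ρ τ - 1)).trace ∈ I := by
    intro M
    have hM : M ∈ Submodule.span A (Set.range ρ) := by rw [hspan]; trivial
    induction hM using Submodule.span_induction with
    | mem x hx =>
      obtain ⟨σ, rfl⟩ := hx
      rw [mul_sub, mul_one, Matrix.trace_sub, ← map_mul]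
      exact hI σ
    | zero => rw [zero_mul, Matrix.trace_zero]; exact I.zero_mem
    | add x y _ _ hx hy => rw [add_mul, Matrix.trace_add]; exact I.add_mem hx hy
    | smul c x _ hx =>
      rw [Matrix.smul_mul, Matrix.trace_smul]
      exact I.mul_mem_left c hx
  have h := key (Matrix.single j i 1)
  rwa [Matrix.trace_single_mul, one_smul] at h

/-- the entries of `X (ρ τ - 1) Y`. -/
theorem m59cp_entries_mem {G : Type*} [Monoid G] (ρ : G →* Matrix (Fin 2) (Fin 2) A)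
    (hspan : Submodule.span A (Set.range ρ) = ⊤) (τ : G) (I : Ideal A)
    (hI : ∀ σ : G, (ρ (σ * τ)).trace - (ρ σ).trace ∈ I)
    (X Y : Matrix (Fin 2) (Fin 2) A) (i j : Fin 2) : (X * (ρ τ - 1) * Y) i j ∈ I :=
  m59c_In_mul_right (twc_lr_In.mul_left X (m59cp_entry_mem ρ hspan τ I hI)) Y i j

end traceform

/-! ### the coordinates of a family of matrices -/

section coord

variable {𝒪 : Type} [CommRing 𝒪] {B : Type} [CommRing B] [Algebra 𝒪 B]
  {B' : Type} [CommRing B'] [Algebra 𝒪 B']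

/-- the `8` coordinates at a scalar-hard prime, for a family of matrices `R`. -/
def m59cp_zH {T8 : Finset Nat.Primes} (gσ gφ : Nat.Primes → GQ) (a : Nat.Primes → 𝒪)
    (g gi : Nat.Primes → Matrix (Fin 2) (Fin 2) 𝒪) (R : GQ → Matrix (Fin 2) (Fin 2) B)
    (x : ↥T8 × Fin 2 × Fin 2 × Fin 2) : B :=
  (![(gi x.1).map (algebraMap 𝒪 B) * (R (gσ x.1) - 1) * (g x.1).map (algebraMap 𝒪 B),
    (gi x.1).map (algebraMap 𝒪 B) *
      (R (gφ x.1) - Matrix.scalar (Fin 2) (algebraMap 𝒪 B (a x.1))) *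
      (g x.1).map (algebraMap 𝒪 B)] x.2.1) x.2.2.1 x.2.2.2

/-- the cyclic matrix `P_ℓ = (e | R(φ_ℓ) e)`. -/
def m59cp_P (gφ : Nat.Primes → GQ) (e : Nat.Primes → Fin 2 → 𝒪)
    (R : GQ → Matrix (Fin 2) (Fin 2) B) (ℓ : Nat.Primes) : Matrix (Fin 2) (Fin 2) B :=
  m59c_cyc (R (gφ ℓ)) (fun i => algebraMap 𝒪 B (e ℓ i))

/-- the `3` coordinates at a non-scalar prime, for a family of matrices `R`. -/
def m59cp_zN {Tn : Finset Nat.Primes} (gσ gφ : Nat.Primes → GQ) (t₀ : Nat.Primes → 𝒪)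
    (e : Nat.Primes → Fin 2 → 𝒪) (R : GQ → Matrix (Fin 2) (Fin 2) B) (x : ↥Tn × Fin 3) : B :=
  ![Matrix.trace (R (gφ x.1)) - algebraMap 𝒪 B (t₀ x.1),
    ((m59cp_P gφ e R x.1)⁻¹ * (R (gσ x.1) - 1) * m59cp_P gφ e R x.1) 0 0,
    ((m59cp_P gφ e R x.1)⁻¹ * (R (gσ x.1) - 1) * m59cp_P gφ e R x.1) 0 1] x.2

/-- all the coordinates. -/
def m59cp_zz {T8 Tn : Finset Nat.Primes} (gσ gφ : Nat.Primes → GQ) (a : Nat.Primes → 𝒪)
    (g gi : Nat.Primes → Matrix (Fin 2) (Fin 2) 𝒪) (t₀ : Nat.Primes → 𝒪)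
    (e : Nat.Primes → Fin 2 → 𝒪) (R : GQ → Matrix (Fin 2) (Fin 2) B) :
    m59ci_Iz ↥T8 ↥Tn → B :=
  Sum.elim (m59cp_zH gσ gφ a g gi R) (m59cp_zN gσ gφ t₀ e R)

theorem m59cp_map_algebraMap (f : B →ₐ[𝒪] B') (M : Matrix (Fin 2) (Fin 2) 𝒪) :
    (M.map (algebraMap 𝒪 B)).map f = M.map (algebraMap 𝒪 B') := by
  ext i j
  simp only [Matrix.map_apply]
  exact f.commutes _

theorem m59cp_map_sub_one (f : B →ₐ[𝒪] B') (M : Matrix (Fin 2) (Fin 2) B) :
    (M - 1).map f = M.map f - 1 := by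
  ext i j
  by_cases hij : i = j
  · subst hij
    simp only [Matrix.map_apply, Matrix.sub_apply, Matrix.one_apply_eq, map_sub, map_one]
  · simp only [Matrix.map_apply, Matrix.sub_apply, Matrix.one_apply_ne hij, map_sub, map_zero]

theorem m59cp_map_sub_scalar (f : B →ₐ[𝒪] B') (M : Matrix (Fin 2) (Fin 2) B) (c : 𝒪) :
    (M - Matrix.scalar (Fin 2) (algebraMap 𝒪 B c)).map f =
      M.map f - Matrix.scalar (Fin 2) (algebraMap 𝒪 B' c) := by
  ext i j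
  by_cases hij : i = j
  · subst hij
    simp only [Matrix.map_apply, Matrix.sub_apply, Matrix.scalar_apply, Matrix.diagonal_apply_eq,
      map_sub]
    rw [f.commutes c]
  · simp only [Matrix.map_apply, Matrix.sub_apply, Matrix.scalar_apply,
      Matrix.diagonal_apply_ne _ hij, map_sub, map_zero]

/-- naturality of the hard coordinates. -/
theorem m59cp_zH_map {T8 : Finset Nat.Primes} (gσ gφ : Nat.Primes → GQ) (a : Nat.Primes → 𝒪)
    (g gi : Nat.Primes → Matrix (Fin 2) (Fin 2) 𝒪) (R : GQ → Matrix (Fin 2) (Fin 2) B)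
    (f : B →ₐ[𝒪] B') (x : ↥T8 × Fin 2 × Fin 2 × Fin 2) :
    f (m59cp_zH gσ gφ a g gi R x) = m59cp_zH gσ gφ a g gi (fun σ => (R σ).map f) x := by
  obtain ⟨ℓ, c, i, j⟩ := x
  fin_cases c
  · show f (((gi ℓ).map (algebraMap 𝒪 B) * (R (gσ ℓ) - 1) * (g ℓ).map (algebraMap 𝒪 B)) i j) =
      ((gi ℓ).map (algebraMap 𝒪 B') * ((R (gσ ℓ)).map f - 1) * (g ℓ).map (algebraMap 𝒪 B')) i j
    rw [← m59cp_map_algebraMap f (gi ℓ), ← m59cp_map_algebraMap f (g ℓ), ← m59cp_map_sub_one,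
      ← Matrix.map_mul, ← Matrix.map_mul, Matrix.map_apply]
  · show f (((gi ℓ).map (algebraMap 𝒪 B) *
        (R (gφ ℓ) - Matrix.scalar (Fin 2) (algebraMap 𝒪 B (a ℓ))) *
        (g ℓ).map (algebraMap 𝒪 B)) i j) =
      ((gi ℓ).map (algebraMap 𝒪 B') *
        ((R (gφ ℓ)).map f - Matrix.scalar (Fin 2) (algebraMap 𝒪 B' (a ℓ))) *
        (g ℓ).map (algebraMap 𝒪 B')) i j
    rw [← m59cp_map_algebraMap f (gi ℓ), ← m59cp_map_algebraMap f (g ℓ),
      ← m59cp_map_sub_scalar, ← Matrix.map_mul, ← Matrix.map_mul, Matrix.map_apply]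

theorem m59cp_P_map (gφ : Nat.Primes → GQ) (e : Nat.Primes → Fin 2 → 𝒪)
    (R : GQ → Matrix (Fin 2) (Fin 2) B) (f : B →ₐ[𝒪] B') (ℓ : Nat.Primes) :
    (m59cp_P gφ e R ℓ).map f = m59cp_P gφ e (fun σ => (R σ).map f) ℓ := by
  unfold m59cp_P
  have h := m59c_cyc_map (f : B →+* B') (R (gφ ℓ)) (fun i => algebraMap 𝒪 B (e ℓ i))
  refine h.trans ?_
  congr 1
  funext i
  exact f.commutes _

theorem m59cp_inv_map (f : B →ₐ[𝒪] B') (P : Matrix (Fin 2) (Fin 2) B) (hP : IsUnit P.det) :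
    P⁻¹.map f = (P.map f)⁻¹ := by
  have h1 : P⁻¹.map f * P.map f = 1 := by
    rw [← Matrix.map_mul, Matrix.nonsing_inv_mul _ hP, Matrix.map_one _ (map_zero f) (map_one f)]
  exact (Matrix.inv_eq_left_inv h1).symm

/-- naturality of the non-scalar coordinates. -/
theorem m59cp_zN_map {Tn : Finset Nat.Primes} (gσ gφ : Nat.Primes → GQ) (t₀ : Nat.Primes → 𝒪)
    (e : Nat.Primes → Fin 2 → 𝒪) (R : GQ → Matrix (Fin 2) (Fin 2) B) (f : B →ₐ[𝒪] B')
    (x : ↥Tn × Fin 3) (hP : IsUnit (m59cp_P gφ e R x.1).det) :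
    f (m59cp_zN gσ gφ t₀ e R x) = m59cp_zN gσ gφ t₀ e (fun σ => (R σ).map f) x := by
  obtain ⟨ℓ, c⟩ := x
  have hN : ((m59cp_P gφ e R ℓ)⁻¹ * (R (gσ ℓ) - 1) * m59cp_P gφ e R ℓ).map f =
      (m59cp_P gφ e (fun σ => (R σ).map f) ℓ)⁻¹ * ((R (gσ ℓ)).map f - 1) *
        m59cp_P gφ e (fun σ => (R σ).map f) ℓ := by
    rw [Matrix.map_mul, Matrix.map_mul, m59cp_inv_map f _ hP, m59cp_P_map, m59cp_map_sub_one]
  fin_cases c
  · show f (Matrix.trace (R (gφ ℓ)) - algebraMap 𝒪 B (t₀ ℓ)) =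
      Matrix.trace ((R (gφ ℓ)).map f) - algebraMap 𝒪 B' (t₀ ℓ)
    rw [map_sub, f.commutes]
    congr 1
    simp [Matrix.trace, Matrix.map_apply, map_sum]
  · show f (((m59cp_P gφ e R ℓ)⁻¹ * (R (gσ ℓ) - 1) * m59cp_P gφ e R ℓ) 0 0) = _
    rw [← Matrix.map_apply (f := f), hN]
    rfl
  · show f (((m59cp_P gφ e R ℓ)⁻¹ * (R (gσ ℓ) - 1) * m59cp_P gφ e R ℓ) 0 1) = _
    rw [← Matrix.map_apply (f := f), hN]
    rfl

/-- the coordinates of a Hecke pair are the coordinates of its family of matrices. -/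
theorem m59cp_coordHg_eq [IsLocalRing 𝒪] {rb : FramedResidual (ResidueField 𝒪)}
    {T8 : Finset Nat.Primes} (gσ gφ : Nat.Primes → GQ) (a : Nat.Primes → 𝒪)
    (g gi : Nat.Primes → Matrix (Fin 2) (Fin 2) 𝒪) (H : twc_HPair 𝒪 rb)
    (x : ↥T8 × Fin 2 × Fin 2 × Fin 2) :
    m59c_coordHg gσ gφ a g gi H x = m59cp_zH gσ gφ a g gi (fun σ => H.r σ) x := rfl

theorem m59cp_coordN_eq [IsLocalRing 𝒪] {rb : FramedResidual (ResidueField 𝒪)}
    {Tn : Finset Nat.Primes} (gσ gφ : Nat.Primes → GQ) (t₀ : Nat.Primes → 𝒪)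
    (e : Nat.Primes → Fin 2 → 𝒪) (H : twc_HPair 𝒪 rb) (x : ↥Tn × Fin 3) :
    m59c_coordN gσ gφ t₀ e H x = m59cp_zN gσ gφ t₀ e (fun σ => H.r σ) x := rfl

end coord

/-! ### the plain form of `m59ci_nuT`, `m59ci_trT` -/

section nu

variable {𝒪 : Type} [CommRing 𝒪] {B : Type} [CommRing B] [Algebra 𝒪 B] {T8 Tn : Type}

/-- the entries of `Φ_t`, plain form. -/
def m59cp_Phi (a : T8 → 𝒪) (z : m59ci_Iz T8 Tn → B) (t : T8) (i j : Fin 2) : B :=
  (if i = j then algebraMap 𝒪 B (a t) else 0) + z (Sum.inl (t, 1, i, j))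

/-- the images of the coordinates `ν`, plain form. -/
def m59cp_nu (a : T8 → 𝒪) (t0 : Tn → 𝒪) (z : m59ci_Iz T8 Tn → B) : (T8 × Fin 6) ⊕ Tn → B :=
  Sum.elim
    (fun ti => ![m59cp_Phi a z ti.1 0 0, m59cp_Phi a z ti.1 1 0, m59cp_Phi a z ti.1 1 1,
      z (Sum.inl (ti.1, 0, 0, 0)), z (Sum.inl (ti.1, 0, 1, 0)), z (Sum.inl (ti.1, 0, 1, 1))] ti.2)
    (fun l => algebraMap 𝒪 B (t0 l) + z (Sum.inr (l, 0)))

variable {T : Type} [CommRing T] [IsLocalRing T] [Algebra 𝒪 T]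

theorem m59cp_PhiT_map (a : T8 → 𝒪) (z : m59ci_Iz T8 Tn → maximalIdeal T) (f : T →ₐ[𝒪] B)
    (t : T8) (i j : Fin 2) :
    f (m59ci_PhiT a z t i j) = m59cp_Phi a (fun c => f (z c : T)) t i j := by
  unfold m59ci_PhiT m59cp_Phi
  rw [map_add]
  congr 1
  split_ifs
  · exact f.commutes _
  · exact map_zero f

/-- `m59ci_nuT` through an algebra map. -/
theorem m59cp_nuT_map (a : T8 → 𝒪) (t0 : Tn → 𝒪) (z : m59ci_Iz T8 Tn → maximalIdeal T)
    (f : T →ₐ[𝒪] B) (c : (T8 × Fin 6) ⊕ Tn) :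
    f (m59ci_nuT a t0 z c) = m59cp_nu a t0 (fun c => f (z c : T)) c := by
  rcases c with ⟨t, i⟩ | l
  · show f (![m59ci_PhiT a z t 0 0, m59ci_PhiT a z t 1 0, m59ci_PhiT a z t 1 1,
      (z (Sum.inl (t, 0, 0, 0)) : T), (z (Sum.inl (t, 0, 1, 0)) : T),
      (z (Sum.inl (t, 0, 1, 1)) : T)] i) =
      ![m59cp_Phi a (fun c => f (z c : T)) t 0 0, m59cp_Phi a (fun c => f (z c : T)) t 1 0,
        m59cp_Phi a (fun c => f (z c : T)) t 1 1, f (z (Sum.inl (t, 0, 0, 0)) : T),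
        f (z (Sum.inl (t, 0, 1, 0)) : T), f (z (Sum.inl (t, 0, 1, 1)) : T)] i
    fin_cases i <;> simp [m59cp_PhiT_map]
  · show f (algebraMap 𝒪 T (t0 l) + (z (Sum.inr (l, 0)) : T)) =
      algebraMap 𝒪 B (t0 l) + f (z (Sum.inr (l, 0)) : T)
    rw [map_add, f.commutes]

end nu

end

end Fermat.Agent.M59
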