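import Mathlib
import Fermat.Agent.M59.C.Coord

/-!
# Project M59 (S59), block [C-gen], cell C/Weight (prefix `m59c_`): the weights `d ℓ`

* `m59c_rb_comm` : if `ρ̄` is unramified at `ℓ`, the image of `D_ℓ` commutes with `ρ̄(φ_ℓ)`;
* `m59c_one_le_finrank_inv` : hence `1 ≤ dim H⁰(D_ℓ, ad⁰ ρ̄)` at a non-scalar prime (`p ≠ 2`):
  `ρ̄(φ_ℓ) - (tr/2)` is a nonzero invariant;
* the weight `3` at a scalar prime is `twc_finrank_inv_of_scalar` (on main).
-/

set_option autoImplicit false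
set_option linter.unusedSectionVars false
set_option linter.style.haveILetI false

open Polynomial IsLocalRing ExtCitation Module
open Fermat.Agent.S53 Fermat.Agent.S56 Fermat.Agent.TW

namespace Fermat.Agent.M59

noncomputable section

local notation "GQ" => (AlgebraicClosure ℚ ≃ₐ[ℚ] AlgebraicClosure ℚ)
local notation "Qbar" => AlgebraicClosure ℚ

variable {k : Type} [Field k]

/-- the image of `D_ℓ` commutes with `ρ̄(φ_ℓ)` when `ρ̄` is trivial on `I_ℓ`. -/
theorem m59c_rb_comm {p : ℕ} {Th : Finset Nat.Primes} (td : m59c_TameData p Th)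
    (rb : FramedResidual k) (ℓ : Nat.Primes) (hℓ : ℓ ∈ Th)
    (hunr : ∀ τ ∈ (primeLocalPlace ℓ).inertiaSubgroupIn ℚ, rb τ = 1)
    (τ : GQ) (hτ : τ ∈ (primeLocalPlace ℓ).decompositionSubgroup ℚ) :
    rb τ * rb (td.gφ ℓ) = rb (td.gφ ℓ) * rb τ := by
  have hpg : ∀ τ ∈ (primeLocalPlace ℓ).inertiaSubgroupIn ℚ,
      ∃ n : ℕ, rb.toMonoidHom τ ^ p ^ n = 1 := fun τ hτ => ⟨0, by
    rw [pow_zero, pow_one]; exact hunr τ hτ⟩
  have hmem := td.gen ℓ hℓ _ rb.toMonoidHom rb.finiteLevel hpg τ hτ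
  have hle : Submonoid.closure ({rb.toMonoidHom (td.gφ ℓ), rb.toMonoidHom (td.gφ ℓ)⁻¹,
      rb.toMonoidHom (td.gσ ℓ)} : Set (Matrix (Fin 2) (Fin 2) k)) ≤
      Submonoid.centralizer {rb.toMonoidHom (td.gφ ℓ)} := by
    rw [Submonoid.closure_le]
    intro x hx
    rw [SetLike.mem_coe, Submonoid.mem_centralizer_iff]
    intro y hy
    rw [Set.mem_singleton_iff] at hy
    subst hy
    rcases hx with rfl | rfl | rfl
    · rfl
    · rw [← map_mul, ← map_mul, mul_inv_cancel, inv_mul_cancel]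
    · rw [hunr _ (td.σ_mem ℓ hℓ), mul_one, one_mul]
  have h := (Submonoid.mem_centralizer_iff.mp (hle hmem)) _ (Set.mem_singleton _)
  exact h.symm

/-- **the weight at a non-scalar prime**: `1 ≤ dim H⁰(D, ad⁰ ρ̄)` if `ρ̄(D)` commutes with a
non-scalar `ρ̄(g)`. -/
theorem m59c_one_le_finrank_inv (rb : FramedResidual k) (D : Subgroup GQ) (g : GQ)
    (h2 : (2 : k) ≠ 0) (hcomm : ∀ σ ∈ D, rb σ * rb g = rb g * rb σ)
    (hns : ∀ c : k, rb g ≠ Matrix.scalar (Fin 2) c) :
    1 ≤ finrank k (s56a_inv rb D) := by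
  set c : k := Matrix.trace (rb g) / 2 with hc
  set m : Matrix (Fin 2) (Fin 2) k := rb g - Matrix.scalar (Fin 2) c with hm
  have hmem : m ∈ s56a_inv rb D := by
    refine ⟨?_, fun σ hσ => ?_⟩
    · rw [hm, Matrix.trace_sub, Matrix.scalar_apply, Matrix.trace_diagonal]
      simp only [Finset.sum_const, Finset.card_univ, Fintype.card_fin, smul_eq_mul, hc]
      rw [nsmul_eq_mul]
      push_cast
      field_simp
      ring
    · rw [hm, Matrix.mul_sub, Matrix.sub_mul, hcomm σ hσ]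
      congr 1
      exact ((Matrix.scalar_commute c (fun r => Commute.all c r) (rb σ)).eq).symm
  have hne : (⟨m, hmem⟩ : s56a_inv rb D) ≠ 0 := by
    intro h
    have h1 : m = 0 := congrArg Subtype.val h
    rw [hm, sub_eq_zero] at h1
    exact hns c h1
  exact Module.finrank_pos_iff_exists_ne_zero.mpr ⟨_, hne⟩

end

end Fermat.Agent.M59
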