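import Mathlib
import Fermat.Agent.M59.C.Present
import Fermat.Agent.M59.C.Weight
import Fermat.Agent.S56.LocP.Final
import Fermat.Agent.S56.Flat.Closed

/-!
# Project M59 (S59), block [C-top], cell [CI-COT] in native form (prefix `m59cp_`)

* `m59cp_CotBound p Pp Smin Th Q c` : for EVERY Hecke pair `H''` of type
  `m59c_IsType p Pp Smin Th Q` and EVERY family `z` of elements of the maximal ideal whose vanishing
  forces `m59c_LocCob Th H''`, the cotangent space modulo `z` has dimension `≤ c`.  This is LITERALLY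
  the hypothesis `hcot` of `m59cp_PairSys_stmt` (`M59/C/PairSysStmt.lean`) with `Fintype.card κ = c`.
* `m59cp_cot` : the Taylor–Wiles primes and the bound, from `m59c_finrank_le` with the weights
  `d ℓ = 3` at the scalar primes `T8` (`twc_finrank_inv_of_scalar`) and `d ℓ = 1` at the non-scalar
  primes `Tn` (`m59c_one_le_finrank_inv`), for an ARBITRARY condition `Pp` at `p` with local shape
  `hPp`; `p ∈ Smin' := insert p Smin`.
* `m59cp_cot_flat` (`Pp :=` flat, `hPp := s56f_closed`), `m59cp_cot_ord` (`Pp :=` strictly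
  ordinary, `hPp := s56o_final`).
-/

set_option autoImplicit false
set_option linter.unusedSectionVars false
set_option linter.style.haveILetI false
set_option linter.unusedVariables false

open Polynomial IsLocalRing ExtCitation Module
open Fermat.Agent.S53 Fermat.Agent.S56 Fermat.Agent.TW

namespace Fermat.Agent.M59

noncomputable section

local notation "GQ" => (AlgebraicClosure ℚ ≃ₐ[ℚ] AlgebraicClosure ℚ)
local notation "Qbar" => AlgebraicClosure ℚ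

attribute [local instance] S53.dualNumberAlgebra

section bound

variable {𝒪 : Type} [CommRing 𝒪] [IsLocalRing 𝒪] {rb : FramedResidual (ResidueField 𝒪)}

/-- **the cotangent bound, native form** (= the hypothesis `hcot` of `m59cp_PairSys_stmt`). -/
def m59cp_CotBound (p : ℕ) (Pp : FramedRep (DualNumber (ResidueField 𝒪)) → Prop)
    (Smin : Finset ℕ) (Th : Finset Nat.Primes) (Q : Finset ℕ) (c : ℕ) : Prop :=
  ∀ (H'' : twc_HPair 𝒪 rb), m59c_IsType p Pp Smin Th Q H'' →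
    ∀ (ι : Type) (z : ι → maximalIdeal H''.T),
      (∀ φ : H''.T →ₐ[𝒪] DualNumber (ResidueField 𝒪), (∀ i, φ (z i : H''.T) = 0) →
        m59c_LocCob Th H'' φ) →
      Module.finrank (ResidueField H''.T) (CotangentSpace H''.T ⧸ twc_relW 𝒪 z) ≤ c

end bound

section scalar

variable {k : Type} [Field k]

/-- if `ρ̄` is unramified at `ℓ` with scalar Frobenius, the whole decomposition group acts through
scalars. -/
theorem m59cp_decomp_scalar {p : ℕ} {Th : Finset Nat.Primes} (td : m59c_TameData p Th)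
    (rb : FramedResidual k) (ℓ : Nat.Primes) (hℓ : ℓ ∈ Th)
    (hunr : ∀ τ ∈ (primeLocalPlace ℓ).inertiaSubgroupIn ℚ, rb τ = 1)
    (c : k) (hφ : rb (td.gφ ℓ) = Matrix.scalar (Fin 2) c)
    (τ : GQ) (hτ : τ ∈ (primeLocalPlace ℓ).decompositionSubgroup ℚ) :
    ∃ a : k, rb τ = Matrix.scalar (Fin 2) a := by
  have hpg : ∀ τ ∈ (primeLocalPlace ℓ).inertiaSubgroupIn ℚ,
      ∃ n : ℕ, rb.toMonoidHom τ ^ p ^ n = 1 := fun τ hτ => ⟨0, by
    rw [pow_zero, pow_one]; exact hunr τ hτ⟩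
  have hmem := td.gen ℓ hℓ _ rb.toMonoidHom rb.finiteLevel hpg τ hτ
  -- the submonoid of scalar matrices
  let Sc : Submonoid (Matrix (Fin 2) (Fin 2) k) :=
    { carrier := {M | ∃ a : k, M = Matrix.scalar (Fin 2) a}
      one_mem' := ⟨1, (map_one (Matrix.scalar (Fin 2))).symm⟩
      mul_mem' := by
        rintro _ _ ⟨a, rfl⟩ ⟨b, rfl⟩
        exact ⟨a * b, (map_mul (Matrix.scalar (Fin 2)) a b).symm⟩ }
  have hle : Submonoid.closure ({rb.toMonoidHom (td.gφ ℓ), rb.toMonoidHom (td.gφ ℓ)⁻¹,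
      rb.toMonoidHom (td.gσ ℓ)} : Set (Matrix (Fin 2) (Fin 2) k)) ≤ Sc := by
    rw [Submonoid.closure_le]
    have hc0 : c ≠ 0 := by
      intro h0
      have h1 : rb (td.gφ ℓ) * rb (td.gφ ℓ)⁻¹ = 1 := by
        rw [← rb.toMonoidHom.map_mul, mul_inv_cancel, map_one]
      rw [hφ, h0, map_zero, zero_mul] at h1
      have h2 := congrFun (congrFun h1 0) 0
      simp at h2
    intro x hx
    rcases hx with rfl | rfl | rfl
    · exact ⟨c, hφ⟩
    · refine ⟨c⁻¹, ?_⟩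
      have h1 : rb (td.gφ ℓ) * rb (td.gφ ℓ)⁻¹ = 1 := by
        rw [← rb.toMonoidHom.map_mul, mul_inv_cancel, map_one]
      have h2 : Matrix.scalar (Fin 2) c⁻¹ * Matrix.scalar (Fin 2) c = 1 := by
        rw [← map_mul, inv_mul_cancel₀ hc0, map_one]
      calc rb.toMonoidHom (td.gφ ℓ)⁻¹
          = (Matrix.scalar (Fin 2) c⁻¹ * Matrix.scalar (Fin 2) c) * rb (td.gφ ℓ)⁻¹ := by
            rw [h2, one_mul]
        _ = Matrix.scalar (Fin 2) c⁻¹ * (rb (td.gφ ℓ) * rb (td.gφ ℓ)⁻¹) := by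
            rw [hφ, mul_assoc]
        _ = Matrix.scalar (Fin 2) c⁻¹ := by rw [h1, mul_one]
    · exact ⟨1, by
        show rb (td.gσ ℓ) = _
        rw [hunr _ (td.σ_mem ℓ hℓ), map_one]⟩
  exact hle hmem

/-- a matrix with a cyclic vector is not scalar. -/
theorem m59cp_not_scalar_of_cyc (M : Matrix (Fin 2) (Fin 2) k) (v : Fin 2 → k)
    (h : (m59c_cyc M v).det ≠ 0) (c : k) : M ≠ Matrix.scalar (Fin 2) c := by
  rintro rfl
  apply h
  simp [m59c_cyc, Matrix.det_fin_two, Matrix.scalar_apply, Matrix.diagonal_apply]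
  ring

end scalar

section main

variable (𝒪 : Type) [CommRing 𝒪] [IsDomain 𝒪] [IsDiscreteValuationRing 𝒪]
  [IsAdicComplete (maximalIdeal 𝒪) 𝒪] [Finite (ResidueField 𝒪)]

/-- **[CI-COT], native form**: the Taylor–Wiles primes and the cotangent bound, weights `3` on the
scalar primes `T8`, `1` on the non-scalar primes `Tn`, an arbitrary condition `Pp` at `p` with its
local shape. -/
theorem m59cp_cot (p : ℕ) [Fact p.Prime] (hp2 : p ≠ 2) (hp𝒪 : (p : 𝒪) ∈ maximalIdeal 𝒪)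
    (rb : FramedResidual (ResidueField 𝒪)) (hyp : s56a_Hyp p rb.toResidualGaloisRep)
    (Pp : FramedRep (DualNumber (ResidueField 𝒪)) → Prop)
    (hPp : s56a_LocShape rb ((padicPlace p).decompositionSubgroup ℚ)
      (fun r => r.toGaloisRepAdic.DetIsCyclotomic p ∧ Pp r) 1)
    (S Smin : Finset ℕ) (hpS : p ∈ S) (hSmin : Smin ⊆ S)
    (hmin : ∀ q : ℕ, q.Prime → q ≠ p →
      (q ∈ Smin ↔ ¬ rb.toResidualGaloisRep.IsUnramifiedAt q))
    (T8 Tn : Finset Nat.Primes) (hdisj : Disjoint T8 Tn)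
    (hT : ∀ ℓ ∈ T8 ∪ Tn, ((ℓ : Nat.Primes) : ℕ) ∈ S ∧ ((ℓ : Nat.Primes) : ℕ) ∉ Smin ∧
      ((ℓ : Nat.Primes) : ℕ) ≠ p)
    (td : m59c_TameData p (T8 ∪ Tn))
    (a : Nat.Primes → 𝒪)
    (hφa : ∀ ℓ ∈ T8, rb (td.gφ ℓ) = Matrix.scalar (Fin 2) (residue 𝒪 (a ℓ)))
    (e : Nat.Primes → Fin 2 → 𝒪)
    (hcyc : ∀ ℓ ∈ Tn, (m59c_cyc (rb (td.gφ ℓ)) (fun i => residue 𝒪 (e ℓ i))).det ≠ 0) :
    ∃ rr c : ℕ, rr = c + 3 * T8.card + Tn.card ∧
      ∀ n : ℕ, ∃ qv : Fin rr → ℕ, Function.Injective qv ∧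
        (∀ i, (qv i).Prime ∧ qv i ∉ S ∧ p ^ (n + 1) ∣ qv i - 1) ∧
        (∀ i, ∀ P : ValuationSubring Qbar, P.LiesOverPrime (qv i) →
          ∀ φ : GQ, P.IsFrobeniusAt φ (qv i) → ∃ α β : ResidueField 𝒪, α ≠ β ∧
            LinearMap.charpoly (rb.toResidualGaloisRep.ρ φ) = (X - C α) * (X - C β)) ∧
        m59cp_CotBound (rb := rb) p Pp (insert p Smin) (T8 ∪ Tn) (Finset.univ.image qv) c := by
  classical
  have hpp : p.Prime := Fact.out
  haveI : CharP (ResidueField 𝒪) p := s56a_charP p hp𝒪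
  have h2k : (2 : ResidueField 𝒪) ≠ 0 := by
    intro h
    have h2 : ((2 : ℕ) : ResidueField 𝒪) = 0 := by exact_mod_cast h
    have hdvd := (CharP.cast_eq_zero_iff (ResidueField 𝒪) p 2).mp h2
    exact hp2 ((Nat.prime_dvd_prime_iff_eq hpp Nat.prime_two).mp hdvd)
  have hSmin' : insert p Smin ⊆ S := by
    intro x hx
    rcases Finset.mem_insert.1 hx with rfl | h
    · exact hpS
    · exact hSmin h
  have hmin' : ∀ q : ℕ, q.Prime → q ≠ p →
      (q ∈ insert p Smin ↔ ¬ rb.toResidualGaloisRep.IsUnramifiedAt q) := by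
    intro q hq hqp
    rw [Finset.mem_insert, ← hmin q hq hqp]
    constructor
    · rintro (h | h)
      · exact absurd h hqp
      · exact h
    · exact fun h => Or.inr h
  have hThS : ∀ ℓ ∈ T8 ∪ Tn, ((ℓ : Nat.Primes) : ℕ) ∈ S := fun ℓ hℓ => (hT ℓ hℓ).1
  have hThmin : ∀ ℓ ∈ T8 ∪ Tn, ((ℓ : Nat.Primes) : ℕ) ∉ insert p Smin := by
    intro ℓ hℓ h
    rcases Finset.mem_insert.1 h with h | h
    · exact (hT ℓ hℓ).2.2 h
    · exact (hT ℓ hℓ).2.1 h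
  -- `ρ̄` is unramified at the primes of the chain
  have hunr : ∀ ℓ ∈ T8 ∪ Tn, ∀ τ ∈ (primeLocalPlace ℓ).inertiaSubgroupIn ℚ, rb τ = 1 := by
    intro ℓ hℓ τ hτ
    have hu : rb.toResidualGaloisRep.IsUnramifiedAt ((ℓ : Nat.Primes) : ℕ) := by
      by_contra hcon
      exact (hT ℓ hℓ).2.1 ((hmin _ ℓ.2 (hT ℓ hℓ).2.2).2 hcon)
    have h1 := hu (primeLocalPlace ℓ) (s56ld_liesOver ℓ) τ hτ
    have h3 : Matrix.toLin' (rb τ) =
        Matrix.toLin' (1 : Matrix (Fin 2) (Fin 2) (ResidueField 𝒪)) := by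
      rw [Matrix.toLin'_one]; exact h1
    exact Matrix.toLin'.injective h3
  -- the weights
  set d : Nat.Primes → ℕ := fun ℓ => if ℓ ∈ T8 then 3 else 1 with hd_def
  have hd : ∀ ℓ ∈ T8 ∪ Tn, d ℓ ≤
      finrank (ResidueField 𝒪) (s56a_inv rb ((primeLocalPlace ℓ).decompositionSubgroup ℚ)) +
      (if ℓ = pPrime p then 1 else 0) := by
    intro ℓ hℓ
    refine le_trans ?_ (Nat.le_add_right _ _)
    by_cases h8 : ℓ ∈ T8
    · show (if ℓ ∈ T8 then 3 else 1) ≤ _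
      rw [if_pos h8]
      exact twc_finrank_inv_of_scalar rb _ (fun σ hσ =>
        m59cp_decomp_scalar td rb ℓ hℓ (hunr ℓ hℓ) _ (hφa ℓ h8) σ hσ)
    · have hn : ℓ ∈ Tn := (Finset.mem_union.1 hℓ).resolve_left h8
      show (if ℓ ∈ T8 then 3 else 1) ≤ _
      rw [if_neg h8]
      exact m59c_one_le_finrank_inv rb _ (td.gφ ℓ) h2k
        (fun σ hσ => m59c_rb_comm td rb ℓ hℓ (hunr ℓ hℓ) σ hσ)
        (m59cp_not_scalar_of_cyc _ _ (hcyc ℓ hn))
  have hsum : ∑ ℓ ∈ T8 ∪ Tn, d ℓ = 3 * T8.card + Tn.card := by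
    rw [Finset.sum_union hdisj]
    have h1 : ∑ ℓ ∈ T8, d ℓ = 3 * T8.card := by
      have h : ∀ ℓ ∈ T8, d ℓ = 3 := fun ℓ hℓ => by
        show (if ℓ ∈ T8 then 3 else 1) = 3
        rw [if_pos hℓ]
      rw [Finset.sum_congr rfl h, Finset.sum_const, smul_eq_mul, mul_comm]
    have h2 : ∑ ℓ ∈ Tn, d ℓ = Tn.card := by
      have h : ∀ ℓ ∈ Tn, d ℓ = 1 := fun ℓ hℓ => by
        show (if ℓ ∈ T8 then 3 else 1) = 1
        rw [if_neg (Finset.disjoint_right.1 hdisj hℓ)]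
      rw [Finset.sum_congr rfl h, Finset.sum_const, smul_eq_mul, mul_one]
    rw [h1, h2]
  obtain ⟨r, hr, h⟩ := m59c_finrank_le 𝒪 p hp2 hp𝒪 rb hyp Pp S (insert p Smin) hSmin'
    (fun _ => hPp) hmin' (T8 ∪ Tn) hThS hThmin (Or.inl (Finset.mem_insert_self _ _)) d hd
  rw [hsum] at hr
  refine ⟨r, r - (3 * T8.card + Tn.card), by omega, fun n => ?_⟩
  obtain ⟨qv, h1, h2, h3, h4⟩ := h n
  rw [hsum] at h4
  exact ⟨qv, h1, h2, h3, h4⟩

/-- **[CI-COT], flat mode.** -/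
theorem m59cp_cot_flat (p : ℕ) [Fact p.Prime] (hp2 : p ≠ 2) (hp𝒪 : (p : 𝒪) ∈ maximalIdeal 𝒪)
    (rb : FramedResidual (ResidueField 𝒪)) (hyp : s56a_Hyp p rb.toResidualGaloisRep)
    (S Smin : Finset ℕ) (hpS : p ∈ S) (hSmin : Smin ⊆ S)
    (hmin : ∀ q : ℕ, q.Prime → q ≠ p →
      (q ∈ Smin ↔ ¬ rb.toResidualGaloisRep.IsUnramifiedAt q))
    (T8 Tn : Finset Nat.Primes) (hdisj : Disjoint T8 Tn)
    (hT : ∀ ℓ ∈ T8 ∪ Tn, ((ℓ : Nat.Primes) : ℕ) ∈ S ∧ ((ℓ : Nat.Primes) : ℕ) ∉ Smin ∧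
      ((ℓ : Nat.Primes) : ℕ) ≠ p)
    (td : m59c_TameData p (T8 ∪ Tn))
    (a : Nat.Primes → 𝒪)
    (hφa : ∀ ℓ ∈ T8, rb (td.gφ ℓ) = Matrix.scalar (Fin 2) (residue 𝒪 (a ℓ)))
    (e : Nat.Primes → Fin 2 → 𝒪)
    (hcyc : ∀ ℓ ∈ Tn, (m59c_cyc (rb (td.gφ ℓ)) (fun i => residue 𝒪 (e ℓ i))).det ≠ 0) :
    ∃ rr c : ℕ, rr = c + 3 * T8.card + Tn.card ∧
      ∀ n : ℕ, ∃ qv : Fin rr → ℕ, Function.Injective qv ∧
        (∀ i, (qv i).Prime ∧ qv i ∉ S ∧ p ^ (n + 1) ∣ qv i - 1) ∧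
        (∀ i, ∀ P : ValuationSubring Qbar, P.LiesOverPrime (qv i) →
          ∀ φ : GQ, P.IsFrobeniusAt φ (qv i) → ∃ α β : ResidueField 𝒪, α ≠ β ∧
            LinearMap.charpoly (rb.toResidualGaloisRep.ρ φ) = (X - C α) * (X - C β)) ∧
        m59cp_CotBound (rb := rb) p (fun r => r.toGaloisRepAdic.IsFlatAt p) (insert p Smin)
          (T8 ∪ Tn) (Finset.univ.image qv) c := by
  haveI : CharP (ResidueField 𝒪) p := s56a_charP p hp𝒪
  letI : Algebra (ZMod p) (ResidueField 𝒪) := ZMod.algebra _ p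
  exact m59cp_cot 𝒪 p hp2 hp𝒪 rb hyp _ (s56f_closed p hp2 (ResidueField 𝒪) rb hyp.hsplit)
    S Smin hpS hSmin hmin T8 Tn hdisj hT td a hφa e hcyc

/-- **[CI-COT], strictly ordinary mode.** -/
theorem m59cp_cot_ord (p : ℕ) [Fact p.Prime] (hp2 : p ≠ 2) (hp𝒪 : (p : 𝒪) ∈ maximalIdeal 𝒪)
    (rb : FramedResidual (ResidueField 𝒪)) (hyp : s56a_Hyp p rb.toResidualGaloisRep)
    (S Smin : Finset ℕ) (hpS : p ∈ S) (hSmin : Smin ⊆ S)
    (hmin : ∀ q : ℕ, q.Prime → q ≠ p →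
      (q ∈ Smin ↔ ¬ rb.toResidualGaloisRep.IsUnramifiedAt q))
    (T8 Tn : Finset Nat.Primes) (hdisj : Disjoint T8 Tn)
    (hT : ∀ ℓ ∈ T8 ∪ Tn, ((ℓ : Nat.Primes) : ℕ) ∈ S ∧ ((ℓ : Nat.Primes) : ℕ) ∉ Smin ∧
      ((ℓ : Nat.Primes) : ℕ) ≠ p)
    (td : m59c_TameData p (T8 ∪ Tn))
    (a : Nat.Primes → 𝒪)
    (hφa : ∀ ℓ ∈ T8, rb (td.gφ ℓ) = Matrix.scalar (Fin 2) (residue 𝒪 (a ℓ)))
    (e : Nat.Primes → Fin 2 → 𝒪)
    (hcyc : ∀ ℓ ∈ Tn, (m59c_cyc (rb (td.gφ ℓ)) (fun i => residue 𝒪 (e ℓ i))).det ≠ 0) :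
    ∃ rr c : ℕ, rr = c + 3 * T8.card + Tn.card ∧
      ∀ n : ℕ, ∃ qv : Fin rr → ℕ, Function.Injective qv ∧
        (∀ i, (qv i).Prime ∧ qv i ∉ S ∧ p ^ (n + 1) ∣ qv i - 1) ∧
        (∀ i, ∀ P : ValuationSubring Qbar, P.LiesOverPrime (qv i) →
          ∀ φ : GQ, P.IsFrobeniusAt φ (qv i) → ∃ α β : ResidueField 𝒪, α ≠ β ∧
            LinearMap.charpoly (rb.toResidualGaloisRep.ρ φ) = (X - C α) * (X - C β)) ∧
        m59cp_CotBound (rb := rb) p (fun r => r.toGaloisRepAdic.IsStrictOrdinaryAt p)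
          (insert p Smin) (T8 ∪ Tn) (Finset.univ.image qv) c := by
  haveI : CharP (ResidueField 𝒪) p := s56a_charP p hp𝒪
  letI : Algebra (ZMod p) (ResidueField 𝒪) := ZMod.algebra _ p
  exact m59cp_cot 𝒪 p hp2 hp𝒪 rb hyp _ (s56o_final p hp2 (ResidueField 𝒪) rb)
    S Smin hpS hSmin hmin T8 Tn hdisj hT td a hφa e hcyc

end main

end

end Fermat.Agent.M59
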