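import Mathlib
import Fermat.Agent.M59.C.PairCot
import Fermat.Agent.M59.Rp.CotIII
import Fermat.Agent.M59.Rp.Mem

/-!
# Project M59 (S59), block [C-top], case (III): the cotangent bound in native form, `p` FRAMED
(prefix `m59cp_`)

Case (III) of [CHAIN-inst] (`W` multiplicative at `p`, `p ∤ N₁`): `pPrime p ∈ Th' = insert (pPrime p)
(T8 ∪ Tn)`, `p ∉ Smin` (no type clause at `p` in `m59c_IsType`), two coordinates at `p`
(helper13, M59/Rp/Seams.lean): `a_T = z0 z_T(Frob_p) - 1` and `v_T`.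

* `m59cp_CotBound3 p E g0 z0 Pp Smin Th Q c3` : for EVERY Hecke pair `H''` of type
  `m59c_IsType p Pp Smin (insert (pPrime p) Th) Q`, ordinary at `p`, EVERY family `z` whose vanishing
  forces `m59c_LocCob Th H''` (the OLD coordinates at `Th`), and the two coordinates `a_T`, `v_T`:
  `dim (Cot ⧸ relW (z ⊕ (a_T, v_T))) ≤ c3`.
* `m59cp_cot3` : the Taylor–Wiles primes `qv : Fin rr → ℕ` and the bound, with
  **`rr + 1 = (c3 + 2) + 3 |T8| + |Tn|`** (the relation `hrr` of the frame of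
  M59/Top/Chain3/Frame3.lean with `|κ| = c3 + 2`), UNIFORMLY in the residually split (`ū = 0`,
  `d_p = 2`, third coordinate `u_T` dropped at the cost of one generator) and non-split (`ū ≠ 0`,
  `d_p = 1`) cases.  From `m59c_finrank_le` with weights `3` / `1` / `d_p` and helper13's
  `m59rp_locCob_insert`, `m59rpk_mem`.
-/

set_option autoImplicit false
set_option linter.unusedSectionVars false
set_option linter.style.haveILetI false
set_option linter.unusedVariables false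

open Polynomial IsLocalRing ExtCitation Module
open Fermat.Agent.S53 Fermat.Agent.S56 Fermat.Agent.TW

namespace Fermat.Agent.M59

noncomputable section

local notation "GQ" => (AlgebraicClosure ℚ ≃ₐ[ℚ] AlgebraicClosure ℚ)
local notation "Qbar" => AlgebraicClosure ℚ

attribute [local instance] S53.dualNumberAlgebra

section linalg

/-- enlarging a subspace by one vector lowers the codimension by at most one. -/
theorem m59cp_finrank_quot_le_succ {K V : Type*} [Field K] [AddCommGroup V] [Module K V]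
    [FiniteDimensional K V] (W W' : Submodule K V) (x : V)
    (h : W' ≤ W ⊔ Submodule.span K {x}) :
    finrank K (V ⧸ W) ≤ finrank K (V ⧸ W') + 1 := by
  have h1 := Submodule.finrank_quotient_add_finrank W
  have h2 := Submodule.finrank_quotient_add_finrank W'
  have h3 : finrank K W' ≤ finrank K W + 1 := by
    calc finrank K W' ≤ finrank K ↥(W ⊔ Submodule.span K {x}) := Submodule.finrank_mono h
      _ ≤ finrank K W + finrank K ↥(Submodule.span K {x}) :=
          Submodule.finrank_add_le_finrank_add_finrank _ _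
      _ ≤ finrank K W + 1 := by
          have : finrank K ↥(Submodule.span K {x}) ≤ 1 := by
            by_cases hx : x = 0
            · rw [hx, Submodule.span_zero_singleton, finrank_bot]
              exact Nat.zero_le 1
            · rw [finrank_span_singleton hx]
          omega
  omega

end linalg

section bound

variable {𝒪 : Type} [CommRing 𝒪] [IsLocalRing 𝒪] {rb : FramedResidual (ResidueField 𝒪)}

/-- **the cotangent bound of case (III), native form**: `p` framed, two coordinates at `p`. -/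
def m59cp_CotBound3 (p : ℕ) [Fact p.Prime] (E : m59rp_Elts p (padicPlace p)) (g0 : GQ) (z0 : 𝒪)
    (Pp : FramedRep (DualNumber (ResidueField 𝒪)) → Prop)
    (Smin : Finset ℕ) (Th : Finset Nat.Primes) (Q : Finset ℕ) (c3 : ℕ) : Prop :=
  ∀ (H'' : twc_HPair 𝒪 rb), m59c_IsType p Pp Smin (insert (pPrime p) Th) Q H'' →
    H''.r.toGaloisRepAdic.IsOrdinaryAt p →
    ∀ (ι : Type) (z : ι → maximalIdeal H''.T),
      (∀ φ : H''.T →ₐ[𝒪] DualNumber (ResidueField 𝒪), (∀ i, φ (z i : H''.T) = 0) →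
        m59c_LocCob Th H'' φ) →
    ∀ (aT vT : maximalIdeal H''.T),
      (aT : H''.T) = m59rp_a E (algebraMap 𝒪 H''.T z0) H''.r.toMonoidHom →
      (vT : H''.T) = m59rp_v E g0 H''.r.toMonoidHom →
      Module.finrank (ResidueField H''.T)
        (CotangentSpace H''.T ⧸ twc_relW 𝒪 (Sum.elim z ![aT, vT])) ≤ c3

/-- dropping the third coordinate at `p` costs at most one generator. -/
theorem m59cp_relW_drop {A : Type} [CommRing A] [IsLocalRing A] [IsNoetherianRing A] [Algebra 𝒪 A]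
    [IsLocalHom (algebraMap 𝒪 A)] {ι : Type} (z : ι → maximalIdeal A) (aT vT uT : maximalIdeal A) :
    Module.finrank (ResidueField A) (CotangentSpace A ⧸ twc_relW 𝒪 (Sum.elim z ![aT, vT])) ≤
      Module.finrank (ResidueField A)
        (CotangentSpace A ⧸ twc_relW 𝒪 (Sum.elim z ![aT, vT, uT])) + 1 := by
  refine m59cp_finrank_quot_le_succ _ _ ((maximalIdeal A).toCotangent uT) ?_
  unfold twc_relW
  refine sup_le (le_sup_of_le_left le_sup_left) ?_
  rw [Submodule.span_le]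
  rintro _ ⟨i, rfl⟩
  rcases i with i | i
  · exact Submodule.mem_sup_left (Submodule.mem_sup_right (Submodule.subset_span ⟨Sum.inl i, rfl⟩))
  · fin_cases i
    · exact Submodule.mem_sup_left
        (Submodule.mem_sup_right (Submodule.subset_span ⟨Sum.inr 0, rfl⟩))
    · exact Submodule.mem_sup_left
        (Submodule.mem_sup_right (Submodule.subset_span ⟨Sum.inr 1, rfl⟩))
    · exact Submodule.mem_sup_right (Submodule.subset_span rfl)

end bound

section main

variable (𝒪 : Type) [CommRing 𝒪] [IsDomain 𝒪] [IsDiscreteValuationRing 𝒪]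
  [IsAdicComplete (maximalIdeal 𝒪) 𝒪] [Finite (ResidueField 𝒪)]

/-- **[CI-COT3], native form**: the Taylor–Wiles primes and the cotangent bound of case (III),
weights `3` on the scalar primes `T8`, `1` on the non-scalar primes `Tn`, `d_p ∈ {1, 2}` at `p`;
`rr + 1 = (c3 + 2) + 3 |T8| + |Tn|`. -/
theorem m59cp_cot3 (p : ℕ) [Fact p.Prime] (hp2 : p ≠ 2) (hp𝒪 : (p : 𝒪) ∈ maximalIdeal 𝒪)
    (rb : FramedResidual (ResidueField 𝒪)) (hyp : s56a_Hyp p rb.toResidualGaloisRep)
    (Pp : FramedRep (DualNumber (ResidueField 𝒪)) → Prop)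
    (S Smin : Finset ℕ) (hpS : p ∈ S) (hpSmin : p ∉ Smin) (hSmin : Smin ⊆ S)
    (hmin : ∀ q : ℕ, q.Prime → q ≠ p →
      (q ∈ Smin ↔ ¬ rb.toResidualGaloisRep.IsUnramifiedAt q))
    (T8 Tn : Finset Nat.Primes) (hdisj : Disjoint T8 Tn)
    (hT : ∀ ℓ ∈ T8 ∪ Tn, ((ℓ : Nat.Primes) : ℕ) ∈ S ∧ ((ℓ : Nat.Primes) : ℕ) ∉ Smin ∧
      ((ℓ : Nat.Primes) : ℕ) ≠ p)
    (td : m59c_TameData p (T8 ∪ Tn))
    (a : Nat.Primes → 𝒪)
    (hφa : ∀ ℓ ∈ T8, rb (td.gφ ℓ) = Matrix.scalar (Fin 2) (residue 𝒪 (a ℓ)))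
    (e : Nat.Primes → Fin 2 → 𝒪)
    (hcyc : ∀ ℓ ∈ Tn, (m59c_cyc (rb (td.gφ ℓ)) (fun i => residue 𝒪 (e ℓ i))).det ≠ 0)
    -- the data at `p`
    (E : m59rp_Elts p (padicPlace p)) (g0 : GQ) (z0 : 𝒪)
    (had : m59rp_IsAdapted E rb g0) (hvb : m59rp_v E g0 rb.toMonoidHom = 0) (hz0 : z0 ^ 2 = 1)
    (hsplit : m59rp_u E g0 rb.toMonoidHom = 0 →
      1 ≤ finrank (ResidueField 𝒪) (s56a_inv rb ((padicPlace p).decompositionSubgroup ℚ))) :
    ∃ rr c3 : ℕ, rr + 1 = (c3 + 2) + 3 * T8.card + Tn.card ∧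
      ∀ n : ℕ, ∃ qv : Fin rr → ℕ, Function.Injective qv ∧
        (∀ i, (qv i).Prime ∧ qv i ∉ S ∧ p ^ (n + 1) ∣ qv i - 1) ∧
        (∀ i, ∀ P : ValuationSubring Qbar, P.LiesOverPrime (qv i) →
          ∀ φ : GQ, P.IsFrobeniusAt φ (qv i) → ∃ α β : ResidueField 𝒪, α ≠ β ∧
            LinearMap.charpoly (rb.toResidualGaloisRep.ρ φ) = (X - C α) * (X - C β)) ∧
        m59cp_CotBound3 (rb := rb) p E g0 z0 Pp Smin (T8 ∪ Tn) (Finset.univ.image qv) c3 := by
  classical
  have hpp : p.Prime := Fact.out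
  haveI : CharP (ResidueField 𝒪) p := s56a_charP p hp𝒪
  have h2k : (2 : ResidueField 𝒪) ≠ 0 := by
    intro h
    have h2 : ((2 : ℕ) : ResidueField 𝒪) = 0 := by exact_mod_cast h
    have hdvd := (CharP.cast_eq_zero_iff (ResidueField 𝒪) p 2).mp h2
    exact hp2 ((Nat.prime_dvd_prime_iff_eq hpp Nat.prime_two).mp hdvd)
  -- the framed set
  set Th' : Finset Nat.Primes := insert (pPrime p) (T8 ∪ Tn) with hTh'
  have hpT : pPrime p ∉ T8 ∪ Tn := fun h => (hT _ h).2.2 rfl
  have hThS : ∀ ℓ ∈ Th', ((ℓ : Nat.Primes) : ℕ) ∈ S := by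
    intro ℓ hℓ
    rcases Finset.mem_insert.1 hℓ with rfl | h
    · exact hpS
    · exact (hT ℓ h).1
  have hThmin : ∀ ℓ ∈ Th', ((ℓ : Nat.Primes) : ℕ) ∉ Smin := by
    intro ℓ hℓ
    rcases Finset.mem_insert.1 hℓ with rfl | h
    · exact hpSmin
    · exact (hT ℓ h).2.1
  -- `ρ̄` is unramified at the primes of the chain
  have hunr : ∀ ℓ ∈ T8 ∪ Tn, ∀ τ ∈ (primeLocalPlace ℓ).inertiaSubgroupIn ℚ, rb τ = 1 := by
    intro ℓ hℓ τ hτ
    have hu : rb.toResidualGaloisRep.IsUnramifiedAt ((ℓ : Nat.Primes) : ℕ) := by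
      by_contra hcon
      exact (hT ℓ hℓ).2.1 ((hmin _ ℓ.2 (hT ℓ hℓ).2.2).2 hcon)
    have h1 := hu (primeLocalPlace ℓ) (s56ld_liesOver ℓ) τ hτ
    have h3 : Matrix.toLin' (rb τ) =
        Matrix.toLin' (1 : Matrix (Fin 2) (Fin 2) (ResidueField 𝒪)) := by
      rw [Matrix.toLin'_one]; exact h1
    exact Matrix.toLin'.injective h3
  -- the weight at `p`
  set dp : ℕ := if m59rp_u E g0 rb.toMonoidHom = 0 then 2 else 1 with hdp_def
  have hdp : dp ≤
      finrank (ResidueField 𝒪) (s56a_inv rb ((padicPlace p).decompositionSubgroup ℚ)) + 1 := by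
    by_cases hU : m59rp_u E g0 rb.toMonoidHom = 0
    · rw [hdp_def, if_pos hU]
      have := hsplit hU
      omega
    · rw [hdp_def, if_neg hU]
      omega
  -- the weights
  set d : Nat.Primes → ℕ := fun ℓ => if ℓ = pPrime p then dp else if ℓ ∈ T8 then 3 else 1
    with hd_def
  have hd : ∀ ℓ ∈ Th', d ℓ ≤
      finrank (ResidueField 𝒪) (s56a_inv rb ((primeLocalPlace ℓ).decompositionSubgroup ℚ)) +
      (if ℓ = pPrime p then 1 else 0) := by
    intro ℓ hℓ
    rcases Finset.mem_insert.1 hℓ with rfl | hℓ'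
    · show (if pPrime p = pPrime p then dp else _) ≤ _
      rw [if_pos rfl, if_pos rfl]
      exact hdp
    · have hne : ℓ ≠ pPrime p := fun h => hpT (h ▸ hℓ')
      show (if ℓ = pPrime p then dp else if ℓ ∈ T8 then 3 else 1) ≤ _
      rw [if_neg hne, if_neg hne, add_zero]
      by_cases h8 : ℓ ∈ T8
      · rw [if_pos h8]
        exact twc_finrank_inv_of_scalar rb _ (fun σ hσ =>
          m59cp_decomp_scalar td rb ℓ hℓ' (hunr ℓ hℓ') _ (hφa ℓ h8) σ hσ)
      · have hn : ℓ ∈ Tn := (Finset.mem_union.1 hℓ').resolve_left h8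
        rw [if_neg h8]
        exact m59c_one_le_finrank_inv rb _ (td.gφ ℓ) h2k
          (fun σ hσ => m59c_rb_comm td rb ℓ hℓ' (hunr ℓ hℓ') σ hσ)
          (m59cp_not_scalar_of_cyc _ _ (hcyc ℓ hn))
  have hsum : ∑ ℓ ∈ Th', d ℓ = dp + (3 * T8.card + Tn.card) := by
    rw [hTh', Finset.sum_insert hpT]
    have h0 : d (pPrime p) = dp := by
      show (if pPrime p = pPrime p then dp else _) = dp
      rw [if_pos rfl]
    rw [h0, Finset.sum_union hdisj]
    have h1 : ∑ ℓ ∈ T8, d ℓ = 3 * T8.card := by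
      have h : ∀ ℓ ∈ T8, d ℓ = 3 := fun ℓ hℓ => by
        have hne : ℓ ≠ pPrime p := fun h => hpT (h ▸ Finset.mem_union_left _ hℓ)
        show (if ℓ = pPrime p then dp else if ℓ ∈ T8 then 3 else 1) = 3
        rw [if_neg hne, if_pos hℓ]
      rw [Finset.sum_congr rfl h, Finset.sum_const, smul_eq_mul, mul_comm]
    have h2 : ∑ ℓ ∈ Tn, d ℓ = Tn.card := by
      have h : ∀ ℓ ∈ Tn, d ℓ = 1 := fun ℓ hℓ => by
        have hne : ℓ ≠ pPrime p := fun h => hpT (h ▸ Finset.mem_union_right _ hℓ)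
        show (if ℓ = pPrime p then dp else if ℓ ∈ T8 then 3 else 1) = 1
        rw [if_neg hne, if_neg (Finset.disjoint_right.1 hdisj hℓ)]
      rw [Finset.sum_congr rfl h, Finset.sum_const, smul_eq_mul, mul_one]
    rw [h1, h2]
  obtain ⟨r, hr, h⟩ := m59c_finrank_le 𝒪 p hp2 hp𝒪 rb hyp Pp S Smin hSmin
    (fun hmem => absurd hmem hpSmin) hmin Th' hThS hThmin
    (Or.inr (Finset.mem_insert_self _ _)) d hd
  rw [hsum] at hr
  have hdp1 : 1 ≤ dp := by
    rw [hdp_def]; split_ifs <;> omega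
  refine ⟨r, r - (dp + (3 * T8.card + Tn.card)) + (dp - 1), by omega, fun n => ?_⟩
  obtain ⟨qv, h1, h2, h3, h4⟩ := h n
  rw [hsum] at h4
  refine ⟨qv, h1, h2, h3, ?_⟩
  intro H'' hType hord ι z hz aT vT haT hvT
  have hdet := hType.1
  have hLoc : ∀ φ : H''.T →ₐ[𝒪] DualNumber (ResidueField 𝒪), (∀ i, φ (z i : H''.T) = 0) →
      φ (aT : H''.T) = 0 → φ (vT : H''.T) = 0 →
      (m59rp_u E g0 rb.toMonoidHom = 0 → φ (m59rp_u E g0 H''.r.toMonoidHom) = 0) →
      m59c_LocCob Th' H'' φ := by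
    intro φ hφz hφa hφv hφu
    exact m59rp_locCob_insert hp2 hp𝒪 rb E g0 z0 had hvb hz0 H'' hdet hord (T8 ∪ Tn) φ
      (hz φ hφz) (by rw [← haT]; exact hφa) (by rw [← hvT]; exact hφv) hφu
  by_cases hU : m59rp_u E g0 rb.toMonoidHom = 0
  · -- residually split: three coordinates, one dropped
    have hdp2 : dp = 2 := by rw [hdp_def, if_pos hU]
    have huT : m59rp_u E g0 H''.r.toMonoidHom ∈ maximalIdeal H''.T :=
      (m59rpk_mem p hp2 𝒪 rb (padicPlace p) (Fermat.Agent.S55.pl_padicPlace_liesOver p) E g0 z0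
        H'' hdet).2.2 hU
    have hb := h4 H'' hType (ι ⊕ Fin 3)
      (Sum.elim z ![aT, vT, ⟨m59rp_u E g0 H''.r.toMonoidHom, huT⟩])
      (fun φ hφ => hLoc φ (fun i => hφ (Sum.inl i)) (hφ (Sum.inr 0)) (hφ (Sum.inr 1))
        (fun _ => hφ (Sum.inr 2)))
    have hdrop := m59cp_relW_drop (𝒪 := 𝒪) z aT vT ⟨m59rp_u E g0 H''.r.toMonoidHom, huT⟩
    omega
  · -- residually non-split: two coordinates
    have hdp2 : dp = 1 := by rw [hdp_def, if_neg hU]
    have hb := h4 H'' hType (ι ⊕ Fin 2) (Sum.elim z ![aT, vT])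
      (fun φ hφ => hLoc φ (fun i => hφ (Sum.inl i)) (hφ (Sum.inr 0)) (hφ (Sum.inr 1))
        (fun h => absurd h hU))
    omega

end main

end

end Fermat.Agent.M59
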