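import Mathlib
import Fermat.Agent.M59.C.PairCot
import Fermat.Agent.M59.S38g.Ord.CTop.Type

/-!
# Project M59 (S59), block [C-top], cell [CI-COT], the ORDINARY mode through strictness
(prefix `m59cp_`)

For a Hecke pair `H` over `rb` (complete noetherian local, finite residue field):

* `m59cp_tres_pair` : `m59mo_IsTres p rb` passes to the residual representation of `H.r`;
* `m59cp_strict_of_ord_tres` : `H.r` ordinary at `p` with cyclotomic determinant and `rb` très
  ramifiée at `p` ⟹ `H.r` STRICTLY ordinary at `p` (helper14's `m59mo_strict_of_tres`);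
* `m59cp_isType_strict` : then `H` has the type `m59c_IsType p (strictly ordinary) Smin Th Q`
  as soon as it has the type `m59c_IsType p Pp' Smin Th Q` for SOME `Pp'` (the clause at `p` is
  replaced; tangent frames by `s56bc_strictOrdinary`);
* `m59cp_cotBound_ord` : the native bound `m59cp_CotBound p (strictly ordinary) …` of
  `m59cp_cot_ord` gives the bound for every pair `H` with `H.r` ORDINARY at `p` (whatever the clause
  at `p` of its type): the mode `¬ good` of [CI-COT] needs NO coordinate at `p`.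
-/

set_option autoImplicit false
set_option linter.unusedSectionVars false
set_option linter.style.haveILetI false
set_option linter.unusedVariables false

open Polynomial IsLocalRing ExtCitation Module
open Fermat.Agent.S53 Fermat.Agent.S56 Fermat.Agent.TW Fermat.Agent.FF

namespace Fermat.Agent.M59

noncomputable section

local notation "GQ" => (AlgebraicClosure ℚ ≃ₐ[ℚ] AlgebraicClosure ℚ)
local notation "Qbar" => AlgebraicClosure ℚ

attribute [local instance] S53.dualNumberAlgebra

section strict

variable {𝒪 : Type} [CommRing 𝒪] [IsLocalRing 𝒪] {rb : FramedResidual (ResidueField 𝒪)}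

/-- `m59mo_IsTres` for the residual representation of a Hecke pair. -/
theorem m59cp_tres_pair {p : ℕ} (H : twc_HPair 𝒪 rb)
    (htres : m59mo_IsTres p rb.toResidualGaloisRep) :
    m59mo_IsTres p H.r.toGaloisRepAdic.residual := by
  refine m59moc_tres_of_equiv (H.lift.residual_isEquiv ⟨ResidualGaloisRep.Equiv.refl _⟩) ?_
  letI : Algebra (ResidueField 𝒪) (ResidueField H.T) :=
    (ResidueField.map (algebraMap 𝒪 H.T)).toAlgebra
  exact m59moc_tres_baseChange (k' := ResidueField H.T) htres

/-- **ordinary + très ramifiée ⟹ strictly ordinary**, for a Hecke pair. -/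
theorem m59cp_strict_of_ord_tres [Finite (ResidueField 𝒪)] {p : ℕ} [Fact p.Prime]
    (H : twc_HPair 𝒪 rb) (hdet : H.r.toGaloisRepAdic.DetIsCyclotomic p)
    (hord : H.r.toGaloisRepAdic.IsOrdinaryAt p)
    (htres : m59mo_IsTres p rb.toResidualGaloisRep) :
    H.r.toGaloisRepAdic.IsStrictOrdinaryAt p := by
  haveI : Finite (H.T ⧸ maximalIdeal H.T) := by
    have hs : Function.Surjective (ResidueField.map (algebraMap 𝒪 H.T)) := by
      intro y
      obtain ⟨o, ho⟩ := H.residue_surjective y
      exact ⟨residue 𝒪 o, by rw [ResidueField.map_residue]; exact ho⟩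
    exact Finite.of_surjective _ hs
  have hfin : ∀ n : ℕ, Finite (H.T ⧸ maximalIdeal H.T ^ n) := fun n =>
    Ideal.finite_quotient_pow (IsNoetherian.noetherian _) n
  have hsep : ∀ x : H.T, (∀ n : ℕ, x ∈ maximalIdeal H.T ^ n) → x = 0 := by
    intro x hx
    have h1 : x ∈ ⨅ n : ℕ, maximalIdeal H.T ^ n := by
      rw [Ideal.mem_iInf]
      exact hx
    rw [Ideal.iInf_pow_eq_bot_of_isLocalRing _ (maximalIdeal.isMaximal H.T).ne_top] at h1
    exact h1
  exact m59mo_strict_of_tres hfin hsep H.r.toGaloisRepAdic hdet hord (m59cp_tres_pair H htres)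

/-- **the strict type of an ordinary pair.** -/
theorem m59cp_isType_strict [Finite (ResidueField 𝒪)] {p : ℕ} [Fact p.Prime]
    {Pp' : FramedRep (DualNumber (ResidueField 𝒪)) → Prop}
    {Smin : Finset ℕ} {Th : Finset Nat.Primes} {Q : Finset ℕ} (H : twc_HPair 𝒪 rb)
    (hT : m59c_IsType p Pp' Smin Th Q H) (hord : H.r.toGaloisRepAdic.IsOrdinaryAt p)
    (htres : m59mo_IsTres p rb.toResidualGaloisRep) :
    m59c_IsType p (fun r => r.toGaloisRepAdic.IsStrictOrdinaryAt p) Smin Th Q H := by
  have hs := m59cp_strict_of_ord_tres H hT.1 hord htres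
  refine ⟨hT.1, fun _ φ _ => ?_, hT.2.2.1, hT.2.2.2⟩
  obtain ⟨e⟩ := twc_frame_isEquiv H.r φ
  exact s56t_tr_isStrictOrdinaryAt e (s56bc_strictOrdinary _ (twc_isLocalHom φ) _ p hs)

/-- **the cotangent bound in the ordinary mode**: from the native bound for the strictly ordinary
type. -/
theorem m59cp_cotBound_ord [Finite (ResidueField 𝒪)] {p : ℕ} [Fact p.Prime]
    {Smin : Finset ℕ} {Th : Finset Nat.Primes} {Q : Finset ℕ} {c : ℕ}
    (h : m59cp_CotBound (rb := rb) p (fun r => r.toGaloisRepAdic.IsStrictOrdinaryAt p)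
      Smin Th Q c)
    (htres : m59mo_IsTres p rb.toResidualGaloisRep)
    {Pp' : FramedRep (DualNumber (ResidueField 𝒪)) → Prop} (H : twc_HPair 𝒪 rb)
    (hT : m59c_IsType p Pp' Smin Th Q H) (hord : H.r.toGaloisRepAdic.IsOrdinaryAt p)
    (ι : Type) (z : ι → maximalIdeal H.T)
    (hz : ∀ φ : H.T →ₐ[𝒪] DualNumber (ResidueField 𝒪), (∀ i, φ (z i : H.T) = 0) →
      m59c_LocCob Th H φ) :
    Module.finrank (ResidueField H.T) (CotangentSpace H.T ⧸ twc_relW 𝒪 z) ≤ c :=
  h H (m59cp_isType_strict H hT hord htres) ι z hz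

end strict

end

end Fermat.Agent.M59
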