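import Mathlib

/-!
# Project M59 (S59), block [C-top], cell [PAIR], part 8: the Galois diamonds in a ring embedded
in a product (prefix `m59cp_`)

`T` a complete local ring, `π₁ : T →+* A₁`, `π₂ : T →+* A₂` local homomorphisms (in use: the pair
ring `T'' ⊆ T' × 𝒪`).  Given in `T` the "traces" `tφ, tσ, tφσ` and the "determinant" `dφ` of a
Frobenius `φ`, an inertia element `σ` and their product at a Taylor–Wiles prime, such that

* over `A₁` the eigenvalues `a0, a1` of `φ` are residually distinct and `σ` is diagonal in the same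
  basis with eigenvalues `u, u'` (`u u' = 1`): `a0 + a1 = π₁ tφ`, `a0 a1 = π₁ dφ`,
  `u + u' = π₁ tσ`, `a0 u + a1 u' = π₁ tφσ`;
* over `A₂` the representation is unramified: `π₂ tσ = 2`, `π₂ tφσ = π₂ tφ`;

there is `w : T` with `π₁ w = u`, `π₂ w = 1` (`m59cp_diamond`): Hensel's lemma lifts the root `a0`
to `α₀ : T`, `α₁ := tφ - α₀`, and `w := (tφσ - α₁ tσ) / (α₀ - α₁)`.
-/

set_option autoImplicit false
set_option linter.unusedSectionVars false
set_option linter.style.haveILetI false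

open IsLocalRing Polynomial

namespace Fermat.Agent.M59

section diamond

variable {T A₁ A₂ : Type} [CommRing T] [IsLocalRing T] [IsAdicComplete (maximalIdeal T) T]
  [CommRing A₁] [IsLocalRing A₁] [CommRing A₂]

/-- Hensel: a residually simple root of `X² - tφ X + dφ` over `A₁` lifts to `T`. -/
theorem m59cp_hensel_root (π₁ : T →+* A₁) [IsLocalHom π₁]
    (hres : ∀ x : A₁, ∃ c : T, π₁ c - x ∈ maximalIdeal A₁)
    (tφ dφ : T) (a0 a1 : A₁) (hu : IsUnit (a0 - a1)) (hs : a0 + a1 = π₁ tφ)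
    (hp : a0 * a1 = π₁ dφ) :
    ∃ α₀ : T, α₀ ^ 2 - tφ * α₀ + dφ = 0 ∧ π₁ α₀ = a0 := by
  obtain ⟨c, hc⟩ := hres a0
  set f : T[X] := X ^ 2 - C tφ * X + C dφ with hf
  have hmonic : f.Monic := by
    have h1 : f = X ^ 2 + (-(C tφ) * X + C dφ) := by rw [hf]; ring
    rw [h1]
    refine Polynomial.monic_X_pow_add ?_
    rw [← map_neg]
    refine lt_of_le_of_lt (Polynomial.degree_add_le _ _) (max_lt ?_ ?_)
    · exact lt_of_le_of_lt (Polynomial.degree_C_mul_X_le _) (by norm_num)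
    · exact lt_of_le_of_lt Polynomial.degree_C_le (by norm_num)
  have hev : ∀ x : T, f.eval x = x ^ 2 - tφ * x + dφ := by
    intro x; rw [hf]; simp
  have hder : ∀ x : T, f.derivative.eval x = 2 * x - tφ := by
    intro x
    rw [hf]
    simp only [derivative_add, derivative_sub, derivative_X_pow, derivative_mul, derivative_C,
      derivative_X, zero_mul, mul_one, zero_add, eval_add, eval_sub, eval_mul, eval_C, eval_X,
      eval_pow, Nat.cast_ofNat, Nat.add_one_sub_one, pow_one, add_zero]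
  have hπev : ∀ x : T, π₁ (x ^ 2 - tφ * x + dφ) = (π₁ x - a0) * (π₁ x - a1) := by
    intro x
    rw [map_add, map_sub, map_pow, map_mul, ← hs, ← hp]; ring
  have h1 : f.eval c ∈ maximalIdeal T := by
    rw [hev, mem_maximalIdeal, mem_nonunits_iff]
    intro hunit
    have h2 : IsUnit (π₁ (c ^ 2 - tφ * c + dφ)) := hunit.map π₁
    rw [hπev] at h2
    exact (mem_maximalIdeal _).1 (Ideal.mul_mem_right _ _ hc) h2
  have h2 : IsUnit (f.derivative.eval c) := by
    rw [hder]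
    apply IsUnit.of_map π₁
    have e : π₁ (2 * c - tφ) = (a0 - a1) + 2 * (π₁ c - a0) := by
      rw [map_sub, map_mul, map_ofNat, ← hs]; ring
    rw [e]
    by_contra hnu
    have h3 : (a0 - a1) + 2 * (π₁ c - a0) ∈ maximalIdeal A₁ := (mem_maximalIdeal _).2 hnu
    have h4 : a0 - a1 ∈ maximalIdeal A₁ := by
      have := Ideal.sub_mem _ h3 (Ideal.mul_mem_left _ 2 hc)
      rwa [add_sub_cancel_right] at this
    exact (mem_maximalIdeal _).1 h4 hu
  obtain ⟨α₀, hroot, hα⟩ := HenselianRing.is_henselian (I := maximalIdeal T) f hmonic c h1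
    (h2.map (Ideal.Quotient.mk (maximalIdeal T)))
  have hr0 : α₀ ^ 2 - tφ * α₀ + dφ = 0 := by rw [← hev]; exact hroot
  refine ⟨α₀, hr0, ?_⟩
  have h5 : (π₁ α₀ - a0) * (π₁ α₀ - a1) = 0 := by rw [← hπev, hr0, map_zero]
  have h6 : π₁ α₀ - a0 ∈ maximalIdeal A₁ := by
    have h7 : π₁ (α₀ - c) ∈ maximalIdeal A₁ := by
      rw [mem_maximalIdeal, mem_nonunits_iff]
      intro hunit
      exact (mem_maximalIdeal _).1 hα (IsUnit.of_map π₁ _ hunit)
    have := Ideal.add_mem _ h7 hc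
    rwa [map_sub, sub_add_sub_cancel] at this
  have h8 : IsUnit (π₁ α₀ - a1) := by
    by_contra hnu
    have h9 : π₁ α₀ - a1 ∈ maximalIdeal A₁ := (mem_maximalIdeal _).2 hnu
    have h10 : a0 - a1 ∈ maximalIdeal A₁ := by
      have := Ideal.sub_mem _ h9 h6
      rwa [sub_sub_sub_cancel_left] at this
    exact (mem_maximalIdeal _).1 h10 hu
  have h11 : π₁ α₀ - a0 = 0 := by
    obtain ⟨w, hw⟩ := h8
    have := congrArg (fun x : A₁ => x * ((w⁻¹ : A₁ˣ) : A₁)) h5
    simp only [zero_mul] at this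
    rwa [← hw, mul_assoc, Units.mul_inv, mul_one] at this
  exact sub_eq_zero.mp h11

/-- **the Galois diamond in `T`.** -/
theorem m59cp_diamond (π₁ : T →+* A₁) [IsLocalHom π₁] (π₂ : T →+* A₂)
    (hres : ∀ x : A₁, ∃ c : T, π₁ c - x ∈ maximalIdeal A₁)
    (tφ dφ tσ tφσ : T) (a0 a1 u u' : A₁) (hu : IsUnit (a0 - a1)) (hs : a0 + a1 = π₁ tφ)
    (hp : a0 * a1 = π₁ dφ) (hσ : u + u' = π₁ tσ) (hφσ : a0 * u + a1 * u' = π₁ tφσ)
    (h2σ : π₂ tσ = 2) (h2φσ : π₂ tφσ = π₂ tφ) :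
    ∃ w : T, π₁ w = u ∧ π₂ w = 1 := by
  obtain ⟨α₀, -, hα₀⟩ := m59cp_hensel_root π₁ hres tφ dφ a0 a1 hu hs hp
  have hα₁ : π₁ (tφ - α₀) = a1 := by rw [map_sub, hα₀, ← hs]; ring
  have hunit : IsUnit (α₀ - (tφ - α₀)) := by
    apply IsUnit.of_map π₁
    rw [map_sub, hα₁, hα₀]
    exact hu
  obtain ⟨v, hv⟩ := hunit
  refine ⟨(tφσ - (tφ - α₀) * tσ) * ↑v⁻¹, ?_, ?_⟩
  · have h1 : π₁ (tφσ - (tφ - α₀) * tσ) = u * π₁ (v : T) := by
      rw [hv, map_sub, map_mul, hα₁, map_sub, hα₁, hα₀, ← hφσ, ← hσ]; ring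
    rw [map_mul, h1, mul_assoc, ← map_mul, Units.mul_inv, map_one, mul_one]
  · have h1 : π₂ (tφσ - (tφ - α₀) * tσ) = π₂ (v : T) := by
      rw [hv, map_sub, map_mul, h2σ, h2φσ, map_sub, map_sub, map_sub]; ring
    rw [map_mul, h1, ← map_mul, Units.mul_inv, map_one]

end diamond

end Fermat.Agent.M59
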