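/-
S59 project, block [C-gen]/[PAIR], cell [FLAT-GLUE] (helper24; prefix `m59cpf_`), file (F2):
THE COMMUTATIVE ALGEBRA (Artin–Rees).

`𝒪` noetherian, `𝔫` an ideal, `T ↪ A₁ × A₂` an `𝒪`-linear embedding into a product of two finite
`𝒪`-modules (`ι₁`, `ι₂` jointly injective):

* `m59cpf_AR` : there is `k` such that `ι₁ x ∈ 𝔫^(n+k) A₁`, `ι₂ x ∈ 𝔫^(n+k) A₂` imply `x ∈ 𝔫^n T`;
* `m59cpf_isLocalHom` : a finite algebra `T` over a local ring `𝒪`, `T` local, is a local algebra;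
* `m59cpf_pow_le` : `T` local, finite over the noetherian local ring `𝒪`, `I` an ideal of finite
  index ⟹ `𝔪_𝒪^n T ⊆ I` for some `n`;
* `m59cpf_finite_quot` : `A / 𝔪_𝒪^n A` is finite (`A` a finite `𝒪`-algebra, finite residue field);
* `m59cpf_ker_le` : the combination used in [FLAT-GLUE]: for `I` of finite index in `T` there is
  `m` with `π₁ x ∈ 𝔪_𝒪^m A₁`, `π₂ x ∈ 𝔪_𝒪^m A₂ ⟹ x ∈ I`.
-/
import Mathlib
import Fermat.Agent.FF.Car.Padic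
import Fermat.Agent.S53.Framed

set_option autoImplicit false
set_option linter.unusedSectionVars false
set_option linter.style.haveILetI false

noncomputable section

namespace Fermat.Agent.M59

open IsLocalRing Fermat.Agent.FF Fermat.Agent.S53

section AR

variable {𝒪 : Type} [CommRing 𝒪] [IsNoetherianRing 𝒪]
  {T A₁ A₂ : Type} [AddCommGroup T] [Module 𝒪 T] [AddCommGroup A₁] [Module 𝒪 A₁]
  [Module.Finite 𝒪 A₁] [AddCommGroup A₂] [Module 𝒪 A₂] [Module.Finite 𝒪 A₂]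

/-- **Artin–Rees for a submodule of a product.** -/
theorem m59cpf_AR (𝔫 : Ideal 𝒪) (ι₁ : T →ₗ[𝒪] A₁) (ι₂ : T →ₗ[𝒪] A₂)
    (hinj : ∀ x : T, ι₁ x = 0 → ι₂ x = 0 → x = 0) :
    ∃ k : ℕ, ∀ (n : ℕ) (x : T), ι₁ x ∈ 𝔫 ^ (n + k) • (⊤ : Submodule 𝒪 A₁) →
      ι₂ x ∈ 𝔫 ^ (n + k) • (⊤ : Submodule 𝒪 A₂) → x ∈ 𝔫 ^ n • (⊤ : Submodule 𝒪 T) := by
  let ι : T →ₗ[𝒪] A₁ × A₂ := ι₁.prod ι₂
  have hι : Function.Injective ι := by
    rw [injective_iff_map_eq_zero]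
    intro x hx
    exact hinj x (congrArg Prod.fst hx) (congrArg Prod.snd hx)
  obtain ⟨k, hk⟩ := Ideal.exists_pow_inf_eq_pow_smul 𝔫 (LinearMap.range ι)
  refine ⟨k, fun n x h1 h2 => ?_⟩
  have hmem : ι x ∈ 𝔫 ^ (n + k) • (⊤ : Submodule 𝒪 (A₁ × A₂)) ⊓ LinearMap.range ι := by
    refine ⟨?_, ⟨x, rfl⟩⟩
    have e : ι x = LinearMap.inl 𝒪 A₁ A₂ (ι₁ x) + LinearMap.inr 𝒪 A₁ A₂ (ι₂ x) := by
      ext <;> simp [ι]
    rw [e]
    refine Submodule.add_mem _ ?_ ?_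
    · have h3 := Submodule.mem_map_of_mem (f := LinearMap.inl 𝒪 A₁ A₂) h1
      rw [Submodule.map_smul''] at h3
      exact Submodule.smul_mono le_rfl le_top h3
    · have h3 := Submodule.mem_map_of_mem (f := LinearMap.inr 𝒪 A₁ A₂) h2
      rw [Submodule.map_smul''] at h3
      exact Submodule.smul_mono le_rfl le_top h3
  rw [hk (n + k) (Nat.le_add_left k n), Nat.add_sub_cancel] at hmem
  have h3 : ι x ∈ 𝔫 ^ n • LinearMap.range ι := Submodule.smul_mono le_rfl inf_le_right hmem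
  rw [LinearMap.range_eq_map, ← Submodule.map_smul''] at h3
  obtain ⟨y, hy, hyx⟩ := h3
  rw [← hι hyx]
  exact hy

end AR

section Local

variable {𝒪 : Type} [CommRing 𝒪] [IsLocalRing 𝒪]
  {T : Type} [CommRing T] [IsLocalRing T] [Algebra 𝒪 T] [Module.Finite 𝒪 T]

/-- a local ring which is a finite algebra over a local ring is a local algebra. -/
theorem m59cpf_isLocalHom : IsLocalHom (algebraMap 𝒪 T) := by
  haveI : Algebra.IsIntegral 𝒪 T := Algebra.IsIntegral.of_finite 𝒪 T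
  have hmax : ((maximalIdeal T).comap (algebraMap 𝒪 T)).IsMaximal :=
    Ideal.isMaximal_comap_of_isIntegral_of_isMaximal (R := 𝒪) (maximalIdeal T)
  have heq : (maximalIdeal T).comap (algebraMap 𝒪 T) = maximalIdeal 𝒪 :=
    IsLocalRing.eq_maximalIdeal hmax
  exact ((IsLocalRing.local_hom_TFAE (algebraMap 𝒪 T)).out 4 0).mp heq

/-- `𝔪_𝒪^n T ⊆ 𝔪_T^n`. -/
theorem m59cpf_smul_top_le (n : ℕ) (x : T)
    (hx : x ∈ maximalIdeal 𝒪 ^ n • (⊤ : Submodule 𝒪 T)) : x ∈ maximalIdeal T ^ n := by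
  have hloc : IsLocalHom (algebraMap 𝒪 T) := m59cpf_isLocalHom
  refine Submodule.smul_induction_on (p := fun x => x ∈ maximalIdeal T ^ n) hx ?_ ?_
  · intro a ha t _
    rw [Algebra.smul_def]
    exact Ideal.mul_mem_right _ _ (map_mem_maximalIdeal_pow (algebraMap 𝒪 T) hloc ha)
  · intro x y hx hy
    exact Ideal.add_mem _ hx hy

variable [IsNoetherianRing 𝒪]

/-- an ideal of finite index of `T` contains `𝔪_𝒪^n T` for some `n`. -/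
theorem m59cpf_pow_le (I : Ideal T) [Finite (T ⧸ I)] :
    ∃ n : ℕ, ∀ x : T, x ∈ maximalIdeal 𝒪 ^ n • (⊤ : Submodule 𝒪 T) → x ∈ I := by
  haveI : IsNoetherianRing T := IsNoetherianRing.of_finite 𝒪 T
  obtain ⟨n, hn⟩ : ∃ k : ℕ, maximalIdeal T ^ k ≤ I :=
    Ideal.exists_pow_le_of_le_radical_of_fg
      (fun x hx => ffc_pa_pow_mem_of_finite I x hx) (IsNoetherian.noetherian _)
  exact ⟨n, fun x hx => hn (m59cpf_smul_top_le n x hx)⟩

end Local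

section Quot

variable {𝒪 : Type} [CommRing 𝒪] [IsLocalRing 𝒪] [IsNoetherianRing 𝒪] [Finite (ResidueField 𝒪)]
  {A : Type} [CommRing A] [Algebra 𝒪 A] [Module.Finite 𝒪 A]

/-- `A / 𝔪_𝒪^n A` is finite. -/
theorem m59cpf_finite_quot (n : ℕ) :
    Finite (A ⧸ (maximalIdeal 𝒪 ^ n).map (algebraMap 𝒪 A)) := by
  have h0 : Finite (𝒪 ⧸ maximalIdeal 𝒪) := ‹Finite (ResidueField 𝒪)›
  have : Finite (𝒪 ⧸ maximalIdeal 𝒪 ^ n) :=
    Ideal.finite_quotient_pow (IsNoetherian.noetherian _) n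
  exact ffc_pa_finite_of_le (maximalIdeal 𝒪 ^ n) _ fun r hr => Ideal.mem_map_of_mem _ hr

end Quot

/-- membership in `J A` and in `J • ⊤`. -/
theorem m59cpf_mem_map_iff {𝒪 A : Type} [CommRing 𝒪] [CommRing A] [Algebra 𝒪 A] (J : Ideal 𝒪)
    (a : A) : a ∈ J.map (algebraMap 𝒪 A) ↔ a ∈ J • (⊤ : Submodule 𝒪 A) := by
  rw [Ideal.smul_top_eq_map]
  rfl

section Comb

variable {𝒪 : Type} [CommRing 𝒪] [IsLocalRing 𝒪] [IsNoetherianRing 𝒪]
  {T A₁ A₂ : Type} [CommRing T] [IsLocalRing T] [Algebra 𝒪 T] [Module.Finite 𝒪 T]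
  [CommRing A₁] [Algebra 𝒪 A₁] [Module.Finite 𝒪 A₁]
  [CommRing A₂] [Algebra 𝒪 A₂] [Module.Finite 𝒪 A₂]

/-- **the combination used in [FLAT-GLUE].** -/
theorem m59cpf_ker_le (π₁ : T →ₐ[𝒪] A₁) (π₂ : T →ₐ[𝒪] A₂)
    (hinj : ∀ x : T, π₁ x = 0 → π₂ x = 0 → x = 0) (I : Ideal T) [Finite (T ⧸ I)] :
    ∃ m : ℕ, ∀ x : T, π₁ x ∈ (maximalIdeal 𝒪 ^ m).map (algebraMap 𝒪 A₁) →
      π₂ x ∈ (maximalIdeal 𝒪 ^ m).map (algebraMap 𝒪 A₂) → x ∈ I := by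
  obtain ⟨n, hn⟩ := m59cpf_pow_le (𝒪 := 𝒪) I
  obtain ⟨k, hk⟩ := m59cpf_AR (maximalIdeal 𝒪) π₁.toLinearMap π₂.toLinearMap hinj
  refine ⟨n + k, fun x h1 h2 => hn x (hk n x ?_ ?_)⟩
  · exact (m59cpf_mem_map_iff _ _).mp h1
  · exact (m59cpf_mem_map_iff _ _).mp h2

end Comb

end Fermat.Agent.M59
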