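/-
S59 project, block [C-gen]/[PAIR], cell [FLAT-GLUE] (helper24; prefix `m59cpf_`), file (F1):
TWO GENERAL FACTS ON ORDERS (`ff_IsOrder`, `FF/Seams.lean`).

* `m59cpf_order_of_hopf` : **Hopf model ⟹ order** (the converse of [HO] `ffh_seamHO`): if the finite
  `G_ℚ`-module `M` is the group of `Q̄`-points of a Hopf algebra `H'` over `ℤ_(ℓ)`, finite as a
  module (`ff_HasHopfModel ℓ M`), then the image of `H'` in `Map(M, Q̄)`,
  `h ↦ (x ↦ (e.symm x) h)`, is an order of `M`;
* `m59cpf_order_prod`    : **binary products**: orders `H₁` of `M₁`, `H₂` of `M₂` ⟹ the algebra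
  generated by the two pull-backs is an order of `M₁ × M₂` (twin of `ffc_ord_pi`);
* `m59cpf_hopf_subquot2` : a `G_ℚ`-module which is an equivariant quotient of a subgroup of
  `M₁ × M₂` (kernel form, as in `ffc_io_subquot_ker`) has a Hopf model as soon as `M₁`, `M₂` have.
-/
import Mathlib
import Fermat.Agent.FF.Seams
import Fermat.Agent.FF.Car.OrdClosure
import Fermat.Agent.FF.Car.InstOrd
import Fermat.Agent.FF.HopfOrderSeam

set_option autoImplicit false
set_option linter.unusedSectionVars false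

noncomputable section

namespace Fermat.Agent.M59

open Fermat.Agent.FF TensorProduct

variable {ℓ : ℕ}

/-! ### Hopf model ⟹ order -/

section OfHopf

variable {M : Type} [AddCommGroup M] [DistribMulAction ff_GQ M]

/-- **Hopf model ⟹ order.** -/
theorem m59cpf_order_of_hopf (hM : ff_HasHopfModel ℓ M) :
    ∃ H : Subalgebra (ff_R ℓ) (M → ff_Qb), ff_IsOrder ℓ M H := by
  classical
  obtain ⟨H', i1, i2, hfin, -, -, e, he, hact⟩ := hM
  -- evaluation
  let ev : H' →ₐ[ff_R ℓ] (M → ff_Qb) := AlgHom.pi (fun x : M => (e.symm x).ofConv)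
  have hev : ∀ (h : H') (x : M), ev h x = (e.symm x).ofConv h := fun _ _ => rfl
  -- the points multiply
  have hmul : ∀ x y : M, e.symm (x + y) = e.symm x * e.symm y := by
    intro x y
    apply e.injective
    rw [he, Equiv.apply_symm_apply, Equiv.apply_symm_apply, Equiv.apply_symm_apply]
  -- Galois acts on the points
  have hgal : ∀ (σ : ff_GQ) (x : M) (h : H'),
      (e.symm (σ • x)).ofConv h = σ ((e.symm x).ofConv h) := by
    intro σ x h
    let σR : ff_Qb →ₐ[ff_R ℓ] ff_Qb := (σ : ff_Qb →ₐ[ℚ] ff_Qb).restrictScalars (ff_R ℓ)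
    let g : WithConv (H' →ₐ[ff_R ℓ] ff_Qb) := WithConv.toConv (σR.comp (e.symm x).ofConv)
    have h1 : e g = σ • e (e.symm x) := hact σ (e.symm x) g (fun _ => rfl)
    rw [Equiv.apply_symm_apply] at h1
    have h2 : e.symm (σ • x) = g := by rw [← h1, Equiv.symm_apply_apply]
    rw [h2]
    rfl
  refine ⟨ev.range, ?_, ?_, ?_, ?_⟩
  · rintro φ ⟨h, rfl⟩ σ x
    show ev h (σ • x) = σ (ev h x)
    rw [hev, hev, hgal]
  · exact Module.Finite.of_surjective ev.rangeRestrict.toLinearMap ev.rangeRestrict_surjective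
  · intro x y hxy
    by_contra hcon
    push Not at hcon
    apply hxy
    apply e.symm.injective
    apply WithConv.ofConv_injective
    refine AlgHom.ext fun h => ?_
    have := hcon (ev h) ⟨h, rfl⟩
    rwa [hev, hev] at this
  · rintro φ ⟨h, rfl⟩
    obtain ⟨S, hS⟩ := TensorProduct.exists_finset (Coalgebra.comul (R := ff_R ℓ) h)
    refine ffc_ord_dec_of_fintype (ι := ↥S) (fun i => ev i.1.1) (fun i => ev i.1.2)
      (fun i => ⟨_, rfl⟩) (fun i => ⟨_, rfl⟩) fun x y => ?_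
    show ev h (x + y) = _
    rw [hev, hmul, AlgHom.convMul_apply, hS, map_sum, ← Finset.sum_coe_sort S]
    refine Finset.sum_congr rfl fun i _ => ?_
    rw [Algebra.TensorProduct.lift_tmul]
    rfl

end OfHopf

/-! ### binary products -/

section Prod

variable {M₁ M₂ : Type} [AddCommGroup M₁] [AddCommGroup M₂] [DistribMulAction ff_GQ M₁]
  [DistribMulAction ff_GQ M₂]

/-- the two pull-backs to the product. -/
def m59cpf_fam (ℓ : ℕ) (H₁ : Subalgebra (ff_R ℓ) (M₁ → ff_Qb))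
    (H₂ : Subalgebra (ff_R ℓ) (M₂ → ff_Qb)) :
    Bool → Subalgebra (ff_R ℓ) ((M₁ × M₂) → ff_Qb)
  | true => H₁.map (ffc_ord_pull ℓ (Prod.fst : M₁ × M₂ → M₁))
  | false => H₂.map (ffc_ord_pull ℓ (Prod.snd : M₁ × M₂ → M₂))

/-- **Binary products**: the algebra generated by the pull-backs of two orders along the two
projections is an order of the product. -/
theorem m59cpf_order_prod {H₁ : Subalgebra (ff_R ℓ) (M₁ → ff_Qb)}
    {H₂ : Subalgebra (ff_R ℓ) (M₂ → ff_Qb)} (h₁ : ff_IsOrder ℓ M₁ H₁) (h₂ : ff_IsOrder ℓ M₂ H₂) :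
    ff_IsOrder ℓ (M₁ × M₂) (⨆ b : Bool, m59cpf_fam ℓ H₁ H₂ b) := by
  have hfin₁ := h₁.fin
  have hfin₂ := h₂.fin
  refine ⟨?_, ?_, ?_, ?_⟩
  · intro f hf
    refine Algebra.iSup_induction
      (motive := fun f : (M₁ × M₂) → ff_Qb => ∀ (σ : ff_GQ) (x : M₁ × M₂), f (σ • x) = σ (f x))
      _ hf ?_ ?_ ?_ ?_
    · intro i f hf
      cases i with
      | true =>
        obtain ⟨φ, hφ, rfl⟩ := Subalgebra.mem_map.mp hf
        intro σ x
        rw [ffc_ord_pull_apply, ffc_ord_pull_apply, Prod.smul_fst, h₁.equiv φ hφ]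
      | false =>
        obtain ⟨φ, hφ, rfl⟩ := Subalgebra.mem_map.mp hf
        intro σ x
        rw [ffc_ord_pull_apply, ffc_ord_pull_apply, Prod.smul_snd, h₂.equiv φ hφ]
    · intro f g hf hg σ x
      rw [Pi.add_apply, Pi.add_apply, hf, hg, map_add]
    · intro f g hf hg σ x
      rw [Pi.mul_apply, Pi.mul_apply, hf, hg, map_mul]
    · intro r σ x
      exact ffc_ord_algebraMap_fixed r _ _ σ
  · rw [← Finset.sup_univ_eq_iSup]
    refine Finset.sup_induction
      (p := fun B : Subalgebra (ff_R ℓ) ((M₁ × M₂) → ff_Qb) => Module.Finite (ff_R ℓ) ↥B)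
      Subalgebra.finite_bot (fun B hB C hC => ?_) (fun i _ => ?_)
    · exact Subalgebra.finite_sup B C
    · cases i with
      | true => exact ffc_ord_finite_map _ H₁
      | false => exact ffc_ord_finite_map _ H₂
  · intro x y hxy
    by_cases h1 : x.1 = y.1
    · have h2 : x.2 ≠ y.2 := fun h2 => hxy (Prod.ext h1 h2)
      obtain ⟨φ, hφ, h⟩ := h₂.sep x.2 y.2 h2
      exact ⟨ffc_ord_pull ℓ (Prod.snd : M₁ × M₂ → M₂) φ,
        Algebra.mem_iSup_of_mem false ⟨φ, hφ, rfl⟩, h⟩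
    · obtain ⟨φ, hφ, h⟩ := h₁.sep x.1 y.1 h1
      exact ⟨ffc_ord_pull ℓ (Prod.fst : M₁ × M₂ → M₁) φ,
        Algebra.mem_iSup_of_mem true ⟨φ, hφ, rfl⟩, h⟩
  · intro f hf
    refine Algebra.iSup_induction
      (motive := ffc_ord_Dec (↑(⨆ b : Bool, m59cpf_fam ℓ H₁ H₂ b) : Set _))
      _ hf ?_ ?_ ?_ ?_
    · intro i f hf
      cases i with
      | true =>
        obtain ⟨φ, hφ, rfl⟩ := Subalgebra.mem_map.mp hf
        obtain ⟨n, a, b, ha, hb, h⟩ := h₁.comul φ hφ
        refine ⟨n, fun k => ffc_ord_pull ℓ (Prod.fst : M₁ × M₂ → M₁) (a k),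
          fun k => ffc_ord_pull ℓ (Prod.fst : M₁ × M₂ → M₁) (b k),
          fun k => Algebra.mem_iSup_of_mem true ⟨a k, ha k, rfl⟩,
          fun k => Algebra.mem_iSup_of_mem true ⟨b k, hb k, rfl⟩, fun x y => ?_⟩
        simp only [ffc_ord_pull_apply]
        rw [Prod.fst_add, h]
      | false =>
        obtain ⟨φ, hφ, rfl⟩ := Subalgebra.mem_map.mp hf
        obtain ⟨n, a, b, ha, hb, h⟩ := h₂.comul φ hφ
        refine ⟨n, fun k => ffc_ord_pull ℓ (Prod.snd : M₁ × M₂ → M₂) (a k),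
          fun k => ffc_ord_pull ℓ (Prod.snd : M₁ × M₂ → M₂) (b k),
          fun k => Algebra.mem_iSup_of_mem false ⟨a k, ha k, rfl⟩,
          fun k => Algebra.mem_iSup_of_mem false ⟨b k, hb k, rfl⟩, fun x y => ?_⟩
        simp only [ffc_ord_pull_apply]
        rw [Prod.snd_add, h]
    · intro f g hf hg
      exact ffc_ord_dec_add hf hg
    · intro f g hf hg
      exact ffc_ord_dec_mul (fun f g hf hg => mul_mem hf hg) hf hg
    · intro r
      exact ffc_ord_dec_const _ (Subalgebra.algebraMap_mem _ r) (one_mem _) (fun x y => rfl)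

end Prod

/-! ### subquotients of a product of two modules with Hopf models -/

section SubQuot2

variable {M₁ M₂ M'' W : Type} [AddCommGroup M₁] [AddCommGroup M₂] [DistribMulAction ff_GQ M₁]
  [DistribMulAction ff_GQ M₂] [AddCommGroup M''] [DistribMulAction ff_GQ M''] [AddCommGroup W]

/-- **[FLAT-GLUE], abstract core**: `M₁`, `M₂` finite with Hopf models; `W` a group with maps
`j : W → M₁ × M₂` and `f : W ↠ M''`, both equivariant for some `act`, `ker j ≤ ker f`.  Then `M''`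
is finite and has a Hopf model. -/
theorem m59cpf_hopf_subquot2 [Fact ℓ.Prime] [Finite M₁] [Finite M₂]
    (hM₁ : ff_HasHopfModel ℓ M₁) (hM₂ : ff_HasHopfModel ℓ M₂)
    (act : ff_GQ → W → W) (j : W →+ M₁ × M₂)
    (hje : ∀ (σ : ff_GQ) (w : W), j (act σ w) = σ • j w)
    (f : W →+ M'') (hf : Function.Surjective f)
    (hfe : ∀ (σ : ff_GQ) (w : W), f (act σ w) = σ • f w)
    (hker : ∀ w : W, j w = 0 → f w = 0) :
    Finite M'' ∧ ff_HasHopfModel ℓ M'' := by
  obtain ⟨H₁, h₁⟩ := m59cpf_order_of_hopf hM₁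
  obtain ⟨H₂, h₂⟩ := m59cpf_order_of_hopf hM₂
  have hprod : ∃ H : Subalgebra (ff_R ℓ) ((M₁ × M₂) → ff_Qb), ff_IsOrder ℓ (M₁ × M₂) H :=
    ⟨_, m59cpf_order_prod h₁ h₂⟩
  let j' : W →+ (Fin 1 → M₁ × M₂) :=
    { toFun := fun w _ => j w
      map_zero' := by funext _; exact map_zero j
      map_add' := fun a b => by funext _; exact map_add j a b }
  obtain ⟨hfin, H'', hH''⟩ := ffc_io_subquot_ker (ℓ := ℓ) (M'' := M'') hprod 1 act j'
    (fun σ w => by funext _; exact hje σ w) f hf hfe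
    (fun w hw => hker w (congrFun hw 0))
  have := hfin
  exact ⟨hfin, ffh_seamHO ℓ M'' H'' hH''⟩

end SubQuot2

end Fermat.Agent.M59
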