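/-
S59 project, block [C-gen]/[PAIR], cell [FLAT-GLUE] (helper24; prefix `m59cpf_`, headline
`m59cp_flat_of_pair` as named by the [PAIR] owner helper21), files (F3)+(F4):
FLATNESS AT `p` PASSES TO A RING EMBEDDED IN A PRODUCT.

`𝒪` noetherian local with finite residue field; `T`, `A₁`, `A₂` local finite `𝒪`-algebras;
`π₁ : T → A₁`, `π₂ : T → A₂` jointly injective; framings `r`, `r₁`, `r₂` with
`(r σ).map πᵢ = gᵢ (rᵢ σ) gᵢ⁻¹`.  If `r₁` and `r₂` are flat at `p`, so is `r`.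

Proof.  `V = T²`, `Vᵢ = Aᵢ²`.  For an ideal `I` of finite index in `T` choose `m` with
`π₁ x ∈ 𝔪_𝒪^m A₁`, `π₂ x ∈ 𝔪_𝒪^m A₂ ⟹ x ∈ I` (Artin–Rees, `m59cpf_ker_le`), `Iᵢ := 𝔪_𝒪^m Aᵢ` (of
finite index).  The map `j : V → V₁/I₁V₁ × V₂/I₂V₂`, `v ↦ (g₁⁻¹ π₁ v, g₂⁻¹ π₂ v)` is equivariant and
`ker j ⊆ I V`, so `V / I V` is an equivariant quotient of a Galois submodule of a product of two
modules with Hopf models; conclude by `m59cpf_hopf_subquot2` (Hopf model ⟹ order, products,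
subobjects and quotients of orders, [HO]).
-/
import Mathlib
import Fermat.Agent.M59.C.PairFlatOrd
import Fermat.Agent.M59.C.PairFlatAR
import Fermat.Agent.FF.Car.RepMod
import Fermat.Agent.S53.Framed

set_option autoImplicit false
set_option linter.unusedSectionVars false
set_option linter.unusedVariables false
set_option linter.style.haveILetI false

noncomputable section

namespace Fermat.Agent.M59

open IsLocalRing Fermat.Agent.FF Fermat.Agent.S53

local notation "GQ" => (AlgebraicClosure ℚ ≃ₐ[ℚ] AlgebraicClosure ℚ)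

section comp

variable {T A : Type} [CommRing T] [IsLocalRing T] [CommRing A] [IsLocalRing A]

/-- the level quotient `A² / I A²` of a framed representation, in clean form. -/
abbrev m59cpf_Q (A : Type) [CommRing A] (I : Ideal A) : Type :=
  (Fin 2 → A) ⧸ I • (⊤ : Submodule A (Fin 2 → A))

/-- the Galois action on the level quotient of a framed representation (= `ffc_rm_action`). -/
@[reducible] def m59cpf_act (r' : FramedRep A) (I : Ideal A) :
    DistribMulAction ff_GQ (m59cpf_Q A I) :=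
  ffc_rm_action r'.toGaloisRepAdic I

theorem m59cpf_act_mk (r' : FramedRep A) (I : Ideal A) (σ : ff_GQ) (x : Fin 2 → A) :
    letI := m59cpf_act r' I
    σ • (Submodule.Quotient.mk x : m59cpf_Q A I) = Submodule.Quotient.mk ((r' σ).mulVec x) :=
  rfl

/-- the component map `v ↦ g⁻¹ (π v) mod I`. -/
def m59cpf_j (π : T →+* A) (g : (Matrix (Fin 2) (Fin 2) A)ˣ) (I : Ideal A) :
    (Fin 2 → T) →+ m59cpf_Q A I where
  toFun v := Submodule.Quotient.mk (g.inv.mulVec (fun i => π (v i)))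
  map_zero' := by
    have : (fun i => π ((0 : Fin 2 → T) i)) = (0 : Fin 2 → A) := by
      funext i; exact map_zero π
    rw [this, Matrix.mulVec_zero, Submodule.Quotient.mk_zero]
  map_add' v w := by
    have : (fun i => π ((v + w) i)) = (fun i => π (v i)) + (fun i => π (w i)) := by
      funext i; exact map_add π _ _
    rw [this, Matrix.mulVec_add, Submodule.Quotient.mk_add]

theorem m59cpf_j_apply (π : T →+* A) (g : (Matrix (Fin 2) (Fin 2) A)ˣ)
    (I : Ideal A) (v : Fin 2 → T) :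
    m59cpf_j π g I v = Submodule.Quotient.mk (g.inv.mulVec (fun i => π (v i))) := rfl

/-- equivariance of the component map. -/
theorem m59cpf_j_equiv (π : T →+* A) (g : (Matrix (Fin 2) (Fin 2) A)ˣ) (r : FramedRep T)
    (r' : FramedRep A) (h : ∀ σ, (r σ).map π = g.val * r' σ * g.inv) (I : Ideal A) (σ : ff_GQ)
    (v : Fin 2 → T) :
    letI := m59cpf_act r' I
    m59cpf_j π g I ((r σ).mulVec v) = σ • m59cpf_j π g I v := by
  letI := m59cpf_act r' I
  rw [m59cpf_j_apply, m59cpf_j_apply, m59cpf_act_mk]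
  congr 1
  have h1 : (fun i => π ((r σ).mulVec v i)) = ((r σ).map π).mulVec (fun i => π (v i)) := by
    funext i
    exact RingHom.map_mulVec π (r σ) v i
  rw [h1, h σ, Matrix.mulVec_mulVec, Matrix.mulVec_mulVec]
  congr 1
  rw [← mul_assoc, ← mul_assoc, g.inv_val, one_mul]

/-- matrices preserve `I • ⊤`. -/
theorem m59cpf_mulVec_mem (M : Matrix (Fin 2) (Fin 2) A) (I : Ideal A) (x : Fin 2 → A)
    (hx : x ∈ I • (⊤ : Submodule A (Fin 2 → A))) :
    M.mulVec x ∈ I • (⊤ : Submodule A (Fin 2 → A)) := by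
  have h1 := Submodule.mem_map_of_mem (f := Matrix.toLin' M) hx
  rw [Submodule.map_smul''] at h1
  have h2 := Submodule.smul_mono (le_refl I) (le_top (a := Submodule.map (Matrix.toLin' M) ⊤)) h1
  rwa [Matrix.toLin'_apply] at h2

/-- the kernel of the component map. -/
theorem m59cpf_j_ker (π : T →+* A) (g : (Matrix (Fin 2) (Fin 2) A)ˣ)
    (I : Ideal A) (v : Fin 2 → T) (hv : m59cpf_j π g I v = 0) (i : Fin 2) : π (v i) ∈ I := by
  rw [m59cpf_j_apply, Submodule.Quotient.mk_eq_zero] at hv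
  have h1 : g.val.mulVec (g.inv.mulVec (fun i => π (v i))) ∈
      I • (⊤ : Submodule A (Fin 2 → A)) := m59cpf_mulVec_mem g.val I _ hv
  rw [Matrix.mulVec_mulVec, g.val_inv, Matrix.one_mulVec] at h1
  have h2 := repr_mem_of_mem_smul_top (Pi.basisFun A (Fin 2)) I h1 i
  rwa [Pi.basisFun_repr] at h2

/-- the level quotients of a framed representation are finite. -/
theorem m59cpf_finite_level (I : Ideal A) [Finite (A ⧸ I)] : Finite (m59cpf_Q A I) := by
  have h : Function.Surjective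
      (fun c : Fin 2 → A ⧸ I => (Submodule.Quotient.mk
        (fun i => Function.surjInv Ideal.Quotient.mk_surjective (c i)) : m59cpf_Q A I)) := by
    intro y
    obtain ⟨x, rfl⟩ := Submodule.Quotient.mk_surjective _ y
    refine ⟨fun i => Ideal.Quotient.mk I (x i), ?_⟩
    show Submodule.Quotient.mk _ = Submodule.Quotient.mk x
    rw [Submodule.Quotient.eq]
    refine pi_mem_smul_top I _ fun i => ?_
    rw [Pi.sub_apply, ← Ideal.Quotient.eq, Function.surjInv_eq Ideal.Quotient.mk_surjective]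
  exact Finite.of_surjective _ h

end comp

section main

variable {𝒪 : Type} [CommRing 𝒪] [IsLocalRing 𝒪] [IsNoetherianRing 𝒪] [Finite (ResidueField 𝒪)]
  {T A₁ A₂ : Type} [CommRing T] [IsLocalRing T] [Algebra 𝒪 T] [Module.Finite 𝒪 T]
  [CommRing A₁] [IsLocalRing A₁] [Algebra 𝒪 A₁] [Module.Finite 𝒪 A₁]
  [CommRing A₂] [IsLocalRing A₂] [Algebra 𝒪 A₂] [Module.Finite 𝒪 A₂]

/-- **[FLAT-GLUE]**: flatness at `p` passes to a ring embedded in a product. -/
theorem m59cp_flat_of_pair (π₁ : T →ₐ[𝒪] A₁) (π₂ : T →ₐ[𝒪] A₂)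
    (hinj : ∀ x : T, π₁ x = 0 → π₂ x = 0 → x = 0)
    (r : FramedRep T) (r₁ : FramedRep A₁) (r₂ : FramedRep A₂)
    (g₁ : (Matrix (Fin 2) (Fin 2) A₁)ˣ) (g₂ : (Matrix (Fin 2) (Fin 2) A₂)ˣ)
    (h₁ : ∀ σ, (r σ).map π₁ = g₁.val * r₁ σ * g₁.inv)
    (h₂ : ∀ σ, (r σ).map π₂ = g₂.val * r₂ σ * g₂.inv)
    (p : ℕ) [Fact p.Prime] (hp : (p : 𝒪) ∈ maximalIdeal 𝒪)
    (hf₁ : r₁.toGaloisRepAdic.IsFlatAt p) (hf₂ : r₂.toGaloisRepAdic.IsFlatAt p) :
    r.toGaloisRepAdic.IsFlatAt p := by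
  haveI : IsLocalHom (algebraMap 𝒪 T) := m59cpf_isLocalHom
  refine ⟨ffc_pa_finite_residue (𝒪 := 𝒪), fun I hI => ?_⟩
  haveI : Finite (T ⧸ I) := hI
  obtain ⟨m, hm⟩ := m59cpf_ker_le π₁ π₂ hinj I
  have hfin₁ : Finite (A₁ ⧸ (maximalIdeal 𝒪 ^ m).map (algebraMap 𝒪 A₁)) := m59cpf_finite_quot m
  have hfin₂ : Finite (A₂ ⧸ (maximalIdeal 𝒪 ^ m).map (algebraMap 𝒪 A₂)) := m59cpf_finite_quot m
  letI := m59cpf_act r₁ ((maximalIdeal 𝒪 ^ m).map (algebraMap 𝒪 A₁))
  letI := m59cpf_act r₂ ((maximalIdeal 𝒪 ^ m).map (algebraMap 𝒪 A₂))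
  letI := m59cpf_act r I
  haveI := m59cpf_finite_level ((maximalIdeal 𝒪 ^ m).map (algebraMap 𝒪 A₁))
  haveI := m59cpf_finite_level ((maximalIdeal 𝒪 ^ m).map (algebraMap 𝒪 A₂))
  have hM₁ : ff_HasHopfModel p (m59cpf_Q A₁ ((maximalIdeal 𝒪 ^ m).map (algebraMap 𝒪 A₁))) := by
    obtain ⟨H', i1, i2, k1, k2, k3, e, he1, he2⟩ := hf₁.2 _ hfin₁
    exact ⟨H', i1, i2, k1, k2, k3, e, he1, fun σ f g hfg => he2 σ f g hfg⟩
  have hM₂ : ff_HasHopfModel p (m59cpf_Q A₂ ((maximalIdeal 𝒪 ^ m).map (algebraMap 𝒪 A₂))) := by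
    obtain ⟨H', i1, i2, k1, k2, k3, e, he1, he2⟩ := hf₂.2 _ hfin₂
    exact ⟨H', i1, i2, k1, k2, k3, e, he1, fun σ f g hfg => he2 σ f g hfg⟩
  -- the quotient map
  let f : (Fin 2 → T) →+ m59cpf_Q T I :=
    (Submodule.mkQ (I • (⊤ : Submodule T (Fin 2 → T)))).toAddMonoidHom
  have hf : Function.Surjective f := Submodule.mkQ_surjective _
  obtain ⟨-, H', i1, i2, k1, k2, k3, e, he1, he2⟩ :=
    m59cpf_hopf_subquot2 (ℓ := p) hM₁ hM₂ (fun σ v => (r σ).mulVec v)
      ((m59cpf_j (π₁ : T →+* A₁) g₁ _).prod (m59cpf_j (π₂ : T →+* A₂) g₂ _))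
      (fun σ v => by
        rw [AddMonoidHom.prod_apply, AddMonoidHom.prod_apply, Prod.smul_mk,
          m59cpf_j_equiv (π₁ : T →+* A₁) g₁ r r₁ h₁,
          m59cpf_j_equiv (π₂ : T →+* A₂) g₂ r r₂ h₂])
      f hf
      (fun σ v => (m59cpf_act_mk r I σ v).symm)
      (fun v hv => by
        rw [AddMonoidHom.prod_apply, Prod.mk_eq_zero] at hv
        show (Submodule.Quotient.mk v : m59cpf_Q T I) = 0
        rw [Submodule.Quotient.mk_eq_zero]
        refine pi_mem_smul_top I v fun i => hm (v i) ?_ ?_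
        · exact m59cpf_j_ker (π₁ : T →+* A₁) g₁ _ v hv.1 i
        · exact m59cpf_j_ker (π₂ : T →+* A₂) g₂ _ v hv.2 i)
  exact ⟨H', i1, i2, k1, k2, k3, e, he1, fun σ f g hfg => he2 σ f g hfg⟩

end main

end Fermat.Agent.M59
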