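import Mathlib
import Fermat.Agent.M59.C.PairCoord
import Fermat.Agent.M59.C.PairType
import Fermat.Agent.M59.C.Present
import Fermat.Agent.M59.Top.Chain.SysGlue

/-!
# Project M59 (S59), block [C-top], cell [CI-PAIR], part 1: the pair side of the chain system from
an abstract pair (prefix `m59cp_`)

`m59cp_pairSys_core` : `Nonempty (m59ci_PairSys …)` (helper25's structure, M59/Top/Chain/SysGlue.lean)
from a Hecke pair `H''` (in use: the normalised pair ring of `m59cp_pair`) with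

* cyclotomic determinant, unipotent inertia at the framed primes `Th = T8 ∪ Tn`, the cotangent bound
  of block [C-gen] (`hcount`, the conclusion of `m59c_finrank_le` for `H''`);
* `pr : H''.T →ₐ[𝒪] T'` with `(H''.r σ).map pr = g₁ (R' σ) g₁⁻¹`, `R'` spanning `M₂(T')`;
* diamonds `u i : H''.T` with `pr (u i) = uT i`, `π0 (u i) = 1`;
* `π0 : H''.T ↠ T₀` with `(H''.r σ).map π0 = R0 σ` EXACTLY: then `β` is the family of coordinates of
  `R0`, independent of the patching level.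

The index types are `T8 := ↥T8`, `Tn := ↥Tn` for finsets of primes `T8, Tn ⊆ Th`, the coordinates are
`m59c_coordHg` (constant frames `g ℓ` over `𝒪`) and `m59c_coordN` (cyclic vectors `e ℓ` over `𝒪`).
-/

set_option autoImplicit false
set_option linter.unusedSectionVars false
set_option linter.style.haveILetI false
set_option linter.unusedVariables false

open IsLocalRing ExtCitation
open Fermat.Agent.S53 Fermat.Agent.S56 Fermat.Agent.TW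

namespace Fermat.Agent.M59

noncomputable section

local notation "GQ" => (AlgebraicClosure ℚ ≃ₐ[ℚ] AlgebraicClosure ℚ)
local notation "Qbar" => AlgebraicClosure ℚ

attribute [local instance] S53.dualNumberAlgebra

/-- the prime attached to an index of `↥T8 ⊕ ↥Tn`. -/
def m59cp_prm {T8 Tn : Finset Nat.Primes} : ↥T8 ⊕ ↥Tn → Nat.Primes :=
  Sum.elim (fun ℓ => (ℓ : Nat.Primes)) (fun ℓ => (ℓ : Nat.Primes))

section core

variable {𝒪 : Type} [CommRing 𝒪] [IsLocalRing 𝒪] {rb : FramedResidual (ResidueField 𝒪)}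

/-- membership of the coordinates in the maximal ideal. -/
theorem m59cp_zz_mem {p : ℕ} {Th : Finset Nat.Primes} (td : m59c_TameData p Th)
    {T8 Tn : Finset Nat.Primes} (h8 : T8 ⊆ Th) (hn : Tn ⊆ Th)
    (hur : ∀ ℓ ∈ Th, rb.toResidualGaloisRep.IsUnramifiedAt ((ℓ : Nat.Primes) : ℕ))
    (a : Nat.Primes → 𝒪) (g gi : Nat.Primes → Matrix (Fin 2) (Fin 2) 𝒪)
    (hφa : ∀ ℓ ∈ T8, rb (td.gφ ℓ) = Matrix.scalar (Fin 2) (residue 𝒪 (a ℓ)))
    (t₀ : Nat.Primes → 𝒪) (e : Nat.Primes → Fin 2 → 𝒪)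
    (ht₀ : ∀ ℓ ∈ Tn, residue 𝒪 (t₀ ℓ) = Matrix.trace (rb (td.gφ ℓ)))
    (H : twc_HPair 𝒪 rb) (c : m59ci_Iz ↥T8 ↥Tn) :
    m59cp_zz td.gσ td.gφ a g gi t₀ e (fun σ => H.r σ) c ∈ maximalIdeal H.T := by
  have hσ1 : ∀ ℓ ∈ Th, rb (td.gσ ℓ) = 1 := by
    intro ℓ hℓ
    have h1 := hur ℓ hℓ (primeLocalPlace ℓ) (s56ld_liesOver ℓ) (td.gσ ℓ) (td.σ_mem ℓ hℓ)
    have h3 : Matrix.toLin' (rb (td.gσ ℓ)) =
        Matrix.toLin' (1 : Matrix (Fin 2) (Fin 2) (ResidueField 𝒪)) := by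
      rw [Matrix.toLin'_one]; exact h1
    exact Matrix.toLin'.injective h3
  rcases c with x | x
  · exact m59c_coordHg_mem (Th := T8) td.gσ td.gφ a g gi H (fun ℓ hℓ => hσ1 ℓ (h8 hℓ)) hφa x
  · exact m59c_coordN_mem (Th := Tn) td.gσ td.gφ t₀ e H (fun ℓ hℓ => hσ1 ℓ (hn hℓ)) ht₀ x

/-- **LocCob for the coordinates**: a map `T → k[ε]` killing all the coordinates has a cocycle which
is a coboundary on the decomposition groups at the framed primes. -/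
theorem m59cp_locCob {p : ℕ} [Fact p.Prime] [CharP (ResidueField 𝒪) p]
    (h2 : (2 : ResidueField 𝒪) ≠ 0)
    {Th : Finset Nat.Primes} (td : m59c_TameData p Th)
    {T8 Tn : Finset Nat.Primes} (h8 : T8 ⊆ Th) (hn : Tn ⊆ Th)
    (hTh : ∀ ℓ ∈ Th, ℓ ∈ T8 ∨ ℓ ∈ Tn) (hℓp : ∀ ℓ ∈ Th, (ℓ : ℕ) ≠ p)
    (hur : ∀ ℓ ∈ Th, rb.toResidualGaloisRep.IsUnramifiedAt ((ℓ : Nat.Primes) : ℕ))
    (a : Nat.Primes → 𝒪) (g gi : Nat.Primes → Matrix (Fin 2) (Fin 2) 𝒪)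
    (hgi : ∀ ℓ ∈ T8, gi ℓ * g ℓ = 1)
    (t₀ : Nat.Primes → 𝒪) (e : Nat.Primes → Fin 2 → 𝒪)
    (hcyc : ∀ ℓ ∈ Tn, (m59c_cyc (rb (td.gφ ℓ)) (fun i => residue 𝒪 (e ℓ i))).det ≠ 0)
    (H : twc_HPair 𝒪 rb) (hdet : H.r.toGaloisRepAdic.DetIsCyclotomic p)
    (hun : ∀ ℓ ∈ Th, H.r.toGaloisRepAdic.IsUnipotentOnInertiaAt ((ℓ : Nat.Primes) : ℕ))
    (φ : H.T →ₐ[𝒪] DualNumber (ResidueField 𝒪))
    (hφ : ∀ c : m59ci_Iz ↥T8 ↥Tn,
      φ (m59cp_zz td.gσ td.gφ a g gi t₀ e (fun σ => H.r σ) c) = 0) :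
    m59c_LocCob Th H φ := by
  intro ℓ hℓ
  rcases hTh ℓ hℓ with h | h
  · have hunr : ∀ τ ∈ (primeLocalPlace ℓ).inertiaSubgroupIn ℚ, rb τ = 1 := by
      intro τ hτ
      have h1 := hur ℓ hℓ (primeLocalPlace ℓ) (s56ld_liesOver ℓ) τ hτ
      have h3 : Matrix.toLin' (rb τ) =
          Matrix.toLin' (1 : Matrix (Fin 2) (Fin 2) (ResidueField 𝒪)) := by
        rw [Matrix.toLin'_one]; exact h1
      exact Matrix.toLin'.injective h3
    obtain ⟨k1, k2⟩ := m59c_noEps_of_coordHg (Th := T8) td.gσ td.gφ a g gi hgi H φ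
      (fun x => hφ (Sum.inl x)) ℓ h
    exact m59c_locCob_noEps td H φ ℓ hℓ hunr k1 k2
  · exact m59c_locCob_coordN td t₀ e H ℓ hℓ (hℓp ℓ hℓ) (hur ℓ hℓ) (hcyc ℓ h) h2 hdet
      (hun ℓ hℓ) φ (fun c => hφ (Sum.inr (⟨ℓ, h⟩, c)))

end core

section main

variable {𝒪 : Type} [CommRing 𝒪] [IsLocalRing 𝒪] {rb : FramedResidual (ResidueField 𝒪)}

/-- **the pair side of the chain system from an abstract (normalised) pair.** -/
theorem m59cp_pairSys_core {p : ℕ} [Fact p.Prime] [CharP (ResidueField 𝒪) p]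
    (h2 : (2 : ResidueField 𝒪) ≠ 0)
    {Th : Finset Nat.Primes} (td : m59c_TameData p Th) {T8 Tn : Finset Nat.Primes}
    (h8 : T8 ⊆ Th) (hn : Tn ⊆ Th) (hTh : ∀ ℓ ∈ Th, ℓ ∈ T8 ∨ ℓ ∈ Tn)
    (hℓp : ∀ ℓ ∈ Th, (ℓ : ℕ) ≠ p)
    (hur : ∀ ℓ ∈ Th, rb.toResidualGaloisRep.IsUnramifiedAt ((ℓ : Nat.Primes) : ℕ))
    (a : Nat.Primes → 𝒪) (g gi : Nat.Primes → Matrix (Fin 2) (Fin 2) 𝒪)
    (hgi : ∀ ℓ ∈ T8, gi ℓ * g ℓ = 1)
    (hφa : ∀ ℓ ∈ T8, rb (td.gφ ℓ) = Matrix.scalar (Fin 2) (residue 𝒪 (a ℓ)))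
    (t₀ : Nat.Primes → 𝒪) (e : Nat.Primes → Fin 2 → 𝒪)
    (hcyc : ∀ ℓ ∈ Tn, (m59c_cyc (rb (td.gφ ℓ)) (fun i => residue 𝒪 (e ℓ i))).det ≠ 0)
    (ht₀ : ∀ ℓ ∈ Tn, residue 𝒪 (t₀ ℓ) = Matrix.trace (rb (td.gφ ℓ)))
    (κ : Type) [Fintype κ] (rr : ℕ) {m : ℕ} (dl : ℕ) (l : Fin m → ℕ) (ch : Fin m → ↥T8 ⊕ ↥Tn)
    (hl : ∀ k, l k = ((m59cp_prm (ch k) : Nat.Primes) : ℕ))
    (hch : Function.Surjective ch)
    (𝔞 : Ideal (MvPowerSeries (Fin rr) 𝒪))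
    (H'' : twc_HPair 𝒪 rb)
    (hdet : H''.r.toGaloisRepAdic.DetIsCyclotomic p)
    (hun : ∀ ℓ ∈ Th, H''.r.toGaloisRepAdic.IsUnipotentOnInertiaAt ((ℓ : Nat.Primes) : ℕ))
    (hcount : ∀ (ι : Type) (z : ι → maximalIdeal H''.T),
      (∀ φ : H''.T →ₐ[𝒪] DualNumber (ResidueField 𝒪), (∀ i, φ (z i : H''.T) = 0) →
        m59c_LocCob Th H'' φ) →
      Module.finrank (ResidueField H''.T) (CotangentSpace H''.T ⧸ twc_relW 𝒪 z) ≤
        Fintype.card κ)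
    {T' : Type} [CommRing T'] [Algebra 𝒪 T'] (R' : GQ →* Matrix (Fin 2) (Fin 2) T')
    (hspan : Submodule.span T' (Set.range R') = ⊤)
    (pr : H''.T →ₐ[𝒪] T') (g₁ : (Matrix (Fin 2) (Fin 2) T')ˣ)
    (hpr : ∀ σ, (H''.r σ).map pr = g₁.val * R' σ * g₁.inv)
    (uT : Fin rr → T') (u : Fin rr → H''.T) (hu_mem : ∀ i, u i - 1 ∈ maximalIdeal H''.T)
    (hpru : ∀ i, pr (u i) = uT i)
    {T0 : Type} [CommRing T0] [Algebra 𝒪 T0] (π0 : H''.T →ₐ[𝒪] T0)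
    (hπ0 : Function.Surjective π0) (hπ0u : ∀ i, π0 (u i) = 1)
    (j : T0 →+* Matrix (Fin dl) (Fin dl) (MvPowerSeries (Fin rr) 𝒪 ⧸ 𝔞))
    (jT : T' →+* Matrix (Fin dl) (Fin dl) (MvPowerSeries (Fin rr) 𝒪 ⧸ 𝔞))
    (hj : ∀ t, j (π0 t) = jT (pr t))
    (R0 : GQ → Matrix (Fin 2) (Fin 2) T0) (hR0 : ∀ σ, (H''.r σ).map π0 = R0 σ) :
    Nonempty (m59ci_PairSys 𝒪 rr dl l κ (fun ℓ : ↥T8 => a ℓ)
      (fun ℓ : ↥T8 => ((ℓ : Nat.Primes) : ℕ)) (fun ℓ : ↥Tn => t₀ ℓ)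
      (fun ℓ : ↥Tn => ((ℓ : Nat.Primes) : ℕ)) ch 𝔞 T0 j
      (m59cp_nu (fun ℓ : ↥T8 => a ℓ) (fun ℓ : ↥Tn => t₀ ℓ)
        (m59cp_zz td.gσ td.gφ a g gi t₀ e R0))
      T' (fun σ => (R' σ).trace) jT uT) := by
  classical
  -- the coordinates
  set zz : m59ci_Iz ↥T8 ↥Tn → H''.T :=
    m59cp_zz td.gσ td.gφ a g gi t₀ e (fun σ => H''.r σ) with hzz
  have hmem : ∀ c, zz c ∈ maximalIdeal H''.T :=
    fun c => m59cp_zz_mem td h8 hn hur a g gi hφa t₀ e ht₀ H'' c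
  let z : m59ci_Iz ↥T8 ↥Tn → maximalIdeal H''.T := fun c => ⟨zz c, hmem c⟩
  -- the ideal of ramification
  set I : Ideal T' := Ideal.span (m59ci_ramSet l (fun σ => (R' σ).trace)) with hI
  have hram : ∀ ℓ ∈ Th, ∀ σ : GQ,
      (R' (σ * td.gσ ℓ)).trace - (R' σ).trace ∈ I := by
    intro ℓ hℓ σ
    have hx : ∃ x : ↥T8 ⊕ ↥Tn, m59cp_prm x = ℓ := by
      rcases hTh ℓ hℓ with h | h
      · exact ⟨Sum.inl ⟨ℓ, h⟩, rfl⟩
      · exact ⟨Sum.inr ⟨ℓ, h⟩, rfl⟩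
    obtain ⟨x, hx⟩ := hx
    obtain ⟨k, hk⟩ := hch x
    refine Ideal.subset_span ⟨k, σ, td.gσ ℓ, ⟨primeLocalPlace ℓ, ?_, td.σ_mem ℓ hℓ⟩, rfl⟩
    rw [hl k, hk, hx]
    exact s56ld_liesOver ℓ
  have hentries : ∀ ℓ ∈ Th, ∀ (X Y : Matrix (Fin 2) (Fin 2) H''.T) (i j : Fin 2),
      pr ((X * (H''.r (td.gσ ℓ) - 1) * Y) i j) ∈ I := by
    intro ℓ hℓ X Y i j
    have e1 : ((H''.r (td.gσ ℓ) - 1)).map pr = g₁.val * (R' (td.gσ ℓ) - 1) * g₁.inv := by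
      rw [m59cp_map_sub_one, hpr, mul_sub, sub_mul, mul_one, g₁.val_inv]
    have e2 : pr ((X * (H''.r (td.gσ ℓ) - 1) * Y) i j) =
        ((X.map pr * g₁.val) * (R' (td.gσ ℓ) - 1) * (g₁.inv * Y.map pr)) i j := by
      rw [← Matrix.map_apply (f := pr), Matrix.map_mul, Matrix.map_mul, e1]
      simp only [mul_assoc]
    rw [e2]
    exact m59cp_entries_mem R' hspan (td.gσ ℓ) I (hram ℓ hℓ) _ _ i j
  -- the trace coordinate
  have htrT : ∀ x : ↥T8 ⊕ ↥Tn,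
      m59ci_trT (fun ℓ : ↥T8 => a ℓ) (fun ℓ : ↥Tn => t₀ ℓ) z x =
        (H''.r (td.gφ (m59cp_prm x))).trace := by
    rintro (t | ℓ)
    · show (((if (0 : Fin 2) = 0 then algebraMap 𝒪 H''.T (a t) else 0) + zz (Sum.inl (t, 1, 0, 0))) +
        ((if (1 : Fin 2) = 1 then algebraMap 𝒪 H''.T (a t) else 0) + zz (Sum.inl (t, 1, 1, 1)))) = _
      have hG : (g t).map (algebraMap 𝒪 H''.T) * (gi t).map (algebraMap 𝒪 H''.T) = 1 := by
        have h1 : (gi t).map (algebraMap 𝒪 H''.T) * (g t).map (algebraMap 𝒪 H''.T) = 1 := by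
          rw [← Matrix.map_mul, hgi t t.2, Matrix.map_one _ (map_zero _) (map_one _)]
        exact mul_eq_one_comm.mp h1
      set M : Matrix (Fin 2) (Fin 2) H''.T :=
        H''.r (td.gφ t) - Matrix.scalar (Fin 2) (algebraMap 𝒪 H''.T (a t)) with hM
      have h00 : zz (Sum.inl (t, 1, 0, 0)) =
          ((gi t).map (algebraMap 𝒪 H''.T) * M * (g t).map (algebraMap 𝒪 H''.T)) 0 0 := rfl
      have h11 : zz (Sum.inl (t, 1, 1, 1)) =
          ((gi t).map (algebraMap 𝒪 H''.T) * M * (g t).map (algebraMap 𝒪 H''.T)) 1 1 := rfl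
      have htr : ((gi t).map (algebraMap 𝒪 H''.T) * M * (g t).map (algebraMap 𝒪 H''.T)).trace =
          M.trace := by
        rw [Matrix.trace_mul_comm, ← mul_assoc, hG, one_mul]
      rw [Matrix.trace_fin_two] at htr
      rw [if_pos rfl, if_pos rfl, h00, h11]
      have hM2 : M.trace = (H''.r (td.gφ t)).trace - 2 * algebraMap 𝒪 H''.T (a t) := by
        rw [hM, Matrix.trace_sub, Matrix.trace_fin_two (Matrix.scalar (Fin 2) _)]
        simp only [Matrix.scalar_apply, Matrix.diagonal_apply_eq]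
        ring
      show _ = (H''.r (td.gφ (t : Nat.Primes))).trace
      linear_combination htr + hM2
    · show algebraMap 𝒪 H''.T (t₀ ℓ) + zz (Sum.inr (ℓ, 0)) = _
      have h0 : zz (Sum.inr (ℓ, 0)) =
          (H''.r (td.gφ ℓ)).trace - algebraMap 𝒪 H''.T (t₀ ℓ) := rfl
      rw [h0]
      show _ = (H''.r (td.gφ (ℓ : Nat.Primes))).trace
      ring
  have hprtr : ∀ σ, pr (H''.r σ).trace = (R' σ).trace := by
    intro σ
    have h1 := m59cp_map_trace (pr : H''.T →+* T') (H''.r σ)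
    have h3 : ((H''.r σ).map pr).trace = pr (H''.r σ).trace := h1
    rw [← h3, hpr σ, m59cp_conj_trace]
  -- naturality of the coordinates along `π0`
  have hπz : ∀ c, π0 (zz c) = m59cp_zz td.gσ td.gφ a g gi t₀ e R0 c := by
    have hfun : (fun σ => (H''.r σ).map π0) = R0 := funext hR0
    rintro (x | x)
    · show π0 (m59cp_zH td.gσ td.gφ a g gi (fun σ => H''.r σ) x) = _
      rw [m59cp_zH_map, hfun]
      rfl
    · show π0 (m59cp_zN td.gσ td.gφ t₀ e (fun σ => H''.r σ) x) = _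
      rw [m59cp_zN_map _ _ _ _ _ _ _ (m59c_P_det_isUnit td.gφ e H'' x.1 (hcyc x.1 x.1.2)), hfun]
      rfl
  refine ⟨{
    T := H''.T
    residue_surjective := H''.residue_surjective
    z := z
    finrank_le := hcount _ z (fun φ hφ =>
      m59cp_locCob h2 td h8 hn hTh hℓp hur a g gi hgi t₀ e hcyc H'' hdet hun φ hφ)
    rel := ?_
    u := u
    u_mem := hu_mem
    pr := pr
    pr_u := hpru
    gφ := fun k => td.gφ (m59cp_prm (ch k))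
    gφ_frob := ?_
    pr_tr := ?_
    pr_N := ?_
    π0 := π0
    π0_surjective := hπ0
    j_π0 := hj
    π0_u := hπ0u
    π0_ν := ?_ }⟩
  · intro γ hγ
    exact m59c_J_le_ker td h8 hn H'' hℓp hur hdet hun a g gi hgi t₀ e hcyc γ
      (fun x => hγ (Sum.inl x)) (fun x => hγ (Sum.inr x))
  · intro k
    have hmemTh : m59cp_prm (ch k) ∈ Th := by
      rcases ch k with t | ℓ
      · exact h8 t.2
      · exact hn ℓ.2
    refine ⟨primeLocalPlace (m59cp_prm (ch k)), ?_, ?_⟩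
    · rw [hl k]; exact s56ld_liesOver _
    · rw [hl k]; exact td.φ_frob _ hmemTh
  · intro k
    rw [htrT (ch k), hprtr]
  · rintro (⟨t, i, j⟩ | ⟨ℓ, c⟩)
    · show pr (zz (Sum.inl (t, 0, i, j))) ∈ I
      exact hentries t (h8 t.2) _ _ i j
    · show pr (zz (Sum.inr (ℓ, Fin.succ c))) ∈ I
      fin_cases c
      · exact hentries ℓ (hn ℓ.2) _ _ 0 0
      · exact hentries ℓ (hn ℓ.2) _ _ 0 1
  · intro c
    rw [m59cp_nuT_map]
    congr 1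
    funext c'
    exact hπz c'

end main

end

end Fermat.Agent.M59
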