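import Mathlib
import Fermat.Agent.M59.C.PairSysCore
import Fermat.Agent.M59.C.PairRing

/-!
# Project M59 (S59), block [C-top], cell [CI-PAIR]: THE STATEMENT (prefix `m59cp_`)

`m59cp_PairSys_stmt` : the pair side `m59ci_PairSys` (helper25, M59/Top/Chain/SysGlue.lean) of the
chain system at every patching level, over the CONCRETE base ring `T₀ := ↥(m59cp_T H₀.r rW)` (the pair
ring of the base Hecke pair `H₀` and of the frame `rW` of `ρ_W`), with images `β` of the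
`ν`-coordinates INDEPENDENT of the level and explicit second components
(`snd (β c) =` the coordinate of `rW` itself in the constant frames).

Binders: `T8 Tn : Finset Nat.Primes` (index types `↥T8`, `↥Tn`), tame datum on `T8 ∪ Tn`, constant
frames `g ℓ`, `gi ℓ` (`ℓ ∈ T8`) and cyclic vectors `e ℓ` (`ℓ ∈ Tn`) over `𝒪`; the level datum is an
ABSTRACT Hecke pair `H`, finite over `𝒪`, with a trace-compatible `πT : H.T →ₐ[𝒪] H₀.T`; the types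
of `H.r`, `rW` away from `p`; the condition at `p` as a gluing hypothesis `hPp` for pairs embedded in
`H.T × 𝒪` (discharged by helper24's `m59cp_flat_of_pair` / `m59rpk_ord_glue_two`); the cotangent
bound `hcot` (conclusion of `m59c_finrank_le`); the Galois diamonds in the trace form of [CI-U].
Proof: `M59/C/PairSys.lean` (`m59cp_pairSys : m59cp_PairSys_stmt`).
-/

set_option autoImplicit false
set_option linter.unusedSectionVars false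
set_option linter.style.haveILetI false
set_option linter.unusedVariables false

open IsLocalRing ExtCitation
open Fermat.Agent.S53 Fermat.Agent.S56 Fermat.Agent.TW

namespace Fermat.Agent.M59

noncomputable section

local notation "GQ" => (AlgebraicClosure ℚ ≃ₐ[ℚ] AlgebraicClosure ℚ)

attribute [local instance] S53.dualNumberAlgebra

/-- **[CI-PAIR], the statement.** -/
def m59cp_PairSys_stmt : Prop :=
  ∀ (p : ℕ) [Fact p.Prime], p ≠ 2 →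
  ∀ (𝒪 : Type) [CommRing 𝒪] [IsLocalRing 𝒪] [IsNoetherianRing 𝒪]
    [IsAdicComplete (maximalIdeal 𝒪) 𝒪] [Finite (ResidueField 𝒪)],
    (p : 𝒪) ∈ maximalIdeal 𝒪 →
  ∀ (rb : FramedResidual (ResidueField 𝒪)), rb.toResidualGaloisRep.IsAbsolutelyIrreducible →
  -- the frame of `ρ_W`
  ∀ (rW : FramedRep 𝒪), (∀ σ, (rW σ).map (residue 𝒪) = rb σ) →
    rW.toGaloisRepAdic.DetIsCyclotomic p →
  -- the type away from `p`
  ∀ (Pp : FramedRep (DualNumber (ResidueField 𝒪)) → Prop) (Smin : Finset ℕ)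
    (T8 Tn : Finset Nat.Primes) (td : m59c_TameData p (T8 ∪ Tn)),
    (∀ ℓ ∈ T8 ∪ Tn, ((ℓ : Nat.Primes) : ℕ) ≠ p) →
    (∀ ℓ ∈ T8 ∪ Tn, rb.toResidualGaloisRep.IsUnramifiedAt ((ℓ : Nat.Primes) : ℕ)) →
    (∀ ℓ ∈ T8 ∪ Tn, rW.toGaloisRepAdic.IsUnipotentOnInertiaAt ((ℓ : Nat.Primes) : ℕ)) →
    (∀ q ∈ Smin, q.Prime → q ≠ p → rW.toGaloisRepAdic.IsUnipotentOnInertiaAt q) →
  -- the constant frames
  ∀ (a : Nat.Primes → 𝒪) (g gi : Nat.Primes → Matrix (Fin 2) (Fin 2) 𝒪)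
    (t₀ : Nat.Primes → 𝒪) (e : Nat.Primes → Fin 2 → 𝒪),
    (∀ ℓ ∈ T8, gi ℓ * g ℓ = 1) →
    (∀ ℓ ∈ T8, rb (td.gφ ℓ) = Matrix.scalar (Fin 2) (residue 𝒪 (a ℓ))) →
    (∀ ℓ ∈ Tn, residue 𝒪 (t₀ ℓ) = Matrix.trace (rb (td.gφ ℓ))) →
    (∀ ℓ ∈ Tn, (m59c_cyc (rb (td.gφ ℓ)) (fun i => residue 𝒪 (e ℓ i))).det ≠ 0) →
  -- the base pair
  ∀ (H₀ : twc_HPair 𝒪 rb) [Module.Finite 𝒪 H₀.T], H₀.r.toGaloisRepAdic.DetIsCyclotomic p →
    ∃ β : (↥T8 × Fin 6) ⊕ ↥Tn → ↥(m59cp_T H₀.r rW),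
      (∀ c, m59cp_snd H₀.r rW (β c) =
        m59cp_nu (fun ℓ : ↥T8 => a ℓ) (fun ℓ : ↥Tn => t₀ ℓ)
          (m59cp_zz td.gσ td.gφ a g gi t₀ e (fun σ => rW σ)) c) ∧
      -- the patching levels
      ∀ (H : twc_HPair 𝒪 rb) [Module.Finite 𝒪 H.T] (πT : H.T →ₐ[𝒪] H₀.T),
        (∀ σ, πT (H.r σ).trace = (H₀.r σ).trace) →
        H.r.toGaloisRepAdic.DetIsCyclotomic p →
        (∀ ℓ ∈ T8 ∪ Tn, H.r.toGaloisRepAdic.IsUnipotentOnInertiaAt ((ℓ : Nat.Primes) : ℕ)) →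
        (∀ q ∈ Smin, q.Prime → q ≠ p → H.r.toGaloisRepAdic.IsUnipotentOnInertiaAt q) →
      ∀ (Q : Finset ℕ),
        (∀ q : ℕ, q.Prime → q ∉ Smin ∪ (T8 ∪ Tn).image (fun ℓ : Nat.Primes => (ℓ : ℕ)) ∪ Q →
          H.r.toGaloisRepAdic.IsUnramifiedAt q) →
        (∀ q : ℕ, q.Prime → q ∉ Smin ∪ (T8 ∪ Tn).image (fun ℓ : Nat.Primes => (ℓ : ℕ)) ∪ Q →
          rW.toGaloisRepAdic.IsUnramifiedAt q) →
        -- the condition at `p`, for the pairs embedded in `H.T × 𝒪`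
        (p ∈ Smin → ∀ (H'' : twc_HPair 𝒪 rb) (pr₁ : H''.T →ₐ[𝒪] H.T) (pr₂ : H''.T →ₐ[𝒪] 𝒪),
          Module.Finite 𝒪 H''.T → (∀ x : H''.T, pr₁ x = 0 → pr₂ x = 0 → x = 0) →
          ∀ (g₁ : (Matrix (Fin 2) (Fin 2) H.T)ˣ),
            (∀ σ, (H''.r σ).map pr₁ = g₁.val * H.r σ * g₁.inv) →
          ∀ (g₂ : (Matrix (Fin 2) (Fin 2) 𝒪)ˣ),
            (∀ σ, (H''.r σ).map pr₂ = g₂.val * rW σ * g₂.inv) →
          ∀ φ : H''.T →ₐ[𝒪] DualNumber (ResidueField 𝒪), Function.Surjective φ →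
            Pp (twc_frame H''.r φ)) →
      -- the cotangent bound
      ∀ (κ : Type) [Fintype κ],
        (∀ (H'' : twc_HPair 𝒪 rb), m59c_IsType p Pp Smin (T8 ∪ Tn) Q H'' →
          ∀ (ι : Type) (z : ι → maximalIdeal H''.T),
            (∀ φ : H''.T →ₐ[𝒪] DualNumber (ResidueField 𝒪), (∀ i, φ (z i : H''.T) = 0) →
              m59c_LocCob (T8 ∪ Tn) H'' φ) →
            Module.finrank (ResidueField H''.T) (CotangentSpace H''.T ⧸ twc_relW 𝒪 z) ≤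
              Fintype.card κ) →
      -- the Galois diamonds
      ∀ (rr : ℕ) (uT : Fin rr → H.T), (∀ i, uT i - 1 ∈ maximalIdeal H.T) →
        (∀ i, πT (uT i) = 1) →
        (∀ i, ∃ (φ σ : GQ) (a0 a1 u' : H.T), rW σ = 1 ∧ IsUnit (a0 - a1) ∧
          a0 + a1 = (H.r φ).trace ∧ a0 * a1 = (H.r φ).det ∧ uT i * u' = 1 ∧
          uT i + u' = (H.r σ).trace ∧ a0 * uT i + a1 * u' = (H.r (φ * σ)).trace) →
      -- the chain and the module data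
      ∀ (m : ℕ) (ch : Fin m → ↥T8 ⊕ ↥Tn), Function.Surjective ch →
      ∀ (dl : ℕ) (𝔞 : Ideal (MvPowerSeries (Fin rr) 𝒪))
        (jB : H₀.T →+* Matrix (Fin dl) (Fin dl) (MvPowerSeries (Fin rr) 𝒪 ⧸ 𝔞)),
        Nonempty (m59ci_PairSys 𝒪 rr dl
          (fun k => ((m59cp_prm (ch k) : Nat.Primes) : ℕ)) κ
          (fun ℓ : ↥T8 => a ℓ) (fun ℓ : ↥T8 => ((ℓ : Nat.Primes) : ℕ))
          (fun ℓ : ↥Tn => t₀ ℓ) (fun ℓ : ↥Tn => ((ℓ : Nat.Primes) : ℕ)) ch 𝔞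
          ↥(m59cp_T H₀.r rW)
          (jB.comp (m59cp_fst H₀.r rW : ↥(m59cp_T H₀.r rW) →+* H₀.T)) β
          H.T (fun σ => (H.r σ).trace) (jB.comp (πT : H.T →+* H₀.T)) uT)

end

end Fermat.Agent.M59
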