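import Mathlib
import Fermat.Agent.M59.C.PairSysStmt
import Fermat.Agent.M59.C.PairAux
import Fermat.Agent.M59.C.PairDiamond

/-!
# Project M59 (S59), block [C-top], cell [CI-PAIR]: the proof (prefix `m59cp_`)

`m59cp_pairSys : m59cp_PairSys_stmt`.

* `m59cp_charP` : the residue field has characteristic `p`.
* `m59cp_pair_conc` : the pair of `m59cp_pair` with an explicit `𝒪`-algebra isomorphism
  `e : H''.T ≃ₐ[𝒪] m59cp_T H.r rW` to the concrete pair ring.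
* `m59cp_pair_normed` : the same with the frame normalised along a surjection
  `π : m59cp_T H.r rW ↠ A₀` (`(H''.r σ).map (π ∘ e) = r₀ σ` exactly).
* `m59cp_pairSys` : the base pair normalised along `snd` (push-forward `= rW`), the level pairs
  normalised along `m59cp_map` (push-forward `=` the base pair), the diamonds by `m59cp_diamond`,
  the type by the transfer lemmas of `PairType.lean`, and `m59cp_pairSys_core`.
-/

set_option autoImplicit false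
set_option linter.unusedSectionVars false
set_option linter.style.haveILetI false
set_option linter.unusedVariables false

open IsLocalRing ExtCitation
open Fermat.Agent.S53 Fermat.Agent.S56 Fermat.Agent.TW Fermat.Agent.JT3 Fermat.Agent.FF

namespace Fermat.Agent.M59

noncomputable section

local notation "GQ" => (AlgebraicClosure ℚ ≃ₐ[ℚ] AlgebraicClosure ℚ)

attribute [local instance] S53.dualNumberAlgebra

section aux

variable {𝒪 : Type} [CommRing 𝒪] [IsLocalRing 𝒪]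

/-- the residue field has characteristic `p`. -/
theorem m59cp_charP (p : ℕ) [hp : Fact p.Prime] (hp𝒪 : (p : 𝒪) ∈ maximalIdeal 𝒪) :
    CharP (ResidueField 𝒪) p := by
  have h0 : (p : ResidueField 𝒪) = 0 := by
    have : (residue 𝒪) (p : 𝒪) = 0 := (residue_eq_zero_iff _).mpr hp𝒪
    rwa [map_natCast] at this
  obtain ⟨q, hq⟩ := CharP.exists (ResidueField 𝒪)
  have hdvd : q ∣ p := (CharP.cast_eq_zero_iff (ResidueField 𝒪) q p).mp h0
  rcases (Nat.dvd_prime hp.out).mp hdvd with h1 | h1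
  · subst h1
    have h1 : (1 : ResidueField 𝒪) = 0 := by
      have := CharP.cast_eq_zero (ResidueField 𝒪) 1
      rwa [Nat.cast_one] at this
    exact absurd h1 one_ne_zero
  · subst h1; exact hq

end aux

section conc

variable {𝒪 : Type} [CommRing 𝒪] [IsLocalRing 𝒪] [IsNoetherianRing 𝒪]
  [IsAdicComplete (maximalIdeal 𝒪) 𝒪] [Finite (ResidueField 𝒪)]
  {rb : FramedResidual (ResidueField 𝒪)}

/-- **the pair with an explicit isomorphism to the concrete pair ring.** -/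
theorem m59cp_pair_conc (p : ℕ) [Fact p.Prime] (hp2 : p ≠ 2)
    (habs : rb.toResidualGaloisRep.IsAbsolutelyIrreducible)
    (H : twc_HPair 𝒪 rb) [Module.Finite 𝒪 H.T] (rW : FramedRep 𝒪)
    (hW : ∀ σ, (rW σ).map (residue 𝒪) = rb σ)
    (hdH : H.r.toGaloisRepAdic.DetIsCyclotomic p) (hdW : rW.toGaloisRepAdic.DetIsCyclotomic p) :
    ∃ (H'' : twc_HPair 𝒪 rb) (e : H''.T ≃ₐ[𝒪] m59cp_T H.r rW), Module.Finite 𝒪 H''.T ∧
      (∀ σ, e (H''.r σ).trace = m59cp_t H.r rW σ) ∧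
      (∃ g₁ : (Matrix (Fin 2) (Fin 2) H.T)ˣ, ∀ σ,
        (H''.r σ).map ((m59cp_fst H.r rW).comp (e : H''.T →ₐ[𝒪] m59cp_T H.r rW)) =
          g₁.val * H.r σ * g₁.inv) ∧
      (∃ g₂ : (Matrix (Fin 2) (Fin 2) 𝒪)ˣ, ∀ σ,
        (H''.r σ).map ((m59cp_snd H.r rW).comp (e : H''.T →ₐ[𝒪] m59cp_T H.r rW)) =
          g₂.val * rW σ * g₂.inv) := by
  classical
  obtain ⟨H'', pr₁, pr₂, hfin, hinj, htr₁, htr₂, hgen, ⟨g₁, hg₁⟩, ⟨g₂, hg₂⟩⟩ :=
    m59cp_pair p hp2 habs H rW hW hdH hdW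
  set φ : H''.T →ₐ[𝒪] H.T × 𝒪 := AlgHom.prod pr₁ pr₂ with hφ
  have hφinj : Function.Injective φ := by
    intro t t' h
    exact hinj t t' (congrArg Prod.fst h) (congrArg Prod.snd h)
  have hrange : φ.range = m59cp_T H.r rW := by
    have h1 : φ.range = (⊤ : Subalgebra 𝒪 H''.T).map φ := (Algebra.map_top φ).symm
    rw [h1, ← hgen, AlgHom.map_adjoin]
    show Algebra.adjoin 𝒪 _ = Algebra.adjoin 𝒪 _
    congr 1
    ext x
    constructor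
    · rintro ⟨_, ⟨σ, rfl⟩, rfl⟩
      exact ⟨σ, Prod.ext (htr₁ σ).symm (htr₂ σ).symm⟩
    · rintro ⟨σ, rfl⟩
      exact ⟨(H''.r σ).trace, ⟨σ, rfl⟩, Prod.ext (htr₁ σ) (htr₂ σ)⟩
  let e : H''.T ≃ₐ[𝒪] m59cp_T H.r rW :=
    (AlgEquiv.ofInjective φ hφinj).trans (Subalgebra.equivOfEq _ _ hrange)
  have he1 : ∀ t, m59cp_fst H.r rW (e t) = pr₁ t := fun t => rfl
  have he2 : ∀ t, m59cp_snd H.r rW (e t) = pr₂ t := fun t => rfl
  refine ⟨H'', e, hfin, fun σ => ?_, ⟨g₁, fun σ => ?_⟩, ⟨g₂, fun σ => ?_⟩⟩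
  · refine m59cp_ext H.r rW ?_ ?_
    · rw [he1, htr₁]; rfl
    · rw [he2, htr₂]; rfl
  · rw [← hg₁ σ]
    ext i j
    simp only [Matrix.map_apply]
    exact he1 _
  · rw [← hg₂ σ]
    ext i j
    simp only [Matrix.map_apply]
    exact he2 _

/-- **the pair with the frame normalised along a surjection of the concrete pair ring.** -/
theorem m59cp_pair_normed (p : ℕ) [Fact p.Prime] (hp2 : p ≠ 2)
    (habs : rb.toResidualGaloisRep.IsAbsolutelyIrreducible)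
    (H : twc_HPair 𝒪 rb) [Module.Finite 𝒪 H.T] (rW : FramedRep 𝒪)
    (hW : ∀ σ, (rW σ).map (residue 𝒪) = rb σ)
    (hdH : H.r.toGaloisRepAdic.DetIsCyclotomic p) (hdW : rW.toGaloisRepAdic.DetIsCyclotomic p)
    {A₀ : Type} [CommRing A₀] [IsLocalRing A₀] [Algebra 𝒪 A₀] [IsLocalHom (algebraMap 𝒪 A₀)]
    (π : m59cp_T H.r rW →ₐ[𝒪] A₀) (hπ : Function.Surjective π) (r₀ : FramedRep A₀)
    (hr₀ : r₀.IsLiftOf rb (ResidueField.map (algebraMap 𝒪 A₀))) (h2 : IsUnit (2 : A₀))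
    (htr : ∀ σ, π (m59cp_t H.r rW σ) = (r₀ σ).trace) :
    ∃ (H'' : twc_HPair 𝒪 rb) (e : H''.T ≃ₐ[𝒪] m59cp_T H.r rW), Module.Finite 𝒪 H''.T ∧
      (∀ σ, e (H''.r σ).trace = m59cp_t H.r rW σ) ∧
      (∃ g₁ : (Matrix (Fin 2) (Fin 2) H.T)ˣ, ∀ σ,
        (H''.r σ).map ((m59cp_fst H.r rW).comp (e : H''.T →ₐ[𝒪] m59cp_T H.r rW)) =
          g₁.val * H.r σ * g₁.inv) ∧
      (∃ g₂ : (Matrix (Fin 2) (Fin 2) 𝒪)ˣ, ∀ σ,
        (H''.r σ).map ((m59cp_snd H.r rW).comp (e : H''.T →ₐ[𝒪] m59cp_T H.r rW)) =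
          g₂.val * rW σ * g₂.inv) ∧
      ∀ σ, (H''.r σ).map (π.comp (e : H''.T →ₐ[𝒪] m59cp_T H.r rW)) = r₀ σ := by
  classical
  obtain ⟨H'', e, hfin, htr'', ⟨g₁, hg₁⟩, ⟨g₂, hg₂⟩⟩ :=
    m59cp_pair_conc p hp2 habs H rW hW hdH hdW
  set π' : H''.T →ₐ[𝒪] A₀ := π.comp (e : H''.T →ₐ[𝒪] m59cp_T H.r rW) with hπ'
  have hπ'surj : Function.Surjective π' := hπ.comp e.surjective
  obtain ⟨δ, hδ, hl⟩ := m59cp_norm2 habs π' hπ'surj H''.r r₀ hr₀ h2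
    (fun σ => by
      show π (e (H''.r σ).trace) = _
      rw [htr'' σ, htr σ])
  have hconj : ∀ (B : Type) [CommRing B] [Algebra 𝒪 B] (f : H''.T →ₐ[𝒪] B)
      (G : (Matrix (Fin 2) (Fin 2) B)ˣ) (R : Matrix (Fin 2) (Fin 2) B) (σ : GQ),
      (H''.r σ).map f = G.val * R * G.inv →
      ((H''.r.conj δ) σ).map f =
        ((Units.map ((f : H''.T →+* B).mapMatrix :
          Matrix (Fin 2) (Fin 2) H''.T →+* Matrix (Fin 2) (Fin 2) B).toMonoidHom δ) * G).val * R *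
        ((Units.map ((f : H''.T →+* B).mapMatrix :
          Matrix (Fin 2) (Fin 2) H''.T →+* Matrix (Fin 2) (Fin 2) B).toMonoidHom δ) * G).inv := by
    intro B _ _ f G R σ h
    rw [FramedRep.conj_apply, Matrix.map_mul, Matrix.map_mul, h]
    have e1 : ((Units.map ((f : H''.T →+* B).mapMatrix :
        Matrix (Fin 2) (Fin 2) H''.T →+* Matrix (Fin 2) (Fin 2) B).toMonoidHom δ) * G).val =
        δ.val.map f * G.val := rfl
    have e2 : ((Units.map ((f : H''.T →+* B).mapMatrix :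
        Matrix (Fin 2) (Fin 2) H''.T →+* Matrix (Fin 2) (Fin 2) B).toMonoidHom δ) * G).inv =
        G.inv * δ.inv.map f := rfl
    rw [e1, e2]
    simp only [mul_assoc]
  refine ⟨m59cp_conjH H'' δ hl, e, hfin, fun σ => ?_,
    ⟨(Units.map ((((m59cp_fst H.r rW).comp (e : H''.T →ₐ[𝒪] m59cp_T H.r rW) :
        H''.T →ₐ[𝒪] H.T) : H''.T →+* H.T).mapMatrix :
        Matrix (Fin 2) (Fin 2) H''.T →+* Matrix (Fin 2) (Fin 2) H.T).toMonoidHom δ) * g₁,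
      fun σ => ?_⟩,
    ⟨(Units.map ((((m59cp_snd H.r rW).comp (e : H''.T →ₐ[𝒪] m59cp_T H.r rW) :
        H''.T →ₐ[𝒪] 𝒪) : H''.T →+* 𝒪).mapMatrix :
        Matrix (Fin 2) (Fin 2) H''.T →+* Matrix (Fin 2) (Fin 2) 𝒪).toMonoidHom δ) * g₂,
      fun σ => ?_⟩,
    fun σ => ?_⟩
  · show e ((H''.r.conj δ) σ).trace = _
    rw [FramedRep.conj_apply, m59cp_conj_trace]
    exact htr'' σ
  · exact hconj _ _ g₁ (H.r σ) σ (hg₁ σ)
  · exact hconj _ _ g₂ (rW σ) σ (hg₂ σ)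
  · exact hδ σ

end conc

section natur

variable {𝒪 : Type} [CommRing 𝒪] {B : Type} [CommRing B] [Algebra 𝒪 B]
  {B' : Type} [CommRing B'] [Algebra 𝒪 B']

/-- naturality of all the coordinates. -/
theorem m59cp_zz_map {T8 Tn : Finset Nat.Primes} (gσ gφ : Nat.Primes → GQ) (a : Nat.Primes → 𝒪)
    (g gi : Nat.Primes → Matrix (Fin 2) (Fin 2) 𝒪) (t₀ : Nat.Primes → 𝒪)
    (e : Nat.Primes → Fin 2 → 𝒪) (R : GQ → Matrix (Fin 2) (Fin 2) B) (f : B →ₐ[𝒪] B')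
    (hP : ∀ ℓ : ↥Tn, IsUnit (m59cp_P gφ e R ℓ).det) (c : m59ci_Iz ↥T8 ↥Tn) :
    f (m59cp_zz gσ gφ a g gi t₀ e R c) =
      m59cp_zz gσ gφ a g gi t₀ e (fun σ => (R σ).map f) c := by
  rcases c with x | x
  · exact m59cp_zH_map gσ gφ a g gi R f x
  · exact m59cp_zN_map gσ gφ t₀ e R f x (hP x.1)

/-- naturality of the plain `ν`. -/
theorem m59cp_nu_map {T8 Tn : Type} (a : T8 → 𝒪) (t0 : Tn → 𝒪) (z : m59ci_Iz T8 Tn → B)
    (f : B →ₐ[𝒪] B') (c : (T8 × Fin 6) ⊕ Tn) :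
    f (m59cp_nu a t0 z c) = m59cp_nu a t0 (fun c => f (z c)) c := by
  have hPhi : ∀ (t : T8) (i j : Fin 2),
      f (m59cp_Phi a z t i j) = m59cp_Phi a (fun c => f (z c)) t i j := by
    intro t i j
    unfold m59cp_Phi
    rw [map_add]
    congr 1
    split_ifs
    · exact f.commutes _
    · exact map_zero f
  rcases c with ⟨t, i⟩ | l
  · show f (![m59cp_Phi a z t 0 0, m59cp_Phi a z t 1 0, m59cp_Phi a z t 1 1,
      z (Sum.inl (t, 0, 0, 0)), z (Sum.inl (t, 0, 1, 0)), z (Sum.inl (t, 0, 1, 1))] i) =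
      ![m59cp_Phi a (fun c => f (z c)) t 0 0, m59cp_Phi a (fun c => f (z c)) t 1 0,
        m59cp_Phi a (fun c => f (z c)) t 1 1, f (z (Sum.inl (t, 0, 0, 0))),
        f (z (Sum.inl (t, 0, 1, 0))), f (z (Sum.inl (t, 0, 1, 1)))] i
    fin_cases i <;> simp [hPhi]
  · show f (algebraMap 𝒪 B (t0 l) + z (Sum.inr (l, 0))) =
      algebraMap 𝒪 B' (t0 l) + f (z (Sum.inr (l, 0)))
    rw [map_add, f.commutes]

end natur

section main

/-- **[CI-PAIR].** -/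
theorem m59cp_pairSys : m59cp_PairSys_stmt := by
  intro p hpp hp2 𝒪 _ _ _ _ _ hp𝒪 rb habs rW hW hdW Pp Smin T8 Tn td hℓp hur hunW hunipW
    a g gi t₀ e hgi hφa ht₀ hcyc H₀ hfin₀ hdH₀
  classical
  haveI hchar : CharP (ResidueField 𝒪) p := m59cp_charP p hp𝒪
  have h2𝒪 : IsUnit (2 : 𝒪) := m59cp_isUnit_two hpp.out hp2 hp𝒪
  have h2k : (2 : ResidueField 𝒪) ≠ 0 := by
    have h := h2𝒪.map (residue 𝒪)
    rw [map_ofNat] at h
    exact h.ne_zero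
  haveI hidloc : IsLocalHom (algebraMap 𝒪 𝒪) := ⟨fun a ha => ha⟩
  have hWl : rW.IsLiftOf rb (ResidueField.map (algebraMap 𝒪 𝒪)) := by
    intro σ
    rw [hW σ]
    ext i j
    simp only [Matrix.map_apply]
    obtain ⟨x, hx⟩ := residue_surjective (rb σ i j)
    rw [← hx, ResidueField.map_residue]
    rfl
  -- the base pair, normalised along `snd`
  obtain ⟨K₀, e₀, hfinK₀, htrK₀, -, -, hK₀W⟩ :=
    m59cp_pair_normed p hp2 habs H₀ rW hW hdH₀ hdW (A₀ := 𝒪) (m59cp_snd H₀.r rW)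
      (fun c => ⟨algebraMap 𝒪 _ c, (m59cp_snd H₀.r rW).commutes c⟩) rW hWl h2𝒪 (fun σ => rfl)
  -- the family of matrices over the concrete base ring
  set R0 : GQ → Matrix (Fin 2) (Fin 2) ↥(m59cp_T H₀.r rW) :=
    fun σ => (K₀.r σ).map (e₀ : K₀.T →ₐ[𝒪] m59cp_T H₀.r rW) with hR0def
  have hR0P : ∀ ℓ : ↥Tn, IsUnit (m59cp_P td.gφ e R0 ℓ).det := by
    intro ℓ
    have h1 : m59cp_P td.gφ e R0 ℓ =
        (m59cp_P td.gφ e (fun σ => K₀.r σ) ℓ).map (e₀ : K₀.T →ₐ[𝒪] m59cp_T H₀.r rW) :=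
      (m59cp_P_map td.gφ e (fun σ => K₀.r σ) (e₀ : K₀.T →ₐ[𝒪] m59cp_T H₀.r rW) ℓ).symm
    rw [h1]
    have h2 := m59cp_map_det ((e₀ : K₀.T →ₐ[𝒪] m59cp_T H₀.r rW) : K₀.T →+* m59cp_T H₀.r rW)
      (m59cp_P td.gφ e (fun σ => K₀.r σ) ℓ)
    have h3 : IsUnit (m59cp_P td.gφ e (fun σ => K₀.r σ) ℓ).det :=
      m59c_P_det_isUnit td.gφ e K₀ ℓ (hcyc ℓ ℓ.2)
    have h4 := h3.map ((e₀ : K₀.T →ₐ[𝒪] m59cp_T H₀.r rW) : K₀.T →+* m59cp_T H₀.r rW)
    rw [← h2] at h4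
    exact h4
  have hR0W : (fun σ => (R0 σ).map (m59cp_snd H₀.r rW)) = fun σ => rW σ := by
    funext σ
    rw [← hK₀W σ]
    ext i j
    rfl
  refine ⟨m59cp_nu (fun ℓ : ↥T8 => a ℓ) (fun ℓ : ↥Tn => t₀ ℓ)
    (m59cp_zz td.gσ td.gφ a g gi t₀ e R0), fun c => ?_, ?_⟩
  · rw [m59cp_nu_map]
    congr 1
    funext c'
    rw [m59cp_zz_map td.gσ td.gφ a g gi t₀ e R0 (m59cp_snd H₀.r rW) hR0P c', hR0W]
  -- the patching levels
  intro H hfinH πT hπT hdH hunH hunipH Q hunrH hunrW hPp κ _ hcot rr uT huT_mem hπTu hdia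
    m ch hch dl 𝔞 jB
  have h2K₀ : IsUnit (2 : K₀.T) := by
    have h := h2𝒪.map (algebraMap 𝒪 K₀.T)
    rwa [map_ofNat] at h
  set πM : m59cp_T H.r rW →ₐ[𝒪] m59cp_T H₀.r rW := m59cp_map H.r H₀.r rW πT hπT with hπM
  have hπMsurj : Function.Surjective πM := m59cp_map_surjective H.r H₀.r rW πT hπT
  obtain ⟨K, eK, hfinK, htrK, ⟨g₁, hg₁⟩, ⟨g₂, hg₂⟩, hKK₀⟩ :=
    m59cp_pair_normed p hp2 habs H rW hW hdH hdW (A₀ := K₀.T)
      ((e₀.symm : m59cp_T H₀.r rW →ₐ[𝒪] K₀.T).comp πM)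
      (e₀.symm.surjective.comp hπMsurj) K₀.r K₀.lift h2K₀
      (fun σ => by
        show e₀.symm (πM (m59cp_t H.r rW σ)) = _
        rw [hπM, m59cp_map_t, ← htrK₀ σ, AlgEquiv.symm_apply_apply])
  haveI := hfinK
  set pr₁ : K.T →ₐ[𝒪] H.T := (m59cp_fst H.r rW).comp (eK : K.T →ₐ[𝒪] m59cp_T H.r rW) with hpr₁
  set pr₂ : K.T →ₐ[𝒪] 𝒪 := (m59cp_snd H.r rW).comp (eK : K.T →ₐ[𝒪] m59cp_T H.r rW) with hpr₂
  set π0 : K.T →ₐ[𝒪] m59cp_T H₀.r rW := πM.comp (eK : K.T →ₐ[𝒪] m59cp_T H.r rW) with hπ0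
  have hπ0surj : Function.Surjective π0 := hπMsurj.comp eK.surjective
  have hR0 : ∀ σ, (K.r σ).map π0 = R0 σ := by
    intro σ
    rw [hR0def]
    show _ = (K₀.r σ).map (e₀ : K₀.T →ₐ[𝒪] m59cp_T H₀.r rW)
    rw [← hKK₀ σ]
    refine Matrix.ext fun i j => ?_
    simp only [Matrix.map_apply]
    show _ = e₀ (e₀.symm (πM (eK _)))
    rw [AlgEquiv.apply_symm_apply]
    rfl
  have hinj : ∀ x : K.T, pr₁ x = 0 → pr₂ x = 0 → x = 0 := by
    intro x h1 h2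
    have h3 : eK x = 0 := m59cp_ext H.r rW (by rw [map_zero]; exact h1) (by rw [map_zero]; exact h2)
    exact (map_eq_zero_iff eK eK.injective).mp h3
  -- the two projections are local
  have hl₁ : IsLocalHom (pr₁ : K.T →+* H.T) := m59cp_isLocalHom_of_finite pr₁
  have hl₂ : IsLocalHom (pr₂ : K.T →+* 𝒪) := m59cp_isLocalHom_of_finite pr₂
  -- the type of `K`
  have hdetK : K.r.toGaloisRepAdic.DetIsCyclotomic p :=
    m59cp_detCyc_of_pair (pr₁ : K.T →+* H.T) (pr₂ : K.T →+* 𝒪) K.r H.r rW g₁ g₂ p hl₁ hl₂ hinj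
      hg₁ hg₂ hdH hdW
  have hunK : ∀ ℓ ∈ T8 ∪ Tn,
      K.r.toGaloisRepAdic.IsUnipotentOnInertiaAt ((ℓ : Nat.Primes) : ℕ) := fun ℓ hℓ =>
    m59cp_unip_of_pair (pr₁ : K.T →+* H.T) (pr₂ : K.T →+* 𝒪) K.r H.r rW g₁ g₂ hinj hg₁ hg₂
      (hunH ℓ hℓ) (hunW ℓ hℓ)
  have hType : m59c_IsType p Pp Smin (T8 ∪ Tn) Q K :=
    ⟨hdetK, fun hpS φ hφ => hPp hpS K pr₁ pr₂ hfinK hinj g₁ hg₁ g₂ hg₂ φ hφ,
      fun q hq hqn => m59cp_unram_of_pair (pr₁ : K.T →+* H.T) (pr₂ : K.T →+* 𝒪) K.r H.r rW g₁ g₂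
        hinj hg₁ hg₂ (hunrH q hq hqn) (hunrW q hq hqn),
      fun q hqS hq hqp => m59cp_unip_of_pair (pr₁ : K.T →+* H.T) (pr₂ : K.T →+* 𝒪) K.r H.r rW
        g₁ g₂ hinj hg₁ hg₂ (hunipH q hqS hq hqp) (hunipW q hqS hq hqp)⟩
  have hcount := hcot K hType
  -- traces and determinants through the projections
  have htr₁ : ∀ τ, pr₁ (K.r τ).trace = (H.r τ).trace := by
    intro τ
    have h1 := m59cp_map_trace (pr₁ : K.T →+* H.T) (K.r τ)
    have h3 : ((K.r τ).map pr₁).trace = pr₁ (K.r τ).trace := h1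
    rw [← h3, hg₁ τ, m59cp_conj_trace]
  have hdet₁ : ∀ τ, pr₁ (K.r τ).det = (H.r τ).det := by
    intro τ
    have h1 := m59cp_map_det (pr₁ : K.T →+* H.T) (K.r τ)
    have h3 : ((K.r τ).map pr₁).det = pr₁ (K.r τ).det := h1
    rw [← h3, hg₁ τ, m59cp_conj_det]
  have htr₂ : ∀ τ, pr₂ (K.r τ).trace = (rW τ).trace := by
    intro τ
    have h1 := m59cp_map_trace (pr₂ : K.T →+* 𝒪) (K.r τ)
    have h3 : ((K.r τ).map pr₂).trace = pr₂ (K.r τ).trace := h1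
    rw [← h3, hg₂ τ, m59cp_conj_trace]
  have hres : ∀ x : H.T, ∃ c : K.T, (pr₁ : K.T →+* H.T) c - x ∈ maximalIdeal H.T := by
    intro x
    obtain ⟨c₀, hc₀⟩ := H.residue_surjective (residue H.T x)
    refine ⟨algebraMap 𝒪 K.T c₀, ?_⟩
    rw [← residue_eq_zero_iff, map_sub, sub_eq_zero]
    show residue H.T (pr₁ (algebraMap 𝒪 K.T c₀)) = _
    rw [pr₁.commutes]
    exact hc₀
  -- the diamonds
  have hdiaK : ∀ i, ∃ w : K.T, pr₁ w = uT i ∧ pr₂ w = 1 := by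
    intro i
    obtain ⟨φ, σ, a0, a1, u', hσ1, hu, hs, hp, -, hσ, hφσ⟩ := hdia i
    haveI := hl₁
    refine m59cp_diamond (pr₁ : K.T →+* H.T) (pr₂ : K.T →+* 𝒪) hres (K.r φ).trace (K.r φ).det
      (K.r σ).trace (K.r (φ * σ)).trace a0 a1 (uT i) u' hu ?_ ?_ ?_ ?_ ?_ ?_
    · rw [hs]; exact (htr₁ φ).symm
    · rw [hp]; exact (hdet₁ φ).symm
    · rw [hσ]; exact (htr₁ σ).symm
    · rw [hφσ]; exact (htr₁ (φ * σ)).symm
    · show pr₂ (K.r σ).trace = 2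
      rw [htr₂ σ, hσ1, Matrix.trace_one, Fintype.card_fin]
      norm_num
    · show pr₂ (K.r (φ * σ)).trace = pr₂ (K.r φ).trace
      rw [htr₂, htr₂, map_mul, hσ1, mul_one]
  choose u hu1 hu2 using hdiaK
  have hu_mem : ∀ i, u i - 1 ∈ maximalIdeal K.T := by
    intro i
    rw [mem_maximalIdeal, mem_nonunits_iff]
    intro hunit
    have h1 := hunit.map pr₁
    rw [map_sub, hu1, map_one] at h1
    exact (mem_maximalIdeal _).1 (huT_mem i) h1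
  have hπ0u : ∀ i, π0 (u i) = 1 := by
    intro i
    refine m59cp_ext H₀.r rW ?_ ?_
    · show πT (pr₁ (u i)) = _
      rw [hu1, hπTu i]
      rfl
    · show pr₂ (u i) = _
      rw [hu2 i]
      rfl
  exact m59cp_pairSys_core h2k td Finset.subset_union_left Finset.subset_union_right
    (fun ℓ hℓ => Finset.mem_union.1 hℓ) hℓp hur a g gi hgi hφa t₀ e hcyc ht₀ κ rr dl
    (fun k => ((m59cp_prm (ch k) : Nat.Primes) : ℕ)) ch (fun _ => rfl) hch 𝔞 K hdetK hunK hcount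
    H.r.toMonoidHom (m59cp_framed_span habs H.r H.lift) pr₁ g₁ hg₁ uT u hu_mem hu1 π0 hπ0surj
    hπ0u (jB.comp (m59cp_fst H₀.r rW : ↥(m59cp_T H₀.r rW) →+* H₀.T))
    (jB.comp (πT : H.T →+* H₀.T)) (fun t => rfl) R0 hR0

end main

end

end Fermat.Agent.M59
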