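import Mathlib
import Fermat.Agent.M59.C.PairSysCore
import Fermat.Agent.M59.C.PairRing
import Fermat.Agent.M59.C.PairCot3
import Fermat.Agent.M59.Rp.AZeroII
import Fermat.Agent.M59.Top.Chain3.SysGlue3
import Fermat.Agent.TW.Def.HPairOfDatum

/-!
# Project M59 (S59), block [C-top], case (III), cell [CI3-PAIR], part 1 (prefix `m59cp_`)

The pair side `m59ci3_PairSys` (helper26, M59/Top/Chain3/SysGlue3.lean) of the chain system of case
(III) from an abstract (normalised) pair: twin of `m59cp_pairSys_core` (M59/C/PairSysCore.lean).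

* `m59cp_tc_congr` : the trace coordinates `m59rp_c/_z/_v/_a` only depend on traces and
  determinants (conjugation invariance);
* `m59cp_gens3` : the generators `w : κ → 𝔪` of `𝔪` relative to `z`, with `w ka = a_T`, `w kv = v_T`,
  from the cotangent bound `dim (Cot ⧸ relW (z ⊕ (a_T, v_T))) ≤ c3`, `|κ| = c3 + 2`;
* `m59cp_fst_surjective` : the first projection of the pair ring is onto when the traces generate;
* `m59cp_pairSys3_core` : the structure.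
-/

set_option autoImplicit false
set_option linter.unusedSectionVars false
set_option linter.style.haveILetI false
set_option linter.unusedVariables false

open IsLocalRing ExtCitation
open Fermat.Agent.S53 Fermat.Agent.S56 Fermat.Agent.TW

namespace Fermat.Agent.M59

noncomputable section

local notation "GQ" => (AlgebraicClosure ℚ ≃ₐ[ℚ] AlgebraicClosure ℚ)
local notation "Qbar" => AlgebraicClosure ℚ

attribute [local instance] S53.dualNumberAlgebra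

section tc

variable {R : Type} [CommRing R] {p : ℕ} {A : ValuationSubring Qbar} (E : m59rp_Elts p A)

/-- the trace coordinates only depend on the traces and the determinants. -/
theorem m59cp_tc_congr (M M' : GQ →* Matrix (Fin 2) (Fin 2) R)
    (htr : ∀ σ, (M σ).trace = (M' σ).trace) (hdet : ∀ σ, (M σ).det = (M' σ).det) :
    (∀ σ, m59rp_z E M σ = m59rp_z E M' σ) ∧ (∀ g0, m59rp_v E g0 M = m59rp_v E g0 M') ∧
      ∀ z0, m59rp_a E z0 M = m59rp_a E z0 M' := by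
  have hc : m59rp_c E M = m59rp_c E M' := hdet E.s0
  have hz : ∀ σ, m59rp_z E M σ = m59rp_z E M' σ := by
    intro σ
    unfold m59rp_z
    rw [hc, htr, htr]
  refine ⟨hz, fun g0 => ?_, fun z0 => ?_⟩
  · unfold m59rp_v
    rw [htr, htr]
  · unfold m59rp_a
    rw [hz]

/-- the push-forward of a family of matrices along a ring homomorphism, as a monoid hom. -/
def m59cp_pushM {S : Type} [CommRing S] (f : R →+* S) (M : GQ →* Matrix (Fin 2) (Fin 2) R) :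
    GQ →* Matrix (Fin 2) (Fin 2) S :=
  (f.mapMatrix : Matrix (Fin 2) (Fin 2) R →+* Matrix (Fin 2) (Fin 2) S).toMonoidHom.comp M

theorem m59cp_pushM_apply {S : Type} [CommRing S] (f : R →+* S)
    (M : GQ →* Matrix (Fin 2) (Fin 2) R) (σ : GQ) : m59cp_pushM f M σ = (M σ).map f := rfl

/-- naturality of the trace coordinates along a ring homomorphism, up to conjugation. -/
theorem m59cp_tc_map {S : Type} [CommRing S] (f : R →+* S)
    (M : GQ →* Matrix (Fin 2) (Fin 2) R) (M' : GQ →* Matrix (Fin 2) (Fin 2) S)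
    (g : (Matrix (Fin 2) (Fin 2) S)ˣ) (h : ∀ σ, (M σ).map f = g.val * M' σ * g.inv)
    (hu : IsUnit (1 - m59rp_c E M)) :
    (∀ σ, f (m59rp_z E M σ) = m59rp_z E M' σ) ∧ (∀ g0, f (m59rp_v E g0 M) = m59rp_v E g0 M') ∧
      ∀ z0, f (m59rp_a E z0 M) = m59rp_a E (f z0) M' := by
  have hpush : ∀ σ, (M σ).map f = m59cp_pushM f M σ := fun σ => rfl
  obtain ⟨h1, h2, h3⟩ := m59cp_tc_congr E (m59cp_pushM f M) M'
    (fun σ => by rw [m59cp_pushM_apply, h σ, m59cp_conj_trace])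
    (fun σ => by rw [m59cp_pushM_apply, h σ, m59cp_conj_det])
  refine ⟨fun σ => ?_, fun g0 => ?_, fun z0 => ?_⟩
  · rw [m59rpk_map_z f E M _ hpush hu σ, h1]
  · rw [m59rpk_map_v f E M _ hpush g0, h2]
  · unfold m59rp_a
    rw [map_sub, map_mul, map_one, m59rpk_map_z f E M _ hpush hu E.fr, h1]

end tc

section gens

variable {𝒪 : Type} [CommRing 𝒪] [IsLocalRing 𝒪]
  {A : Type} [CommRing A] [IsLocalRing A] [IsNoetherianRing A] [Algebra 𝒪 A]
  [IsLocalHom (algebraMap 𝒪 A)]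

/-- **the generators of case (III)**: `|κ| = c3 + 2`, two of them are `a_T`, `v_T`. -/
theorem m59cp_gens3 {ι : Type} (z : ι → maximalIdeal A) (aT vT : maximalIdeal A) (c3 : ℕ)
    (hd : Module.finrank (ResidueField A)
      (CotangentSpace A ⧸ twc_relW 𝒪 (Sum.elim z ![aT, vT])) ≤ c3)
    (κ : Type) [Fintype κ] (ka kv : κ) (hne : ka ≠ kv) (hκ : Fintype.card κ = c3 + 2) :
    ∃ w : κ → maximalIdeal A, w ka = aT ∧ w kv = vT ∧
      maximalIdeal A = (maximalIdeal 𝒪).map (algebraMap 𝒪 A) ⊔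
        Ideal.span (Set.range (Sum.elim (fun c => (z c : A)) (fun k => (w k : A)))) := by
  classical
  obtain ⟨x, hx⟩ := twc_rel_exists_gens (𝒪 := 𝒪) (Sum.elim z ![aT, vT]) c3 hd
  have hxm : ∀ i, x i ∈ maximalIdeal A := by
    intro i
    rw [hx]
    exact Ideal.mem_sup_right (Ideal.subset_span ⟨Sum.inr i, rfl⟩)
  -- the other indices
  have hcard : Fintype.card {k : κ // ¬ (k = ka ∨ k = kv)} = c3 := by
    rw [Fintype.card_subtype_compl, hκ]
    have h2 : Fintype.card {k : κ // k = ka ∨ k = kv} = 2 := by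
      rw [Fintype.card_subtype]
      have : Finset.univ.filter (fun k : κ => k = ka ∨ k = kv) = {ka, kv} := by
        ext k
        simp
      rw [this, Finset.card_pair hne]
    rw [h2]
    rfl
  let eκ : {k : κ // ¬ (k = ka ∨ k = kv)} ≃ Fin c3 := Fintype.equivFinOfCardEq hcard
  let w : κ → maximalIdeal A := fun k =>
    if h1 : k = ka then aT else if h2 : k = kv then vT else
      ⟨x (eκ ⟨k, fun h => h.elim h1 h2⟩), hxm _⟩
  have hwa : w ka = aT := by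
    show (if h1 : ka = ka then aT else _) = aT
    rw [dif_pos rfl]
  have hwv : w kv = vT := by
    show (if h1 : kv = ka then aT else if h2 : kv = kv then vT else _) = vT
    rw [dif_neg (Ne.symm hne), dif_pos rfl]
  have hwo : ∀ (k : κ) (hk : ¬ (k = ka ∨ k = kv)), (w k : A) = x (eκ ⟨k, hk⟩) := by
    intro k hk
    have h1 : ¬ k = ka := fun h => hk (Or.inl h)
    have h2 : ¬ k = kv := fun h => hk (Or.inr h)
    show ((if h1 : k = ka then aT else if h2 : k = kv then vT else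
      ⟨x (eκ ⟨k, fun h => h.elim h1 h2⟩), hxm _⟩ : maximalIdeal A) : A) = _
    rw [dif_neg h1, dif_neg h2]
  refine ⟨w, hwa, hwv, ?_⟩
  have hrange : Set.range (Sum.elim (fun i => ((Sum.elim z ![aT, vT] i : maximalIdeal A) : A)) x) =
      Set.range (Sum.elim (fun c => (z c : A)) (fun k => (w k : A))) := ?_
  · rw [← hrange]
    exact hx
  ext y
  constructor
  · rintro ⟨((i | i) | i), rfl⟩
    · exact ⟨Sum.inl i, rfl⟩
    · fin_cases i
      · exact ⟨Sum.inr ka, by rw [Sum.elim_inr, hwa]; rfl⟩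
      · exact ⟨Sum.inr kv, by rw [Sum.elim_inr, hwv]; rfl⟩
    · refine ⟨Sum.inr (eκ.symm i).1, ?_⟩
      rw [Sum.elim_inr, hwo _ (eκ.symm i).2]
      show x (eκ ⟨(eκ.symm i).1, (eκ.symm i).2⟩) = x i
      rw [Subtype.coe_eta, Equiv.apply_symm_apply]
  · rintro ⟨(i | k), rfl⟩
    · exact ⟨Sum.inl (Sum.inl i), rfl⟩
    · by_cases h1 : k = ka
      · subst h1
        exact ⟨Sum.inl (Sum.inr 0), by rw [Sum.elim_inr, hwa]; rfl⟩
      · by_cases h2 : k = kv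
        · subst h2
          exact ⟨Sum.inl (Sum.inr 1), by rw [Sum.elim_inr, hwv]; rfl⟩
        · refine ⟨Sum.inr (eκ ⟨k, fun h => h.elim h1 h2⟩), ?_⟩
          rw [Sum.elim_inr, Sum.elim_inr, hwo k (fun h => h.elim h1 h2)]

end gens

section onto

variable {𝒪 : Type} [CommRing 𝒪] {C : Type} [CommRing C] [Algebra 𝒪 C] {I : Type*}

/-- the first projection of `m59ci_adj g a` is onto when the `g i` generate. -/
theorem m59cp_adj_fst_surjective (g : I → C) (a : I → 𝒪)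
    (hg : Algebra.adjoin 𝒪 (Set.range g) = ⊤) : Function.Surjective (m59ci_adj_fst g a) := by
  intro y
  have h1 : (m59ci_adj g a).map (AlgHom.fst 𝒪 C 𝒪) = ⊤ := by
    unfold m59ci_adj
    rw [AlgHom.map_adjoin, ← hg]
    congr 1
    ext x
    constructor
    · rintro ⟨_, ⟨i, rfl⟩, rfl⟩
      exact ⟨i, rfl⟩
    · rintro ⟨i, rfl⟩
      exact ⟨(g i, a i), ⟨i, rfl⟩, rfl⟩
  have hy : y ∈ (m59ci_adj g a).map (AlgHom.fst 𝒪 C 𝒪) := by
    rw [h1]
    trivial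
  obtain ⟨x, hx, hxy⟩ := hy
  exact ⟨⟨x, hx⟩, hxy⟩

end onto

section datum

open Polynomial CuspForm

variable {𝒪 : Type} [CommRing 𝒪] [IsDomain 𝒪] [IsDiscreteValuationRing 𝒪]
  [IsAdicComplete (maximalIdeal 𝒪) 𝒪]
  {N : ℕ} [NeZero N] {S : Finset ℕ}
  {θ : heckeAlgebra N 2 (↑S : Set ℕ) →+* ResidueField 𝒪}
  {T : Type} [CommRing T] [IsLocalRing T] [IsNoetherianRing T]
  [IsAdicComplete (maximalIdeal T) T] [Algebra 𝒪 T] [IsLocalHom (algebraMap 𝒪 T)]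
  [Module.Finite 𝒪 T] [Module.Free 𝒪 T]

/-- **the Hecke ring of a Hecke–Galois datum is generated by the traces of any framing** (the proof
of `twc_hp_gen`, for the subalgebra generated by the traces). -/
theorem m59cp_adjoin_trace_ofFramed (H : HeckeGaloisRepDatum N (↑S : Set ℕ) 𝒪 θ T)
    (hNS : ∀ ℓ : ℕ, ℓ.Prime → ℓ ∣ N → ℓ ∈ S)
    (r : FramedRep T) (hr : H.ρ.IsEquiv r.toGaloisRepAdic) :
    Algebra.adjoin 𝒪 (Set.range fun σ : GQ => Matrix.trace (r σ)) = ⊤ := by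
  set E : Subalgebra 𝒪 T := Algebra.adjoin 𝒪 (Set.range fun σ : GQ => Matrix.trace (r σ)) with hE
  have hπ : ∀ (x : Module.End ℂ (CuspForm (CongruenceSubgroup.Gamma0 N) 2))
      (hx : x ∈ heckeAlgebra N 2 (↑S : Set ℕ)), H.π ⟨x, hx⟩ ∈ E := by
    intro x hx
    refine Algebra.adjoin_induction
      (p := fun x hx => H.π ⟨x, hx⟩ ∈ E) ?_ ?_ ?_ ?_ hx
    · rintro y (⟨ℓ, hℓ, hℓN, hℓS, rfl⟩ | ⟨q, hqN, hq, hqS, rfl⟩)
      · obtain ⟨τ, hτ⟩ := Fermat.Agent.JT3.fex_exists_isFrobeniusAt hℓ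
          (primeLocalPlace ⟨ℓ, hℓ⟩) (s56ld_liesOver ⟨ℓ, hℓ⟩)
        have h1 := twc_hp_trace_frob H r hr ℓ hℓ hℓN hℓS _ (s56ld_liesOver ⟨ℓ, hℓ⟩) τ hτ
        have h2 : (⟨heckeTLin 2 hℓ hℓN, Algebra.subset_adjoin (Or.inl ⟨ℓ, hℓ, hℓN, hℓS, rfl⟩)⟩ :
            heckeAlgebra N 2 (↑S : Set ℕ)) = heckeAlgebra.T hℓ hℓN hℓS := rfl
        rw [h2, ← h1]
        exact Algebra.subset_adjoin ⟨τ, rfl⟩
      · exact absurd (Finset.mem_coe.2 (hNS q hq hqN)) hqS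
    · intro n
      have h2 : (⟨algebraMap ℤ _ n, Subalgebra.algebraMap_mem _ n⟩ :
          heckeAlgebra N 2 (↑S : Set ℕ)) = ((n : ℤ) : heckeAlgebra N 2 (↑S : Set ℕ)) := by
        apply Subtype.ext
        simp
      rw [h2, map_intCast]
      exact Subalgebra.intCast_mem E n
    · intro x y hx hy hxE hyE
      have h2 : (⟨x + y, Subalgebra.add_mem _ hx hy⟩ : heckeAlgebra N 2 (↑S : Set ℕ)) =
          ⟨x, hx⟩ + ⟨y, hy⟩ := rfl
      rw [h2, map_add]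
      exact Subalgebra.add_mem E hxE hyE
    · intro x y hx hy hxE hyE
      have h2 : (⟨x * y, Subalgebra.mul_mem _ hx hy⟩ : heckeAlgebra N 2 (↑S : Set ℕ)) =
          ⟨x, hx⟩ * ⟨y, hy⟩ := rfl
      rw [h2, map_mul]
      exact Subalgebra.mul_mem E hxE hyE
  have hle : Algebra.adjoin 𝒪 (Set.range H.π) ≤ E := by
    apply Algebra.adjoin_le
    rintro _ ⟨x, rfl⟩
    exact hπ x.1 x.2
  rw [H.adjoin_range_π] at hle
  exact top_le_iff.mp hle

end datum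

section core3

variable {𝒪 : Type} [CommRing 𝒪] [IsLocalRing 𝒪] [Finite (ResidueField 𝒪)]
  {rb : FramedResidual (ResidueField 𝒪)}

/-- **the pair side of the chain system of case (III) from an abstract (normalised) pair.** -/
theorem m59cp_pairSys3_core {p : ℕ} [hpF : Fact p.Prime] [CharP (ResidueField 𝒪) p] (hp2 : p ≠ 2)
    (h2 : (2 : ResidueField 𝒪) ≠ 0)
    {Th : Finset Nat.Primes} (td : m59c_TameData p Th) {T8 Tn : Finset Nat.Primes}
    (h8 : T8 ⊆ Th) (hn : Tn ⊆ Th) (hTh : ∀ ℓ ∈ Th, ℓ ∈ T8 ∨ ℓ ∈ Tn)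
    (hℓp : ∀ ℓ ∈ Th, (ℓ : ℕ) ≠ p)
    (hur : ∀ ℓ ∈ Th, rb.toResidualGaloisRep.IsUnramifiedAt ((ℓ : Nat.Primes) : ℕ))
    (a : Nat.Primes → 𝒪) (g gi : Nat.Primes → Matrix (Fin 2) (Fin 2) 𝒪)
    (hgi : ∀ ℓ ∈ T8, gi ℓ * g ℓ = 1)
    (hφa : ∀ ℓ ∈ T8, rb (td.gφ ℓ) = Matrix.scalar (Fin 2) (residue 𝒪 (a ℓ)))
    (t₀ : Nat.Primes → 𝒪) (e : Nat.Primes → Fin 2 → 𝒪)
    (hcyc : ∀ ℓ ∈ Tn, (m59c_cyc (rb (td.gφ ℓ)) (fun i => residue 𝒪 (e ℓ i))).det ≠ 0)
    (ht₀ : ∀ ℓ ∈ Tn, residue 𝒪 (t₀ ℓ) = Matrix.trace (rb (td.gφ ℓ)))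
    -- the data at `p`
    (E : m59rp_Elts p (padicPlace p)) (g0 : GQ) (εp : ℤ) (hεp : εp * εp = 1)
    (hzb : residue 𝒪 ((εp : ℤ) : 𝒪) * m59rp_z E rb.toMonoidHom E.fr = 1)
    (hvb : m59rp_v E g0 rb.toMonoidHom = 0)
    (κ : Type) [Fintype κ] (ka kv : κ) (hne : ka ≠ kv) (c3 : ℕ) (hκ : Fintype.card κ = c3 + 2)
    (rr : ℕ) {m : ℕ} (dl : ℕ) (ch : Fin m → (↥T8 ⊕ ↥Tn) ⊕ Unit)
    (hch : ∀ b : ↥T8 ⊕ ↥Tn, ∃ k, ch k = Sum.inl b)
    (𝔞 : Ideal (MvPowerSeries (Fin rr) 𝒪))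
    (H'' : twc_HPair 𝒪 rb)
    (hdet : H''.r.toGaloisRepAdic.DetIsCyclotomic p)
    (hord : H''.r.toGaloisRepAdic.IsOrdinaryAt p)
    (hun : ∀ ℓ ∈ Th, H''.r.toGaloisRepAdic.IsUnipotentOnInertiaAt ((ℓ : Nat.Primes) : ℕ))
    (hcount : ∀ (ι : Type) (z : ι → maximalIdeal H''.T),
      (∀ φ : H''.T →ₐ[𝒪] DualNumber (ResidueField 𝒪), (∀ i, φ (z i : H''.T) = 0) →
        m59c_LocCob Th H'' φ) →
      ∀ (aT vT : maximalIdeal H''.T),
        (aT : H''.T) = m59rp_a E (algebraMap 𝒪 H''.T ((εp : ℤ) : 𝒪)) H''.r.toMonoidHom →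
        (vT : H''.T) = m59rp_v E g0 H''.r.toMonoidHom →
        Module.finrank (ResidueField H''.T)
          (CotangentSpace H''.T ⧸ twc_relW 𝒪 (Sum.elim z ![aT, vT])) ≤ c3)
    {T' : Type} [CommRing T'] [Algebra 𝒪 T'] (R' : GQ →* Matrix (Fin 2) (Fin 2) T')
    (hspan : Submodule.span T' (Set.range R') = ⊤)
    (pr : H''.T →ₐ[𝒪] T') (hprs : Function.Surjective pr)
    (g₁ : (Matrix (Fin 2) (Fin 2) T')ˣ)
    (hpr : ∀ σ, (H''.r σ).map pr = g₁.val * R' σ * g₁.inv)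
    (uT : Fin rr → T') (u : Fin rr → H''.T) (hu_mem : ∀ i, u i - 1 ∈ maximalIdeal H''.T)
    (hpru : ∀ i, pr (u i) = uT i)
    {T0 : Type} [CommRing T0] [Algebra 𝒪 T0] (π0 : H''.T →ₐ[𝒪] T0)
    (hπ0 : Function.Surjective π0) (hπ0u : ∀ i, π0 (u i) = 1)
    (j : T0 →+* Matrix (Fin dl) (Fin dl) (MvPowerSeries (Fin rr) 𝒪 ⧸ 𝔞))
    (jT : T' →+* Matrix (Fin dl) (Fin dl) (MvPowerSeries (Fin rr) 𝒪 ⧸ 𝔞))
    (hj : ∀ t, j (π0 t) = jT (pr t))
    (R0 : GQ →* Matrix (Fin 2) (Fin 2) T0) (hR0 : ∀ σ, (H''.r σ).map π0 = R0 σ) :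
    Nonempty (m59ci3_PairSys 𝒪 rr dl
      (fun k => m59ci3_lc (fun ℓ : ↥T8 => ((ℓ : Nat.Primes) : ℕ))
        (fun ℓ : ↥Tn => ((ℓ : Nat.Primes) : ℕ)) p (ch k)) κ
      (fun ℓ : ↥T8 => a ℓ) (fun ℓ : ↥T8 => ((ℓ : Nat.Primes) : ℕ)) (fun ℓ : ↥Tn => t₀ ℓ)
      (fun ℓ : ↥Tn => ((ℓ : Nat.Primes) : ℕ)) ka kv p εp ch 𝔞 T0 j
      (Sum.elim (m59cp_nu (fun ℓ : ↥T8 => a ℓ) (fun ℓ : ↥Tn => t₀ ℓ)
          (m59cp_zz td.gσ td.gφ a g gi t₀ e (fun σ => R0 σ)))
        (fun _ => m59rp_a E (algebraMap 𝒪 T0 ((εp : ℤ) : 𝒪)) R0))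
      T' (fun σ => (R' σ).trace) (m59rp_z E R' E.fr) (m59rp_v E g0 R') jT uT) := by
  classical
  have hA : (padicPlace p).LiesOverPrime p := Fermat.Agent.S55.pl_padicPlace_liesOver p
  -- the coordinates at the primes of the chain
  set zz : m59ci_Iz ↥T8 ↥Tn → H''.T :=
    m59cp_zz td.gσ td.gφ a g gi t₀ e (fun σ => H''.r σ) with hzz
  have hmem : ∀ c, zz c ∈ maximalIdeal H''.T :=
    fun c => m59cp_zz_mem td h8 hn hur a g gi hφa t₀ e ht₀ H'' c
  let z : m59ci_Iz ↥T8 ↥Tn → maximalIdeal H''.T := fun c => ⟨zz c, hmem c⟩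
  -- the coordinates at `p`
  have hMEM := m59rpk_mem p hp2 𝒪 rb (padicPlace p) hA E g0 ((εp : ℤ) : 𝒪) H'' hdet
  let aT : maximalIdeal H''.T :=
    ⟨m59rp_a E (algebraMap 𝒪 H''.T ((εp : ℤ) : 𝒪)) H''.r.toMonoidHom, hMEM.1 hzb⟩
  let vT : maximalIdeal H''.T := ⟨m59rp_v E g0 H''.r.toMonoidHom, hMEM.2.1 hvb⟩
  have hd := hcount _ z (fun φ hφ =>
    m59cp_locCob h2 td h8 hn hTh hℓp hur a g gi hgi t₀ e hcyc H'' hdet hun φ hφ) aT vT rfl rfl
  obtain ⟨w, hwa, hwv, hgens⟩ := m59cp_gens3 (𝒪 := 𝒪) z aT vT c3 hd κ ka kv hne hκ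
  have hunit : IsUnit (1 - m59rp_c E H''.r.toMonoidHom) :=
    m59rpk_one_sub_c_unit H''.r hdet E.s0 E.s0_ne
  -- (R1)
  have hav : (aT : H''.T) * (vT : H''.T) = 0 := by
    have hR1 := m59rpk_R1_trace p hp2 (padicPlace p) hA E H''.T (m59rpk_pair_hfin H'')
      (m59rpk_pair_hsep H'') H''.r hdet hord E.fr E.fr_frob.mem_decompositionSubgroup g0
    have h2T : IsUnit (2 : H''.T) := m59rpk_two_unit hpF.out hp2 hdet.1
    have hz0' : (algebraMap 𝒪 H''.T ((εp : ℤ) : 𝒪)) ^ 2 = 1 := by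
      rw [← map_pow, sq, ← Int.cast_mul, hεp, Int.cast_one, map_one]
    exact m59rp_av_of_R1 hz0' h2T (hMEM.1 hzb) hR1
  -- naturality along `pr`
  obtain ⟨hprz, hprv, -⟩ := m59cp_tc_map E (pr : H''.T →+* T') H''.r.toMonoidHom R' g₁
    (fun σ => hpr σ) hunit
  -- the ideal of ramification
  set l : Fin m → ℕ := fun k => m59ci3_lc (fun ℓ : ↥T8 => ((ℓ : Nat.Primes) : ℕ))
    (fun ℓ : ↥Tn => ((ℓ : Nat.Primes) : ℕ)) p (ch k) with hl
  have hlk : ∀ k b, ch k = Sum.inl b → l k = ((m59cp_prm b : Nat.Primes) : ℕ) := by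
    intro k b hk
    show m59ci3_lc _ _ p (ch k) = _
    rw [hk]
    rcases b with t | t <;> rfl
  set I : Ideal T' := Ideal.span (m59ci3_ramSet l p (fun σ => (R' σ).trace)) with hI
  have hram : ∀ ℓ ∈ Th, ∀ σ : GQ,
      (R' (σ * td.gσ ℓ)).trace - (R' σ).trace ∈ I := by
    intro ℓ hℓ σ
    have hx : ∃ x : ↥T8 ⊕ ↥Tn, m59cp_prm x = ℓ := by
      rcases hTh ℓ hℓ with h | h
      · exact ⟨Sum.inl ⟨ℓ, h⟩, rfl⟩
      · exact ⟨Sum.inr ⟨ℓ, h⟩, rfl⟩
    obtain ⟨x, hx⟩ := hx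
    obtain ⟨k, hk⟩ := hch x
    have hlk' : l k = (ℓ : ℕ) := by rw [hlk k x hk, hx]
    refine Ideal.subset_span ⟨k, σ, td.gσ ℓ, ?_, ⟨primeLocalPlace ℓ, ?_, td.σ_mem ℓ hℓ⟩, rfl⟩
    · rw [hlk']
      exact hℓp ℓ hℓ
    · rw [hlk']
      exact s56ld_liesOver ℓ
  have hentries : ∀ ℓ ∈ Th, ∀ (X Y : Matrix (Fin 2) (Fin 2) H''.T) (i j : Fin 2),
      pr ((X * (H''.r (td.gσ ℓ) - 1) * Y) i j) ∈ I := by
    intro ℓ hℓ X Y i j
    have e1 : ((H''.r (td.gσ ℓ) - 1)).map pr = g₁.val * (R' (td.gσ ℓ) - 1) * g₁.inv := by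
      rw [m59cp_map_sub_one, hpr, mul_sub, sub_mul, mul_one, g₁.val_inv]
    have e2 : pr ((X * (H''.r (td.gσ ℓ) - 1) * Y) i j) =
        ((X.map pr * g₁.val) * (R' (td.gσ ℓ) - 1) * (g₁.inv * Y.map pr)) i j := by
      rw [← Matrix.map_apply (f := pr), Matrix.map_mul, Matrix.map_mul, e1]
      simp only [mul_assoc]
    rw [e2]
    exact m59cp_entries_mem R' hspan (td.gσ ℓ) I (hram ℓ hℓ) _ _ i j
  -- the trace coordinate
  have htrT : ∀ x : ↥T8 ⊕ ↥Tn,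
      m59ci_trT (fun ℓ : ↥T8 => a ℓ) (fun ℓ : ↥Tn => t₀ ℓ) z x =
        (H''.r (td.gφ (m59cp_prm x))).trace := by
    rintro (t | ℓ)
    · show (((if (0 : Fin 2) = 0 then algebraMap 𝒪 H''.T (a t) else 0) + zz (Sum.inl (t, 1, 0, 0))) +
        ((if (1 : Fin 2) = 1 then algebraMap 𝒪 H''.T (a t) else 0) + zz (Sum.inl (t, 1, 1, 1)))) = _
      have hG : (g t).map (algebraMap 𝒪 H''.T) * (gi t).map (algebraMap 𝒪 H''.T) = 1 := by
        have h1 : (gi t).map (algebraMap 𝒪 H''.T) * (g t).map (algebraMap 𝒪 H''.T) = 1 := by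
          rw [← Matrix.map_mul, hgi t t.2, Matrix.map_one _ (map_zero _) (map_one _)]
        exact mul_eq_one_comm.mp h1
      set M : Matrix (Fin 2) (Fin 2) H''.T :=
        H''.r (td.gφ t) - Matrix.scalar (Fin 2) (algebraMap 𝒪 H''.T (a t)) with hM
      have h00 : zz (Sum.inl (t, 1, 0, 0)) =
          ((gi t).map (algebraMap 𝒪 H''.T) * M * (g t).map (algebraMap 𝒪 H''.T)) 0 0 := rfl
      have h11 : zz (Sum.inl (t, 1, 1, 1)) =
          ((gi t).map (algebraMap 𝒪 H''.T) * M * (g t).map (algebraMap 𝒪 H''.T)) 1 1 := rfl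
      have htr : ((gi t).map (algebraMap 𝒪 H''.T) * M * (g t).map (algebraMap 𝒪 H''.T)).trace =
          M.trace := by
        rw [Matrix.trace_mul_comm, ← mul_assoc, hG, one_mul]
      rw [Matrix.trace_fin_two] at htr
      rw [if_pos rfl, if_pos rfl, h00, h11]
      have hM2 : M.trace = (H''.r (td.gφ t)).trace - 2 * algebraMap 𝒪 H''.T (a t) := by
        rw [hM, Matrix.trace_sub, Matrix.trace_fin_two (Matrix.scalar (Fin 2) _)]
        simp only [Matrix.scalar_apply, Matrix.diagonal_apply_eq]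
        ring
      show _ = (H''.r (td.gφ (t : Nat.Primes))).trace
      linear_combination htr + hM2
    · show algebraMap 𝒪 H''.T (t₀ ℓ) + zz (Sum.inr (ℓ, 0)) = _
      have h0 : zz (Sum.inr (ℓ, 0)) =
          (H''.r (td.gφ ℓ)).trace - algebraMap 𝒪 H''.T (t₀ ℓ) := rfl
      rw [h0]
      show _ = (H''.r (td.gφ (ℓ : Nat.Primes))).trace
      ring
  have hprtr : ∀ σ, pr (H''.r σ).trace = (R' σ).trace := by
    intro σ
    have h1 := m59cp_map_trace (pr : H''.T →+* T') (H''.r σ)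
    have h3 : ((H''.r σ).map pr).trace = pr (H''.r σ).trace := h1
    rw [← h3, hpr σ, m59cp_conj_trace]
  -- naturality of the coordinates along `π0`
  have hπz : ∀ c, π0 (zz c) = m59cp_zz td.gσ td.gφ a g gi t₀ e (fun σ => R0 σ) c := by
    have hfun : (fun σ => (H''.r σ).map π0) = fun σ => R0 σ := funext hR0
    rintro (x | x)
    · show π0 (m59cp_zH td.gσ td.gφ a g gi (fun σ => H''.r σ) x) = _
      rw [m59cp_zH_map, hfun]
      rfl
    · show π0 (m59cp_zN td.gσ td.gφ t₀ e (fun σ => H''.r σ) x) = _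
      rw [m59cp_zN_map _ _ _ _ _ _ _ (m59c_P_det_isUnit td.gφ e H'' x.1 (hcyc x.1 x.1.2)), hfun]
      rfl
  have hπa : π0 (aT : H''.T) = m59rp_a E (algebraMap 𝒪 T0 ((εp : ℤ) : 𝒪)) R0 := by
    show π0 (m59rp_a E (algebraMap 𝒪 H''.T ((εp : ℤ) : 𝒪)) H''.r.toMonoidHom) = _
    unfold m59rp_a
    have h1 := m59rpk_map_z (π0 : H''.T →+* T0) E H''.r.toMonoidHom R0 (fun σ => hR0 σ) hunit E.fr
    have h2 : π0 (m59rp_z E H''.r.toMonoidHom E.fr) = m59rp_z E R0 E.fr := h1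
    rw [map_sub, map_mul, map_one, h2, AlgHom.commutes]
  -- the Frobenius elements of the chain
  let gφ : Fin m → GQ := fun k =>
    Sum.elim (fun b : ↥T8 ⊕ ↥Tn => td.gφ (m59cp_prm b)) (fun _ => (1 : GQ)) (ch k)
  have hgφ : ∀ k b, ch k = Sum.inl b → gφ k = td.gφ (m59cp_prm b) := by
    intro k b hk
    show Sum.elim _ _ (ch k) = _
    rw [hk]
    rfl
  refine ⟨{
    T := H''.T
    residue_surjective := H''.residue_surjective
    z := z
    w := w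
    gens := hgens
    zT := m59rp_z E H''.r.toMonoidHom E.fr
    w_ka := ?_
    av := ?_
    rel := ?_
    u := u
    u_mem := hu_mem
    pr := pr
    pr_surjective := hprs
    pr_u := hpru
    pr_z := hprz E.fr
    pr_v := ?_
    gφ := gφ
    gφ_frob := ?_
    pr_tr := ?_
    pr_N := ?_
    π0 := π0
    π0_surjective := hπ0
    j_π0 := hj
    π0_u := hπ0u
    π0_ν := ?_ }⟩
  · rw [hwa]
    show m59rp_a E (algebraMap 𝒪 H''.T ((εp : ℤ) : 𝒪)) H''.r.toMonoidHom = _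
    unfold m59rp_a
    rw [map_intCast, zsmul_eq_mul]
  · rw [hwa, hwv]
    exact hav
  · intro γ hγ
    exact m59c_J_le_ker td h8 hn H'' hℓp hur hdet hun a g gi hgi t₀ e hcyc γ
      (fun x => hγ (Sum.inl x)) (fun x => hγ (Sum.inr x))
  · rw [hwv]
    exact hprv g0
  · intro k b hk
    have hmemTh : m59cp_prm b ∈ Th := by
      rcases b with t | ℓ
      · exact h8 t.2
      · exact hn ℓ.2
    refine ⟨primeLocalPlace (m59cp_prm b), ?_, ?_⟩
    · rw [hlk k b hk]; exact s56ld_liesOver _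
    · rw [hlk k b hk, hgφ k b hk]; exact td.φ_frob _ hmemTh
  · intro k b hk
    rw [htrT b, hprtr, hgφ k b hk]
  · rintro (⟨t, i, j⟩ | ⟨ℓ, c⟩)
    · show pr (zz (Sum.inl (t, 0, i, j))) ∈ I
      exact hentries t (h8 t.2) _ _ i j
    · show pr (zz (Sum.inr (ℓ, Fin.succ c))) ∈ I
      fin_cases c
      · exact hentries ℓ (hn ℓ.2) _ _ 0 0
      · exact hentries ℓ (hn ℓ.2) _ _ 0 1
  · rintro (c | u)
    · show π0 (m59ci_nuT (fun ℓ : ↥T8 => a ℓ) (fun ℓ : ↥Tn => t₀ ℓ) z c) = _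
      rw [m59cp_nuT_map]
      show _ = m59cp_nu _ _ _ c
      congr 1
      funext c'
      exact hπz c'
    · show π0 (w ka : H''.T) = _
      rw [hwa]
      exact hπa

end core3

end

end Fermat.Agent.M59
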